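import Fermat.Agent.Kummer.H63_Abstract

set_option autoImplicit false

namespace Fermat.Agent.Kummer.H63

open Module NumberField

section Defs

variable {K L : Type*} [Field K] [Field L] [Algebra K L]

/-- The action of a `K`-automorphism of `L` on the units of `𝓞 L`. -/
noncomputable def unitsMap (σ : L ≃ₐ[K] L) : (𝓞 L)ˣ →* (𝓞 L)ˣ :=
  Units.map (RingOfIntegers.mapRingEquiv σ.toRingEquiv : 𝓞 L →* 𝓞 L)

lemma unitsMap_coe (σ : L ≃ₐ[K] L) (u : (𝓞 L)ˣ) :
    ((unitsMap σ u : 𝓞 L) : L) = σ ((u : 𝓞 L) : L) := rfl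

lemma unitsMap_one : unitsMap (1 : L ≃ₐ[K] L) = MonoidHom.id _ := by
  ext u
  rfl

lemma unitsMap_mul (σ τ : L ≃ₐ[K] L) : unitsMap (σ * τ) = (unitsMap σ).comp (unitsMap τ) := by
  ext u
  rfl

/-- The action on units as an endomorphism of the additive group. -/
noncomputable def unitsEnd : (L ≃ₐ[K] L) →* Module.End ℤ (Additive (𝓞 L)ˣ) where
  toFun σ := (MonoidHom.toAdditive (unitsMap σ)).toIntLinearMap
  map_one' := by
    rw [unitsMap_one]; rfl
  map_mul' σ τ := by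
    rw [unitsMap_mul]; rfl

lemma unitsEnd_apply (σ : L ≃ₐ[K] L) (u : Additive (𝓞 L)ˣ) :
    unitsEnd σ u = Additive.ofMul (unitsMap σ u.toMul) := rfl

/-- The inclusion of the units of `𝓞 K` into the units of `𝓞 L`, additively. -/
noncomputable def unitsIncl (K L : Type*) [Field K] [Field L] [Algebra K L] :
    Additive (𝓞 K)ˣ →ₗ[ℤ] Additive (𝓞 L)ˣ :=
  (MonoidHom.toAdditive (Units.map (algebraMap (𝓞 K) (𝓞 L) : 𝓞 K →* 𝓞 L))).toIntLinearMap

lemma unitsIncl_coe (u : Additive (𝓞 K)ˣ) :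
    (((unitsIncl K L u).toMul : 𝓞 L) : L) = algebraMap K L ((u.toMul : 𝓞 K) : K) := rfl

lemma unitsIncl_injective : Function.Injective (unitsIncl K L) := by
  intro u v h
  have h1 : (((unitsIncl K L u).toMul : 𝓞 L) : L) = (((unitsIncl K L v).toMul : 𝓞 L) : L) := by
    rw [h]
  rw [unitsIncl_coe, unitsIncl_coe] at h1
  have h2 := (algebraMap K L).injective h1
  have h3 : (u.toMul : 𝓞 K) = (v.toMul : 𝓞 K) := RingOfIntegers.ext h2
  exact Additive.toMul.injective (Units.ext h3)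


/-- A fixed integral element comes from `𝓞 K`. -/
lemma exists_of_fixed [FiniteDimensional K L] [IsGalois K L] (σ : L ≃ₐ[K] L)
    (hσ : ∀ τ : L ≃ₐ[K] L, τ ∈ Subgroup.zpowers σ) (x : 𝓞 L) (hx : σ (x : L) = (x : L)) :
    ∃ a : 𝓞 K, algebraMap K L (a : K) = (x : L) := by
  have hfix : ∀ τ : L ≃ₐ[K] L, τ (x : L) = (x : L) := by
    intro τ
    obtain ⟨n, rfl⟩ := Subgroup.mem_zpowers_iff.mp (hσ τ)
    have hmem : σ ∈ MulAction.stabilizer (L ≃ₐ[K] L) (x : L) := hx
    have := Subgroup.zpow_mem _ hmem n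
    exact this
  obtain ⟨a, ha⟩ := (IsGalois.mem_range_algebraMap_iff_fixed (F := K) (x : L)).mpr hfix
  have hint : IsIntegral ℤ a := by
    rw [← isIntegral_algebraMap_iff (algebraMap K L).injective, ha]
    exact x.isIntegral_coe
  exact ⟨⟨a, hint⟩, ha⟩

lemma range_unitsIncl [FiniteDimensional K L] [IsGalois K L] (σ : L ≃ₐ[K] L)
    (hσ : ∀ τ : L ≃ₐ[K] L, τ ∈ Subgroup.zpowers σ) :
    LinearMap.range (unitsIncl K L) = fixedSub (unitsEnd σ) := by
  ext v
  rw [mem_fixedSub, LinearMap.mem_range]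
  constructor
  · rintro ⟨u, rfl⟩
    apply Additive.toMul.injective
    apply Units.ext
    apply RingOfIntegers.ext
    change σ (((unitsIncl K L u).toMul : 𝓞 L) : L) = _
    rw [unitsIncl_coe, σ.commutes]
  · intro hv
    -- v and v⁻¹ are fixed
    have h1 : σ ((v.toMul : 𝓞 L) : L) = ((v.toMul : 𝓞 L) : L) := by
      have := congrArg (fun w => ((Additive.toMul w : (𝓞 L)ˣ) : 𝓞 L)) hv
      exact congrArg (fun w : 𝓞 L => (w : L)) this
    have h2 : σ (((v.toMul)⁻¹ : (𝓞 L)ˣ) : 𝓞 L) = ((((v.toMul)⁻¹ : (𝓞 L)ˣ) : 𝓞 L) : L) := by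
      have hinv : ((((v.toMul)⁻¹ : (𝓞 L)ˣ) : 𝓞 L) : L) = (((v.toMul : (𝓞 L)ˣ) : 𝓞 L) : L)⁻¹ := by
        apply eq_inv_of_mul_eq_one_left
        rw [← map_mul, ← Units.val_mul, inv_mul_cancel, Units.val_one, map_one]
      rw [hinv, map_inv₀, h1]
    obtain ⟨a, ha⟩ := exists_of_fixed σ hσ _ h1
    obtain ⟨b, hb⟩ := exists_of_fixed σ hσ _ h2
    have hab : a * b = 1 := by
      apply RingOfIntegers.ext
      apply (algebraMap K L).injective
      change algebraMap K L (algebraMap (𝓞 K) K (a * b)) = algebraMap K L (algebraMap (𝓞 K) K 1)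
      rw [map_mul, map_mul, map_one, map_one]
      change algebraMap K L (a : K) * algebraMap K L (b : K) = 1
      rw [ha, hb, ← map_mul, ← Units.val_mul, mul_inv_cancel, Units.val_one, map_one]
    have hba : b * a = 1 := by rw [mul_comm, hab]
    refine ⟨Additive.ofMul ⟨a, b, hab, hba⟩, ?_⟩
    apply Additive.toMul.injective
    apply Units.ext
    apply RingOfIntegers.ext
    rw [unitsIncl_coe]
    exact ha

end Defs

section Main

variable {K L : Type*} [Field K] [Field L] [Algebra K L]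

lemma normEnd_unitsEnd_apply (p : ℕ) (σ : L ≃ₐ[K] L) (u : Additive (𝓞 L)ˣ) :
    ((((normEnd p (unitsEnd σ) u).toMul : (𝓞 L)ˣ) : 𝓞 L) : L) =
      ∏ i ∈ Finset.range p, (σ ^ i) (((u.toMul : (𝓞 L)ˣ) : 𝓞 L) : L) := by
  rw [normEnd, LinearMap.sum_apply]
  simp only [← map_pow]
  rw [toMul_sum, Units.coe_prod]
  change algebraMap (𝓞 L) L (∏ i ∈ Finset.range p, _) = _
  rw [map_prod]
  rfl

/-- **Hilbert's Theorem 92** for cyclic extensions of odd prime degree. -/
theorem hilbert92 [NumberField K] [NumberField L] [IsGalois K L] {p : ℕ} [hp : Fact p.Prime] (hp2 : p ≠ 2)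
    (hKL : Module.finrank K L = p) (σ : L ≃ₐ[K] L)
    (hσ : ∀ τ : L ≃ₐ[K] L, τ ∈ Subgroup.zpowers σ) :
    ∃ η : (𝓞 L)ˣ, Algebra.norm K ((η : 𝓞 L) : L) = 1 ∧
      ∀ ε : (𝓞 L)ˣ, ((η : 𝓞 L) : L) ≠ ((ε : 𝓞 L) : L) / σ ((ε : 𝓞 L) : L) := by
  have hfd : FiniteDimensional K L := Module.finite_of_finrank_pos (by rw [hKL]; exact hp.out.pos)
  have hcard : Nat.card (L ≃ₐ[K] L) = p := by rw [IsGalois.card_aut_eq_finrank, hKL]
  have hσp : σ ^ p = 1 := by rw [← hcard]; exact pow_card_eq_one'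
  have hσE : (unitsEnd σ) ^ p = 1 := by rw [← map_pow, hσp, map_one]
  have hodd : Odd (Module.finrank K L) := by
    rw [hKL]; exact hp.out.odd_of_ne_two hp2
  have hunr : IsUnramifiedAtInfinitePlaces K L := IsUnramifiedAtInfinitePlaces_of_odd_finrank hodd
  have hplaces := IsUnramifiedAtInfinitePlaces.card_infinitePlace K L
  rw [hKL] at hplaces
  have hsK : 0 < Fintype.card (InfinitePlace K) := Fintype.card_pos
  have hsL : 0 < Fintype.card (InfinitePlace L) := Fintype.card_pos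
  have hE : finrank ℤ (Additive (𝓞 L)ˣ) + 1 = p * Fintype.card (InfinitePlace K) := by
    rw [Units.finrank_eq, Units.rank, mul_comm, ← hplaces]
    omega
  have hF : finrank ℤ (fixedSub (unitsEnd σ)) + 1 = Fintype.card (InfinitePlace K) := by
    rw [← range_unitsIncl σ hσ,
      ← (LinearEquiv.ofInjective (unitsIncl K L) unitsIncl_injective).finrank_eq,
      Units.finrank_eq, Units.rank]
    omega
  obtain ⟨η, hη1, hη2⟩ := exists_normEnd_eq_zero_and_ne hσE _ hE hF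
  refine ⟨η.toMul, ?_, ?_⟩
  · apply (algebraMap K L).injective
    rw [Algebra.norm_eq_prod_automorphisms, map_one]
    have h1 := normEnd_unitsEnd_apply p σ η
    rw [hη1] at h1
    simp only [toMul_zero, Units.val_one, map_one] at h1
    classical
    have hord : orderOf σ = p := by
      rw [orderOf_eq_card_of_forall_mem_zpowers hσ, hcard]
    rw [← IsCyclic.image_range_orderOf hσ, Finset.prod_image, hord]
    · exact h1.symm
    · intro i hi j hj hij
      exact pow_injOn_Iio_orderOf (by simpa using hi) (by simpa using hj) hij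
  · intro ε hε
    apply hη2 (Additive.ofMul ε⁻¹)
    apply Additive.toMul.injective
    apply Units.ext
    apply RingOfIntegers.ext
    have hne : σ ((ε : 𝓞 L) : L) ≠ 0 := by
      rw [Ne, map_eq_zero_iff σ σ.injective]
      intro h0
      exact ε.ne_zero (RingOfIntegers.coe_eq_zero_iff.mp h0)
    have hinv : ((((ε⁻¹ : (𝓞 L)ˣ)) : 𝓞 L) : L) = (((ε : (𝓞 L)ˣ) : 𝓞 L) : L)⁻¹ := by
      apply eq_inv_of_mul_eq_one_left
      rw [← map_mul, ← Units.val_mul, inv_mul_cancel, Units.val_one, map_one]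
    have hval : (((unitsMap σ ε⁻¹ / ε⁻¹ : (𝓞 L)ˣ) : 𝓞 L) : L) =
        ((ε : 𝓞 L) : L) / σ ((ε : 𝓞 L) : L) := by
      have : (unitsMap σ ε⁻¹ / ε⁻¹ : (𝓞 L)ˣ) = unitsMap σ ε⁻¹ * ε := by
        rw [div_eq_mul_inv, inv_inv]
      rw [this, Units.val_mul]
      change ((unitsMap σ ε⁻¹ : 𝓞 L) : L) * ((ε : 𝓞 L) : L) = _
      rw [unitsMap_coe, hinv, map_inv₀]
      field_simp
    rw [hε, unitsEnd_apply, toMul_sub, toMul_ofMul, toMul_ofMul]
    exact hval.symm

end Main

end Fermat.Agent.Kummer.H63
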