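import Fermat.Agent.Kummer.H63_Index

set_option autoImplicit false

namespace Fermat.Agent.Kummer.H63

open Module Submodule Polynomial

section RingHom

variable {X : Type*} [AddCommGroup X]

lemma torsionQuotMap_one : torsionQuotMap (1 : X →ₗ[ℤ] X) = 1 := by
  apply Submodule.linearMap_qext
  ext x
  rfl

lemma torsionQuotMap_mul (f g : X →ₗ[ℤ] X) :
    torsionQuotMap (f * g) = torsionQuotMap f * torsionQuotMap g := by
  apply Submodule.linearMap_qext
  ext x
  rfl

lemma torsionQuotMap_add (f g : X →ₗ[ℤ] X) :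
    torsionQuotMap (f + g) = torsionQuotMap f + torsionQuotMap g := by
  apply Submodule.linearMap_qext
  ext x
  rfl

lemma torsionQuotMap_zero : torsionQuotMap (0 : X →ₗ[ℤ] X) = 0 := by
  apply Submodule.linearMap_qext
  ext x
  rfl

noncomputable def torsionQuotHom :
    Module.End ℤ X →+* Module.End ℤ (X ⧸ torsion ℤ X) where
  toFun := torsionQuotMap
  map_one' := torsionQuotMap_one
  map_mul' := torsionQuotMap_mul
  map_zero' := torsionQuotMap_zero
  map_add' := torsionQuotMap_add

lemma torsionQuotHom_apply (f : Module.End ℤ X) : torsionQuotHom f = torsionQuotMap f := rfl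

end RingHom

section Poly

/-- The key polynomial identity: `1 + X + ... + X^(p-1) = (X-1)^(p-1) + p * W`. -/
lemma exists_geom_sum_eq (p : ℕ) [hp : Fact p.Prime] :
    ∃ W : ℤ[X], (∑ i ∈ Finset.range p, (X : ℤ[X]) ^ i) = (X - 1) ^ (p - 1) + C (p : ℤ) * W := by
  have hdvd : C (p : ℤ) ∣ (∑ i ∈ Finset.range p, (X : ℤ[X]) ^ i) - (X - 1) ^ (p - 1) := by
    rw [Polynomial.C_dvd_iff_dvd_coeff]
    intro i
    rw [← ZMod.intCast_zmod_eq_zero_iff_dvd]
    have hzero : ((∑ i ∈ Finset.range p, (X : ℤ[X]) ^ i) - (X - 1) ^ (p - 1)).map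
        (Int.castRingHom (ZMod p)) = 0 := by
      have hX1 : (X - 1 : (ZMod p)[X]) ≠ 0 := by
        have := X_sub_C_ne_zero (1 : ZMod p)
        simpa using this
      apply mul_right_cancel₀ hX1
      rw [zero_mul]
      simp only [Polynomial.map_sub, Polynomial.map_sum, Polynomial.map_pow, Polynomial.map_X,
        Polynomial.map_one]
      rw [sub_mul, geom_sum_mul, ← pow_succ, Nat.sub_add_cancel hp.out.one_le, sub_pow_char,
        one_pow, sub_self]
    have := congrArg (fun q => q.coeff i) hzero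
    simpa only [Polynomial.coeff_map, coeff_zero, eq_intCast] using this
  obtain ⟨W, hW⟩ := hdvd
  exact ⟨W, by rw [← hW]; ring⟩

end Poly


section Main

variable {E : Type*} [AddCommGroup E] (p : ℕ) (σ : Module.End ℤ E)

/-- The norm operator `1 + σ + ... + σ^(p-1)`. -/
noncomputable def normEnd : Module.End ℤ E := ∑ i ∈ Finset.range p, σ ^ i

variable {p σ}

lemma normEnd_mul_sub (hσ : σ ^ p = 1) : normEnd p σ * (σ - 1) = 0 := by
  rw [normEnd, geom_sum_mul, hσ, sub_self]

lemma sub_mul_normEnd (hσ : σ ^ p = 1) : (σ - 1) * normEnd p σ = 0 := by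
  rw [normEnd, mul_geom_sum, hσ, sub_self]

lemma normEnd_apply_of_fixed {x : E} (hx : σ x = x) : normEnd p σ x = (p : ℤ) • x := by
  have h : ∀ i : ℕ, (σ ^ i) x = x := by
    intro i
    induction i with
    | zero => simp
    | succ n ih => rw [pow_succ, Module.End.mul_apply, hx, ih]
  simp [normEnd, LinearMap.sum_apply, h]

lemma exists_normEnd_eq [hp : Fact p.Prime] :
    ∃ w : Module.End ℤ E, Commute w σ ∧
      normEnd p σ = (σ - 1) ^ (p - 1) + (p : ℤ) • w := by
  obtain ⟨W, hW⟩ := exists_geom_sum_eq p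
  refine ⟨aeval σ W, ?_, ?_⟩
  · have := (Commute.all W X).map (aeval σ)
    simpa using this
  · have := congrArg (aeval σ) hW
    simpa [normEnd, map_sum, Algebra.smul_def] using this


/-- The fixed submodule. -/
abbrev fixedSub (σ : Module.End ℤ E) : Submodule ℤ E := LinearMap.ker (σ - 1)

/-- The kernel of the norm. -/
noncomputable abbrev normKer (p : ℕ) (σ : Module.End ℤ E) : Submodule ℤ E := LinearMap.ker (normEnd p σ)

lemma mem_fixedSub {x : E} : x ∈ fixedSub σ ↔ σ x = x := by
  rw [fixedSub, LinearMap.mem_ker, LinearMap.sub_apply, Module.End.one_apply, sub_eq_zero]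

lemma sub_apply_mem_normKer (hσ : σ ^ p = 1) (x : E) : (σ - 1) x ∈ normKer p σ := by
  rw [normKer, LinearMap.mem_ker, ← Module.End.mul_apply, normEnd_mul_sub hσ, LinearMap.zero_apply]

lemma normEnd_apply_mem_fixedSub (hσ : σ ^ p = 1) (x : E) : normEnd p σ x ∈ fixedSub σ := by
  rw [fixedSub, LinearMap.mem_ker, ← Module.End.mul_apply, sub_mul_normEnd hσ, LinearMap.zero_apply]

/-- rank computation -/
lemma finrank_normKer [Module.Finite ℤ E] [hp : Fact p.Prime] (hσ : σ ^ p = 1) :
    finrank ℤ (normKer p σ) + finrank ℤ (fixedSub σ) = finrank ℤ E := by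
  have h1 : finrank ℤ (E ⧸ LinearMap.ker (normEnd p σ)) + finrank ℤ (normKer p σ) = finrank ℤ E :=
    Submodule.finrank_quotient_add_finrank (normKer p σ)
  have h2 := (normEnd p σ).quotKerEquivRange.finrank_eq
  -- finrank (range N) = finrank F
  have h3 : finrank ℤ (LinearMap.range (normEnd p σ)) = finrank ℤ (fixedSub σ) := by
    apply le_antisymm
    · apply Submodule.finrank_mono
      rintro _ ⟨x, rfl⟩
      exact normEnd_apply_mem_fixedSub hσ x
    · -- the map F → E, x ↦ p x has torsion kernel and range inside range N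
      let g : fixedSub σ →ₗ[ℤ] E := ((p : ℤ) • LinearMap.id) ∘ₗ (fixedSub σ).subtype
      have hg1 := Submodule.finrank_quotient_add_finrank (LinearMap.ker g)
      have hg2 := g.quotKerEquivRange.finrank_eq
      have hg3 : finrank ℤ (LinearMap.ker g) = 0 := by
        rw [Module.finrank_eq_zero_iff_isTorsion]
        rintro ⟨x, hx⟩
        refine ⟨⟨(p : ℤ), mem_nonZeroDivisors_of_ne_zero (by exact_mod_cast hp.out.ne_zero)⟩, ?_⟩
        apply Subtype.ext
        apply Subtype.ext
        have : g x = 0 := hx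
        simpa [g] using this
      have hg4 : LinearMap.range g ≤ LinearMap.range (normEnd p σ) := by
        rintro _ ⟨x, rfl⟩
        refine ⟨x.1, ?_⟩
        rw [normEnd_apply_of_fixed (mem_fixedSub.mp x.2)]
        simp [g]
      have := Submodule.finrank_mono hg4
      omega
  omega


/-- `σ - 1` restricted to the kernel of the norm. -/
noncomputable def phiM (hσ : σ ^ p = 1) : Module.End ℤ (normKer p σ) :=
  (σ - 1).restrict (fun x _ => sub_apply_mem_normKer hσ x)

lemma phiM_apply (hσ : σ ^ p = 1) (x : normKer p σ) :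
    ((phiM hσ x : normKer p σ) : E) = σ x.1 - x.1 := rfl

lemma mem_torsion_subtype {S : Submodule ℤ E} (x : S) :
    x ∈ torsion ℤ S ↔ (x : E) ∈ torsion ℤ E := by
  simp only [mem_torsion_iff, Submonoid.smul_def]
  constructor
  · rintro ⟨a, ha⟩
    exact ⟨a, by simpa using congrArg Subtype.val ha⟩
  · rintro ⟨a, ha⟩
    exact ⟨a, Subtype.ext (by simpa using ha)⟩

lemma phiM_torsion [hp : Fact p.Prime] (hσ : σ ^ p = 1) (x : normKer p σ)
    (hx : phiM hσ x ∈ torsion ℤ (normKer p σ)) : x ∈ torsion ℤ (normKer p σ) := by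
  rw [mem_torsion_subtype] at hx ⊢
  rw [mem_torsion_iff] at hx ⊢
  obtain ⟨⟨k, hk⟩, hkx⟩ := hx
  rw [Submonoid.smul_def, phiM_apply] at hkx
  simp only at hkx
  -- y = k • x is fixed and has norm zero
  have hy : σ (k • x.1) = k • x.1 := by
    rw [map_smul, ← sub_eq_zero, ← smul_sub]; exact hkx
  have hN : normEnd p σ (k • x.1) = 0 := by
    rw [map_smul, LinearMap.mem_ker.mp x.2, smul_zero]
  rw [normEnd_apply_of_fixed hy, smul_smul] at hN
  have hk0 : k ≠ 0 := nonZeroDivisors.ne_zero hk
  refine ⟨⟨(p : ℤ) * k, mem_nonZeroDivisors_of_ne_zero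
    (mul_ne_zero (by exact_mod_cast hp.out.ne_zero) hk0)⟩, ?_⟩
  rw [Submonoid.smul_def]
  exact hN


lemma finrank_quot_torsion (X : Type*) [AddCommGroup X] [Module.Finite ℤ X] :
    finrank ℤ (X ⧸ torsion ℤ X) = finrank ℤ X := by
  have h1 := Submodule.finrank_quotient_add_finrank (torsion ℤ X)
  have h2 : finrank ℤ (torsion ℤ X) = 0 := by
    rw [Module.finrank_eq_zero_iff_isTorsion]
    exact torsion_isTorsion
  omega

lemma torsionQuotMap_smul_id (X : Type*) [AddCommGroup X] (c : ℤ) :
    torsionQuotMap (c • (1 : Module.End ℤ X)) = c • (1 : Module.End ℤ (X ⧸ torsion ℤ X)) := by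
  apply Submodule.linearMap_qext
  ext x
  rfl

/-- card of `X / cX` for a f.g. abelian group -/
lemma card_quotient_smul (X : Type*) [AddCommGroup X] [Module.Finite ℤ X] (c : ℕ) (hc : c ≠ 0) :
    Nat.card (X ⧸ LinearMap.range ((c : ℤ) • (1 : Module.End ℤ X))) =
      Nat.card (LinearMap.ker ((c : ℤ) • (1 : Module.End ℤ X))) * c ^ finrank ℤ X := by
  have : Module.Free ℤ (X ⧸ torsion ℤ X) := Module.free_of_finite_type_torsion_free'
  rw [card_quotient_range, torsionQuotMap_smul_id, LinearMap.det_smul, map_one, mul_one,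
    Int.natAbs_pow, Int.natAbs_natCast, finrank_quot_torsion]
  intro x hx
  rw [mem_torsion_iff] at hx ⊢
  obtain ⟨⟨k, hk⟩, hkx⟩ := hx
  refine ⟨⟨k * (c : ℤ), mem_nonZeroDivisors_of_ne_zero
    (mul_ne_zero (nonZeroDivisors.ne_zero hk) (by exact_mod_cast hc))⟩, ?_⟩
  rw [Submonoid.smul_def] at hkx ⊢
  simpa [mul_smul] using hkx


lemma pow_dvd_det_pow [Module.Finite ℤ E] [hp : Fact p.Prime] (hσ : σ ^ p = 1) :
    p ^ finrank ℤ (normKer p σ) ∣
      (LinearMap.det (torsionQuotMap (phiM hσ))).natAbs ^ (p - 1) := by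
  have : Module.Free ℤ (normKer p σ ⧸ torsion ℤ (normKer p σ)) :=
    Module.free_of_finite_type_torsion_free'
  obtain ⟨w, hwσ, hw⟩ := exists_normEnd_eq (p := p) (σ := σ)
  -- w preserves the kernel of the norm
  have hwN : Commute w (normEnd p σ) := by
    rw [normEnd]
    exact Commute.sum_right _ _ _ (fun i _ => hwσ.pow_right i)
  have hwM : ∀ x ∈ normKer p σ, w x ∈ normKer p σ := by
    intro x hx
    rw [LinearMap.mem_ker] at hx ⊢
    rw [← Module.End.mul_apply, ← hwN.eq, Module.End.mul_apply, hx, map_zero]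
  let wM : Module.End ℤ (normKer p σ) := w.restrict hwM
  have key : (phiM hσ) ^ (p - 1) = -(((p : ℤ)) • wM) := by
    rw [phiM, Module.End.pow_restrict]
    ext x
    have hx : normEnd p σ x.1 = 0 := LinearMap.mem_ker.mp x.2
    rw [hw, LinearMap.add_apply, LinearMap.smul_apply] at hx
    simp only [LinearMap.coe_restrict_apply, LinearMap.neg_apply, LinearMap.smul_apply,
      NegMemClass.coe_neg, SetLike.val_smul, wM]
    exact eq_neg_of_add_eq_zero_left hx
  have hdet : (LinearMap.det (torsionQuotMap (phiM hσ))) ^ (p - 1) =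
      (-(p : ℤ)) ^ finrank ℤ (normKer p σ) * LinearMap.det (torsionQuotMap wM) := by
    rw [← map_pow, ← torsionQuotHom_apply, ← map_pow, key, map_neg, map_zsmul,
      ← neg_smul, LinearMap.det_smul, finrank_quot_torsion, torsionQuotHom_apply]
  have h1 : ((p : ℤ)) ^ finrank ℤ (normKer p σ) ∣
      (LinearMap.det (torsionQuotMap (phiM hσ))) ^ (p - 1) := by
    rw [hdet]
    exact Dvd.dvd.mul_right ((neg_pow (p : ℤ) _) ▸ Dvd.intro_left _ rfl) _
  have h2 := Int.natAbs_dvd_natAbs.mpr h1
  rwa [Int.natAbs_pow, Int.natAbs_pow, Int.natAbs_natCast] at h2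


/-- multiplication by `p` on the fixed submodule -/
noncomputable abbrev pF (p : ℕ) (σ : Module.End ℤ E) : Module.End ℤ (fixedSub σ) :=
  (p : ℤ) • (1 : Module.End ℤ (fixedSub σ))

lemma card_ker_phiM_eq (hσ : σ ^ p = 1) :
    Nat.card (LinearMap.ker (phiM hσ)) = Nat.card (LinearMap.ker (pF p σ)) := by
  refine Nat.card_congr ⟨fun x => ⟨⟨x.1.1, ?_⟩, ?_⟩, fun x => ⟨⟨x.1.1, ?_⟩, ?_⟩, ?_, ?_⟩
  · -- x.1.1 is fixed
    have := LinearMap.mem_ker.mp x.2
    have h2 := congrArg Subtype.val this
    rw [phiM_apply] at h2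
    exact mem_fixedSub.mpr (sub_eq_zero.mp h2)
  · -- p • x = 0
    have := LinearMap.mem_ker.mp x.2
    have h2 := congrArg Subtype.val this
    rw [phiM_apply] at h2
    have hfix : σ x.1.1 = x.1.1 := sub_eq_zero.mp h2
    have hN : normEnd p σ x.1.1 = 0 := LinearMap.mem_ker.mp x.1.2
    rw [normEnd_apply_of_fixed hfix] at hN
    rw [LinearMap.mem_ker]
    apply Subtype.ext
    simpa using hN
  · -- x.1.1 has norm zero
    have hfix : σ x.1.1 = x.1.1 := mem_fixedSub.mp x.1.2
    have := LinearMap.mem_ker.mp x.2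
    have h2 : (p : ℤ) • x.1.1 = 0 := by simpa using congrArg Subtype.val this
    rw [LinearMap.mem_ker, normEnd_apply_of_fixed hfix]
    exact h2
  · rw [LinearMap.mem_ker]
    apply Subtype.ext
    rw [phiM_apply]
    have hfix : σ x.1.1 = x.1.1 := mem_fixedSub.mp x.1.2
    simp [hfix]
  · intro x; rfl
  · intro x; rfl


lemma card_dvd_card_of_surj (hσ : σ ^ p = 1)
    (hsurj : ∀ η : E, normEnd p σ η = 0 → ∃ ε : E, η = σ ε - ε) :
    Nat.card (normKer p σ ⧸ LinearMap.range (phiM hσ)) ∣
      Nat.card (fixedSub σ ⧸ LinearMap.range (pF p σ)) := by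
  let φ' : E →ₗ[ℤ] normKer p σ := (σ - 1).codRestrict (normKer p σ) (sub_apply_mem_normKer hσ)
  let N' : E →ₗ[ℤ] fixedSub σ :=
    (normEnd p σ).codRestrict (fixedSub σ) (normEnd_apply_mem_fixedSub hσ)
  let q : E →ₗ[ℤ] (normKer p σ ⧸ LinearMap.range (phiM hσ)) :=
    (LinearMap.range (phiM hσ)).mkQ ∘ₗ φ'
  let r : E →ₗ[ℤ] (fixedSub σ ⧸ LinearMap.range (pF p σ)) :=
    (LinearMap.range (pF p σ)).mkQ ∘ₗ N'
  have hq : Function.Surjective q := by
    intro y
    obtain ⟨m, rfl⟩ := (LinearMap.range (phiM hσ)).mkQ_surjective y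
    obtain ⟨ε, hε⟩ := hsurj m.1 (LinearMap.mem_ker.mp m.2)
    refine ⟨ε, ?_⟩
    have : φ' ε = m := Subtype.ext (by simp [φ', hε])
    simp [q, this]
  have hker : LinearMap.ker q = LinearMap.ker r := by
    ext x
    simp only [LinearMap.mem_ker, q, r, LinearMap.comp_apply, mkQ_apply, Quotient.mk_eq_zero,
      LinearMap.mem_range]
    constructor
    · rintro ⟨m, hm⟩
      have hm' : σ m.1 - m.1 = σ x - x := by
        have := congrArg Subtype.val hm
        simpa [phiM_apply, φ'] using this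
      have hf : x - m.1 ∈ fixedSub σ := by
        rw [mem_fixedSub, map_sub]
        have : σ x - σ m.1 - (x - m.1) = 0 := by rw [← sub_eq_zero] at hm'; rw [← neg_eq_zero, ← hm']; abel
        exact sub_eq_zero.mp this
      refine ⟨⟨x - m.1, hf⟩, ?_⟩
      apply Subtype.ext
      have hNm : normEnd p σ m.1 = 0 := LinearMap.mem_ker.mp m.2
      have h1 : normEnd p σ (x - m.1) = (p : ℤ) • (x - m.1) :=
        normEnd_apply_of_fixed (mem_fixedSub.mp hf)
      rw [map_sub, hNm, sub_zero] at h1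
      simp [N', h1]
    · rintro ⟨f, hf⟩
      have hf' : (p : ℤ) • f.1 = normEnd p σ x := by
        have := congrArg Subtype.val hf
        simpa [N'] using this
      have hNf : normEnd p σ f.1 = (p : ℤ) • f.1 := normEnd_apply_of_fixed (mem_fixedSub.mp f.2)
      have hm : x - f.1 ∈ normKer p σ := by
        rw [LinearMap.mem_ker, map_sub, hNf, hf', sub_self]
      refine ⟨⟨x - f.1, hm⟩, ?_⟩
      apply Subtype.ext
      have hfix : σ f.1 = f.1 := mem_fixedSub.mp f.2
      rw [phiM_apply]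
      simp only [φ', LinearMap.codRestrict_apply, LinearMap.sub_apply, Module.End.one_apply,
        map_sub, hfix]
      abel
  have e1 : Nat.card (normKer p σ ⧸ LinearMap.range (phiM hσ)) = Nat.card (E ⧸ LinearMap.ker q) :=
    (Nat.card_congr (q.quotKerEquivOfSurjective hq).toEquiv).symm
  have e2 : Nat.card (E ⧸ LinearMap.ker q) = Nat.card (LinearMap.range r) := by
    rw [hker]
    exact Nat.card_congr r.quotKerEquivRange.toEquiv
  rw [e1, e2]
  exact Dvd.intro _ (Submodule.card_eq_card_quotient_mul_card (LinearMap.range r)).symm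


/-- **Abstract Hilbert 92.** Let `E` be a finitely generated abelian group with an automorphism
`σ` with `σ ^ p = 1`, `p` prime, such that `rank E + 1 = p * s` and `rank E^σ + 1 = s`. Then
there is an element of norm zero which is not of the form `σ ε - ε`. -/
theorem exists_normEnd_eq_zero_and_ne [Module.Finite ℤ E] [hp : Fact p.Prime] (hσ : σ ^ p = 1)
    (s : ℕ) (hE : finrank ℤ E + 1 = p * s) (hF : finrank ℤ (fixedSub σ) + 1 = s) :
    ∃ η : E, normEnd p σ η = 0 ∧ ∀ ε : E, η ≠ σ ε - ε := by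
  by_contra hcon
  push Not at hcon
  have hdvd := card_dvd_card_of_surj hσ hcon
  have ha := card_quotient_range (phiM hσ) (phiM_torsion hσ)
  have hb := card_quotient_smul (fixedSub σ) p hp.out.ne_zero
  have hc := card_ker_phiM_eq hσ
  have hrank := finrank_normKer (p := p) hσ
  have hpow := pow_dvd_det_pow (p := p) hσ
  -- the kernel of multiplication by p on F is finite
  have hfin : Finite (LinearMap.ker (pF p σ)) := by
    apply Module.finite_of_fg_torsion
    rintro ⟨x, hx⟩
    refine ⟨⟨(p : ℤ), mem_nonZeroDivisors_of_ne_zero (by exact_mod_cast hp.out.ne_zero)⟩, ?_⟩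
    apply Subtype.ext
    have : pF p σ x = 0 := hx
    rw [Submonoid.smul_def]
    simpa using this
  have hcpos : 0 < Nat.card (LinearMap.ker (pF p σ)) := Nat.card_pos
  set d := (LinearMap.det (torsionQuotMap (phiM hσ))).natAbs with hd
  set m := finrank ℤ (normKer p σ) with hm
  set f := finrank ℤ (fixedSub σ) with hf
  rw [ha, hb, hc] at hdvd
  have hd1 : d ∣ p ^ f := Nat.dvd_of_mul_dvd_mul_left hcpos hdvd
  obtain ⟨j, hj, hdj⟩ := (Nat.dvd_prime_pow hp.out).mp hd1
  rw [hdj, ← pow_mul] at hpow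
  have hle : m ≤ j * (p - 1) := (Nat.pow_dvd_pow_iff_le_right hp.out.one_lt).mp hpow
  obtain ⟨p', rfl⟩ : ∃ p', p = p' + 1 := ⟨p - 1, (Nat.sub_add_cancel hp.out.one_le).symm⟩
  have hp' : 1 ≤ p' := by have := hp.out.two_le; omega
  simp only [add_tsub_cancel_right] at hle
  have h1 : m + s = (p' + 1) * s := by omega
  have h2 : m = p' * s := by
    have : (p' + 1) * s = p' * s + s := by ring
    omega
  have h3 : (j + 1) * p' ≤ s * p' := Nat.mul_le_mul_right p' (by omega)
  have h4 : (j + 1) * p' = j * p' + p' := by ring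
  have h5 : s * p' = p' * s := by ring
  omega

end Main

end Fermat.Agent.Kummer.H63
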