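import Mathlib

set_option autoImplicit false

open NumberField Polynomial InfinitePlace Nat Real cyclotomic Module

namespace Fermat.Agent.Kummer.H10

variable (K : Type*) [Field K] [NumberField K]

theorem four_div_pi_le : (4 / π : ℝ) ≤ 200 / 157 := by
  rw [div_le_div_iff₀ Real.pi_pos (by norm_num)]
  have := Real.pi_gt_d2
  linarith

theorem minkowski_thirteen_lt [IsCyclotomicExtension {13} ℚ K] :
    (4 / π) ^ nrComplexPlaces K *
      ((finrank ℚ K)! / (finrank ℚ K) ^ (finrank ℚ K) * √|(discr K : ℝ)|) < 313 := by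
  have : Fact (Nat.Prime 13) := ⟨by norm_num⟩
  rw [IsCyclotomicExtension.Rat.discr_prime 13 K, IsCyclotomicExtension.finrank (n := 13) K
    (irreducible_rat (by simp)), IsCyclotomicExtension.Rat.nrComplexPlaces_eq_totient_div_two 13,
    totient_prime (by norm_num : Nat.Prime 13)]
  have h6 : (13 - 1) / 2 = 6 := by norm_num
  have hf : ((13 - 1)! : ℝ) = 479001600 := by
    have : (13 - 1)! = 479001600 := by decide
    rw [this]; norm_num
  have hd : |(((-1) ^ 6 * ((13 : ℕ) : ℤ) ^ (13 - 2) : ℤ) : ℝ)| = 13 ^ 11 := by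
    norm_num
  have hs : √((13 : ℝ) ^ 11) ≤ 13 ^ 5 * 3.606 := by
    rw [Real.sqrt_le_iff]
    constructor
    · positivity
    · norm_num
  have hpi : (4 / π : ℝ) ^ 6 ≤ (200 / 157) ^ 6 :=
    pow_le_pow_left₀ (by positivity) four_div_pi_le 6
  rw [h6, hf, hd]
  calc (4 / π) ^ 6 * (479001600 / ((13 - 1 : ℕ) : ℝ) ^ (13 - 1) * √(13 ^ 11))
      ≤ (200 / 157) ^ 6 * (479001600 / ((13 - 1 : ℕ) : ℝ) ^ (13 - 1) * (13 ^ 5 * 3.606)) := by
        gcongr
    _ < 313 := by norm_num

end Fermat.Agent.Kummer.H10
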