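import Mathlib

set_option autoImplicit false

namespace Fermat.Agent.Kummer.H26

open NumberField Polynomial IsCyclotomicExtension Ideal IsCyclotomicExtension.Rat

universe u

section Norm

variable (p : ℕ) [hp : Fact p.Prime] (K : Type u) [Field K] [NumberField K]
  [IsCyclotomicExtension {p} ℚ K]

/-- The automorphism sending the chosen primitive root to its `u`-th power. -/
noncomputable def sigmaPow (u : (ZMod p)ˣ) : K ≃ₐ[ℚ] K :=
  (autEquivPow K (cyclotomic.irreducible_rat hp.out.pos)).symm u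

theorem sigmaPow_zeta (u : (ZMod p)ˣ) :
    sigmaPow p K u (zeta p ℚ K) = (zeta p ℚ K) ^ (u : ZMod p).val := by
  have h := (zeta_spec p ℚ K).autToPow_spec ℚ (sigmaPow p K u)
  rw [← h]
  have h2 : (zeta_spec p ℚ K).autToPow ℚ (sigmaPow p K u) = u := by
    have := (autEquivPow K (cyclotomic.irreducible_rat hp.out.pos)).apply_symm_apply u
    exact this
  rw [h2]

theorem norm_eq_prod_units (x : K) :
    algebraMap ℚ K (Algebra.norm ℚ x) = ∏ u : (ZMod p)ˣ, sigmaPow p K u x := by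
  have : IsGalois ℚ K := isGalois {p} ℚ K
  rw [Algebra.norm_eq_prod_automorphisms]
  refine Fintype.prod_equiv (autEquivPow K (cyclotomic.irreducible_rat hp.out.pos)).toEquiv _ _
    (fun σ => ?_)
  unfold sigmaPow
  rw [MulEquiv.toEquiv_eq_coe, MulEquiv.coe_toEquiv, MulEquiv.symm_apply_apply]

theorem prod_units_eq_prod_Ico {M : Type*} [CommMonoid M] (F : ℕ → M) :
    ∏ u : (ZMod p)ˣ, F (u : ZMod p).val = ∏ k ∈ Finset.Ico 1 p, F k := by
  refine Finset.prod_bij (fun u _ => (u : ZMod p).val) ?_ ?_ ?_ ?_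
  · intro u _
    rw [Finset.mem_Ico]
    refine ⟨?_, ZMod.val_lt _⟩
    rw [Nat.one_le_iff_ne_zero, Ne, ZMod.val_eq_zero]
    exact u.ne_zero
  · intro u _ v _ h
    exact Units.ext (ZMod.val_injective p h)
  · intro k hk
    rw [Finset.mem_Ico] at hk
    have hk0 : (k : ZMod p) ≠ 0 := by
      rw [Ne, ZMod.natCast_eq_zero_iff]
      intro h
      have := Nat.le_of_dvd (by omega) h
      omega
    exact ⟨Units.mk0 (k : ZMod p) hk0, Finset.mem_univ _, by simp [ZMod.val_cast_of_lt hk.2]⟩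
  · intro u _
    rfl

/-- The norm of `g(ζ)` is the product of the `g(ζ^k)`, `1 ≤ k < p`, for any "polynomial
expression" `g` commuting with the automorphisms. -/
theorem norm_eq_prod_Ico (x : K) (G : K → K)
    (hx : x = G (zeta p ℚ K))
    (hG : ∀ (σ : K ≃ₐ[ℚ] K) (y : K), σ (G y) = G (σ y)) :
    algebraMap ℚ K (Algebra.norm ℚ x) = ∏ k ∈ Finset.Ico 1 p, G ((zeta p ℚ K) ^ k) := by
  rw [norm_eq_prod_units p K x, ← prod_units_eq_prod_Ico p (fun k => G ((zeta p ℚ K) ^ k))]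
  refine Finset.prod_congr rfl (fun u _ => ?_)
  rw [hx, hG, sigmaPow_zeta]

theorem sum_range_zeta_pow : ∑ i ∈ Finset.range p, (zeta p ℚ K) ^ i = 0 := by
  have h := (zeta_spec p ℚ K)
  have h1 : (zeta p ℚ K) ≠ 1 := h.ne_one hp.out.one_lt
  have h2 : ((zeta p ℚ K) - 1) * ∑ i ∈ Finset.range p, (zeta p ℚ K) ^ i = 0 := by
    rw [mul_comm, geom_sum_mul, h.pow_eq_one, sub_self]
  exact (mul_eq_zero.mp h2).resolve_left (sub_ne_zero.mpr h1)

end Norm

section Primes

variable (K : Type u) [Field K] [NumberField K]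

theorem absNorm_span_natCast_int (ℓ : ℕ) : absNorm (span {(ℓ : ℤ)}) = ℓ := by
  rw [absNorm_span_singleton]
  simp

/-- If `α` has norm `± q ^ f` with `f` the order of `q` modulo `m`, then there is a principal
prime above `q` in the `m`-th cyclotomic field. -/
theorem exists_isPrincipal_primesOver (m : ℕ) [NeZero m] [IsCyclotomicExtension {m} ℚ K]
    (q : ℕ) [hq : Fact q.Prime] (hqm : ¬ q ∣ m) (f : ℕ) (hf : 0 < f)
    (hord : orderOf (q : ZMod m) = f) (α : 𝓞 K)
    (hα : (Algebra.norm ℤ α).natAbs = q ^ f) :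
    ∃ P ∈ primesOver (span {(q : ℤ)}) (𝓞 K), Submodule.IsPrincipal P := by
  have hI : absNorm (span {α}) = q ^ f := by rw [absNorm_span_singleton, hα]
  have hqf : 1 < q ^ f := Nat.one_lt_pow hf.ne' hq.out.one_lt
  have hne : span {α} ≠ ⊤ := by
    intro h
    rw [h, absNorm_top] at hI
    omega
  obtain ⟨P, hPmax, hIP⟩ := Ideal.exists_le_maximal _ hne
  have hPprime : P.IsPrime := hPmax.isPrime
  have hα0 : α ≠ 0 := by
    rintro rfl
    simp at hα
    exact (pow_ne_zero f hq.out.ne_zero) hα.symm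
  have hPbot : P ≠ ⊥ := by
    intro h
    have : α ∈ (⊥ : Ideal (𝓞 K)) := h ▸ hIP (mem_span_singleton_self α)
    exact hα0 (by simpa using this)
  have : NeZero P := ⟨hPbot⟩
  set ℓ := absNorm (under ℤ P) with hℓ
  have hℓp : ℓ.Prime := Nat.absNorm_under_prime P
  have hlies : P.LiesOver (span {(ℓ : ℤ)}) := Int.liesOver_span_absNorm P
  have hnorm : (span {(ℓ : ℤ)}).absNorm ^ P.inertiaDeg ℤ = P.absNorm :=
    absNorm_pow_inertiaDeg (span {(ℓ : ℤ)}) P
  rw [absNorm_span_natCast_int] at hnorm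
  have hdvd : P.absNorm ∣ q ^ f := hI ▸ absNorm_dvd_absNorm_of_le hIP
  have hpos : 0 < P.inertiaDeg ℤ := inertiaDeg_pos P ℤ
  have hℓq : ℓ = q := by
    have h1 : ℓ ∣ P.absNorm := by
      rw [← hnorm]
      exact dvd_pow_self ℓ hpos.ne'
    have h2 : ℓ ∣ q ^ f := h1.trans hdvd
    exact (Nat.prime_dvd_prime_iff_eq hℓp hq.out).mp (hℓp.dvd_of_dvd_pow h2)
  rw [hℓq] at hlies hnorm
  have hdeg : P.inertiaDeg ℤ = f := by
    rw [← hord]
    exact inertiaDeg_eq_of_not_dvd q K P hqm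
  have hPnorm : P.absNorm = q ^ f := by
    rw [← hnorm, hdeg]
  refine ⟨P, ⟨hPprime, hlies⟩, ?_⟩
  obtain ⟨J, hJ⟩ := Ideal.dvd_iff_le.mpr hIP
  have hJnorm : J.absNorm = 1 := by
    have := congrArg absNorm hJ
    rw [map_mul, hI, hPnorm] at this
    have hpos' : 0 < q ^ f := by positivity
    exact (Nat.eq_of_mul_eq_mul_left hpos' (by simpa using this.symm))
  rw [absNorm_eq_one_iff] at hJnorm
  rw [hJnorm, Ideal.mul_top] at hJ
  exact ⟨α, by rw [← hJ]⟩

/-- If no power `q ^ j`, `0 < j < f`, is `1` modulo `m`, and `B < q ^ f`, then every prime above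
`q` in the `m`-th cyclotomic field has norm bigger than `B`. -/
theorem exists_primesOver_lt (m : ℕ) [NeZero m] [IsCyclotomicExtension {m} ℚ K]
    (B q : ℕ) [hq : Fact q.Prime] (hqm : ¬ q ∣ m) (f : ℕ)
    (hf : ∀ j, 0 < j → j < f → (q : ZMod m) ^ j ≠ 1) (hB : B < q ^ f) :
    ∃ P ∈ primesOver (span {(q : ℤ)}) (𝓞 K),
      B < q ^ P.inertiaDeg ℤ ∨ Submodule.IsPrincipal P := by
  obtain ⟨⟨P, hP1, hP2⟩⟩ := (span {(q : ℤ)}).nonempty_primesOver (S := 𝓞 K)
  refine ⟨P, ⟨hP1, hP2⟩, Or.inl ?_⟩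
  have hdeg : P.inertiaDeg ℤ = orderOf (q : ZMod m) := inertiaDeg_eq_of_not_dvd q K P hqm
  have hpos : 0 < P.inertiaDeg ℤ := inertiaDeg_pos P ℤ
  have hle : f ≤ P.inertiaDeg ℤ := by
    by_contra hlt
    rw [not_le] at hlt
    refine hf _ hpos hlt ?_
    rw [hdeg]
    exact pow_orderOf_eq_one _
  exact lt_of_lt_of_le hB (Nat.pow_le_pow_right hq.out.pos hle)

/-- The prime above `p` in the `p`-th cyclotomic field is principal. -/
theorem exists_isPrincipal_primesOver_self (p : ℕ) [hp : Fact p.Prime]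
    [IsCyclotomicExtension {p} ℚ K] :
    ∃ P ∈ primesOver (span {(p : ℤ)}) (𝓞 K), Submodule.IsPrincipal P := by
  have hζ := zeta_spec p ℚ K
  refine ⟨span {hζ.toInteger - 1}, ⟨isPrime_span_zeta_sub_one' p hζ, ?_⟩, ⟨_, rfl⟩⟩
  have hK : IsCyclotomicExtension {p ^ (0 + 1)} ℚ K := by
    rw [zero_add, pow_one]; infer_instance
  have hζ' : IsPrimitiveRoot (zeta p ℚ K) (p ^ (0 + 1)) := by
    rw [zero_add, pow_one]; exact hζ
  exact liesOver_span_zeta_sub_one p 0 hζ'

end Primes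

end Fermat.Agent.Kummer.H26
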