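import Fermat.Agent.Kummer.H26_ElevenNorm

set_option autoImplicit false

namespace Fermat.Agent.Kummer.H26

open NumberField Polynomial InfinitePlace Nat Real IsCyclotomicExtension.Rat Ideal Module
open IsCyclotomicExtension

universe u

variable (K : Type u) [Field K] [NumberField K]

/-- The norm of `1 + ζ + ζ^3` in the 11-th cyclotomic field is `23`. -/
theorem norm_eleven_23 [IsCyclotomicExtension {11} ℚ K] :
    Algebra.norm ℤ (1 + (zeta_spec 11 ℚ K).toInteger + (zeta_spec 11 ℚ K).toInteger ^ 3 : 𝓞 K)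
      = 23 := by
  have hp : Fact (Nat.Prime 11) := ⟨by norm_num⟩
  have h1 := norm_eq_prod_Ico 11 K (1 + zeta 11 ℚ K + zeta 11 ℚ K ^ 3) (fun y => 1 + y + y ^ 3)
    rfl (fun σ y => by simp)
  rw [prod_eleven_23 (zeta 11 ℚ K) (sum_range_zeta_pow 11 K)] at h1
  have h2 : Algebra.norm ℚ (1 + zeta 11 ℚ K + zeta 11 ℚ K ^ 3) = 23 := by
    apply (algebraMap ℚ K).injective
    rw [h1]; simp
  have h3 := Algebra.coe_norm_int
    (1 + (zeta_spec 11 ℚ K).toInteger + (zeta_spec 11 ℚ K).toInteger ^ 3 : 𝓞 K)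
  have h4 : ((1 + (zeta_spec 11 ℚ K).toInteger + (zeta_spec 11 ℚ K).toInteger ^ 3 : 𝓞 K) : K)
      = 1 + zeta 11 ℚ K + zeta 11 ℚ K ^ 3 := by
    simp
  rw [h4, h2] at h3
  exact_mod_cast h3

theorem ord_eleven_ten : ∀ r ∈ ({2, 6, 7, 8} : Finset ℕ), ∀ j ∈ Finset.Ioo 0 10,
    ((r : ℕ) : ZMod 11) ^ j ≠ 1 := by decide

theorem ord_eleven_five : ∀ r ∈ ({3, 4, 5, 9} : Finset ℕ), ∀ j ∈ Finset.Ioo 0 5,
    ((r : ℕ) : ZMod 11) ^ j ≠ 1 := by decide

theorem ord_eleven_two : ∀ j ∈ Finset.Ioo 0 2, ((10 : ℕ) : ZMod 11) ^ j ≠ 1 := by decide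

theorem eleven_pid [IsCyclotomicExtension {11} ℚ K] : IsPrincipalIdealRing (𝓞 K) := by
  have hp11 : Fact (Nat.Prime 11) := ⟨by norm_num⟩
  have hgal : IsGalois ℚ K := IsCyclotomicExtension.isGalois {11} ℚ K
  have hfin : finrank ℚ K = 10 := by
    rw [IsCyclotomicExtension.finrank (n := 11) K (cyclotomic.irreducible_rat (by simp)),
      totient_prime hp11.out]
  have hcp : nrComplexPlaces K = 5 := by
    rw [nrComplexPlaces_eq_totient_div_two 11, totient_prime hp11.out]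
  have hd : discr K = -2357947691 := by
    rw [discr_prime 11 K]; norm_num
  have hM : ⌊(4 / π) ^ nrComplexPlaces K *
      ((finrank ℚ K)! / (finrank ℚ K) ^ (finrank ℚ K) * √|discr K|)⌋₊ ≤ 66 := by
    rw [hfin, hcp, hd]
    have h1 : (4 / π) ^ 5 ≤ (4 / 3.14) ^ 5 := by
      apply pow_le_pow_left₀ (by positivity)
      apply div_le_div_of_nonneg_left (by norm_num) (by norm_num) pi_gt_d2.le
    have h2 : √|((-2357947691 : ℤ) : ℝ)| ≤ 48558.8 := by
      rw [Real.sqrt_le_iff]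
      constructor
      · norm_num
      · norm_num
    have h3 : ((10 : ℕ)! : ℝ) / ((10:ℕ):ℝ) ^ 10 = 3628800 / 10000000000 := by
      norm_num [Nat.factorial]
    rw [h3]
    apply Nat.lt_succ_iff.mp
    rw [Nat.floor_lt (by positivity)]
    calc (4 / π) ^ 5 * (3628800 / 10000000000 * √|((-2357947691 : ℤ) : ℝ)|)
        ≤ (4 / 3.14) ^ 5 * (3628800 / 10000000000 * 48558.8) := by gcongr
      _ < ((succ 66 : ℕ) : ℝ) := by norm_num
  refine RingOfIntegers.isPrincipalIdealRing_of_isPrincipal_of_lt_or_isPrincipal_of_mem_primesOver_of_mem_Icc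
    (fun q hq hqp => ?_)
  rw [Finset.mem_Icc] at hq
  have hq66 : q ≤ 66 := hq.2.trans hM
  have : Fact q.Prime := ⟨hqp⟩
  by_cases hq11 : q = 11
  · subst hq11
    obtain ⟨P, hP, hPp⟩ := exists_isPrincipal_primesOver_self K 11
    exact ⟨P, hP, Or.inr hPp⟩
  have hq11' : ¬ q ∣ 11 := fun h => hq11 ((Nat.prime_dvd_prime_iff_eq hqp hp11.out).mp h)
  have hq2 : 2 ≤ q := hqp.two_le
  obtain ⟨r, hr⟩ : ∃ r, r = q % 11 := ⟨_, rfl⟩
  have hr11 : r < 11 := hr ▸ Nat.mod_lt _ (by norm_num)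
  have hqr : (q : ZMod 11) = (r : ZMod 11) := by rw [hr, ZMod.natCast_mod]
  have key : ∀ (f c : ℕ), (∀ j, 0 < j → j < f → (r : ZMod 11) ^ j ≠ 1) → c ≤ q → 66 < c ^ f →
      ∃ P ∈ primesOver (span {(q : ℤ)}) (𝓞 K),
        ⌊(4 / π) ^ nrComplexPlaces K *
          ((finrank ℚ K)! / (finrank ℚ K) ^ (finrank ℚ K) * √|discr K|)⌋₊ < q ^ P.inertiaDeg ℤ ∨
          Submodule.IsPrincipal P := by
    intro f c hf hc hcf
    refine exists_primesOver_lt K 11 _ q hq11' f (fun j h0 hjf => hqr ▸ hf j h0 hjf) ?_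
    exact lt_of_le_of_lt hM (lt_of_lt_of_le hcf (Nat.pow_le_pow_left hc f))
  interval_cases r
  · -- r = 0 : 11 ∣ q
    have h11q : 11 ∣ q := Nat.dvd_of_mod_eq_zero hr.symm
    exact absurd ((Nat.prime_dvd_prime_iff_eq hp11.out hqp).mp h11q).symm hq11
  · -- r = 1 : q = 23
    have hq23 : q = 23 := by
      have : q = 12 ∨ q = 23 ∨ q = 34 ∨ q = 45 ∨ q = 56 := by omega
      rcases this with rfl | rfl | rfl | rfl | rfl
      · norm_num at hqp
      · rfl
      · norm_num at hqp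
      · norm_num at hqp
      · norm_num at hqp
    subst hq23
    obtain ⟨P, hP, hPp⟩ := exists_isPrincipal_primesOver K 11 23 hq11' 1 one_pos
      (by rw [orderOf_eq_one_iff]; decide)
      (1 + (zeta_spec 11 ℚ K).toInteger + (zeta_spec 11 ℚ K).toInteger ^ 3)
      (by rw [norm_eleven_23]; rfl)
    exact ⟨P, hP, Or.inr hPp⟩
  · exact key 10 2 (fun j h0 hj => ord_eleven_ten _ (by decide) j (Finset.mem_Ioo.mpr ⟨h0, hj⟩)) hq2 (by norm_num)
  · exact key 5 3 (fun j h0 hj => ord_eleven_five _ (by decide) j (Finset.mem_Ioo.mpr ⟨h0, hj⟩)) (by omega) (by norm_num)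
  · exact key 5 3 (fun j h0 hj => ord_eleven_five _ (by decide) j (Finset.mem_Ioo.mpr ⟨h0, hj⟩)) (by omega) (by norm_num)
  · exact key 5 3 (fun j h0 hj => ord_eleven_five _ (by decide) j (Finset.mem_Ioo.mpr ⟨h0, hj⟩)) (by omega) (by norm_num)
  · exact key 10 2 (fun j h0 hj => ord_eleven_ten _ (by decide) j (Finset.mem_Ioo.mpr ⟨h0, hj⟩)) hq2 (by norm_num)
  · exact key 10 2 (fun j h0 hj => ord_eleven_ten _ (by decide) j (Finset.mem_Ioo.mpr ⟨h0, hj⟩)) hq2 (by norm_num)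
  · exact key 10 2 (fun j h0 hj => ord_eleven_ten _ (by decide) j (Finset.mem_Ioo.mpr ⟨h0, hj⟩)) hq2 (by norm_num)
  · exact key 5 3 (fun j h0 hj => ord_eleven_five _ (by decide) j (Finset.mem_Ioo.mpr ⟨h0, hj⟩)) (by omega) (by norm_num)
  · exact key 2 10 (fun j h0 hj => ord_eleven_two j (Finset.mem_Ioo.mpr ⟨h0, hj⟩)) (by omega) (by norm_num)

end Fermat.Agent.Kummer.H26
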