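import Fermat.Agent.Kummer.H26_ThirteenNorm

set_option autoImplicit false

namespace Fermat.Agent.Kummer.H26

open NumberField Polynomial InfinitePlace Nat Real IsCyclotomicExtension.Rat Ideal Module
open IsCyclotomicExtension

universe u

variable (K : Type u) [Field K] [NumberField K]

/-- Transfer a norm computation from `K` to the ring of integers. -/
theorem norm_int_eq_of_prod (p : ℕ) [hp : Fact p.Prime] [IsCyclotomicExtension {p} ℚ K]
    (α : 𝓞 K) (G : K → K) (N : ℤ)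
    (hα : (α : K) = G (zeta p ℚ K))
    (hG : ∀ (σ : K ≃ₐ[ℚ] K) (y : K), σ (G y) = G (σ y))
    (hprod : ∏ k ∈ Finset.Ico 1 p, G ((zeta p ℚ K) ^ k) = (N : K)) :
    Algebra.norm ℤ α = N := by
  have h1 := norm_eq_prod_Ico p K (α : K) G hα hG
  rw [hprod] at h1
  have h2 : Algebra.norm ℚ (α : K) = (N : ℚ) := by
    apply (algebraMap ℚ K).injective
    rw [h1]; simp
  have h3 := Algebra.coe_norm_int α
  rw [h2] at h3
  exact_mod_cast h3

section

variable [IsCyclotomicExtension {13} ℚ K]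

/-- The chosen primitive 13-th root of unity, as an algebraic integer. -/
noncomputable abbrev zInt13 : 𝓞 K := (zeta_spec 13 ℚ K).toInteger

theorem norm_thirteen_53 : Algebra.norm ℤ (1 + zInt13 K + zInt13 K ^ 3 : 𝓞 K) = 53 := by
  have hp : Fact (Nat.Prime 13) := ⟨by norm_num⟩
  refine norm_int_eq_of_prod K 13 _ (fun y => 1 + y + y ^ 3) 53 (by simp) (fun σ y => by simp) ?_
  rw [prod_thirteen_53 (zeta 13 ℚ K) (sum_range_zeta_pow 13 K)]; simp

theorem norm_thirteen_27 : Algebra.norm ℤ (1 + zInt13 K - zInt13 K ^ 3 : 𝓞 K) = 27 := by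
  have hp : Fact (Nat.Prime 13) := ⟨by norm_num⟩
  refine norm_int_eq_of_prod K 13 _ (fun y => 1 + y - y ^ 3) 27 (by simp) (fun σ y => by simp) ?_
  rw [prod_thirteen_27 (zeta 13 ℚ K) (sum_range_zeta_pow 13 K)]; simp

theorem norm_thirteen_131 : Algebra.norm ℤ (1 - zInt13 K - zInt13 K ^ 3 : 𝓞 K) = 131 := by
  have hp : Fact (Nat.Prime 13) := ⟨by norm_num⟩
  refine norm_int_eq_of_prod K 13 _ (fun y => 1 - y - y ^ 3) 131 (by simp) (fun σ y => by simp) ?_
  rw [prod_thirteen_131 (zeta 13 ℚ K) (sum_range_zeta_pow 13 K)]; simp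

theorem norm_thirteen_79 : Algebra.norm ℤ (1 + zInt13 K - zInt13 K ^ 4 : 𝓞 K) = 79 := by
  have hp : Fact (Nat.Prime 13) := ⟨by norm_num⟩
  refine norm_int_eq_of_prod K 13 _ (fun y => 1 + y - y ^ 4) 79 (by simp) (fun σ y => by simp) ?_
  rw [prod_thirteen_79 (zeta 13 ℚ K) (sum_range_zeta_pow 13 K)]; simp

theorem norm_thirteen_157 : Algebra.norm ℤ (1 - zInt13 K + zInt13 K ^ 2 + zInt13 K ^ 4 : 𝓞 K) = 157 := by
  have hp : Fact (Nat.Prime 13) := ⟨by norm_num⟩
  refine norm_int_eq_of_prod K 13 _ (fun y => 1 - y + y ^ 2 + y ^ 4) 157 (by simp)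
    (fun σ y => by simp) ?_
  rw [prod_thirteen_157 (zeta 13 ℚ K) (sum_range_zeta_pow 13 K)]; simp

end

theorem ord_thirteen_twelve : ∀ r ∈ ({2, 6, 7, 11} : Finset ℕ), ∀ j ∈ Finset.Ioo 0 12,
    ((r : ℕ) : ZMod 13) ^ j ≠ 1 := by decide

theorem ord_thirteen_six : ∀ r ∈ ({4, 10} : Finset ℕ), ∀ j ∈ Finset.Ioo 0 6,
    ((r : ℕ) : ZMod 13) ^ j ≠ 1 := by decide

theorem ord_thirteen_four : ∀ r ∈ ({5, 8} : Finset ℕ), ∀ j ∈ Finset.Ioo 0 4,
    ((r : ℕ) : ZMod 13) ^ j ≠ 1 := by decide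

theorem ord_thirteen_three : ∀ r ∈ ({3, 9} : Finset ℕ), ∀ j ∈ Finset.Ioo 0 3,
    ((r : ℕ) : ZMod 13) ^ j ≠ 1 := by decide

theorem ord_thirteen_two : ∀ j ∈ Finset.Ioo 0 2, ((12 : ℕ) : ZMod 13) ^ j ≠ 1 := by decide

theorem orderOf_three_thirteen : orderOf ((3 : ℕ) : ZMod 13) = 3 := by
  rw [orderOf_eq_iff (by norm_num)]
  refine ⟨by decide, fun m hm hm0 => ?_⟩
  interval_cases m <;> decide

theorem thirteen_pid [IsCyclotomicExtension {13} ℚ K] : IsPrincipalIdealRing (𝓞 K) := by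
  have hp13 : Fact (Nat.Prime 13) := ⟨by norm_num⟩
  have hgal : IsGalois ℚ K := IsCyclotomicExtension.isGalois {13} ℚ K
  have hfin : finrank ℚ K = 12 := by
    rw [IsCyclotomicExtension.finrank (n := 13) K (cyclotomic.irreducible_rat (by simp)),
      totient_prime hp13.out]
  have hcp : nrComplexPlaces K = 6 := by
    rw [nrComplexPlaces_eq_totient_div_two 13, totient_prime hp13.out]
  have hd : discr K = 1792160394037 := by
    rw [discr_prime 13 K]; norm_num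
  have hM : ⌊(4 / π) ^ nrComplexPlaces K *
      ((finrank ℚ K)! / (finrank ℚ K) ^ (finrank ℚ K) * √|discr K|)⌋₊ ≤ 312 := by
    rw [hfin, hcp, hd]
    have h1 : (4 / π) ^ 6 ≤ (4 / 3.14) ^ 6 := by
      apply pow_le_pow_left₀ (by positivity)
      apply div_le_div_of_nonneg_left (by norm_num) (by norm_num) pi_gt_d2.le
    have h2 : √|((1792160394037 : ℤ) : ℝ)| ≤ 1338717 := by
      rw [Real.sqrt_le_iff]
      constructor
      · norm_num
      · norm_num
    have h3 : ((12 : ℕ)! : ℝ) / ((12:ℕ):ℝ) ^ 12 = 479001600 / 8916100448256 := by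
      norm_num [Nat.factorial]
    rw [h3]
    apply Nat.lt_succ_iff.mp
    rw [Nat.floor_lt (by positivity)]
    calc (4 / π) ^ 6 * (479001600 / 8916100448256 * √|((1792160394037 : ℤ) : ℝ)|)
        ≤ (4 / 3.14) ^ 6 * (479001600 / 8916100448256 * 1338717) := by gcongr
      _ < ((succ 312 : ℕ) : ℝ) := by norm_num
  refine RingOfIntegers.isPrincipalIdealRing_of_isPrincipal_of_lt_or_isPrincipal_of_mem_primesOver_of_mem_Icc
    (fun q hq hqp => ?_)
  rw [Finset.mem_Icc] at hq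
  have hq312 : q ≤ 312 := hq.2.trans hM
  have : Fact q.Prime := ⟨hqp⟩
  by_cases hq13 : q = 13
  · subst hq13
    obtain ⟨P, hP, hPp⟩ := exists_isPrincipal_primesOver_self K 13
    exact ⟨P, hP, Or.inr hPp⟩
  have hq13' : ¬ q ∣ 13 := fun h => hq13 ((Nat.prime_dvd_prime_iff_eq hqp hp13.out).mp h)
  have hq2 : 2 ≤ q := hqp.two_le
  obtain ⟨r, hr⟩ : ∃ r, r = q % 13 := ⟨_, rfl⟩
  have hr13 : r < 13 := hr ▸ Nat.mod_lt _ (by norm_num)
  have hqr : (q : ZMod 13) = (r : ZMod 13) := by rw [hr, ZMod.natCast_mod]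
  have key : ∀ (f c : ℕ), (∀ j, 0 < j → j < f → (r : ZMod 13) ^ j ≠ 1) → c ≤ q → 312 < c ^ f →
      ∃ P ∈ primesOver (span {(q : ℤ)}) (𝓞 K),
        ⌊(4 / π) ^ nrComplexPlaces K *
          ((finrank ℚ K)! / (finrank ℚ K) ^ (finrank ℚ K) * √|discr K|)⌋₊ < q ^ P.inertiaDeg ℤ ∨
          Submodule.IsPrincipal P := by
    intro f c hf hc hcf
    refine exists_primesOver_lt K 13 _ q hq13' f (fun j h0 hjf => hqr ▸ hf j h0 hjf) ?_
    exact lt_of_le_of_lt hM (lt_of_lt_of_le hcf (Nat.pow_le_pow_left hc f))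
  have keyP : ∀ (f : ℕ) (α : 𝓞 K), 0 < f → orderOf (q : ZMod 13) = f →
      (Algebra.norm ℤ α).natAbs = q ^ f →
      ∃ P ∈ primesOver (span {(q : ℤ)}) (𝓞 K),
        ⌊(4 / π) ^ nrComplexPlaces K *
          ((finrank ℚ K)! / (finrank ℚ K) ^ (finrank ℚ K) * √|discr K|)⌋₊ < q ^ P.inertiaDeg ℤ ∨
          Submodule.IsPrincipal P := by
    intro f α hf hord hα
    obtain ⟨P, hP, hPp⟩ := exists_isPrincipal_primesOver K 13 q hq13' f hf hord α hα
    exact ⟨P, hP, Or.inr hPp⟩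
  interval_cases r
  · -- r = 0
    have h13q : 13 ∣ q := Nat.dvd_of_mod_eq_zero hr.symm
    exact absurd ((Nat.prime_dvd_prime_iff_eq hp13.out hqp).mp h13q).symm hq13
  · -- r = 1
    have hord1 : orderOf (q : ZMod 13) = 1 := by
      rw [orderOf_eq_one_iff, hqr]; simp
    obtain ⟨k, hk⟩ : ∃ k, q = 13 * k + 1 := ⟨q / 13, by omega⟩
    have hk24 : k < 24 := by omega
    interval_cases k <;> simp only [Nat.reduceMul, Nat.reduceAdd] at hk <;> subst hk
    all_goals first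
      | (exfalso; revert hqp; norm_num; done)
      | exact keyP 1 (1 + (zeta_spec 13 ℚ K).toInteger + (zeta_spec 13 ℚ K).toInteger ^ 3)
          one_pos hord1 (by rw [norm_thirteen_53]; rfl)
      | exact keyP 1 (1 + (zeta_spec 13 ℚ K).toInteger - (zeta_spec 13 ℚ K).toInteger ^ 4)
          one_pos hord1 (by rw [norm_thirteen_79]; rfl)
      | exact keyP 1 (1 - (zeta_spec 13 ℚ K).toInteger - (zeta_spec 13 ℚ K).toInteger ^ 3)
          one_pos hord1 (by rw [norm_thirteen_131]; rfl)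
      | exact keyP 1 (1 - (zeta_spec 13 ℚ K).toInteger + (zeta_spec 13 ℚ K).toInteger ^ 2
            + (zeta_spec 13 ℚ K).toInteger ^ 4)
          one_pos hord1 (by rw [norm_thirteen_157]; rfl)
  · exact key 12 2 (fun j h0 hj => ord_thirteen_twelve _ (by decide) j
      (Finset.mem_Ioo.mpr ⟨h0, hj⟩)) hq2 (by norm_num)
  · -- r = 3
    by_cases hq3 : q = 3
    · subst hq3
      exact keyP 3 (1 + (zeta_spec 13 ℚ K).toInteger - (zeta_spec 13 ℚ K).toInteger ^ 3)
        (by norm_num) orderOf_three_thirteen (by rw [norm_thirteen_27]; rfl)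
    · exact key 3 16 (fun j h0 hj => ord_thirteen_three _ (by decide) j
        (Finset.mem_Ioo.mpr ⟨h0, hj⟩)) (by omega) (by norm_num)
  · exact key 6 4 (fun j h0 hj => ord_thirteen_six _ (by decide) j
      (Finset.mem_Ioo.mpr ⟨h0, hj⟩)) (by omega) (by norm_num)
  · exact key 4 5 (fun j h0 hj => ord_thirteen_four _ (by decide) j
      (Finset.mem_Ioo.mpr ⟨h0, hj⟩)) (by omega) (by norm_num)
  · exact key 12 2 (fun j h0 hj => ord_thirteen_twelve _ (by decide) j
      (Finset.mem_Ioo.mpr ⟨h0, hj⟩)) hq2 (by norm_num)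
  · exact key 12 2 (fun j h0 hj => ord_thirteen_twelve _ (by decide) j
      (Finset.mem_Ioo.mpr ⟨h0, hj⟩)) hq2 (by norm_num)
  · exact key 4 5 (fun j h0 hj => ord_thirteen_four _ (by decide) j
      (Finset.mem_Ioo.mpr ⟨h0, hj⟩)) (by omega) (by norm_num)
  · exact key 3 9 (fun j h0 hj => ord_thirteen_three _ (by decide) j
      (Finset.mem_Ioo.mpr ⟨h0, hj⟩)) (by omega) (by norm_num)
  · exact key 6 4 (fun j h0 hj => ord_thirteen_six _ (by decide) j
      (Finset.mem_Ioo.mpr ⟨h0, hj⟩)) (by omega) (by norm_num)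
  · exact key 12 2 (fun j h0 hj => ord_thirteen_twelve _ (by decide) j
      (Finset.mem_Ioo.mpr ⟨h0, hj⟩)) hq2 (by norm_num)
  · -- r = 12
    have hq25 : 25 ≤ q := by
      by_contra h
      have : q = 12 := by omega
      subst this
      norm_num at hqp
    exact key 2 25 (fun j h0 hj => ord_thirteen_two j (Finset.mem_Ioo.mpr ⟨h0, hj⟩)) hq25
      (by norm_num)

end Fermat.Agent.Kummer.H26
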