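import Fermat.Agent.Kummer.H26_Seven
import Fermat.Agent.Kummer.H26_Eleven
import Fermat.Agent.Kummer.H26_Thirteen

/-!
Class number one for the `p`-th cyclotomic fields, `p = 7, 11, 13`:
`Fermat.Agent.Kummer.H26.seven_pid`, `eleven_pid`, `thirteen_pid`.
(`p = 3, 5` are `IsCyclotomicExtension.Rat.three_pid` and `five_pid` in Mathlib.)
-/
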