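import Fermat.Agent.Kummer.H26_Basic

set_option autoImplicit false

namespace Fermat.Agent.Kummer.H26

theorem prod_Ico_eleven {R : Type*} [CommRing R] (F : ℕ → R) :
    ∏ k ∈ Finset.Ico 1 11, F k = F 1 * F 2 * F 3 * F 4 * F 5 * F 6 * F 7 * F 8 * F 9 * F 10 := by
  simp [Finset.prod_Ico_succ_top]

theorem prod_eleven_23_aux {R : Type*} [CommRing R] (z : R) (hz : 1 + z + z ^ 2 + z ^ 3 + z ^ 4 + z ^ 5 + z ^ 6 + z ^ 7 + z ^ 8 + z ^ 9 + z ^ 10 = 0) :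
    (1 + z ^ 1 + (z ^ 1) ^ 3) * (1 + z ^ 2 + (z ^ 2) ^ 3) * (1 + z ^ 3 + (z ^ 3) ^ 3) * (1 + z ^ 4 + (z ^ 4) ^ 3) * (1 + z ^ 5 + (z ^ 5) ^ 3) * (1 + z ^ 6 + (z ^ 6) ^ 3) * (1 + z ^ 7 + (z ^ 7) ^ 3) * (1 + z ^ 8 + (z ^ 8) ^ 3) * (1 + z ^ 9 + (z ^ 9) ^ 3) * (1 + z ^ 10 + (z ^ 10) ^ 3) = 23 := by
  have h2 : (1 + z + z ^ 3) * (1 + z ^ 2 + (z ^ 2) ^ 3) = 1 + z + z ^ 2 + 2 * z ^ 3 + z ^ 5 + z ^ 6 + z ^ 7 + z ^ 9 := by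
    linear_combination (0) * hz
  have h3 : (1 + z + z ^ 2 + 2 * z ^ 3 + z ^ 5 + z ^ 6 + z ^ 7 + z ^ 9) * (1 + z ^ 3 + (z ^ 3) ^ 3) = 2 * z - z ^ 2 + 2 * z ^ 3 + z ^ 5 + z ^ 6 - z ^ 8 + z ^ 9 := by
    linear_combination (1 - 2 * z + 3 * z ^ 2 - z ^ 3 + z ^ 6 - z ^ 7 + z ^ 8) * hz
  have h4 : (2 * z - z ^ 2 + 2 * z ^ 3 + z ^ 5 + z ^ 6 - z ^ 8 + z ^ 9) * (1 + z ^ 4 + (z ^ 4) ^ 3) = -2 - z - z ^ 3 + z ^ 5 - z ^ 6 + z ^ 7 - 3 * z ^ 8 - z ^ 9 := by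
    linear_combination (2 + z - 4 * z ^ 2 + 4 * z ^ 3 - 3 * z ^ 4 + 2 * z ^ 5 - z ^ 6 + z ^ 8 + z ^ 9 - 2 * z ^ 10 + z ^ 11) * hz
  have h5 : (-2 - z - z ^ 3 + z ^ 5 - z ^ 6 + z ^ 7 - 3 * z ^ 8 - z ^ 9) * (1 + z ^ 5 + (z ^ 5) ^ 3) = -2 - 3 * z - 4 * z ^ 2 - 2 * z ^ 3 - 2 * z ^ 4 - 2 * z ^ 5 - 2 * z ^ 6 - 4 * z ^ 8 := by
    linear_combination (2 * z + 2 * z ^ 2 - 3 * z ^ 3 + z ^ 4 - z ^ 5 - z ^ 6 + z ^ 7 - z ^ 8 - z ^ 9 + 2 * z ^ 10 - 2 * z ^ 11 + 4 * z ^ 12 - 2 * z ^ 13 - z ^ 14) * hz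
  have h6 : (-2 - 3 * z - 4 * z ^ 2 - 2 * z ^ 3 - 2 * z ^ 4 - 2 * z ^ 5 - 2 * z ^ 6 - 4 * z ^ 8) * (1 + z ^ 6 + (z ^ 6) ^ 3) = -2 - 3 * z - 2 * z ^ 2 - 2 * z ^ 3 - 2 * z ^ 4 + 2 * z ^ 5 - z ^ 7 - 7 * z ^ 8 - 2 * z ^ 9 := by
    linear_combination (-2 * z ^ 2 + 2 * z ^ 3 - 4 * z ^ 5 + 2 * z ^ 7 + z ^ 8 + z ^ 9 - 2 * z ^ 10 - 2 * z ^ 14 + 4 * z ^ 15 - 4 * z ^ 16) * hz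
  have h7 : (-2 - 3 * z - 2 * z ^ 2 - 2 * z ^ 3 - 2 * z ^ 4 + 2 * z ^ 5 - z ^ 7 - 7 * z ^ 8 - 2 * z ^ 9) * (1 + z ^ 7 + (z ^ 7) ^ 3) = -3 + z - z ^ 3 - 3 * z ^ 4 + 4 * z ^ 5 + 3 * z ^ 6 - 6 * z ^ 7 - 8 * z ^ 8 := by
    linear_combination (1 - 5 * z + 2 * z ^ 2 + z ^ 3 + 2 * z ^ 4 - 3 * z ^ 5 - z ^ 6 + 6 * z ^ 7 - 5 * z ^ 8 - 2 * z ^ 9 + 2 * z ^ 10 + z ^ 11 - z ^ 12 - 4 * z ^ 15 + 2 * z ^ 16 + z ^ 17 + 6 * z ^ 18 - 5 * z ^ 19 - 2 * z ^ 20) * hz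
  have h8 : (-3 + z - z ^ 3 - 3 * z ^ 4 + 4 * z ^ 5 + 3 * z ^ 6 - 6 * z ^ 7 - 8 * z ^ 8) * (1 + z ^ 8 + (z ^ 8) ^ 3) = 4 + 6 * z + 9 * z ^ 2 + 11 * z ^ 3 - z ^ 4 + 3 * z ^ 5 + 8 * z ^ 6 + 6 * z ^ 7 + 3 * z ^ 9 := by
    linear_combination (-7 + 2 * z - 4 * z ^ 2 - 3 * z ^ 3 + 10 * z ^ 4 + 3 * z ^ 5 - 6 * z ^ 6 - 7 * z ^ 7 + z ^ 8 + 9 * z ^ 9 + 2 * z ^ 10 - 8 * z ^ 11 + 3 * z ^ 13 - 4 * z ^ 14 + z ^ 15 + z ^ 16 + 2 * z ^ 17 - 7 * z ^ 18 + z ^ 19 + 9 * z ^ 20 + 2 * z ^ 21 - 8 * z ^ 22) * hz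
  have h9 : (4 + 6 * z + 9 * z ^ 2 + 11 * z ^ 3 - z ^ 4 + 3 * z ^ 5 + 8 * z ^ 6 + 6 * z ^ 7 + 3 * z ^ 9) * (1 + z ^ 9 + (z ^ 9) ^ 3) = 12 + 14 * z - z ^ 2 + 8 * z ^ 3 - 2 * z ^ 4 + 4 * z ^ 5 + 5 * z ^ 6 + 9 * z ^ 7 + 2 * z ^ 8 - 3 * z ^ 9 := by
    linear_combination (-8 + 18 * z ^ 2 - 7 * z ^ 3 - 2 * z ^ 4 - 2 * z ^ 5 + 4 * z ^ 6 - 6 * z ^ 7 + z ^ 8 + 12 * z ^ 9 - 4 * z ^ 10 - 5 * z ^ 11 + 2 * z ^ 12 + 6 * z ^ 13 - 3 * z ^ 14 + 3 * z ^ 15 - 4 * z ^ 16 - 2 * z ^ 17 - 3 * z ^ 18 - 2 * z ^ 19 + 12 * z ^ 20 - 4 * z ^ 21 - 5 * z ^ 22 + 2 * z ^ 23 + 6 * z ^ 24 - 3 * z ^ 25 + 3 * z ^ 26) * hz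
  have h10 : (12 + 14 * z - z ^ 2 + 8 * z ^ 3 - 2 * z ^ 4 + 4 * z ^ 5 + 5 * z ^ 6 + 9 * z ^ 7 + 2 * z ^ 8 - 3 * z ^ 9) * (1 + z ^ 10 + (z ^ 10) ^ 3) = 23 := by
    linear_combination (-11 + 25 * z - 15 * z ^ 2 + 9 * z ^ 3 - 10 * z ^ 4 + 6 * z ^ 5 + z ^ 6 + 4 * z ^ 7 - 7 * z ^ 8 - 5 * z ^ 9 + 15 * z ^ 10 - 9 * z ^ 11 + 10 * z ^ 12 - 6 * z ^ 13 - z ^ 14 - 4 * z ^ 15 + 7 * z ^ 16 + 5 * z ^ 17 - 3 * z ^ 18 - 12 * z ^ 19 - 2 * z ^ 20 + 15 * z ^ 21 - 9 * z ^ 22 + 10 * z ^ 23 - 6 * z ^ 24 - z ^ 25 - 4 * z ^ 26 + 7 * z ^ 27 + 5 * z ^ 28 - 3 * z ^ 29) * hz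
  have e1 : (1 + z ^ 1 + (z ^ 1) ^ 3) = 1 + z + z ^ 3 := by ring
  rw [e1, h2, h3, h4, h5, h6, h7, h8, h9, h10]

theorem prod_eleven_23 {R : Type*} [CommRing R] (z : R) (hz : ∑ i ∈ Finset.range 11, z ^ i = 0) :
    ∏ k ∈ Finset.Ico 1 11, (1 + (z ^ k) + (z ^ k) ^ 3) = 23 := by
  have hz' : 1 + z + z ^ 2 + z ^ 3 + z ^ 4 + z ^ 5 + z ^ 6 + z ^ 7 + z ^ 8 + z ^ 9 + z ^ 10 = 0 := by simpa [Finset.sum_range_succ] using hz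
  rw [prod_Ico_eleven]
  exact prod_eleven_23_aux z hz'

end Fermat.Agent.Kummer.H26
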