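import Fermat.Agent.Kummer.H26_Basic

set_option autoImplicit false

namespace Fermat.Agent.Kummer.H26

open NumberField Polynomial InfinitePlace Nat Real IsCyclotomicExtension.Rat Ideal Module

universe u

variable (K : Type u) [Field K] [NumberField K]

theorem seven_pid [IsCyclotomicExtension {7} ℚ K] : IsPrincipalIdealRing (𝓞 K) := by
  have hp7 : Fact (Nat.Prime 7) := ⟨by norm_num⟩
  have hgal : IsGalois ℚ K := IsCyclotomicExtension.isGalois {7} ℚ K
  have hfin : finrank ℚ K = 6 := by
    rw [IsCyclotomicExtension.finrank (n := 7) K (cyclotomic.irreducible_rat (by simp)),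
      totient_prime hp7.out]
  have hcp : nrComplexPlaces K = 3 := by
    rw [nrComplexPlaces_eq_totient_div_two 7, totient_prime hp7.out]
  have hd : discr K = -16807 := by
    rw [discr_prime 7 K]; norm_num
  have hM : ⌊(4 / π) ^ nrComplexPlaces K *
      ((finrank ℚ K)! / (finrank ℚ K) ^ (finrank ℚ K) * √|discr K|)⌋₊ ≤ 4 := by
    rw [hfin, hcp, hd]
    have h1 : (4 / π) ^ 3 ≤ (4 / 3.14) ^ 3 := by
      apply pow_le_pow_left₀ (by positivity)
      apply div_le_div_of_nonneg_left (by norm_num) (by norm_num) pi_gt_d2.le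
    have h2 : √|((-16807 : ℤ) : ℝ)| ≤ 129.7 := by
      rw [Real.sqrt_le_iff]
      constructor
      · norm_num
      · norm_num
    have h3 : ((6 : ℕ)! : ℝ) / ((6:ℕ):ℝ) ^ 6 = 720 / 46656 := by
      norm_num [Nat.factorial]
    rw [h3]
    apply Nat.lt_succ_iff.mp
    rw [Nat.floor_lt (by positivity)]
    calc (4 / π) ^ 3 * (720 / 46656 * √|((-16807 : ℤ) : ℝ)|)
        ≤ (4 / 3.14) ^ 3 * (720 / 46656 * 129.7) := by gcongr
      _ < ((succ 4 : ℕ) : ℝ) := by norm_num
  refine RingOfIntegers.isPrincipalIdealRing_of_isPrincipal_of_lt_or_isPrincipal_of_mem_primesOver_of_mem_Icc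
    (fun q hq hqp => ?_)
  rw [Finset.mem_Icc] at hq
  have hq4 : q ≤ 4 := hq.2.trans hM
  have : Fact q.Prime := ⟨hqp⟩
  have hq7 : ¬ q ∣ 7 := by
    intro h
    have := Nat.le_of_dvd (by norm_num) h
    have h7 : q = 7 := (Nat.prime_dvd_prime_iff_eq hqp hp7.out).mp h
    omega
  have hq23 : q = 2 ∨ q = 3 := by
    interval_cases q <;> simp_all (config := {decide := true})
  rcases hq23 with rfl | rfl
  · refine exists_primesOver_lt K 7 _ 2 hq7 3 ?_ (lt_of_le_of_lt hM (by norm_num))
    intro j hj0 hj3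
    interval_cases j <;> decide
  · refine exists_primesOver_lt K 7 _ 3 hq7 2 ?_ (lt_of_le_of_lt hM (by norm_num))
    intro j hj0 hj3
    interval_cases j <;> decide

end Fermat.Agent.Kummer.H26
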