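import Fermat.Agent.Kummer.H26_Basic

set_option autoImplicit false

namespace Fermat.Agent.Kummer.H26

theorem prod_Ico_thirteen {R : Type*} [CommRing R] (F : ℕ → R) :
    ∏ k ∈ Finset.Ico 1 13, F k =
      F 1 * F 2 * F 3 * F 4 * F 5 * F 6 * F 7 * F 8 * F 9 * F 10 * F 11 * F 12 := by
  simp [Finset.prod_Ico_succ_top]

theorem prod_thirteen_53_aux {R : Type*} [CommRing R] (z : R) (hz : 1 + z + z ^ 2 + z ^ 3 + z ^ 4 + z ^ 5 + z ^ 6 + z ^ 7 + z ^ 8 + z ^ 9 + z ^ 10 + z ^ 11 + z ^ 12 = 0) :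
    (1 + z ^ 1 + (z ^ 1) ^ 3) * (1 + z ^ 2 + (z ^ 2) ^ 3) * (1 + z ^ 3 + (z ^ 3) ^ 3) * (1 + z ^ 4 + (z ^ 4) ^ 3) * (1 + z ^ 5 + (z ^ 5) ^ 3) * (1 + z ^ 6 + (z ^ 6) ^ 3) * (1 + z ^ 7 + (z ^ 7) ^ 3) * (1 + z ^ 8 + (z ^ 8) ^ 3) * (1 + z ^ 9 + (z ^ 9) ^ 3) * (1 + z ^ 10 + (z ^ 10) ^ 3) * (1 + z ^ 11 + (z ^ 11) ^ 3) * (1 + z ^ 12 + (z ^ 12) ^ 3) = 53 := by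
  have h2 : (1 + z + z ^ 3) * (1 + z ^ 2 + (z ^ 2) ^ 3) = 1 + z + z ^ 2 + 2 * z ^ 3 + z ^ 5 + z ^ 6 + z ^ 7 + z ^ 9 := by
    linear_combination (0) * hz
  have h3 : (1 + z + z ^ 2 + 2 * z ^ 3 + z ^ 5 + z ^ 6 + z ^ 7 + z ^ 9) * (1 + z ^ 3 + (z ^ 3) ^ 3) = -2 - z - z ^ 2 + z ^ 3 - 2 * z ^ 4 - 2 * z ^ 7 - 2 * z ^ 8 - z ^ 10 - 2 * z ^ 11 := by
    linear_combination (3 - z + z ^ 4 - z ^ 5 + z ^ 6) * hz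
  have h4 : (-2 - z - z ^ 2 + z ^ 3 - 2 * z ^ 4 - 2 * z ^ 7 - 2 * z ^ 8 - z ^ 10 - 2 * z ^ 11) * (1 + z ^ 4 + (z ^ 4) ^ 3) = 1 + z + 2 * z ^ 2 + 3 * z ^ 3 + 3 * z ^ 5 + z ^ 6 + z ^ 7 + 3 * z ^ 9 + z ^ 10 := by
    linear_combination (-3 + z - z ^ 2 + z ^ 3 - 2 * z ^ 4 + 2 * z ^ 6 - 2 * z ^ 8 + z ^ 9 + z ^ 10 - 2 * z ^ 11) * hz
  have h5 : (1 + z + 2 * z ^ 2 + 3 * z ^ 3 + 3 * z ^ 5 + z ^ 6 + z ^ 7 + 3 * z ^ 9 + z ^ 10) * (1 + z ^ 5 + (z ^ 5) ^ 3) = -1 + 2 * z + 2 * z ^ 2 + 2 * z ^ 3 + 5 * z ^ 5 + 4 * z ^ 7 + 2 * z ^ 8 + 2 * z ^ 9 + 2 * z ^ 10 + 2 * z ^ 11 := by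
    linear_combination (2 - 3 * z + z ^ 2 + z ^ 3 - z ^ 4 - z ^ 5 + 3 * z ^ 6 - 3 * z ^ 7 + 2 * z ^ 8 + z ^ 10 - 3 * z ^ 11 + 2 * z ^ 12 + z ^ 13) * hz
  have h6 : (-1 + 2 * z + 2 * z ^ 2 + 2 * z ^ 3 + 5 * z ^ 5 + 4 * z ^ 7 + 2 * z ^ 8 + 2 * z ^ 9 + 2 * z ^ 10 + 2 * z ^ 11) * (1 + z ^ 6 + (z ^ 6) ^ 3) = 1 + 2 * z + 2 * z ^ 2 + 2 * z ^ 3 - 2 * z ^ 4 - 3 * z ^ 6 + 4 * z ^ 7 + 2 * z ^ 8 + 3 * z ^ 10 + 3 * z ^ 11 := by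
    linear_combination (-2 + 2 * z + 2 * z ^ 4 + 3 * z ^ 5 - 3 * z ^ 6 + 2 * z ^ 9 - 5 * z ^ 10 + 5 * z ^ 11 - 4 * z ^ 12 + 2 * z ^ 13 + 2 * z ^ 17) * hz
  have h7 : (1 + 2 * z + 2 * z ^ 2 + 2 * z ^ 3 - 2 * z ^ 4 - 3 * z ^ 6 + 4 * z ^ 7 + 2 * z ^ 8 + 3 * z ^ 10 + 3 * z ^ 11) * (1 + z ^ 7 + (z ^ 7) ^ 3) = 5 * z + 10 * z ^ 2 + 6 * z ^ 3 + 3 * z ^ 4 + 8 * z ^ 5 + 2 * z ^ 6 + 7 * z ^ 7 + 7 * z ^ 8 + 6 * z ^ 9 + 9 * z ^ 10 + 5 * z ^ 11 := by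
    linear_combination (1 - 4 * z - 5 * z ^ 2 + 4 * z ^ 3 - z ^ 4 - 3 * z ^ 5 + 3 * z ^ 6 + 3 * z ^ 7 - z ^ 8 - z ^ 9 + 4 * z ^ 12 - 2 * z ^ 13 + 3 * z ^ 14 - 7 * z ^ 15 + 2 * z ^ 16 + 2 * z ^ 17 - 3 * z ^ 18 + 3 * z ^ 20) * hz
  have h8 : (5 * z + 10 * z ^ 2 + 6 * z ^ 3 + 3 * z ^ 4 + 8 * z ^ 5 + 2 * z ^ 6 + 7 * z ^ 7 + 7 * z ^ 8 + 6 * z ^ 9 + 9 * z ^ 10 + 5 * z ^ 11) * (1 + z ^ 8 + (z ^ 8) ^ 3) = 10 + 5 * z + 12 * z ^ 2 + 13 * z ^ 3 + 3 * z ^ 4 + 16 * z ^ 5 + 6 * z ^ 6 + 5 * z ^ 7 + 8 * z ^ 8 + 8 * z ^ 9 + 11 * z ^ 10 + 3 * z ^ 11 := by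
    linear_combination (-10 + 10 * z - 2 * z ^ 2 - 5 * z ^ 3 + 7 * z ^ 4 - 8 * z ^ 5 + 4 * z ^ 6 + 6 * z ^ 7 - 3 * z ^ 8 + 4 * z ^ 9 + 5 * z ^ 10 - 5 * z ^ 12 - 5 * z ^ 13 + 4 * z ^ 14 + 3 * z ^ 15 - 5 * z ^ 16 + 6 * z ^ 17 - 5 * z ^ 18 + z ^ 20 - 3 * z ^ 21 + 4 * z ^ 22 + 5 * z ^ 23) * hz
  have h9 : (10 + 5 * z + 12 * z ^ 2 + 13 * z ^ 3 + 3 * z ^ 4 + 16 * z ^ 5 + 6 * z ^ 6 + 5 * z ^ 7 + 8 * z ^ 8 + 8 * z ^ 9 + 11 * z ^ 10 + 3 * z ^ 11) * (1 + z ^ 9 + (z ^ 9) ^ 3) = -3 + 15 * z + 7 * z ^ 2 + 14 * z ^ 3 + 8 * z ^ 4 + 11 * z ^ 5 + 17 * z ^ 6 - 2 * z ^ 7 - 3 * z ^ 8 + 10 * z ^ 9 + 8 * z ^ 10 + 10 * z ^ 11 := by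
    linear_combination (13 - 23 * z + 15 * z ^ 2 - 6 * z ^ 3 - 4 * z ^ 4 + 10 * z ^ 5 - 16 * z ^ 6 + 18 * z ^ 7 + 4 * z ^ 8 - 3 * z ^ 9 - 3 * z ^ 11 + 8 * z ^ 12 + 3 * z ^ 13 - 10 * z ^ 14 + 5 * z ^ 15 - 7 * z ^ 16 - z ^ 17 + 10 * z ^ 18 - 13 * z ^ 19 + 10 * z ^ 20 + z ^ 21 - 3 * z ^ 22 - 3 * z ^ 24 + 8 * z ^ 25 + 3 * z ^ 26) * hz
  have h10 : (-3 + 15 * z + 7 * z ^ 2 + 14 * z ^ 3 + 8 * z ^ 4 + 11 * z ^ 5 + 17 * z ^ 6 - 2 * z ^ 7 - 3 * z ^ 8 + 10 * z ^ 9 + 8 * z ^ 10 + 10 * z ^ 11) * (1 + z ^ 10 + (z ^ 10) ^ 3) = 17 + 27 * z + 24 * z ^ 2 + 27 * z ^ 3 - z ^ 4 + 19 * z ^ 5 + 30 * z ^ 6 + 16 * z ^ 7 + 11 * z ^ 8 + 17 * z ^ 9 + 18 * z ^ 10 + 19 * z ^ 11 := by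
    linear_combination (-20 + 8 * z - 5 * z ^ 2 + 4 * z ^ 3 + 22 * z ^ 4 - 17 * z ^ 5 - 5 * z ^ 6 - 5 * z ^ 7 + 4 * z ^ 8 + 7 * z ^ 9 - 6 * z ^ 10 + 19 * z ^ 11 + z ^ 12 - 13 * z ^ 13 + 2 * z ^ 14 - 2 * z ^ 15 + 10 * z ^ 16 + 3 * z ^ 17 - 18 * z ^ 18 + 8 * z ^ 19 - 7 * z ^ 20 + 6 * z ^ 21 - 3 * z ^ 22 - 6 * z ^ 23 + 19 * z ^ 24 + z ^ 25 - 13 * z ^ 26 + 2 * z ^ 27 - 2 * z ^ 28 + 10 * z ^ 29) * hz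
  have h11 : (17 + 27 * z + 24 * z ^ 2 + 27 * z ^ 3 - z ^ 4 + 19 * z ^ 5 + 30 * z ^ 6 + 16 * z ^ 7 + 11 * z ^ 8 + 17 * z ^ 9 + 18 * z ^ 10 + 19 * z ^ 11) * (1 + z ^ 11 + (z ^ 11) ^ 3) = 25 + 24 * z - 12 * z ^ 2 + 17 * z ^ 3 + z ^ 4 + 8 * z ^ 5 - 5 * z ^ 6 + 4 * z ^ 7 + 10 * z ^ 8 + 14 * z ^ 9 - z ^ 10 - 11 * z ^ 11 := by
    linear_combination (-8 + 11 * z + 33 * z ^ 2 - 26 * z ^ 3 - 12 * z ^ 4 + 13 * z ^ 5 + 24 * z ^ 6 - 23 * z ^ 7 - 11 * z ^ 8 + 2 * z ^ 9 + 16 * z ^ 10 + 28 * z ^ 11 - 20 * z ^ 12 - 11 * z ^ 13 + 14 * z ^ 14 + 5 * z ^ 15 - 6 * z ^ 16 - z ^ 17 - z ^ 18 + 19 * z ^ 19 - 17 * z ^ 20 - 10 * z ^ 21 + 3 * z ^ 22 - 3 * z ^ 23 + 28 * z ^ 24 - 20 * z ^ 25 - 11 * z ^ 26 + 14 *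 z ^ 27 + 5 * z ^ 28 - 6 * z ^ 29 - z ^ 30 - z ^ 31 + 19 * z ^ 32) * hz
  have h12 : (25 + 24 * z - 12 * z ^ 2 + 17 * z ^ 3 + z ^ 4 + 8 * z ^ 5 - 5 * z ^ 6 + 4 * z ^ 7 + 10 * z ^ 8 + 14 * z ^ 9 - z ^ 10 - 11 * z ^ 11) * (1 + z ^ 12 + (z ^ 12) ^ 3) = 53 := by
    linear_combination (-28 + 52 * z - 36 * z ^ 2 + 29 * z ^ 3 - 16 * z ^ 4 + 7 * z ^ 5 - 13 * z ^ 6 + 9 * z ^ 7 + 6 * z ^ 8 + 4 * z ^ 9 - 15 * z ^ 10 - 10 * z ^ 11 + 36 * z ^ 12 - 29 * z ^ 13 + 16 * z ^ 14 - 7 * z ^ 15 + 13 * z ^ 16 - 9 * z ^ 17 - 6 * z ^ 18 - 4 * z ^ 19 + 15 * z ^ 20 + 10 * z ^ 21 - 11 * z ^ 22 - 25 * z ^ 23 + z ^ 24 + 36 * z ^ 25 - 29 * z ^ 26 + 16 * z ^ 27 - 7 * z ^ 28 + 13 * z ^ 29 - 9 * z ^ 30 - 6 * z ^ 31 -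 4 * z ^ 32 + 15 * z ^ 33 + 10 * z ^ 34 - 11 * z ^ 35) * hz
  have e1 : (1 + z ^ 1 + (z ^ 1) ^ 3) = 1 + z + z ^ 3 := by ring
  rw [e1, h2, h3, h4, h5, h6, h7, h8, h9, h10, h11, h12]

theorem prod_thirteen_53 {R : Type*} [CommRing R] (z : R) (hz : ∑ i ∈ Finset.range 13, z ^ i = 0) :
    ∏ k ∈ Finset.Ico 1 13, (1 + (z ^ k) + (z ^ k) ^ 3) = 53 := by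
  have hz' : 1 + z + z ^ 2 + z ^ 3 + z ^ 4 + z ^ 5 + z ^ 6 + z ^ 7 + z ^ 8 + z ^ 9 + z ^ 10 + z ^ 11 + z ^ 12 = 0 := by simpa [Finset.sum_range_succ] using hz
  rw [prod_Ico_thirteen]
  exact prod_thirteen_53_aux z hz'

theorem prod_thirteen_27_aux {R : Type*} [CommRing R] (z : R) (hz : 1 + z + z ^ 2 + z ^ 3 + z ^ 4 + z ^ 5 + z ^ 6 + z ^ 7 + z ^ 8 + z ^ 9 + z ^ 10 + z ^ 11 + z ^ 12 = 0) :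
    (1 + z ^ 1 - (z ^ 1) ^ 3) * (1 + z ^ 2 - (z ^ 2) ^ 3) * (1 + z ^ 3 - (z ^ 3) ^ 3) * (1 + z ^ 4 - (z ^ 4) ^ 3) * (1 + z ^ 5 - (z ^ 5) ^ 3) * (1 + z ^ 6 - (z ^ 6) ^ 3) * (1 + z ^ 7 - (z ^ 7) ^ 3) * (1 + z ^ 8 - (z ^ 8) ^ 3) * (1 + z ^ 9 - (z ^ 9) ^ 3) * (1 + z ^ 10 - (z ^ 10) ^ 3) * (1 + z ^ 11 - (z ^ 11) ^ 3) * (1 + z ^ 12 - (z ^ 12) ^ 3) = 27 := by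
  have h2 : (1 + z - z ^ 3) * (1 + z ^ 2 - (z ^ 2) ^ 3) = 1 + z + z ^ 2 - z ^ 5 - z ^ 6 - z ^ 7 + z ^ 9 := by
    linear_combination (0) * hz
  have h3 : (1 + z + z ^ 2 - z ^ 5 - z ^ 6 - z ^ 7 + z ^ 9) * (1 + z ^ 3 - (z ^ 3) ^ 3) = z + z ^ 2 + z ^ 3 - 2 * z ^ 5 - 2 * z ^ 6 - 2 * z ^ 7 - 2 * z ^ 8 - 2 * z ^ 9 - 3 * z ^ 10 - 2 * z ^ 11 := by
    linear_combination (1 - z + z ^ 4 + z ^ 5 - z ^ 6) * hz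
  have h4 : (z + z ^ 2 + z ^ 3 - 2 * z ^ 5 - 2 * z ^ 6 - 2 * z ^ 7 - 2 * z ^ 8 - 2 * z ^ 9 - 3 * z ^ 10 - 2 * z ^ 11) * (1 + z ^ 4 - (z ^ 4) ^ 3) = -1 - z + 3 * z ^ 3 + 4 * z ^ 4 + 3 * z ^ 5 + 3 * z ^ 6 + 3 * z ^ 7 + 2 * z ^ 8 + z ^ 9 - z ^ 10 - 2 * z ^ 11 := by
    linear_combination (1 + z - z ^ 2 - 3 * z ^ 3 - 2 * z ^ 4 - z ^ 9 + z ^ 10 + 2 * z ^ 11) * hz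
  have h5 : (-1 - z + 3 * z ^ 3 + 4 * z ^ 4 + 3 * z ^ 5 + 3 * z ^ 6 + 3 * z ^ 7 + 2 * z ^ 8 + z ^ 9 - z ^ 10 - 2 * z ^ 11) * (1 + z ^ 5 - (z ^ 5) ^ 3) = -1 - 4 * z - 4 * z ^ 2 - 2 * z ^ 3 - 5 * z ^ 5 - 6 * z ^ 6 - 4 * z ^ 7 - 2 * z ^ 8 - 2 * z ^ 9 - 4 * z ^ 10 - 4 * z ^ 11 := by
    linear_combination (3 * z + z ^ 2 + z ^ 3 - z ^ 4 + 3 * z ^ 5 + z ^ 6 - z ^ 7 - z ^ 10 - z ^ 11 - 2 * z ^ 12 - z ^ 13 + 2 * z ^ 14) * hz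
  have h6 : (-1 - 4 * z - 4 * z ^ 2 - 2 * z ^ 3 - 5 * z ^ 5 - 6 * z ^ 6 - 4 * z ^ 7 - 2 * z ^ 8 - 2 * z ^ 9 - 4 * z ^ 10 - 4 * z ^ 11) * (1 + z ^ 6 - (z ^ 6) ^ 3) = -1 - 2 * z - 2 * z ^ 4 - 2 * z ^ 5 - z ^ 6 - 2 * z ^ 7 - 2 * z ^ 8 - 2 * z ^ 9 + 3 * z ^ 10 - z ^ 11 := by
    linear_combination (-2 * z - 2 * z ^ 2 + 2 * z ^ 3 + 4 * z ^ 4 - 5 * z ^ 5 - 3 * z ^ 6 + 2 * z ^ 8 + 2 * z ^ 9 - 5 * z ^ 10 - z ^ 11 + 2 * z ^ 12 + 2 * z ^ 13 - 2 * z ^ 15 + 4 * z ^ 17) * hz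
  have h7 : (-1 - 2 * z - 2 * z ^ 4 - 2 * z ^ 5 - z ^ 6 - 2 * z ^ 7 - 2 * z ^ 8 - 2 * z ^ 9 + 3 * z ^ 10 - z ^ 11) * (1 + z ^ 7 - (z ^ 7) ^ 3) = -3 * z + 3 * z ^ 4 - 6 * z ^ 5 - 3 * z ^ 7 - 3 * z ^ 8 + 3 * z ^ 10 - 3 * z ^ 11 := by
    linear_combination (-1 + 2 * z - z ^ 2 - 5 * z ^ 4 + 9 * z ^ 5 - 5 * z ^ 6 + z ^ 7 - z ^ 8 - z ^ 9 + 2 * z ^ 10 - 2 * z ^ 12 + z ^ 14 - z ^ 15 + 5 * z ^ 18 - 4 * z ^ 19 + z ^ 20) * hz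
  have h8 : (-3 * z + 3 * z ^ 4 - 6 * z ^ 5 - 3 * z ^ 7 - 3 * z ^ 8 + 3 * z ^ 10 - 3 * z ^ 11) * (1 + z ^ 8 - (z ^ 8) ^ 3) = -12 - 9 * z - 12 * z ^ 2 - 3 * z ^ 3 - 3 * z ^ 4 - 6 * z ^ 5 - 6 * z ^ 6 - 9 * z ^ 7 - 12 * z ^ 8 - 6 * z ^ 9 - 3 * z ^ 10 - 9 * z ^ 11 := by
    linear_combination (12 - 6 * z + 6 * z ^ 2 - 9 * z ^ 3 + 3 * z ^ 4 - 6 * z ^ 5 + 6 * z ^ 6 + 3 * z ^ 8 - 6 * z ^ 9 + 3 * z ^ 10 - 3 * z ^ 12 + 3 * z ^ 13 + 3 * z ^ 15 - 9 * z ^ 16 + 6 * z ^ 17 - 3 * z ^ 18 + 3 * z ^ 20 + 3 * z ^ 21 - 6 * z ^ 22 + 3 * z ^ 23) * hz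
  have h9 : (-12 - 9 * z - 12 * z ^ 2 - 3 * z ^ 3 - 3 * z ^ 4 - 6 * z ^ 5 - 6 * z ^ 6 - 9 * z ^ 7 - 12 * z ^ 8 - 6 * z ^ 9 - 3 * z ^ 10 - 9 * z ^ 11) * (1 + z ^ 9 - (z ^ 9) ^ 3) = -21 - 9 * z - 15 * z ^ 2 - 6 * z ^ 3 - 18 * z ^ 4 - 15 * z ^ 5 - 9 * z ^ 6 - 18 * z ^ 7 - 9 * z ^ 8 - 12 * z ^ 9 - 12 * z ^ 10 - 24 * z ^ 11 := by
    linear_combination (9 - 9 * z + 3 * z ^ 2 + 12 * z ^ 4 - 6 * z ^ 5 - 6 * z ^ 6 + 6 * z ^ 7 - 12 * z ^ 8 - 3 * z ^ 9 + 6 * z ^ 10 + 3 * z ^ 11 - 6 * z ^ 12 + 9 * z ^ 13 - 12 * z ^ 14 + 3 * z ^ 15 - 3 * z ^ 16 + 9 * z ^ 17 - 3 * z ^ 19 - 3 * z ^ 21 - 3 * z ^ 22 + 6 * z ^ 23 + 3 * z ^ 24 - 6 * z ^ 25 + 9 * z ^ 26) * hz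
  have h10 : (-21 - 9 * z - 15 * z ^ 2 - 6 * z ^ 3 - 18 * z ^ 4 - 15 * z ^ 5 - 9 * z ^ 6 - 18 * z ^ 7 - 9 * z ^ 8 - 12 * z ^ 9 - 12 * z ^ 10 - 24 * z ^ 11) * (1 + z ^ 10 - (z ^ 10) ^ 3) = -9 - 9 * z - 9 * z ^ 3 - 9 * z ^ 4 - 9 * z ^ 5 - 18 * z ^ 7 - 9 * z ^ 8 + 9 * z ^ 9 - 18 * z ^ 10 - 9 * z ^ 11 := by
    linear_combination (-12 + 12 * z - 15 * z ^ 2 + 18 * z ^ 3 - 12 * z ^ 4 + 3 * z ^ 5 - 3 * z ^ 6 + 9 * z ^ 7 - 21 * z ^ 9 + 6 * z ^ 10 - 9 * z ^ 11 + 9 * z ^ 12 - 3 * z ^ 13 - 12 * z ^ 15 + 24 * z ^ 16 - 21 * z ^ 17 + 12 * z ^ 18 - 6 * z ^ 19 + 9 * z ^ 20 - 12 * z ^ 21 + 3 * z ^ 22 + 6 * z ^ 23 - 9 * z ^ 24 + 9 * z ^ 25 - 3 * z ^ 26 - 12 * z ^ 28 + 24 * z ^ 29) * hz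
  have h11 : (-9 - 9 * z - 9 * z ^ 3 - 9 * z ^ 4 - 9 * z ^ 5 - 18 * z ^ 7 - 9 * z ^ 8 + 9 * z ^ 9 - 18 * z ^ 10 - 9 * z ^ 11) * (1 + z ^ 11 - (z ^ 11) ^ 3) = -9 - 27 * z ^ 3 + 9 * z ^ 4 - 18 * z ^ 5 - 9 * z ^ 6 - 18 * z ^ 8 - 9 * z ^ 10 - 9 * z ^ 11 := by
    linear_combination (-9 * z + 9 * z ^ 2 + 18 * z ^ 3 - 36 * z ^ 4 + 27 * z ^ 5 - 27 * z ^ 7 + 27 * z ^ 8 - 18 * z ^ 10 + 9 * z ^ 13 - 18 * z ^ 14 + 9 * z ^ 15 + 18 * z ^ 16 - 27 * z ^ 17 + 9 * z ^ 18 + 9 * z ^ 19 - 9 * z ^ 20 + 9 * z ^ 22 - 9 * z ^ 23 + 9 * z ^ 26 - 18 * z ^ 27 + 9 * z ^ 28 + 18 * z ^ 29 - 27 * z ^ 30 + 9 * z ^ 31 + 9 * z ^ 32) * hz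
  have h12 : (-9 - 27 * z ^ 3 + 9 * z ^ 4 - 18 * z ^ 5 - 9 * z ^ 6 - 18 * z ^ 8 - 9 * z ^ 10 - 9 * z ^ 11) * (1 + z ^ 12 - (z ^ 12) ^ 3) = 27 := by
    linear_combination (-36 + 36 * z - 27 * z ^ 3 + 36 * z ^ 4 - 27 * z ^ 5 + 9 * z ^ 6 + 9 * z ^ 7 - 18 * z ^ 8 + 18 * z ^ 9 - 9 * z ^ 10 - 27 * z ^ 13 + 36 * z ^ 14 - 27 * z ^ 15 + 9 * z ^ 16 + 9 * z ^ 17 - 18 * z ^ 18 + 18 * z ^ 19 - 9 * z ^ 20 + 9 * z ^ 22 - 9 * z ^ 23 + 9 * z ^ 24 - 27 * z ^ 26 + 36 * z ^ 27 - 27 * z ^ 28 + 9 * z ^ 29 + 9 * z ^ 30 - 18 * z ^ 31 + 18 * z ^ 32 - 9 * z ^ 33 + 9 * z ^ 35) * hz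
  have e1 : (1 + z ^ 1 - (z ^ 1) ^ 3) = 1 + z - z ^ 3 := by ring
  rw [e1, h2, h3, h4, h5, h6, h7, h8, h9, h10, h11, h12]

theorem prod_thirteen_27 {R : Type*} [CommRing R] (z : R) (hz : ∑ i ∈ Finset.range 13, z ^ i = 0) :
    ∏ k ∈ Finset.Ico 1 13, (1 + (z ^ k) - (z ^ k) ^ 3) = 27 := by
  have hz' : 1 + z + z ^ 2 + z ^ 3 + z ^ 4 + z ^ 5 + z ^ 6 + z ^ 7 + z ^ 8 + z ^ 9 + z ^ 10 + z ^ 11 + z ^ 12 = 0 := by simpa [Finset.sum_range_succ] using hz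
  rw [prod_Ico_thirteen]
  exact prod_thirteen_27_aux z hz'

theorem prod_thirteen_131_aux {R : Type*} [CommRing R] (z : R) (hz : 1 + z + z ^ 2 + z ^ 3 + z ^ 4 + z ^ 5 + z ^ 6 + z ^ 7 + z ^ 8 + z ^ 9 + z ^ 10 + z ^ 11 + z ^ 12 = 0) :
    (1 - z ^ 1 - (z ^ 1) ^ 3) * (1 - z ^ 2 - (z ^ 2) ^ 3) * (1 - z ^ 3 - (z ^ 3) ^ 3) * (1 - z ^ 4 - (z ^ 4) ^ 3) * (1 - z ^ 5 - (z ^ 5) ^ 3) * (1 - z ^ 6 - (z ^ 6) ^ 3) * (1 - z ^ 7 - (z ^ 7) ^ 3) * (1 - z ^ 8 - (z ^ 8) ^ 3) * (1 - z ^ 9 - (z ^ 9) ^ 3) * (1 - z ^ 10 - (z ^ 10) ^ 3) * (1 - z ^ 11 - (z ^ 11) ^ 3) * (1 - z ^ 12 - (z ^ 12) ^ 3) = 131 := by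
  have h2 : (1 - z - z ^ 3) * (1 - z ^ 2 - (z ^ 2) ^ 3) = 1 - z - z ^ 2 + z ^ 5 - z ^ 6 + z ^ 7 + z ^ 9 := by
    linear_combination (0) * hz
  have h3 : (1 - z - z ^ 2 + z ^ 5 - z ^ 6 + z ^ 7 + z ^ 9) * (1 - z ^ 3 - (z ^ 3) ^ 3) = 2 - z + z ^ 2 - z ^ 3 + 2 * z ^ 4 + 2 * z ^ 5 + 2 * z ^ 7 + 2 * z ^ 9 + z ^ 10 + 2 * z ^ 11 := by
    linear_combination (-1 + z - 2 * z ^ 2 + 2 * z ^ 3 - z ^ 4 + z ^ 5 - z ^ 6) * hz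
  have h4 : (2 - z + z ^ 2 - z ^ 3 + 2 * z ^ 4 + 2 * z ^ 5 + 2 * z ^ 7 + 2 * z ^ 9 + z ^ 10 + 2 * z ^ 11) * (1 - z ^ 4 - (z ^ 4) ^ 3) = 3 - z + 2 * z ^ 2 - z ^ 3 + 5 * z ^ 5 - z ^ 6 + 5 * z ^ 7 - 2 * z ^ 8 + z ^ 9 + z ^ 10 + 2 * z ^ 11 := by
    linear_combination (-1 + z - z ^ 2 + z ^ 3 - 2 * z ^ 5 + 2 * z ^ 6 - 2 * z ^ 7 + 2 * z ^ 8 - z ^ 9 + z ^ 10 - 2 * z ^ 11) * hz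
  have h5 : (3 - z + 2 * z ^ 2 - z ^ 3 + 5 * z ^ 5 - z ^ 6 + 5 * z ^ 7 - 2 * z ^ 8 + z ^ 9 + z ^ 10 + 2 * z ^ 11) * (1 - z ^ 5 - (z ^ 5) ^ 3) = 9 + 4 * z + 4 * z ^ 2 + 4 * z ^ 3 + 4 * z ^ 4 + 9 * z ^ 5 + 6 * z ^ 6 + 4 * z ^ 7 + 6 * z ^ 8 + 2 * z ^ 9 + 4 * z ^ 10 + 8 * z ^ 11 := by
    linear_combination (-6 + z + 3 * z ^ 2 - 3 * z ^ 3 + z ^ 4 - 3 * z ^ 5 + z ^ 6 + 5 * z ^ 7 - 6 * z ^ 8 + 6 * z ^ 9 - 7 * z ^ 10 + 3 * z ^ 11 + z ^ 13 - 2 * z ^ 14) * hz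
  have h6 : (9 + 4 * z + 4 * z ^ 2 + 4 * z ^ 3 + 4 * z ^ 4 + 9 * z ^ 5 + 6 * z ^ 6 + 4 * z ^ 7 + 6 * z ^ 8 + 2 * z ^ 9 + 4 * z ^ 10 + 8 * z ^ 11) * (1 - z ^ 6 - (z ^ 6) ^ 3) = 9 + 6 * z + 8 * z ^ 2 + 2 * z ^ 3 + 6 * z ^ 4 + 10 * z ^ 5 + 3 * z ^ 6 + 6 * z ^ 7 + 8 * z ^ 8 + 4 * z ^ 9 + z ^ 10 + 3 * z ^ 11 := by
    linear_combination (-2 * z - 2 * z ^ 2 + 6 * z ^ 3 - 4 * z ^ 4 + z ^ 5 - 5 * z ^ 6 + 5 * z ^ 10 - 3 * z ^ 11 - 2 * z ^ 12 + 2 * z ^ 13 - 4 * z ^ 14 + 2 * z ^ 15 + 4 * z ^ 16 - 8 * z ^ 17) * hz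
  have h7 : (9 + 6 * z + 8 * z ^ 2 + 2 * z ^ 3 + 6 * z ^ 4 + 10 * z ^ 5 + 3 * z ^ 6 + 6 * z ^ 7 + 8 * z ^ 8 + 4 * z ^ 9 + z ^ 10 + 3 * z ^ 11) * (1 - z ^ 7 - (z ^ 7) ^ 3) = 12 + 13 * z + 10 * z ^ 2 + 6 * z ^ 3 + 17 * z ^ 4 + 22 * z ^ 5 + 16 * z ^ 6 + 13 * z ^ 7 + 9 * z ^ 8 + 6 * z ^ 9 + 7 * z ^ 10 + 11 * z ^ 11 := by
    linear_combination (-3 - 4 * z + 5 * z ^ 2 - 2 * z ^ 3 - 7 * z ^ 4 - z ^ 5 - z ^ 6 - 3 * z ^ 7 + 9 * z ^ 8 - 3 * z ^ 9 + 2 * z ^ 10 - 6 * z ^ 11 + 4 * z ^ 12 + 4 * z ^ 13 - 7 * z ^ 14 + 3 * z ^ 15 + 2 * z ^ 16 - 4 * z ^ 17 - 3 * z ^ 18 + 2 * z ^ 19 - 3 * z ^ 20) * hz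
  have h8 : (12 + 13 * z + 10 * z ^ 2 + 6 * z ^ 3 + 17 * z ^ 4 + 22 * z ^ 5 + 16 * z ^ 6 + 13 * z ^ 7 + 9 * z ^ 8 + 6 * z ^ 9 + 7 * z ^ 10 + 11 * z ^ 11) * (1 - z ^ 8 - (z ^ 8) ^ 3) = 10 + 21 * z + 10 * z ^ 2 + 5 * z ^ 3 + 25 * z ^ 4 + 32 * z ^ 5 + 26 * z ^ 6 + 37 * z ^ 7 + 20 * z ^ 8 + 12 * z ^ 9 + 27 * z ^ 10 + 23 * z ^ 11 := by
    linear_combination (2 - 10 * z + 8 * z ^ 2 + z ^ 3 - 9 * z ^ 4 - 2 * z ^ 5 - 14 * z ^ 7 + z ^ 8 + 4 * z ^ 9 - 11 * z ^ 10 + 12 * z ^ 11 + z ^ 12 - 3 * z ^ 13 - 4 * z ^ 14 + 11 * z ^ 15 + 5 * z ^ 16 - 6 * z ^ 17 - 3 * z ^ 18 - 4 * z ^ 19 - 3 * z ^ 20 + z ^ 21 + 4 * z ^ 22 - 11 * z ^ 23) * hz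
  have h9 : (10 + 21 * z + 10 * z ^ 2 + 5 * z ^ 3 + 25 * z ^ 4 + 32 * z ^ 5 + 26 * z ^ 6 + 37 * z ^ 7 + 20 * z ^ 8 + 12 * z ^ 9 + 27 * z ^ 10 + 23 * z ^ 11) * (1 - z ^ 9 - (z ^ 9) ^ 3) = 13 + 7 * z - 9 * z ^ 2 - 14 * z ^ 3 + 28 * z ^ 4 + 23 * z ^ 5 - 5 * z ^ 6 + 16 * z ^ 7 + 11 * z ^ 8 + 10 * z ^ 9 + 22 * z ^ 10 + 14 * z ^ 11 := by
    linear_combination (-3 + 17 * z + 5 * z ^ 2 - 22 * z ^ 4 + 12 * z ^ 5 + 22 * z ^ 6 - 10 * z ^ 7 - 12 * z ^ 8 - 17 * z ^ 9 - 8 * z ^ 10 + 15 * z ^ 11 - 4 * z ^ 12 - 23 * z ^ 13 + 10 * z ^ 14 + 11 * z ^ 15 - 11 * z ^ 16 - 5 * z ^ 17 + 20 * z ^ 18 + 7 * z ^ 19 - 6 * z ^ 20 + 11 * z ^ 21 - 17 * z ^ 22 - 8 * z ^ 23 + 15 * z ^ 24 - 4 * z ^ 25 - 23 * z ^ 26) *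 hz
  have h10 : (13 + 7 * z - 9 * z ^ 2 - 14 * z ^ 3 + 28 * z ^ 4 + 23 * z ^ 5 - 5 * z ^ 6 + 16 * z ^ 7 + 11 * z ^ 8 + 10 * z ^ 9 + 22 * z ^ 10 + 14 * z ^ 11) * (1 - z ^ 10 - (z ^ 10) ^ 3) = 19 - 41 * z - 44 * z ^ 2 - 7 * z ^ 3 + z ^ 4 + 7 * z ^ 5 - 4 * z ^ 6 + 10 * z ^ 7 - 29 * z ^ 8 - 11 * z ^ 9 + 16 * z ^ 10 - 7 * z ^ 11 := by
    linear_combination (-6 + 54 * z - 13 * z ^ 2 - 42 * z ^ 3 + 34 * z ^ 4 - 11 * z ^ 5 - 17 * z ^ 6 + 7 * z ^ 7 + 34 * z ^ 8 - 19 * z ^ 9 - 28 * z ^ 10 + 21 * z ^ 11 - 5 * z ^ 12 - z ^ 13 + 12 * z ^ 14 - 8 * z ^ 15 - 14 * z ^ 16 + 13 * z ^ 17 - 6 * z ^ 18 - 16 * z ^ 19 - 5 * z ^ 20 + 42 * z ^ 21 - 5 * z ^ 22 - 28 * z ^ 23 + 21 * z ^ 24 - 5 * z ^ 25 - z ^ 26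 + 12 * z ^ 27 - 8 * z ^ 28 - 14 * z ^ 29) * hz
  have h11 : (19 - 41 * z - 44 * z ^ 2 - 7 * z ^ 3 + z ^ 4 + 7 * z ^ 5 - 4 * z ^ 6 + 10 * z ^ 7 - 29 * z ^ 8 - 11 * z ^ 9 + 16 * z ^ 10 - 7 * z ^ 11) * (1 - z ^ 11 - (z ^ 11) ^ 3) = 33 - 78 * z - 50 * z ^ 2 - 37 * z ^ 3 - 45 * z ^ 4 - 30 * z ^ 5 - 9 * z ^ 6 - 32 * z ^ 7 - 38 * z ^ 8 + 6 * z ^ 9 - 11 * z ^ 10 - 61 * z ^ 11 := by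
    linear_combination (-14 + 51 * z - 31 * z ^ 2 + 24 * z ^ 3 + 16 * z ^ 4 - 9 * z ^ 5 - 32 * z ^ 6 + 37 * z ^ 7 - 33 * z ^ 8 - 26 * z ^ 9 + 44 * z ^ 10 + 8 * z ^ 11 + 6 * z ^ 12 - 11 * z ^ 13 + 14 * z ^ 14 - 39 * z ^ 15 + 18 * z ^ 16 + 27 * z ^ 17 - 23 * z ^ 18 + 7 * z ^ 19 + 19 * z ^ 20 - 60 * z ^ 21 - 3 * z ^ 22 + 37 * z ^ 23 + 8 * z ^ 24 + 6 * z ^ 25 - 11 * z ^ 26 + 14 * z ^ 27 - 39 * z ^ 28 + 18 * z ^ 29 + 27 * z ^ 30 - 23 * z ^ 31 + 7 * z ^ 32) * hz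
  have h12 : (33 - 78 * z - 50 * z ^ 2 - 37 * z ^ 3 - 45 * z ^ 4 - 30 * z ^ 5 - 9 * z ^ 6 - 32 * z ^ 7 - 38 * z ^ 8 + 6 * z ^ 9 - 11 * z ^ 10 - 61 * z ^ 11) * (1 - z ^ 12 - (z ^ 12) ^ 3) = 131 := by
    linear_combination (-98 + 20 * z + 28 * z ^ 2 + 13 * z ^ 3 - 8 * z ^ 4 + 15 * z ^ 5 + 21 * z ^ 6 - 23 * z ^ 7 - 6 * z ^ 8 + 44 * z ^ 9 - 17 * z ^ 10 - 50 * z ^ 11 + 28 * z ^ 12 + 13 * z ^ 13 - 8 * z ^ 14 + 15 * z ^ 15 + 21 * z ^ 16 - 23 * z ^ 17 - 6 * z ^ 18 + 44 * z ^ 19 - 17 * z ^ 20 - 50 * z ^ 21 + 61 * z ^ 22 + 33 * z ^ 23 - 111 * z ^ 24 + 28 * z ^ 25 + 13 * z ^ 26 - 8 * z ^ 27 + 15 * z ^ 28 + 21 * z ^ 29 - 23 * z ^ 30 - 6 * z ^ 31 + 44 * z ^ 32 - 17 * z ^ 33 - 50 * z ^ 34 + 61 * z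 ^ 35) * hz
  have e1 : (1 - z ^ 1 - (z ^ 1) ^ 3) = 1 - z - z ^ 3 := by ring
  rw [e1, h2, h3, h4, h5, h6, h7, h8, h9, h10, h11, h12]

theorem prod_thirteen_131 {R : Type*} [CommRing R] (z : R) (hz : ∑ i ∈ Finset.range 13, z ^ i = 0) :
    ∏ k ∈ Finset.Ico 1 13, (1 - (z ^ k) - (z ^ k) ^ 3) = 131 := by
  have hz' : 1 + z + z ^ 2 + z ^ 3 + z ^ 4 + z ^ 5 + z ^ 6 + z ^ 7 + z ^ 8 + z ^ 9 + z ^ 10 + z ^ 11 + z ^ 12 = 0 := by simpa [Finset.sum_range_succ] using hz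
  rw [prod_Ico_thirteen]
  exact prod_thirteen_131_aux z hz'

theorem prod_thirteen_79_aux {R : Type*} [CommRing R] (z : R) (hz : 1 + z + z ^ 2 + z ^ 3 + z ^ 4 + z ^ 5 + z ^ 6 + z ^ 7 + z ^ 8 + z ^ 9 + z ^ 10 + z ^ 11 + z ^ 12 = 0) :
    (1 + z ^ 1 - (z ^ 1) ^ 4) * (1 + z ^ 2 - (z ^ 2) ^ 4) * (1 + z ^ 3 - (z ^ 3) ^ 4) * (1 + z ^ 4 - (z ^ 4) ^ 4) * (1 + z ^ 5 - (z ^ 5) ^ 4) * (1 + z ^ 6 - (z ^ 6) ^ 4) * (1 + z ^ 7 - (z ^ 7) ^ 4) * (1 + z ^ 8 - (z ^ 8) ^ 4) * (1 + z ^ 9 - (z ^ 9) ^ 4) * (1 + z ^ 10 - (z ^ 10) ^ 4) * (1 + z ^ 11 - (z ^ 11) ^ 4) * (1 + z ^ 12 - (z ^ 12) ^ 4) = 79 := by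
  have h2 : (1 + z - z ^ 4) * (1 + z ^ 2 - (z ^ 2) ^ 4) = -2 * z ^ 4 - z ^ 5 - 2 * z ^ 6 - z ^ 7 - 2 * z ^ 8 - 2 * z ^ 9 - z ^ 10 - z ^ 11 := by
    linear_combination (1) * hz
  have h3 : (-2 * z ^ 4 - z ^ 5 - 2 * z ^ 6 - z ^ 7 - 2 * z ^ 8 - 2 * z ^ 9 - z ^ 10 - z ^ 11) * (1 + z ^ 3 - (z ^ 3) ^ 4) = 1 + z + 2 * z ^ 2 + 4 * z ^ 3 + z ^ 4 + 3 * z ^ 5 + z ^ 6 + z ^ 7 + z ^ 8 - z ^ 9 + z ^ 10 - z ^ 11 := by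
    linear_combination (-1 - z ^ 2 - 2 * z ^ 3 + z ^ 4 - z ^ 5 + z ^ 6 - z ^ 7 + z ^ 9 + z ^ 11) * hz
  have h4 : (1 + z + 2 * z ^ 2 + 4 * z ^ 3 + z ^ 4 + 3 * z ^ 5 + z ^ 6 + z ^ 7 + z ^ 8 - z ^ 9 + z ^ 10 - z ^ 11) * (1 + z ^ 4 - (z ^ 4) ^ 4) = -3 + z - z ^ 2 + z ^ 3 - z ^ 4 - 3 * z ^ 6 + 2 * z ^ 7 - 3 * z ^ 8 - z ^ 9 - z ^ 10 - 3 * z ^ 11 := by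
    linear_combination (4 - 4 * z + 3 * z ^ 2 + z ^ 5 + 2 * z ^ 6 - 3 * z ^ 7 + 2 * z ^ 8 - 2 * z ^ 9 - 2 * z ^ 12 + 2 * z ^ 13 - 2 * z ^ 14 + z ^ 15) * hz
  have h5 : (-3 + z - z ^ 2 + z ^ 3 - z ^ 4 - 3 * z ^ 6 + 2 * z ^ 7 - 3 * z ^ 8 - z ^ 9 - z ^ 10 - 3 * z ^ 11) * (1 + z ^ 5 - (z ^ 5) ^ 4) = -5 - 4 * z - z ^ 2 - 3 * z ^ 3 - 2 * z ^ 4 - 2 * z ^ 5 - 4 * z ^ 6 + 2 * z ^ 7 - 5 * z ^ 8 - 3 * z ^ 9 - 4 * z ^ 10 - 7 * z ^ 11 := by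
    linear_combination (2 + 3 * z - 5 * z ^ 2 + 4 * z ^ 3 - 3 * z ^ 4 - 2 * z ^ 5 + 3 * z ^ 6 - 3 * z ^ 7 + 4 * z ^ 8 - 2 * z ^ 9 + 2 * z ^ 10 - 2 * z ^ 11 + z ^ 12 - 3 * z ^ 13 + 5 * z ^ 14 - 5 * z ^ 15 + 2 * z ^ 16 - 2 * z ^ 18 + 3 * z ^ 19) * hz
  have h6 : (-5 - 4 * z - z ^ 2 - 3 * z ^ 3 - 2 * z ^ 4 - 2 * z ^ 5 - 4 * z ^ 6 + 2 * z ^ 7 - 5 * z ^ 8 - 3 * z ^ 9 - 4 * z ^ 10 - 7 * z ^ 11) * (1 + z ^ 6 - (z ^ 6) ^ 4) = -2 - 6 * z - 2 * z ^ 2 - 5 * z ^ 3 - 5 * z ^ 4 - 4 * z ^ 5 - 4 * z ^ 6 + z ^ 7 - 2 * z ^ 8 + z ^ 9 - 6 * z ^ 10 - 4 * z ^ 11 := by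
    linear_combination (-3 + 5 * z - z ^ 2 + z ^ 3 + z ^ 4 - z ^ 5 - 7 * z ^ 6 + 2 * z ^ 7 - z ^ 8 - 3 * z ^ 9 + 7 * z ^ 10 - 5 * z ^ 11 + z ^ 12 + 3 * z ^ 13 - 2 * z ^ 14 + z ^ 15 - 2 * z ^ 17 + 6 * z ^ 18 - 7 * z ^ 19 + 2 * z ^ 20 - z ^ 21 - 3 * z ^ 22 + 7 * z ^ 23) * hz
  have h7 : (-2 - 6 * z - 2 * z ^ 2 - 5 * z ^ 3 - 5 * z ^ 4 - 4 * z ^ 5 - 4 * z ^ 6 + z ^ 7 - 2 * z ^ 8 + z ^ 9 - 6 * z ^ 10 - 4 * z ^ 11) * (1 + z ^ 7 - (z ^ 7) ^ 4) = -4 - 7 * z - 4 * z ^ 2 - 11 * z ^ 4 - 5 * z ^ 5 - z ^ 6 + z ^ 7 - 6 * z ^ 8 - 4 * z ^ 9 - 11 * z ^ 10 - 12 * z ^ 11 := by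
    linear_combination (2 - z + z ^ 2 - 7 * z ^ 3 + 11 * z ^ 4 - 5 * z ^ 5 - 4 * z ^ 6 + z ^ 7 + 5 * z ^ 9 - 3 * z ^ 10 + 3 * z ^ 11 - 7 * z ^ 12 + 2 * z ^ 13 + 4 * z ^ 14 - 2 * z ^ 15 - 4 * z ^ 16 + 4 * z ^ 17 - 3 * z ^ 18 + z ^ 20 + 5 * z ^ 22 - 3 * z ^ 23 + 3 * z ^ 24 - 7 * z ^ 25 + 2 * z ^ 26 + 4 * z ^ 27) * hz
  have h8 : (-4 - 7 * z - 4 * z ^ 2 - 11 * z ^ 4 - 5 * z ^ 5 - z ^ 6 + z ^ 7 - 6 * z ^ 8 - 4 * z ^ 9 - 11 * z ^ 10 - 12 * z ^ 11) * (1 + z ^ 8 - (z ^ 8) ^ 4) = 8 * z + 11 * z ^ 2 + 15 * z ^ 3 + 7 * z ^ 4 - 6 * z ^ 5 + z ^ 6 + 18 * z ^ 7 + 4 * z ^ 8 - z ^ 9 + 6 * z ^ 10 + 3 * z ^ 11 := by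
    linear_combination (-4 - 11 * z - 3 * z ^ 4 + 19 * z ^ 5 - 3 * z ^ 6 - 15 * z ^ 7 + 3 * z ^ 8 + 4 * z ^ 9 - 11 * z ^ 10 + 6 * z ^ 11 + 4 * z ^ 12 + 2 * z ^ 13 - 7 * z ^ 14 + 2 * z ^ 15 - 7 * z ^ 16 - z ^ 17 + 12 * z ^ 18 - 4 * z ^ 19 - 3 * z ^ 20 + 3 * z ^ 21 + 4 * z ^ 22 - 11 * z ^ 23 + 6 * z ^ 24 + 4 * z ^ 25 + 2 * z ^ 26 - 7 * z ^ 27 + 2 * z ^ 28 - 7 * z ^ 29 - z ^ 30 + 12 * z ^ 31) * hz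
  have h9 : (8 * z + 11 * z ^ 2 + 15 * z ^ 3 + 7 * z ^ 4 - 6 * z ^ 5 + z ^ 6 + 18 * z ^ 7 + 4 * z ^ 8 - z ^ 9 + 6 * z ^ 10 + 3 * z ^ 11) * (1 + z ^ 9 - (z ^ 9) ^ 4) = -12 - 9 * z + 14 * z ^ 2 + 28 * z ^ 3 - 11 * z ^ 4 - 15 * z ^ 5 + 4 * z ^ 6 + 11 * z ^ 7 - 3 * z ^ 8 - 5 * z ^ 9 + 10 * z ^ 10 + 2 * z ^ 11 := by
    linear_combination (12 + 5 * z - 20 * z ^ 2 - 10 * z ^ 3 + 31 * z ^ 4 - 9 * z ^ 5 - 12 * z ^ 6 + 10 * z ^ 7 - 3 * z ^ 9 + 8 * z ^ 11 + 3 * z ^ 12 + 4 * z ^ 13 - 8 * z ^ 14 - 13 * z ^ 15 + 7 * z ^ 16 + 17 * z ^ 17 - 14 * z ^ 18 - 5 * z ^ 19 + 7 * z ^ 20 - 3 * z ^ 21 - 3 * z ^ 22 + 8 * z ^ 24 + 3 * z ^ 25 + 4 * z ^ 26 - 8 * z ^ 27 - 13 * z ^ 28 + 7 * z ^ 29 + 17 * z ^ 30 - 14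 * z ^ 31 - 5 * z ^ 32 + 7 * z ^ 33 - 3 * z ^ 34 - 3 * z ^ 35) * hz
  have h10 : (-12 - 9 * z + 14 * z ^ 2 + 28 * z ^ 3 - 11 * z ^ 4 - 15 * z ^ 5 + 4 * z ^ 6 + 11 * z ^ 7 - 3 * z ^ 8 - 5 * z ^ 9 + 10 * z ^ 10 + 2 * z ^ 11) * (1 + z ^ 10 - (z ^ 10) ^ 4) = 4 - 20 * z - 4 * z ^ 2 + 6 * z ^ 3 - 40 * z ^ 4 - 19 * z ^ 5 + 2 * z ^ 6 + 5 * z ^ 7 - 24 * z ^ 8 - 14 * z ^ 9 - 9 * z ^ 10 - 29 * z ^ 11 := by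
    linear_combination (-16 + 27 * z + 7 * z ^ 2 + 4 * z ^ 3 + 7 * z ^ 4 - 25 * z ^ 5 - 2 * z ^ 6 + 4 * z ^ 7 + 15 * z ^ 8 - 12 * z ^ 9 - 2 * z ^ 10 + 15 * z ^ 11 - 8 * z ^ 12 - 2 * z ^ 13 - 12 * z ^ 14 + 3 * z ^ 15 + 23 * z ^ 16 + 14 * z ^ 17 - 39 * z ^ 18 - 4 * z ^ 19 + 19 * z ^ 20 + 7 * z ^ 21 - 14 * z ^ 22 - 2 * z ^ 23 + 15 * z ^ 24 - 8 * z ^ 25 - 2 * z ^ 26 - 12 * z ^ 27 + 3 * z ^ 28 + 23 * z ^ 29 + 14 * z ^ 30 - 39 * z ^ 31 - 4 * z ^ 32 + 19 * z ^ 33 + 7 * z ^ 34 - 14 * z ^ 35 - 2 * z ^ 36 + 15 * z ^ 37 - 8 * z ^ 38 - 2 * z ^ 39) * hz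
  have h11 : (4 - 20 * z - 4 * z ^ 2 + 6 * z ^ 3 - 40 * z ^ 4 - 19 * z ^ 5 + 2 * z ^ 6 + 5 * z ^ 7 - 24 * z ^ 8 - 14 * z ^ 9 - 9 * z ^ 10 - 29 * z ^ 11) * (1 + z ^ 11 - (z ^ 11) ^ 4) = 49 + 25 * z - 10 * z ^ 2 + 41 * z ^ 3 - 13 * z ^ 4 + 7 * z ^ 5 + 23 * z ^ 6 + 20 * z ^ 7 - 14 * z ^ 8 + 22 * z ^ 9 + 35 * z ^ 10 - 2 * z ^ 11 := by
    linear_combination (-45 + 51 * z ^ 2 - 41 * z ^ 3 + 8 * z ^ 4 + z ^ 5 + 5 * z ^ 6 + 6 * z ^ 7 + 5 * z ^ 8 - 26 * z ^ 9 - 8 * z ^ 10 + 21 * z ^ 11 + 3 * z ^ 12 - 29 * z ^ 13 + 10 * z ^ 14 + 5 * z ^ 15 - 20 * z ^ 16 + 29 * z ^ 17 + 4 * z ^ 18 - 24 * z ^ 19 + 16 * z ^ 20 + 10 * z ^ 21 - 46 * z ^ 22 + 21 * z ^ 23 + 21 * z ^ 24 + 3 * z ^ 25 - 29 * z ^ 26 + 10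 * z ^ 27 + 5 * z ^ 28 - 20 * z ^ 29 + 29 * z ^ 30 + 4 * z ^ 31 - 24 * z ^ 32 + 16 * z ^ 33 + 10 * z ^ 34 - 46 * z ^ 35 + 21 * z ^ 36 + 21 * z ^ 37 + 3 * z ^ 38 - 29 * z ^ 39 + 10 * z ^ 40 + 5 * z ^ 41 - 20 * z ^ 42 + 29 * z ^ 43) * hz
  have h12 : (49 + 25 * z - 10 * z ^ 2 + 41 * z ^ 3 - 13 * z ^ 4 + 7 * z ^ 5 + 23 * z ^ 6 + 20 * z ^ 7 - 14 * z ^ 8 + 22 * z ^ 9 + 35 * z ^ 10 - 2 * z ^ 11) * (1 + z ^ 12 - (z ^ 12) ^ 4) = 79 := by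
    linear_combination (-30 + 55 * z - 35 * z ^ 2 + 51 * z ^ 3 - 54 * z ^ 4 + 20 * z ^ 5 + 16 * z ^ 6 - 3 * z ^ 7 - 34 * z ^ 8 + 36 * z ^ 9 + 13 * z ^ 10 - 37 * z ^ 11 + 51 * z ^ 12 - 54 * z ^ 13 + 20 * z ^ 14 + 16 * z ^ 15 - 3 * z ^ 16 - 34 * z ^ 17 + 36 * z ^ 18 + 13 * z ^ 19 - 37 * z ^ 20 + 2 * z ^ 21 + 49 * z ^ 22 - 24 * z ^ 23 - 35 * z ^ 24 + 51 * z ^ 25 - 54 * z ^ 26 + 20 * z ^ 27 + 16 * z ^ 28 - 3 * z ^ 29 - 34 * z ^ 30 + 36 * z ^ 31 + 13 * z ^ 32 - 37 * z ^ 33 + 2 * z ^ 34 + 49 * z ^ 35 - 24 * z ^ 36 - 35 * z ^ 37 + 51 * z ^ 38 - 54 * z ^ 39 + 20 * z ^ 40 + 16 * z ^ 41 - 3 * z ^ 42 - 34 * z ^ 43 + 36 * z ^ 44 + 13 * z ^ 45 - 37 * z ^ 46 + 2 * z ^ 47) * hz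
  have e1 : (1 + z ^ 1 - (z ^ 1) ^ 4) = 1 + z - z ^ 4 := by ring
  rw [e1, h2, h3, h4, h5, h6, h7, h8, h9, h10, h11, h12]

theorem prod_thirteen_79 {R : Type*} [CommRing R] (z : R) (hz : ∑ i ∈ Finset.range 13, z ^ i = 0) :
    ∏ k ∈ Finset.Ico 1 13, (1 + (z ^ k) - (z ^ k) ^ 4) = 79 := by
  have hz' : 1 + z + z ^ 2 + z ^ 3 + z ^ 4 + z ^ 5 + z ^ 6 + z ^ 7 + z ^ 8 + z ^ 9 + z ^ 10 + z ^ 11 + z ^ 12 = 0 := by simpa [Finset.sum_range_succ] using hz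
  rw [prod_Ico_thirteen]
  exact prod_thirteen_79_aux z hz'

theorem prod_thirteen_157_aux {R : Type*} [CommRing R] (z : R) (hz : 1 + z + z ^ 2 + z ^ 3 + z ^ 4 + z ^ 5 + z ^ 6 + z ^ 7 + z ^ 8 + z ^ 9 + z ^ 10 + z ^ 11 + z ^ 12 = 0) :
    (1 - z ^ 1 + (z ^ 1) ^ 2 + (z ^ 1) ^ 4) * (1 - z ^ 2 + (z ^ 2) ^ 2 + (z ^ 2) ^ 4) * (1 - z ^ 3 + (z ^ 3) ^ 2 + (z ^ 3) ^ 4) * (1 - z ^ 4 + (z ^ 4) ^ 2 + (z ^ 4) ^ 4) * (1 - z ^ 5 + (z ^ 5) ^ 2 + (z ^ 5) ^ 4) * (1 - z ^ 6 + (z ^ 6) ^ 2 + (z ^ 6) ^ 4) * (1 - z ^ 7 + (z ^ 7) ^ 2 + (z ^ 7) ^ 4) * (1 - z ^ 8 + (z ^ 8) ^ 2 + (z ^ 8) ^ 4) * (1 - z ^ 9 + (z ^ 9) ^ 2 + (z ^ 9) ^ 4) * (1 - z ^ 10 + (z ^ 10) ^ 2 + (z ^ 10) ^ 4) * (1 - z ^ 11 + (z ^ 11) ^ 2 + (z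 ^ 11) ^ 4) * (1 - z ^ 12 + (z ^ 12) ^ 2 + (z ^ 12) ^ 4) = 157 := by
  have h2 : (1 - z + z ^ 2 + z ^ 4) * (1 - z ^ 2 + (z ^ 2) ^ 2 + (z ^ 2) ^ 4) = -2 * z - z ^ 2 - 2 * z ^ 5 - z ^ 6 - z ^ 7 + z ^ 8 - 2 * z ^ 9 - z ^ 11 := by
    linear_combination (1) * hz
  have h3 : (-2 * z - z ^ 2 - 2 * z ^ 5 - z ^ 6 - z ^ 7 + z ^ 8 - 2 * z ^ 9 - z ^ 11) * (1 - z ^ 3 + (z ^ 3) ^ 2 + (z ^ 3) ^ 4) = -4 - 2 * z - 4 * z ^ 2 - z ^ 3 - 2 * z ^ 4 - 3 * z ^ 5 - 3 * z ^ 6 - 3 * z ^ 7 - z ^ 8 - 2 * z ^ 9 - z ^ 10 - 5 * z ^ 11 := by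
    linear_combination (4 - 4 * z + 3 * z ^ 2 - 2 * z ^ 3 + 3 * z ^ 4 - 2 * z ^ 5 - 2 * z ^ 7 + 3 * z ^ 8 - 2 * z ^ 9 + z ^ 10 - z ^ 11) * hz
  have h4 : (-4 - 2 * z - 4 * z ^ 2 - z ^ 3 - 2 * z ^ 4 - 3 * z ^ 5 - 3 * z ^ 6 - 3 * z ^ 7 - z ^ 8 - 2 * z ^ 9 - z ^ 10 - 5 * z ^ 11) * (1 - z ^ 4 + (z ^ 4) ^ 2 + (z ^ 4) ^ 4) = -3 - 6 * z + z ^ 2 - 3 * z ^ 3 + z ^ 4 - 3 * z ^ 5 - 2 * z ^ 6 - z ^ 7 - 3 * z ^ 8 - z ^ 9 - 2 * z ^ 10 - z ^ 11 := by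
    linear_combination (-1 + 5 * z - 9 * z ^ 2 + 7 * z ^ 3 - z ^ 4 + z ^ 5 + z ^ 6 - 4 * z ^ 7 + z ^ 8 - 2 * z ^ 11 + z ^ 12 - z ^ 13 + 4 * z ^ 14 - 5 * z ^ 15) * hz
  have h5 : (-3 - 6 * z + z ^ 2 - 3 * z ^ 3 + z ^ 4 - 3 * z ^ 5 - 2 * z ^ 6 - z ^ 7 - 3 * z ^ 8 - z ^ 9 - 2 * z ^ 10 - z ^ 11) * (1 - z ^ 5 + (z ^ 5) ^ 2 + (z ^ 5) ^ 4) = -4 - 4 * z - 2 * z ^ 2 - 4 * z ^ 3 - z ^ 4 - 3 * z ^ 5 + 4 * z ^ 6 - 6 * z ^ 7 - 6 * z ^ 8 - 4 * z ^ 10 - 3 * z ^ 11 := by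
    linear_combination (1 - 3 * z + 5 * z ^ 2 - 2 * z ^ 3 + z ^ 4 + z ^ 5 - 3 * z ^ 6 + 4 * z ^ 7 + 2 * z ^ 8 - 8 * z ^ 9 + 4 * z ^ 10 - 4 * z ^ 11 + 4 * z ^ 12 - z ^ 13 - z ^ 14 + 2 * z ^ 15 - 2 * z ^ 16 + z ^ 17 - z ^ 18 - z ^ 19) * hz
  have h6 : (-4 - 4 * z - 2 * z ^ 2 - 4 * z ^ 3 - z ^ 4 - 3 * z ^ 5 + 4 * z ^ 6 - 6 * z ^ 7 - 6 * z ^ 8 - 4 * z ^ 10 - 3 * z ^ 11) * (1 - z ^ 6 + (z ^ 6) ^ 2 + (z ^ 6) ^ 4) = 8 + 8 * z + 5 * z ^ 2 + 8 * z ^ 3 + 15 * z ^ 4 + 7 * z ^ 5 + 8 * z ^ 6 + 4 * z ^ 7 + 4 * z ^ 8 + 9 * z ^ 9 + 6 * z ^ 10 + 8 * z ^ 11 := by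
    linear_combination (-12 + 5 * z ^ 2 - 5 * z ^ 3 - 4 * z ^ 4 + 6 * z ^ 5 + 10 * z ^ 6 - 6 * z ^ 7 - 2 * z ^ 8 + 3 * z ^ 9 - 4 * z ^ 10 + z ^ 11 - 2 * z ^ 13 + 2 * z ^ 14 - 3 * z ^ 15 + 2 * z ^ 16 - 7 * z ^ 17 + 10 * z ^ 18 - 6 * z ^ 20 + 4 * z ^ 21 - z ^ 22 - 3 * z ^ 23) * hz
  have h7 : (8 + 8 * z + 5 * z ^ 2 + 8 * z ^ 3 + 15 * z ^ 4 + 7 * z ^ 5 + 8 * z ^ 6 + 4 * z ^ 7 + 4 * z ^ 8 + 9 * z ^ 9 + 6 * z ^ 10 + 8 * z ^ 11) * (1 - z ^ 7 + (z ^ 7) ^ 2 + (z ^ 7) ^ 4) = 1 + 5 * z + 10 * z ^ 2 + 5 * z ^ 3 + 15 * z ^ 4 + 15 * z ^ 5 + 23 * z ^ 6 + 4 * z ^ 7 + z ^ 8 + 5 * z ^ 9 + 4 * z ^ 10 + z ^ 11 := by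
    linear_combination (7 - 4 * z - 8 * z ^ 2 + 8 * z ^ 3 - 3 * z ^ 4 - 8 * z ^ 5 - 7 * z ^ 6 + 7 * z ^ 7 + 3 * z ^ 8 + 4 * z ^ 9 - 5 * z ^ 10 - 2 * z ^ 11 + z ^ 12 + 6 * z ^ 13 + 8 * z ^ 14 - 8 * z ^ 15 + 3 * z ^ 17 - 3 * z ^ 18 - 7 * z ^ 19 + 8 * z ^ 20 - z ^ 21 + 4 * z ^ 22 - 5 * z ^ 24 + 3 * z ^ 25 - 2 * z ^ 26 + 8 * z ^ 27) * hz
  have h8 : (1 + 5 * z + 10 * z ^ 2 + 5 * z ^ 3 + 15 * z ^ 4 + 15 * z ^ 5 + 23 * z ^ 6 + 4 * z ^ 7 + z ^ 8 + 5 * z ^ 9 + 4 * z ^ 10 + z ^ 11) * (1 - z ^ 8 + (z ^ 8) ^ 2 + (z ^ 8) ^ 4) = -19 - 29 * z - 2 * z ^ 2 - 4 * z ^ 3 + 3 * z ^ 4 + 8 * z ^ 5 + 15 * z ^ 6 + 11 * z ^ 7 + 12 * z ^ 8 + 15 * z ^ 9 - z ^ 11 := by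
    linear_combination (20 + 14 * z - 22 * z ^ 2 - 3 * z ^ 3 + 3 * z ^ 4 - 5 * z ^ 5 + z ^ 6 - 15 * z ^ 7 - 5 * z ^ 8 - 3 * z ^ 9 + 9 * z ^ 10 + 3 * z ^ 11 - 12 * z ^ 12 + 20 * z ^ 13 + 6 * z ^ 14 - 3 * z ^ 15 + z ^ 16 + 3 * z ^ 17 + z ^ 18 - z ^ 19 - 4 * z ^ 20 - 5 * z ^ 21 + 5 * z ^ 22 - 10 * z ^ 23 - 8 * z ^ 25 + 19 * z ^ 26 + 3 * z ^ 27 - 4 * z ^ 28 + z ^ 29 + 3 * z ^ 30 + z ^ 31) * hz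
  have h9 : (-19 - 29 * z - 2 * z ^ 2 - 4 * z ^ 3 + 3 * z ^ 4 + 8 * z ^ 5 + 15 * z ^ 6 + 11 * z ^ 7 + 12 * z ^ 8 + 15 * z ^ 9 - z ^ 11) * (1 - z ^ 9 + (z ^ 9) ^ 2 + (z ^ 9) ^ 4) = -27 - 32 * z - 22 * z ^ 2 - 14 * z ^ 3 - 11 * z ^ 4 - 27 * z ^ 5 - 12 * z ^ 6 - 3 * z ^ 7 - 6 * z ^ 8 + 24 * z ^ 9 + 5 * z ^ 10 - 26 * z ^ 11 := by
    linear_combination (8 - 5 * z + 17 * z ^ 2 - 10 * z ^ 3 + 4 * z ^ 4 + 21 * z ^ 5 - 8 * z ^ 6 - 13 * z ^ 7 + 4 * z ^ 8 - 8 * z ^ 9 + 14 * z ^ 10 + 3 * z ^ 11 - 23 * z ^ 12 + z ^ 13 - 10 * z ^ 14 + 10 * z ^ 15 - 6 * z ^ 16 + 3 * z ^ 17 - z ^ 18 - 3 * z ^ 19 + 15 * z ^ 20 + z ^ 21 - z ^ 22 + 19 * z ^ 23 + 10 * z ^ 24 - 27 * z ^ 25 + 2 * z ^ 26 - 7 * z ^ 27 - 5 *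 z ^ 28 - 7 * z ^ 29 + 4 * z ^ 30 - z ^ 31 - 3 * z ^ 32 + 15 * z ^ 33 + z ^ 34 - z ^ 35) * hz
  have h10 : (-27 - 32 * z - 22 * z ^ 2 - 14 * z ^ 3 - 11 * z ^ 4 - 27 * z ^ 5 - 12 * z ^ 6 - 3 * z ^ 7 - 6 * z ^ 8 + 24 * z ^ 9 + 5 * z ^ 10 - 26 * z ^ 11) * (1 - z ^ 10 + (z ^ 10) ^ 2 + (z ^ 10) ^ 4) = 6 - 20 * z - 2 * z ^ 2 + 31 * z ^ 3 + 14 * z ^ 4 - 27 * z ^ 5 - 32 * z ^ 6 - 16 * z ^ 7 + 16 * z ^ 8 + 27 * z ^ 9 + 73 * z ^ 10 + 31 * z ^ 11 := by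
    linear_combination (-33 + 21 * z - 8 * z ^ 2 - 25 * z ^ 3 + 20 * z ^ 4 + 25 * z ^ 5 + 20 * z ^ 6 - 7 * z ^ 7 - 35 * z ^ 8 + 19 * z ^ 9 - 38 * z ^ 10 + 16 * z ^ 11 + 47 * z ^ 12 - 41 * z ^ 13 + 18 * z ^ 14 + 8 * z ^ 15 - 40 * z ^ 16 + 11 * z ^ 17 + 28 * z ^ 18 - 10 * z ^ 19 - 15 * z ^ 20 - 9 * z ^ 21 + 3 * z ^ 22 - 30 * z ^ 23 + 19 * z ^ 24 + 31 * z ^ 25 - 26 * z ^ 26 + 27 * z ^ 27 + 5 * z ^ 28 - 10 * z ^ 29 - 8 * z ^ 30 - 3 * z ^ 31 + 16 * z ^ 32 - 15 * z ^ 33 - 9 * z ^ 34 + 3 * z ^ 35 - 30 * z ^ 36 + 19 * z ^ 37 + 31 * z ^ 38 - 26 * z ^ 39) * hz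
  have h11 : (6 - 20 * z - 2 * z ^ 2 + 31 * z ^ 3 + 14 * z ^ 4 - 27 * z ^ 5 - 32 * z ^ 6 - 16 * z ^ 7 + 16 * z ^ 8 + 27 * z ^ 9 + 73 * z ^ 10 + 31 * z ^ 11) * (1 - z ^ 11 + (z ^ 11) ^ 2 + (z ^ 11) ^ 4) = 3 - 86 * z - 10 * z ^ 2 + 38 * z ^ 3 + 27 * z ^ 4 - 13 * z ^ 5 - 30 * z ^ 6 - 49 * z ^ 7 - 61 * z ^ 8 - 19 * z ^ 9 - 9 * z ^ 10 - 44 * z ^ 11 := by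
    linear_combination (3 + 63 * z - 58 * z ^ 2 - 15 * z ^ 3 - 6 * z ^ 4 - z ^ 5 + 12 * z ^ 6 + 35 * z ^ 7 + 44 * z ^ 8 - 31 * z ^ 9 + 36 * z ^ 10 - 13 * z ^ 11 - 49 * z ^ 12 - 15 * z ^ 13 + 30 * z ^ 14 - 41 * z ^ 15 + 26 * z ^ 16 - z ^ 17 - 17 * z ^ 18 - 20 * z ^ 19 + 24 * z ^ 20 - 2 * z ^ 21 + 17 * z ^ 22 + 41 * z ^ 23 + 5 * z ^ 24 - 16 * z ^ 25 - 32 * z ^ 26 - 11 * z ^ 27 - 46 * z ^ 28 + 42 * z ^ 29 + 31 * z ^ 30 - 6 * z ^ 31 + 26 * z ^ 32 - 18 * z ^ 33 - 33 * z ^ 34 + 17 * z ^ 35 + 41 * z ^ 36 + 5 * z ^ 37 - 16 * z ^ 38 - 32 * z ^ 39 - 11 * z ^ 40 - 46 * z ^ 41 + 42 * z ^ 42 + 31 * z ^ 43) * hz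
  have h12 : (3 - 86 * z - 10 * z ^ 2 + 38 * z ^ 3 + 27 * z ^ 4 - 13 * z ^ 5 - 30 * z ^ 6 - 49 * z ^ 7 - 61 * z ^ 8 - 19 * z ^ 9 - 9 * z ^ 10 - 44 * z ^ 11) * (1 - z ^ 12 + (z ^ 12) ^ 2 + (z ^ 12) ^ 4) = 157 := by
    linear_combination (-154 + 68 * z + 76 * z ^ 2 + 48 * z ^ 3 - 11 * z ^ 4 - 40 * z ^ 5 - 17 * z ^ 6 - 19 * z ^ 7 - 12 * z ^ 8 + 42 * z ^ 9 + 10 * z ^ 10 - 35 * z ^ 11 + 41 * z ^ 12 - 65 * z ^ 13 - 8 * z ^ 14 + 28 * z ^ 15 + 59 * z ^ 16 + 29 * z ^ 17 - 23 * z ^ 18 + 2 * z ^ 19 - 7 * z ^ 20 - 54 * z ^ 21 + 32 * z ^ 22 + 45 * z ^ 23 - 76 * z ^ 24 - 48 * z ^ 25 + 11 * z ^ 26 + 40 * z ^ 27 + 17 * z ^ 28 + 19 * z ^ 29 + 12 * z ^ 30 - 42 * z ^ 31 - 10 * z ^ 32 + 35 * z ^ 33 - 44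 * z ^ 34 - 3 * z ^ 35 + 89 * z ^ 36 - 76 * z ^ 37 - 48 * z ^ 38 + 11 * z ^ 39 + 40 * z ^ 40 + 17 * z ^ 41 + 19 * z ^ 42 + 12 * z ^ 43 - 42 * z ^ 44 - 10 * z ^ 45 + 35 * z ^ 46 - 44 * z ^ 47) * hz
  have e1 : (1 - z ^ 1 + (z ^ 1) ^ 2 + (z ^ 1) ^ 4) = 1 - z + z ^ 2 + z ^ 4 := by ring
  rw [e1, h2, h3, h4, h5, h6, h7, h8, h9, h10, h11, h12]

theorem prod_thirteen_157 {R : Type*} [CommRing R] (z : R) (hz : ∑ i ∈ Finset.range 13, z ^ i = 0) :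
    ∏ k ∈ Finset.Ico 1 13, (1 - (z ^ k) + (z ^ k) ^ 2 + (z ^ k) ^ 4) = 157 := by
  have hz' : 1 + z + z ^ 2 + z ^ 3 + z ^ 4 + z ^ 5 + z ^ 6 + z ^ 7 + z ^ 8 + z ^ 9 + z ^ 10 + z ^ 11 + z ^ 12 = 0 := by simpa [Finset.sum_range_succ] using hz
  rw [prod_Ico_thirteen]
  exact prod_thirteen_157_aux z hz'

end Fermat.Agent.Kummer.H26
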