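import Mathlib

set_option autoImplicit false

/-!
Kummer project, package K2, copy owned by helper44: basic facts on the ring of integers of the
`p`-th cyclotomic field used in the Case II descent.
-/

namespace Fermat.Agent.Kummer.H44

open NumberField Polynomial

variable {K : Type*} [Field K] [NumberField K] {p : ℕ} [hpri : Fact p.Prime]
  [IsCyclotomicExtension {p} ℚ K] {ζ : K} (hζ : IsPrimitiveRoot ζ p)

/-- `𝓞 K = ℤ[ζ]`. -/
theorem adjoin_toInteger_eq_top :
    Algebra.adjoin ℤ ({hζ.toInteger} : Set (𝓞 K)) = ⊤ := by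
  have h := hζ.integralPowerBasis.adjoin_gen_eq_top
  rwa [hζ.integralPowerBasis_gen] at h

include hζ in
/-- Every `p`-th power in `𝓞 K` is congruent to a rational integer modulo `p`. -/
theorem exists_int_dvd_pow_sub (α : 𝓞 K) :
    ∃ n : ℤ, (p : 𝓞 K) ∣ α ^ p - (n : 𝓞 K) := by
  have hα : α ∈ Algebra.adjoin ℤ ({hζ.toInteger} : Set (𝓞 K)) := by
    rw [adjoin_toInteger_eq_top hζ]; exact Algebra.mem_top
  induction hα using Algebra.adjoin_induction with
  | mem x hx =>
    rw [Set.mem_singleton_iff] at hx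
    subst hx
    refine ⟨1, ?_⟩
    have : hζ.toInteger ^ p = 1 := hζ.toInteger_isPrimitiveRoot.pow_eq_one
    rw [this]; simp
  | algebraMap r =>
    refine ⟨r ^ p, ?_⟩
    simp
  | add x y _ _ hx hy =>
    obtain ⟨n, hn⟩ := hx
    obtain ⟨m, hm⟩ := hy
    obtain ⟨r, hr⟩ := exists_add_pow_prime_eq hpri.out x y
    refine ⟨n + m, ?_⟩
    rw [hr]
    have : x ^ p + y ^ p + (p : 𝓞 K) * x * y * r - ((n + m : ℤ) : 𝓞 K)
        = (x ^ p - n) + (y ^ p - m) + (p : 𝓞 K) * (x * y * r) := by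
      push_cast; ring
    rw [this]
    exact dvd_add (dvd_add hn hm) (dvd_mul_right _ _)
  | mul x y _ _ hx hy =>
    obtain ⟨n, hn⟩ := hx
    obtain ⟨m, hm⟩ := hy
    refine ⟨n * m, ?_⟩
    have : (x * y) ^ p - ((n * m : ℤ) : 𝓞 K)
        = (x ^ p - n) * y ^ p + (n : 𝓞 K) * (y ^ p - m) := by
      push_cast; ring
    rw [this]
    exact dvd_add (dvd_mul_of_dvd_left hn _) (dvd_mul_of_dvd_right hm _)

end Fermat.Agent.Kummer.H44
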