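import Mathlib

set_option autoImplicit false
set_option linter.unusedSectionVars false
set_option linter.unusedVariables false

/-!
Kummer project, package K2, copy owned by helper44: the Case II descent in an abstract setting.

`R` is a principal ideal domain, `z` a primitive `p`-th root of unity in `R` (`p` an odd prime)
such that `l = z - 1` is prime, `R ⧸ (l)` has `p` elements, `l ^ (p - 1)` is associated to `p`,
every `p`-th power is congruent to a rational integer modulo `p`, and Kummer's lemma holds.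
Then `x ^ p + y ^ p = ε * (l ^ m * t) ^ p` has no solutions with `x, y` coprime, `l ∤ y`, `l ∤ t`
and `1 ≤ m`.
-/

namespace Fermat.Agent.Kummer.H44

open Polynomial Finset

section pigeonhole

variable {R : Type*} [CommRing R] {ι : Type*}

/-- Pigeonhole principle modulo an ideal of finite index. -/
theorem exists_mem_ideal_of_injOn (I : Ideal R) [Finite (R ⧸ I)] (s : Finset ι) (c : ι → R)
    (hcard : Nat.card (R ⧸ I) ≤ s.card)
    (hinj : ∀ i ∈ s, ∀ j ∈ s, c i - c j ∈ I → i = j) : ∃ i ∈ s, c i ∈ I := by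
  classical
  have : Fintype (R ⧸ I) := Fintype.ofFinite _
  have hsurj := Finset.surj_on_of_inj_on_of_card_le (s := s) (t := (Finset.univ : Finset (R ⧸ I)))
    (fun i _ => Ideal.Quotient.mk I (c i)) (fun _ _ => Finset.mem_univ _)
    (fun i j hi hj h => hinj i hi j hj ((Ideal.Quotient.mk_eq_mk_iff_sub_mem _ _).1 h))
    (by rwa [Finset.card_univ, ← Nat.card_eq_fintype_card])
  obtain ⟨i, hi, h0⟩ := hsurj 0 (Finset.mem_univ _)
  exact ⟨i, hi, Ideal.Quotient.eq_zero_iff_mem.1 h0.symm⟩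

end pigeonhole

section descent

variable {R : Type*} [CommRing R] [IsDomain R] [IsPrincipalIdealRing R] {p : ℕ} {z : R}
  (hp : p.Prime) (hp2 : p ≠ 2) (hz : IsPrimitiveRoot z p) (hl : Prime (z - 1))
  (hcard : Nat.card (R ⧸ Ideal.span {z - 1}) = p)

include hp hz in
/-- Distinct `p`-th roots of unity differ by a unit multiple of `z - 1`. -/
theorem roots_sub_associated {η₁ η₂ : R} (h₁ : η₁ ∈ nthRootsFinset p (1 : R))
    (h₂ : η₂ ∈ nthRootsFinset p (1 : R)) (hne : η₁ ≠ η₂) : Associated (z - 1) (η₁ - η₂) :=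
  hz.nthRootsFinset_pairwise_associated_sub_one_sub_of_prime hp h₁ h₂ hne

include hp hz in
theorem roots_sub_dvd {η₁ η₂ : R} (h₁ : η₁ ∈ nthRootsFinset p (1 : R))
    (h₂ : η₂ ∈ nthRootsFinset p (1 : R)) : z - 1 ∣ η₁ - η₂ :=
  hz.sub_one_dvd_sub hp h₁ h₂

include hp hp2 hz in
theorem sum_eq_prod (x y : R) :
    x ^ p + y ^ p = ∏ η ∈ nthRootsFinset p (1 : R), (x + η * y) :=
  hz.pow_add_pow_eq_prod_add_mul x y (hp.odd_of_ne_two hp2)

include hp hp2 hz hl in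
/-- Step A: if `z - 1` divides `x ^ p + y ^ p` then it divides every factor `x + η * y`. -/
theorem dvd_factor_of_dvd_sum {x y : R} (h : z - 1 ∣ x ^ p + y ^ p) {η : R}
    (hη : η ∈ nthRootsFinset p (1 : R)) : z - 1 ∣ x + η * y := by
  rw [sum_eq_prod hp hp2 hz x y] at h
  obtain ⟨η₀, hη₀, h₀⟩ := hl.exists_mem_finset_dvd h
  have : x + η * y = (x + η₀ * y) + (η - η₀) * y := by ring
  rw [this]
  exact dvd_add h₀ (dvd_mul_of_dvd_left (roots_sub_dvd hp hz hη hη₀) _)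

include hp hp2 hz hl hcard in
/-- Step B: some factor is divisible by `(z - 1) ^ 2`. -/
theorem exists_sq_dvd_factor {x y : R} (h : z - 1 ∣ x ^ p + y ^ p) (hy : ¬ z - 1 ∣ y) :
    ∃ η ∈ nthRootsFinset p (1 : R), (z - 1) ^ 2 ∣ x + η * y := by
  have hA : ∀ η ∈ nthRootsFinset p (1 : R), ∃ c, x + η * y = (z - 1) * c := fun η hη =>
    dvd_factor_of_dvd_sum hp hp2 hz hl h hη
  choose! c hc using hA
  have : Finite (R ⧸ Ideal.span {z - 1}) := Nat.finite_of_card_ne_zero (by rw [hcard]; exact hp.ne_zero)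
  have hinj : ∀ η₁ ∈ nthRootsFinset p (1 : R), ∀ η₂ ∈ nthRootsFinset p (1 : R),
      c η₁ - c η₂ ∈ Ideal.span {z - 1} → η₁ = η₂ := by
    intro η₁ h₁ η₂ h₂ hmem
    by_contra hne
    obtain ⟨u, hu⟩ := roots_sub_associated hp hz h₁ h₂ hne
    obtain ⟨d, hd⟩ := Ideal.mem_span_singleton.1 hmem
    apply hy
    have key : (z - 1) * (↑u * y) = (z - 1) * ((z - 1) * d) := by
      calc (z - 1) * (↑u * y) = ((z - 1) * ↑u) * y := by ring
        _ = (η₁ - η₂) * y := by rw [hu]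
        _ = (x + η₁ * y) - (x + η₂ * y) := by ring
        _ = (z - 1) * (c η₁ - c η₂) := by rw [hc η₁ h₁, hc η₂ h₂]; ring
        _ = (z - 1) * ((z - 1) * d) := by rw [hd]
    have key' := mul_left_cancel₀ hl.ne_zero key
    have : y = (z - 1) * (↑u⁻¹ * d) := by
      calc y = ↑u⁻¹ * (↑u * y) := by rw [← mul_assoc, Units.inv_mul, one_mul]
        _ = ↑u⁻¹ * ((z - 1) * d) := by rw [key']
        _ = (z - 1) * (↑u⁻¹ * d) := by ring
    exact ⟨_, this⟩
  obtain ⟨η, hη, hmem⟩ := exists_mem_ideal_of_injOn (Ideal.span {z - 1})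
    (nthRootsFinset p (1 : R)) c (by rw [hcard, hz.card_nthRootsFinset]) hinj
  refine ⟨η, hη, ?_⟩
  rw [hc η hη, pow_two]
  exact mul_dvd_mul_left _ (Ideal.mem_span_singleton.1 hmem)

include hp hp2 hz hl in
/-- Steps D and E: the shape of the factors of a solution with `(z - 1) ^ 2 ∣ x + y`. -/
theorem exists_factor_data {x y t : R} {ε : Rˣ} {m : ℕ} (hm : 1 ≤ m)
    (hy : ¬ z - 1 ∣ y) (ht : ¬ z - 1 ∣ t)
    (H : x ^ p + y ^ p = ε * ((z - 1) ^ m * t) ^ p) (hsq : (z - 1) ^ 2 ∣ x + y) :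
    2 ≤ m ∧ ∃ a : R → R, (∀ η ∈ nthRootsFinset p (1 : R), ¬ z - 1 ∣ a η) ∧
      x + y = (z - 1) ^ ((m - 1) * p + 1) * a 1 ∧
      (∀ η ∈ nthRootsFinset p (1 : R), η ≠ 1 → x + η * y = (z - 1) * a η) ∧
      ∏ η ∈ nthRootsFinset p (1 : R), a η = ε * t ^ p := by
  classical
  have hppos : 0 < p := hp.pos
  have h1mem : (1 : R) ∈ nthRootsFinset p (1 : R) := one_mem_nthRootsFinset hppos
  have hdvd : z - 1 ∣ x ^ p + y ^ p := by
    rw [H]
    refine Dvd.dvd.mul_left (dvd_pow (Dvd.dvd.mul_right (dvd_pow_self _ ?_) _) hp.ne_zero) _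
    omega
  have hA : ∀ η ∈ nthRootsFinset p (1 : R), ∃ c, x + η * y = (z - 1) * c := fun η hη =>
    dvd_factor_of_dvd_sum hp hp2 hz hl hdvd hη
  choose! c hc using hA
  -- Step D
  have hD : ∀ η ∈ nthRootsFinset p (1 : R), η ≠ 1 → ¬ z - 1 ∣ c η := by
    intro η hη hne hdiv
    obtain ⟨u, hu⟩ := roots_sub_associated hp hz hη h1mem hne
    obtain ⟨d, hd⟩ := hdiv
    obtain ⟨e, he⟩ := hsq
    apply hy
    have key : (z - 1) * (↑u * y) = (z - 1) * ((z - 1) * (d - e)) := by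
      calc (z - 1) * (↑u * y) = ((z - 1) * ↑u) * y := by ring
        _ = (η - 1) * y := by rw [hu]
        _ = (x + η * y) - (x + y) := by ring
        _ = (z - 1) * ((z - 1) * (d - e)) := by rw [hc η hη, hd, he]; ring
    have key' := mul_left_cancel₀ hl.ne_zero key
    have : y = (z - 1) * (↑u⁻¹ * (d - e)) := by
      calc y = ↑u⁻¹ * (↑u * y) := by rw [← mul_assoc, Units.inv_mul, one_mul]
        _ = ↑u⁻¹ * ((z - 1) * (d - e)) := by rw [key']
        _ = (z - 1) * (↑u⁻¹ * (d - e)) := by ring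
    exact ⟨_, this⟩
  -- the product of the other cofactors
  set C : R := ∏ η ∈ (nthRootsFinset p (1 : R)).erase 1, c η with hC
  have hCnd : ¬ z - 1 ∣ C := by
    intro h
    obtain ⟨η, hη, hdiv⟩ := hl.exists_mem_finset_dvd h
    exact hD η (Finset.mem_of_mem_erase hη) (Finset.ne_of_mem_erase hη) hdiv
  have hprod : x ^ p + y ^ p = (x + y) * ((z - 1) ^ (p - 1) * C) := by
    rw [sum_eq_prod hp hp2 hz x y, ← Finset.mul_prod_erase _ _ h1mem, one_mul]
    congr 1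
    rw [Finset.prod_congr rfl (fun η hη => hc η (Finset.mem_of_mem_erase hη)),
      Finset.prod_mul_distrib, Finset.prod_const, Finset.card_erase_of_mem h1mem,
      hz.card_nthRootsFinset]
  have hexp : m * p = ((m - 1) * p + 1) + (p - 1) := by
    obtain ⟨k, rfl⟩ : ∃ k, m = k + 1 := ⟨m - 1, by omega⟩
    have : 1 ≤ p := hppos
    simp only [Nat.add_sub_cancel]
    rw [Nat.add_mul, one_mul]
    omega
  have hE : (x + y) * C = ε * (z - 1) ^ ((m - 1) * p + 1) * t ^ p := by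
    have h2 : (z - 1) ^ (p - 1) * ((x + y) * C) =
        (z - 1) ^ (p - 1) * (ε * (z - 1) ^ ((m - 1) * p + 1) * t ^ p) := by
      calc (z - 1) ^ (p - 1) * ((x + y) * C) = (x + y) * ((z - 1) ^ (p - 1) * C) := by ring
        _ = ε * ((z - 1) ^ m * t) ^ p := by rw [← hprod, H]
        _ = ε * ((z - 1) ^ (m * p) * t ^ p) := by rw [mul_pow, ← pow_mul]
        _ = (z - 1) ^ (p - 1) * (ε * (z - 1) ^ ((m - 1) * p + 1) * t ^ p) := by
          rw [hexp, pow_add]; ring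
    exact mul_left_cancel₀ (pow_ne_zero _ hl.ne_zero) h2
  have hdiv : (z - 1) ^ ((m - 1) * p + 1) ∣ x + y := by
    apply hl.pow_dvd_of_dvd_mul_right _ hCnd
    rw [hE]
    exact Dvd.dvd.mul_right (Dvd.dvd.mul_left (dvd_refl _) _) _
  obtain ⟨a₀, ha₀⟩ := hdiv
  have hE' : a₀ * C = ε * t ^ p := by
    have h2 : (z - 1) ^ ((m - 1) * p + 1) * (a₀ * C) =
        (z - 1) ^ ((m - 1) * p + 1) * (ε * t ^ p) := by
      calc (z - 1) ^ ((m - 1) * p + 1) * (a₀ * C)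
          = ((z - 1) ^ ((m - 1) * p + 1) * a₀) * C := by ring
        _ = (x + y) * C := by rw [ha₀]
        _ = ε * (z - 1) ^ ((m - 1) * p + 1) * t ^ p := hE
        _ = (z - 1) ^ ((m - 1) * p + 1) * (ε * t ^ p) := by ring
    exact mul_left_cancel₀ (pow_ne_zero _ hl.ne_zero) h2
  have ha₀nd : ¬ z - 1 ∣ a₀ := by
    intro h
    have h3 : z - 1 ∣ (ε : R) * t ^ p := by rw [← hE']; exact Dvd.dvd.mul_right h _
    rw [Units.dvd_mul_left] at h3
    exact ht (hl.dvd_of_dvd_pow h3)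
  have hm2 : 2 ≤ m := by
    by_contra hlt
    have hm1 : m = 1 := by omega
    subst hm1
    simp only [Nat.sub_self, zero_mul, zero_add, pow_one] at ha₀
    obtain ⟨e, he⟩ := hsq
    apply ha₀nd
    have : (z - 1) * a₀ = (z - 1) * ((z - 1) * e) := by rw [← ha₀, he]; ring
    exact ⟨e, mul_left_cancel₀ hl.ne_zero this⟩
  refine ⟨hm2, fun η => if η = 1 then a₀ else c η, ?_, ?_, ?_, ?_⟩
  · intro η hη
    by_cases h : η = 1
    · simp only [h, if_true]; exact ha₀nd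
    · simp only [h, if_false]; exact hD η hη h
  · simp only [if_true]; exact ha₀
  · intro η hη hne
    simp only [hne, if_false]; exact hc η hη
  · rw [← Finset.mul_prod_erase _ _ h1mem]
    simp only [if_true]
    rw [← hE', hC]
    congr 1
    refine Finset.prod_congr rfl (fun η hη => ?_)
    simp only [Finset.ne_of_mem_erase hη, if_false]

include hp hz hl in
/-- Step F: cofactors (prime to `z - 1`) of two distinct factors are coprime. -/
theorem isCoprime_of_dvd_factors {x y a₁ a₂ η₁ η₂ : R} (hxy : IsCoprime x y)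
    (h₁ : η₁ ∈ nthRootsFinset p (1 : R)) (h₂ : η₂ ∈ nthRootsFinset p (1 : R)) (hne : η₁ ≠ η₂)
    (d₁ : a₁ ∣ x + η₁ * y) (d₂ : a₂ ∣ x + η₂ * y) (n₁ : ¬ z - 1 ∣ a₁) : IsCoprime a₁ a₂ := by
  refine isCoprime_of_prime_dvd (fun h => n₁ (h.1 ▸ dvd_zero _)) (fun q hq hq₁ hq₂ => ?_)
  obtain ⟨u, hu⟩ := roots_sub_associated hp hz h₁ h₂ hne
  have hql : ¬ q ∣ z - 1 := fun h => n₁ ((hq.associated_of_dvd hl h).symm.dvd.trans hq₁)
  have e₁ : q ∣ (z - 1) * (↑u * y) := by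
    have : (z - 1) * (↑u * y) = (x + η₁ * y) - (x + η₂ * y) := by
      calc (z - 1) * (↑u * y) = ((z - 1) * ↑u) * y := by ring
        _ = (η₁ - η₂) * y := by rw [hu]
        _ = (x + η₁ * y) - (x + η₂ * y) := by ring
    rw [this]
    exact dvd_sub (hq₁.trans d₁) (hq₂.trans d₂)
  have e₂ : q ∣ (z - 1) * (↑u * x) := by
    have : (z - 1) * (↑u * x) = η₁ * (x + η₂ * y) - η₂ * (x + η₁ * y) := by
      calc (z - 1) * (↑u * x) = ((z - 1) * ↑u) * x := by ring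
        _ = (η₁ - η₂) * x := by rw [hu]
        _ = η₁ * (x + η₂ * y) - η₂ * (x + η₁ * y) := by ring
    rw [this]
    exact dvd_sub (Dvd.dvd.mul_left (hq₂.trans d₂) _) (Dvd.dvd.mul_left (hq₁.trans d₁) _)
  have f₁ : q ∣ y := by
    have := (hq.dvd_or_dvd e₁).resolve_left hql
    rwa [Units.dvd_mul_left] at this
  have f₂ : q ∣ x := by
    have := (hq.dvd_or_dvd e₂).resolve_left hql
    rwa [Units.dvd_mul_left] at this
  exact hq.not_isUnit (hxy.isUnit_of_dvd' f₂ f₁)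

/-- Step G: pairwise coprime elements whose product is a unit times a `p`-th power are each
associated to a `p`-th power. -/
theorem exists_associated_pow_of_prod {ι : Type*} (s : Finset ι) (a : ι → R) (ε : Rˣ) (t : R)
    (hcop : ∀ i ∈ s, ∀ j ∈ s, i ≠ j → IsCoprime (a i) (a j))
    (hprod : ∏ i ∈ s, a i = ε * t ^ p) {i : ι} (hi : i ∈ s) :
    ∃ d : R, Associated (d ^ p) (a i) := by
  classical
  refine exists_associated_pow_of_associated_pow_mul (b := ∏ j ∈ s.erase i, a j) (c := t)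
    (IsCoprime.prod_right fun j hj =>
      hcop i hi j (Finset.mem_of_mem_erase hj) (Finset.ne_of_mem_erase hj).symm) ?_
  rw [Finset.mul_prod_erase _ _ hi, hprod]
  exact ⟨ε, by ring⟩

variable (hlp : Associated ((z - 1) ^ (p - 1)) (p : R))
  (hpow : ∀ α : R, ∃ n : ℤ, (p : R) ∣ α ^ p - (n : R))
  (kummer : ∀ u : Rˣ, (∃ n : ℤ, (p : R) ∣ (u : R) - (n : R)) → ∃ v : Rˣ, u = v ^ p)

include hp hp2 hz hl hlp hpow kummer in
/-- Step H: the descent step for a solution with `(z - 1) ^ 2 ∣ x + y`. -/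
theorem descent_of_sq_dvd {x y t : R} {ε : Rˣ} {m : ℕ} (hm : 1 ≤ m) (hxy : IsCoprime x y)
    (hy : ¬ z - 1 ∣ y) (ht : ¬ z - 1 ∣ t)
    (H : x ^ p + y ^ p = ε * ((z - 1) ^ m * t) ^ p) (hsq : (z - 1) ^ 2 ∣ x + y) :
    2 ≤ m ∧ ∃ (x' y' t' : R) (ε' : Rˣ), IsCoprime x' y' ∧ ¬ z - 1 ∣ y' ∧ ¬ z - 1 ∣ t' ∧
      x' ^ p + y' ^ p = ε' * ((z - 1) ^ (m - 1) * t') ^ p := by
  classical
  obtain ⟨hm2, a, hand, ha1, haη, haprod⟩ := exists_factor_data hp hp2 hz hl hm hy ht H hsq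
  refine ⟨hm2, ?_⟩
  have hppos : 0 < p := hp.pos
  have hp3 : 3 ≤ p := by have := hp.two_le; omega
  -- the three roots of unity `1`, `z`, `z ^ 2`
  have m0 : (1 : R) ∈ nthRootsFinset p (1 : R) := one_mem_nthRootsFinset hppos
  have m1 : z ∈ nthRootsFinset p (1 : R) := hz.mem_nthRootsFinset hppos
  have m2 : z ^ 2 ∈ nthRootsFinset p (1 : R) := by
    rw [mem_nthRootsFinset hppos, ← pow_mul, mul_comm, pow_mul, hz.pow_eq_one, one_pow]
  have z1 : z ≠ 1 := hz.ne_one (by omega)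
  have z2 : z ^ 2 ≠ 1 := hz.pow_ne_one_of_pos_of_lt (by omega) (by omega)
  have z12 : z ≠ z ^ 2 := by
    intro h
    apply z1
    have h' : z * 1 = z * z := by rw [mul_one, ← pow_two]; exact h
    exact (mul_left_cancel₀ (hz.ne_zero hp.ne_zero) h').symm
  -- divisibility of the factors by the cofactors
  have hdvd : ∀ η ∈ nthRootsFinset p (1 : R), a η ∣ x + η * y := by
    intro η hη
    by_cases h : η = 1
    · subst h; rw [one_mul, ha1]; exact Dvd.intro_left _ rfl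
    · rw [haη η hη h]; exact Dvd.intro_left _ rfl
  have hcop : ∀ η₁ ∈ nthRootsFinset p (1 : R), ∀ η₂ ∈ nthRootsFinset p (1 : R), η₁ ≠ η₂ →
      IsCoprime (a η₁) (a η₂) := fun η₁ h₁ η₂ h₂ hne =>
    isCoprime_of_dvd_factors hp hz hl hxy h₁ h₂ hne (hdvd η₁ h₁) (hdvd η₂ h₂) (hand η₁ h₁)
  obtain ⟨d₀, v₀, hd₀⟩ := exists_associated_pow_of_prod _ a ε t hcop haprod m0
  obtain ⟨d₁, v₁, hd₁⟩ := exists_associated_pow_of_prod _ a ε t hcop haprod m1
  obtain ⟨d₂, v₂, hd₂⟩ := exists_associated_pow_of_prod _ a ε t hcop haprod m2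
  -- `1 + z` is a unit
  obtain ⟨w, hw⟩ : ∃ w : Rˣ, (w : R) = 1 + z := by
    have h := hz.geom_sum_isUnit hp.two_le
      (show (2 : ℕ).Coprime p from (Nat.coprime_primes Nat.prime_two hp).2 (Ne.symm hp2))
    obtain ⟨w, hw⟩ := h
    exact ⟨w, by rw [hw, Finset.sum_range_succ, Finset.sum_range_one, pow_zero, pow_one]⟩
  obtain ⟨zu, hzu⟩ : ∃ zu : Rˣ, (zu : R) = z := hz.isUnit hp.ne_zero
  -- the three term relation
  have hrel : (1 + z) * a z - a (z ^ 2) = z * ((z - 1) ^ ((m - 1) * p) * a 1) := by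
    have h2 : (z - 1) * ((1 + z) * a z - a (z ^ 2)) =
        (z - 1) * (z * ((z - 1) ^ ((m - 1) * p) * a 1)) := by
      calc (z - 1) * ((1 + z) * a z - a (z ^ 2))
          = (1 + z) * ((z - 1) * a z) - (z - 1) * a (z ^ 2) := by ring
        _ = (1 + z) * (x + z * y) - (x + z ^ 2 * y) := by rw [haη z m1 z1, haη _ m2 z2]
        _ = z * (x + y) := by ring
        _ = z * ((z - 1) ^ ((m - 1) * p + 1) * a 1) := by rw [ha1]
        _ = (z - 1) * (z * ((z - 1) ^ ((m - 1) * p) * a 1)) := by rw [pow_succ]; ring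
    exact mul_left_cancel₀ hl.ne_zero h2
  -- the new equation
  set θ : Rˣ := -((w * v₁)⁻¹ * v₂) with hθ
  set ε' : Rˣ := (w * v₁)⁻¹ * zu * v₀ with hε'
  have hwv : ((w * v₁)⁻¹ : Rˣ) * ((1 + z) * (v₁ : R)) = (1 : R) := by
    rw [← hw, ← Units.val_mul, ← Units.val_mul, inv_mul_cancel, Units.val_one]
  have hnew : d₁ ^ p + (θ : R) * d₂ ^ p = ε' * ((z - 1) ^ (m - 1) * d₀) ^ p := by
    have h3 : ((w * v₁)⁻¹ : Rˣ) * ((1 + z) * a z - a (z ^ 2)) =
        ((w * v₁)⁻¹ : Rˣ) * (z * ((z - 1) ^ ((m - 1) * p) * a 1)) := by rw [hrel]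
    rw [← hd₀, ← hd₁, ← hd₂] at h3
    have l1 : ((w * v₁)⁻¹ : Rˣ) * ((1 + z) * (d₁ ^ p * v₁) - d₂ ^ p * v₂) =
        d₁ ^ p + (θ : R) * d₂ ^ p := by
      have : ((w * v₁)⁻¹ : Rˣ) * ((1 + z) * (d₁ ^ p * v₁) - d₂ ^ p * (v₂ : R)) =
          (((w * v₁)⁻¹ : Rˣ) * ((1 + z) * (v₁ : R))) * d₁ ^ p
            - (((w * v₁)⁻¹ : Rˣ) * (v₂ : R)) * d₂ ^ p := by ring
      rw [this, hwv, one_mul, hθ, Units.val_neg, Units.val_mul]; ring
    have l2 : ((w * v₁)⁻¹ : Rˣ) * (z * ((z - 1) ^ ((m - 1) * p) * (d₀ ^ p * v₀))) =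
        ε' * ((z - 1) ^ (m - 1) * d₀) ^ p := by
      rw [hε', Units.val_mul, Units.val_mul, hzu, mul_pow, ← pow_mul]; ring
    rw [← l1, ← l2, h3]
  -- the unit `θ` is congruent to an integer modulo `p`
  have hd₂nd : ¬ z - 1 ∣ d₂ := fun h =>
    hand _ m2 (by rw [← hd₂]; exact Dvd.dvd.mul_right (dvd_pow h hp.ne_zero) _)
  have hd₀nd : ¬ z - 1 ∣ d₀ := fun h =>
    hand _ m0 (by rw [← hd₀]; exact Dvd.dvd.mul_right (dvd_pow h hp.ne_zero) _)
  have hlp' : z - 1 ∣ (p : R) := (dvd_pow_self _ (by omega)).trans hlp.dvd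
  have hθint : ∃ n : ℤ, (p : R) ∣ (θ : R) - (n : R) := by
    obtain ⟨n₁, r₁, e₁⟩ := hpow d₁
    obtain ⟨n₂, r₂, e₂⟩ := hpow d₂
    have hpR : (p : R) ∣ ε' * ((z - 1) ^ (m - 1) * d₀) ^ p := by
      refine Dvd.dvd.mul_left ?_ _
      rw [mul_pow]
      refine Dvd.dvd.mul_right ?_ _
      refine hlp.symm.dvd.trans ?_
      rw [← pow_mul]
      refine pow_dvd_pow _ ?_
      calc p - 1 ≤ 1 * p := by omega
        _ ≤ (m - 1) * p := Nat.mul_le_mul_right _ (by omega)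
    obtain ⟨r₃, e₃⟩ := hpR
    have hn₂ : ¬ (p : ℤ) ∣ n₂ := by
      intro h
      apply hd₂nd
      apply hl.dvd_of_dvd_pow (n := p)
      have h1 : (p : R) ∣ (n₂ : R) := by
        obtain ⟨k, hk⟩ := h
        exact ⟨(k : R), by rw [hk]; push_cast; ring⟩
      have h2 : (p : R) ∣ d₂ ^ p := by
        have : d₂ ^ p = (d₂ ^ p - n₂) + n₂ := by ring
        rw [this]; exact dvd_add ⟨r₂, e₂⟩ h1
      exact hlp'.trans h2
    obtain ⟨s', t', hst⟩ := ((Nat.prime_iff_prime_int.1 hp).coprime_iff_not_dvd).2 hn₂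
    have hst' : (s' : R) * (p : R) + (t' : R) * (n₂ : R) = 1 := by
      have := congrArg (fun k : ℤ => (k : R)) hst
      simpa using this
    refine ⟨-(t' * n₁), (θ : R) * s' + t' * (r₃ - r₁ - (θ : R) * r₂), ?_⟩
    rw [e₃] at hnew
    push_cast
    linear_combination (-(θ : R)) * hst' + (t' : R) * hnew - (t' : R) * e₁
      - (t' : R) * (θ : R) * e₂
  obtain ⟨v, hv⟩ := kummer θ hθint
  refine ⟨d₁, v * d₂, d₀, ε', ?_, ?_, hd₀nd, ?_⟩
  · have h1 : IsCoprime (d₁ ^ p * v₁) (d₂ ^ p * v₂) := by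
      rw [hd₁, hd₂]; exact hcop _ m1 _ m2 z12
    have h2 : IsCoprime (d₁ ^ p) (d₂ ^ p) := h1.of_mul_left_left.of_mul_right_left
    exact (isCoprime_mul_unit_left_right v.isUnit _ _).2 ((IsCoprime.pow_iff hppos hppos).1 h2)
  · rw [Units.dvd_mul_left]; exact hd₂nd
  · rw [mul_pow, ← Units.val_pow_eq_pow_val, ← hv]; exact hnew

include hp hp2 hz hl hcard hlp hpow kummer in
/-- The descent step for an arbitrary solution. -/
theorem descent {x y t : R} {ε : Rˣ} {m : ℕ} (hm : 1 ≤ m) (hxy : IsCoprime x y)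
    (hy : ¬ z - 1 ∣ y) (ht : ¬ z - 1 ∣ t)
    (H : x ^ p + y ^ p = ε * ((z - 1) ^ m * t) ^ p) :
    2 ≤ m ∧ ∃ (x' y' t' : R) (ε' : Rˣ), IsCoprime x' y' ∧ ¬ z - 1 ∣ y' ∧ ¬ z - 1 ∣ t' ∧
      x' ^ p + y' ^ p = ε' * ((z - 1) ^ (m - 1) * t') ^ p := by
  have hdvd : z - 1 ∣ x ^ p + y ^ p := by
    rw [H]
    refine Dvd.dvd.mul_left (dvd_pow (Dvd.dvd.mul_right (dvd_pow_self _ ?_) _) hp.ne_zero) _
    omega
  obtain ⟨η, hη, hsq⟩ := exists_sq_dvd_factor hp hp2 hz hl hcard hdvd hy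
  have hηp : η ^ p = 1 := (mem_nthRootsFinset hp.pos 1).1 hη
  have hηu : IsUnit η := IsUnit.of_pow_eq_one hηp hp.ne_zero
  refine descent_of_sq_dvd hp hp2 hz hl hlp hpow kummer hm (x := x) (y := η * y) (t := t)
    (ε := ε) ((isCoprime_mul_unit_left_right hηu _ _).2 hxy) ?_ ht ?_ hsq
  · rwa [hηu.dvd_mul_left]
  · rw [mul_pow, hηp, one_mul, H]

include hp hp2 hz hl hcard hlp hpow kummer in
/-- The generalised Fermat equation of Case II has no solutions. -/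
theorem no_solution (m : ℕ) (hm : 1 ≤ m) (x y t : R) (ε : Rˣ) (hxy : IsCoprime x y)
    (hy : ¬ z - 1 ∣ y) (ht : ¬ z - 1 ∣ t) :
    x ^ p + y ^ p ≠ ε * ((z - 1) ^ m * t) ^ p := by
  induction m generalizing x y t ε with
  | zero => omega
  | succ k ih =>
    intro H
    obtain ⟨h2, x', y', t', ε', hxy', hy', ht', H'⟩ :=
      descent hp hp2 hz hl hcard hlp hpow kummer hm hxy hy ht H
    rw [Nat.add_sub_cancel] at H'
    exact ih (by omega) x' y' t' ε' hxy' hy' ht' H'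

end descent

end Fermat.Agent.Kummer.H44
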