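import Mathlib
import Fermat.Agent.Kummer.H44_Basic
import Fermat.Agent.Kummer.H44_Descent

set_option autoImplicit false
set_option linter.unusedSectionVars false

/-!
Kummer project, package K2, copy owned by helper44: Case II of Fermat's Last Theorem for an odd prime `p`
such that the ring of integers of the `p`-th cyclotomic field is principal, assuming
Kummer's lemma for that field.
-/

namespace Fermat.Agent.Kummer.H44

open NumberField Polynomial

variable {K : Type*} [Field K] [NumberField K] {p : ℕ} [hpri : Fact p.Prime]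
  [IsCyclotomicExtension {p} ℚ K] {ζ : K} (hζ : IsPrimitiveRoot ζ p)

theorem card_quotient_eq (hp2 : p ≠ 2) :
    Nat.card (𝓞 K ⧸ Ideal.span {hζ.toInteger - 1}) = p := by
  rw [hζ.card_quotient_toInteger_sub_one, hζ.norm_toInteger_sub_one_of_prime_ne_two' hp2,
    Int.natAbs_natCast]

/-- The generalised Case II equation over `𝓞 K` has no solutions. -/
theorem no_solution_ringOfIntegers (hp2 : p ≠ 2) [IsPrincipalIdealRing (𝓞 K)]
    (kummer : ∀ u : (𝓞 K)ˣ, (∃ n : ℤ, (p : 𝓞 K) ∣ (u : 𝓞 K) - (n : 𝓞 K)) →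
      ∃ v : (𝓞 K)ˣ, u = v ^ p)
    (m : ℕ) (hm : 1 ≤ m) (x y t : 𝓞 K) (ε : (𝓞 K)ˣ) (hxy : IsCoprime x y)
    (hy : ¬ hζ.toInteger - 1 ∣ y) (ht : ¬ hζ.toInteger - 1 ∣ t) :
    x ^ p + y ^ p ≠ ε * ((hζ.toInteger - 1) ^ m * t) ^ p :=
  no_solution hpri.out hp2 hζ.toInteger_isPrimitiveRoot hζ.zeta_sub_one_prime'
    (card_quotient_eq hζ hp2) (IsCyclotomicExtension.Rat.associated_zeta_sub_one_pow_prime p hζ)
    (exists_int_dvd_pow_sub hζ) kummer m hm x y t ε hxy hy ht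

/-- **Case II** of Fermat's Last Theorem for an odd prime `p` such that `𝓞 (ℚ(ζ_p))` is a
principal ideal domain, given Kummer's lemma. -/
theorem caseII (hp2 : p ≠ 2) [IsPrincipalIdealRing (𝓞 K)]
    (kummer : ∀ u : (𝓞 K)ˣ, (∃ n : ℤ, (p : 𝓞 K) ∣ (u : 𝓞 K) - (n : 𝓞 K)) →
      ∃ v : (𝓞 K)ˣ, u = v ^ p)
    (a b c : ℤ) (hgcd : IsCoprime a b) (hc : c ≠ 0) (hpc : (p : ℤ) ∣ c)
    (h : a ^ p + b ^ p = c ^ p) : False := by
  have hζ := IsCyclotomicExtension.zeta_spec p ℚ K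
  have hl := hζ.zeta_sub_one_prime'
  have hlp : hζ.toInteger - 1 ∣ (p : 𝓞 K) := hζ.toInteger_sub_one_dvd_prime'
  have hpZ : Prime (p : ℤ) := Nat.prime_iff_prime_int.1 hpri.out
  have hc' : (c : 𝓞 K) ≠ 0 := Int.cast_ne_zero.2 hc
  have hlc : hζ.toInteger - 1 ∣ (c : 𝓞 K) := by
    obtain ⟨k, hk⟩ := hpc
    exact hlp.trans ⟨(k : 𝓞 K), by rw [hk]; push_cast; ring⟩
  have hfin : FiniteMultiplicity (hζ.toInteger - 1) (c : 𝓞 K) :=
    .of_not_isUnit hl.not_isUnit hc'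
  obtain ⟨t, ht, htnd⟩ := hfin.exists_eq_pow_mul_and_not_dvd
  set m := multiplicity (hζ.toInteger - 1) (c : 𝓞 K) with hm
  have hm1 : 1 ≤ m := by
    by_contra hlt
    have hm0 : m = 0 := by omega
    rw [hm0, pow_zero, one_mul] at ht
    exact htnd (ht ▸ hlc)
  have hbnd : ¬ hζ.toInteger - 1 ∣ (b : 𝓞 K) := by
    intro hb
    rw [← Ideal.norm_dvd_iff (hζ.prime_norm_toInteger_sub_one_of_prime_ne_two' hp2),
      hζ.norm_toInteger_sub_one_of_prime_ne_two' hp2] at hb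
    have hpa : (p : ℤ) ∣ a := by
      apply hpZ.dvd_of_dvd_pow (n := p)
      have : a ^ p = c ^ p - b ^ p := by rw [← h]; ring
      rw [this]
      exact dvd_sub (dvd_pow hpc hpri.out.ne_zero) (dvd_pow hb hpri.out.ne_zero)
    exact hpZ.not_isUnit (hgcd.isUnit_of_dvd' hpa hb)
  refine no_solution_ringOfIntegers hζ hp2 kummer m hm1 (a : 𝓞 K) (b : 𝓞 K) t 1
    (IsCoprime.intCast hgcd) hbnd htnd ?_
  rw [Units.val_one, one_mul, ← ht]
  exact_mod_cast h

/-- Case II in symmetric form: no coprime solution with `p ∣ a * b * c`. -/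
theorem caseII_of_dvd_mul (hp2 : p ≠ 2) [IsPrincipalIdealRing (𝓞 K)]
    (kummer : ∀ u : (𝓞 K)ˣ, (∃ n : ℤ, (p : 𝓞 K) ∣ (u : 𝓞 K) - (n : 𝓞 K)) →
      ∃ v : (𝓞 K)ˣ, u = v ^ p)
    (a b c : ℤ) (hgcd : IsCoprime a b) (ha : a ≠ 0) (hb : b ≠ 0) (hc : c ≠ 0)
    (hdvd : (p : ℤ) ∣ a * b * c) (h : a ^ p + b ^ p = c ^ p) : False := by
  have hppos : 0 < p := hpri.out.pos
  have hodd : Odd p := hpri.out.odd_of_ne_two hp2
  have hpZ : Prime (p : ℤ) := Nat.prime_iff_prime_int.1 hpri.out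
  have hac : IsCoprime a c := by
    have h1 : IsCoprime (a ^ p) (b ^ p) := (IsCoprime.pow_iff hppos hppos).2 hgcd
    have h2 : IsCoprime (a ^ p) (b ^ p + a ^ p * 1) := h1.add_mul_left_right 1
    rw [mul_one, add_comm, h] at h2
    exact (IsCoprime.pow_iff hppos hppos).1 h2
  have hbc : IsCoprime b c := by
    have h1 : IsCoprime (b ^ p) (a ^ p) := (IsCoprime.pow_iff hppos hppos).2 hgcd.symm
    have h2 : IsCoprime (b ^ p) (a ^ p + b ^ p * 1) := h1.add_mul_left_right 1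
    rw [mul_one, h] at h2
    exact (IsCoprime.pow_iff hppos hppos).1 h2
  rcases hpZ.dvd_or_dvd hdvd with hab | hpc
  · rcases hpZ.dvd_or_dvd hab with hpa | hpb
    · -- `c ^ p + (-b) ^ p = a ^ p`
      refine caseII (K := K) hp2 kummer c (-b) a hbc.symm.neg_right ha hpa ?_
      rw [hodd.neg_pow, ← h]; ring
    · -- `c ^ p + (-a) ^ p = b ^ p`
      refine caseII (K := K) hp2 kummer c (-a) b hac.symm.neg_right hb hpb ?_
      rw [hodd.neg_pow, ← h]; ring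
  · exact caseII (K := K) hp2 kummer a b c hgcd hc hpc h

end Fermat.Agent.Kummer.H44
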