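import Mathlib
import Fermat.Prelude.Def_FLTPrelim_FreyPackage

set_option autoImplicit false

/-!
First case of Fermat for the exponents 5, 7, 11, 13 by the Sophie Germain / Legendre criterion.
Everything here is elementary (integers and `ZMod q`).
-/

namespace Fermat.Agent.Kummer

open Finset

/-- The cofactor `∑ y^i (-z)^(p-1-i)`, so that `(y+z) * sgS p y z = y^p + z^p` for odd `p`. -/
def sgS (p : ℕ) (y z : ℤ) : ℤ := ∑ i ∈ range p, y ^ i * (-z) ^ (p - 1 - i)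

lemma sgS_mul {p : ℕ} (hp : Odd p) (y z : ℤ) : (y + z) * sgS p y z = y ^ p + z ^ p := by
  have h := geom_sum₂_mul y (-z) p
  rw [hp.neg_pow] at h
  unfold sgS
  linarith

lemma sgS_isCoprime {p : ℕ} (hp : p.Prime) {y z : ℤ} (hyz : IsCoprime y z)
    (hpx : ¬ (p : ℤ) ∣ y + z) : IsCoprime (y + z) (sgS p y z) := by
  apply isCoprime_of_prime_dvd
  · rintro ⟨h1, -⟩
    exact hpx (h1 ▸ dvd_zero _)
  · intro r hr h1 h2
    have h1' : r ∣ y - (-z) := by simpa using h1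
    have h3 : r ∣ (p : ℤ) * (-z) ^ (p - 1) := (dvd_geom_sum₂_iff_of_dvd_sub h1').mp h2
    rcases hr.dvd_or_dvd h3 with h4 | h4
    · have hpp : Prime (p : ℤ) := Nat.prime_iff_prime_int.mp hp
      have hass : Associated r (p : ℤ) := hr.associated_of_dvd hpp h4
      exact hpx (hass.symm.dvd.trans h1)
    · have h5 : r ∣ z := by
        have := hr.dvd_of_dvd_pow h4
        simpa using this
      have h6 : r ∣ y := by
        have := dvd_sub h1 h5
        simpa using this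
      exact hr.not_isUnit (hyz.isUnit_of_dvd' h6 h5)

/-- The two conditions on the auxiliary prime `q` in Sophie Germain's criterion. -/
structure SGAux (p q : ℕ) : Prop where
  hq : q.Prime
  h1 : ∀ u v w : ZMod q, u ^ p + v ^ p + w ^ p = 0 → u = 0 ∨ v = 0 ∨ w = 0
  h2 : ∀ t : ZMod q, t ^ p ≠ (p : ZMod q)

/-- if `x^p + y^p + z^p = 0` with pairwise coprime `x, y, z` and `p ∤ y + z`-type condition,
then `y + z` and the cofactor are `p`-th powers. -/
lemma sg_pow_aux {p : ℕ} (hp : p.Prime) (hp2 : p ≠ 2) {x y z : ℤ}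
    (hyz : IsCoprime y z) (h : x ^ p + y ^ p + z ^ p = 0) (hpx : ¬ (p : ℤ) ∣ x) :
    (∃ a : ℤ, y + z = a ^ p) ∧ ∃ α : ℤ, sgS p y z = α ^ p := by
  have hodd : Odd p := hp.odd_of_ne_two hp2
  have hmul : (y + z) * sgS p y z = (-x) ^ p := by
    rw [sgS_mul hodd, hodd.neg_pow]; linarith
  have hpp : Prime (p : ℤ) := Nat.prime_iff_prime_int.mp hp
  have hnd : ¬ (p : ℤ) ∣ y + z := by
    intro hd
    have h1 : (p : ℤ) ∣ (-x) ^ p := hmul ▸ hd.mul_right _
    have h2 : (p : ℤ) ∣ -x := hpp.dvd_of_dvd_pow h1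
    exact hpx ((dvd_neg).mp h2)
  exact Int.eq_pow_of_mul_eq_pow_odd (sgS_isCoprime hp hyz hnd) hodd hmul

lemma sg_core {p q : ℕ} (hp : p.Prime) (hp2 : p ≠ 2) (aux : SGAux p q) {x y z : ℤ}
    (hxy : IsCoprime x y) (hxz : IsCoprime x z) (hyz : IsCoprime y z)
    (h : x ^ p + y ^ p + z ^ p = 0) (hpx : ¬ (p : ℤ) ∣ x) (hpy : ¬ (p : ℤ) ∣ y)
    (hpz : ¬ (p : ℤ) ∣ z) (hqx : (q : ℤ) ∣ x) : False := by
  have : Fact q.Prime := ⟨aux.hq⟩
  have hodd : Odd p := hp.odd_of_ne_two hp2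
  have hqq : Prime (q : ℤ) := Nat.prime_iff_prime_int.mp aux.hq
  obtain ⟨⟨a, ha⟩, ⟨α, hα⟩⟩ := sg_pow_aux hp hp2 hyz h hpx
  obtain ⟨⟨b, hb⟩, -⟩ := sg_pow_aux (x := y) (y := z) (z := x) hp hp2 hxz.symm
    (by linarith) hpy
  obtain ⟨⟨c, hc⟩, ⟨γ, hγ⟩⟩ := sg_pow_aux (x := z) (y := x) (z := y) hp hp2 hxy
    (by linarith) hpz
  have hx0 : ((x : ℤ) : ZMod q) = 0 := (ZMod.intCast_zmod_eq_zero_iff_dvd x q).mpr hqx
  -- the key congruence
  have hsum : ((b : ℤ) : ZMod q) ^ p + ((c : ℤ) : ZMod q) ^ p + ((-a : ℤ) : ZMod q) ^ p = 0 := by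
    have e : b ^ p + c ^ p + (-a) ^ p = 2 * x := by
      rw [hodd.neg_pow, ← ha, ← hb, ← hc]; ring
    have e' := congrArg (Int.cast : ℤ → ZMod q) e
    push_cast at e'
    rw [hx0, mul_zero] at e'
    push_cast
    exact e'
  -- `q ∤ y`, `q ∤ z`
  have hqy : ¬ (q : ℤ) ∣ y := fun hd => hqq.not_isUnit (hxy.isUnit_of_dvd' hqx hd)
  have hqz : ¬ (q : ℤ) ∣ z := fun hd => hqq.not_isUnit (hxz.isUnit_of_dvd' hqx hd)
  rcases aux.h1 _ _ _ hsum with hb0 | hc0 | ha0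
  · -- `q ∣ b`, so `q ∣ z + x`, so `q ∣ z`
    have h1 : (q : ℤ) ∣ b := (ZMod.intCast_zmod_eq_zero_iff_dvd b q).mp hb0
    have h2 : (q : ℤ) ∣ z + x := hb ▸ dvd_pow h1 hp.ne_zero
    exact hqz ((dvd_add_left hqx).mp h2)
  · have h1 : (q : ℤ) ∣ c := (ZMod.intCast_zmod_eq_zero_iff_dvd c q).mp hc0
    have h2 : (q : ℤ) ∣ x + y := hc ▸ dvd_pow h1 hp.ne_zero
    exact hqy ((dvd_add_right hqx).mp h2)
  · have h1 : (q : ℤ) ∣ -a := (ZMod.intCast_zmod_eq_zero_iff_dvd (-a) q).mp ha0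
    have h2 : (q : ℤ) ∣ y + z := ha ▸ dvd_pow ((dvd_neg).mp h1) hp.ne_zero
    -- in `ZMod q`: `y = -z`
    have hyz' : ((y : ℤ) : ZMod q) = -((z : ℤ) : ZMod q) := by
      have := (ZMod.intCast_zmod_eq_zero_iff_dvd (y + z) q).mpr h2
      push_cast at this
      exact eq_neg_of_add_eq_zero_left this
    have hy0 : ((y : ℤ) : ZMod q) ≠ 0 := fun h0 =>
      hqy ((ZMod.intCast_zmod_eq_zero_iff_dvd y q).mp h0)
    -- `α^p = p * y^(p-1)`
    have hα' : ((α : ℤ) : ZMod q) ^ p = (p : ZMod q) * ((y : ℤ) : ZMod q) ^ (p - 1) := by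
      have e := congrArg (Int.cast : ℤ → ZMod q) hα
      unfold sgS at e
      push_cast at e
      rw [← e, ← hyz', geom_sum₂_self]
    -- `γ^p = y^(p-1)`
    have hγ' : ((γ : ℤ) : ZMod q) ^ p = ((y : ℤ) : ZMod q) ^ (p - 1) := by
      have e := congrArg (Int.cast : ℤ → ZMod q) (sgS_mul hodd x y)
      rw [hγ] at e
      push_cast at e
      rw [hx0, zero_add, zero_pow hp.ne_zero, zero_add] at e
      have hpow : ((y : ℤ) : ZMod q) ^ p = ((y : ℤ) : ZMod q) * ((y : ℤ) : ZMod q) ^ (p - 1) := by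
        rw [← pow_succ', Nat.sub_add_cancel hp.one_le]
      rw [hpow] at e
      exact mul_left_cancel₀ hy0 e
    have hγ0 : ((γ : ℤ) : ZMod q) ≠ 0 := by
      intro h0
      rw [h0, zero_pow hp.ne_zero] at hγ'
      exact pow_ne_zero _ hy0 hγ'.symm
    refine aux.h2 (((α : ℤ) : ZMod q) / ((γ : ℤ) : ZMod q)) ?_
    rw [div_pow, hα', hγ', mul_div_assoc, div_self (pow_ne_zero _ hy0), mul_one]

/-- **Sophie Germain's criterion**: first case of Fermat for the exponent `p`. -/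
theorem sophie_germain {p q : ℕ} (hp : p.Prime) (hp2 : p ≠ 2) (aux : SGAux p q) {x y z : ℤ}
    (hxy : IsCoprime x y) (hxz : IsCoprime x z) (hyz : IsCoprime y z)
    (h : x ^ p + y ^ p + z ^ p = 0) : (p : ℤ) ∣ x * y * z := by
  by_contra hnd
  have hpp : Prime (p : ℤ) := Nat.prime_iff_prime_int.mp hp
  have hpx : ¬ (p : ℤ) ∣ x := fun hd => hnd ((hd.mul_right y).mul_right z)
  have hpy : ¬ (p : ℤ) ∣ y := fun hd => hnd ((hd.mul_left x).mul_right z)
  have hpz : ¬ (p : ℤ) ∣ z := fun hd => hnd (hd.mul_left (x * y))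
  have e := congrArg (Int.cast : ℤ → ZMod q) h
  push_cast at e
  rcases aux.h1 _ _ _ e with h0 | h0 | h0
  · exact sg_core hp hp2 aux hxy hxz hyz h hpx hpy hpz
      ((ZMod.intCast_zmod_eq_zero_iff_dvd x q).mp h0)
  · exact sg_core hp hp2 aux hyz hxy.symm hxz.symm (by linarith) hpy hpz hpx
      ((ZMod.intCast_zmod_eq_zero_iff_dvd y q).mp h0)
  · exact sg_core hp hp2 aux hxz.symm hyz.symm hxy (by linarith) hpz hpx hpy
      ((ZMod.intCast_zmod_eq_zero_iff_dvd z q).mp h0)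

/-- helper: condition (i) from a description of the nonzero `p`-th powers. -/
lemma sgAux_h1_of_finset {p q : ℕ} (hq : q.Prime) (hp : p ≠ 0) (S : Finset (ZMod q))
    (hS : ∀ t : ZMod q, t ^ p = 0 ∨ t ^ p ∈ S)
    (hsum : ∀ a ∈ S, ∀ b ∈ S, ∀ c ∈ S, a + b + c ≠ 0) :
    ∀ u v w : ZMod q, u ^ p + v ^ p + w ^ p = 0 → u = 0 ∨ v = 0 ∨ w = 0 := by
  have : Fact q.Prime := ⟨hq⟩
  intro u v w h
  rcases hS u with hu | hu
  · exact Or.inl ((pow_eq_zero_iff hp).mp hu)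
  rcases hS v with hv | hv
  · exact Or.inr (Or.inl ((pow_eq_zero_iff hp).mp hv))
  rcases hS w with hw | hw
  · exact Or.inr (Or.inr ((pow_eq_zero_iff hp).mp hw))
  exact absurd h (hsum _ hu _ hv _ hw)

lemma sgAux_5_11 : SGAux 5 11 :=
  ⟨by norm_num, sgAux_h1_of_finset (by norm_num) (by norm_num) {1, -1} (by decide) (by decide),
    by decide⟩

lemma sgAux_11_23 : SGAux 11 23 :=
  ⟨by norm_num, sgAux_h1_of_finset (by norm_num) (by norm_num) {1, -1} (by decide) (by decide),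
    by decide⟩

lemma sgAux_7_29 : SGAux 7 29 :=
  ⟨by norm_num,
    sgAux_h1_of_finset (by norm_num) (by norm_num) {1, -1, 12, -12} (by decide) (by decide),
    by decide⟩

set_option maxRecDepth 100000 in
lemma sgAux_13_53 : SGAux 13 53 :=
  ⟨by norm_num,
    sgAux_h1_of_finset (by norm_num) (by norm_num) {1, -1, 23, -23} (by decide) (by decide),
    by decide⟩

/-- First case of Fermat for `p ∈ {5, 7, 11, 13}`. -/
theorem caseI_of_mem {p : ℕ} (hp : p = 5 ∨ p = 7 ∨ p = 11 ∨ p = 13) {x y z : ℤ}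
    (hxy : IsCoprime x y) (hxz : IsCoprime x z) (hyz : IsCoprime y z)
    (h : x ^ p + y ^ p + z ^ p = 0) : (p : ℤ) ∣ x * y * z := by
  rcases hp with rfl | rfl | rfl | rfl
  · exact sophie_germain (by norm_num) (by norm_num) sgAux_5_11 hxy hxz hyz h
  · exact sophie_germain (by norm_num) (by norm_num) sgAux_7_29 hxy hxz hyz h
  · exact sophie_germain (by norm_num) (by norm_num) sgAux_11_23 hxy hxz hyz h
  · exact sophie_germain (by norm_num) (by norm_num) sgAux_13_53 hxy hxz hyz h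

/-- Frey package form: for `p ∈ {5, 7, 11, 13}` we are in the second case, `p ∣ a b c`. -/
theorem freyPackage_caseII (P : FreyPackage)
    (hp : P.p = 5 ∨ P.p = 7 ∨ P.p = 11 ∨ P.p = 13) : (P.p : ℤ) ∣ P.a * P.b * P.c := by
  have hodd : Odd P.p := P.hp_odd
  have hab : IsCoprime P.a P.b := Int.isCoprime_iff_gcd_eq_one.mpr (by
    have := P.hgcdab
    rw [← Int.coe_gcd] at this
    exact_mod_cast this)
  have hac : IsCoprime P.a P.c := Int.isCoprime_iff_gcd_eq_one.mpr (by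
    have := P.hgcdac
    rw [← Int.coe_gcd] at this
    exact_mod_cast this)
  have hbc : IsCoprime P.b P.c := Int.isCoprime_iff_gcd_eq_one.mpr (by
    have := P.hgcdbc
    rw [← Int.coe_gcd] at this
    exact_mod_cast this)
  have h : P.a ^ P.p + P.b ^ P.p + (-P.c) ^ P.p = 0 := by
    rw [hodd.neg_pow, P.hFLT]; ring
  have := caseI_of_mem hp hab hac.neg_right hbc.neg_right h
  simpa using this

end Fermat.Agent.Kummer
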