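import Mathlib
import Fermat.Prelude.Def_FLTPrelim_FreyPackage
import Fermat.Agent.Kummer.K1_SophieGermain
import Fermat.Agent.Kummer.H44_CaseII

set_option autoImplicit false

/-!
Kummer project, package K5 (helper44): a Frey package with `p ∈ {5, 7, 11, 13}` does not exist,
given that the ring of integers of the `p`-th cyclotomic field is principal and satisfies
Kummer's lemma.
-/

namespace Fermat.Agent.Kummer.H44

open NumberField

/-- Kummer's lemma for a number field `K` and a prime `p`: a unit congruent to a rational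
integer modulo `p` is a `p`-th power. -/
def KummerLemmaFor (p : ℕ) (K : Type) [Field K] [NumberField K] : Prop :=
  ∀ u : (𝓞 K)ˣ, (∃ n : ℤ, (p : 𝓞 K) ∣ (u : 𝓞 K) - (n : 𝓞 K)) → ∃ v : (𝓞 K)ˣ, u = v ^ p

/-- A Frey package whose exponent `p` satisfies: `p ∣ a b c`, the `p`-th cyclotomic ring of
integers is principal and Kummer's lemma holds, cannot exist. -/
theorem false_of_freyPackage_of_dvd (P : FreyPackage) (hdvd : (P.p : ℤ) ∣ P.a * P.b * P.c)
    (K : Type) [Field K] [NumberField K] [hK : @IsCyclotomicExtension {P.p} ℚ K _ _ _]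
    [IsPrincipalIdealRing (𝓞 K)] (hkum : KummerLemmaFor P.p K) : False := by
  have : Fact P.p.Prime := ⟨P.pp⟩
  have hp2 : P.p ≠ 2 := by have := P.hp5; omega
  have hab : IsCoprime P.a P.b := Int.isCoprime_iff_gcd_eq_one.mpr (by
    have := P.hgcdab
    rw [← Int.coe_gcd] at this
    exact_mod_cast this)
  exact caseII_of_dvd_mul (K := K) hp2 hkum P.a P.b P.c hab P.ha0 P.hb0 P.hc0 hdvd P.hFLT

/-- The final wiring for one exponent `q ∈ {5, 7, 11, 13}`: given class number one and
Kummer's lemma for the `q`-th cyclotomic field, there is no Frey package with `p = q`. -/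
theorem false_of_freyPackage_of_eq {q : ℕ} [NeZero q]
    (hq : q = 5 ∨ q = 7 ∨ q = 11 ∨ q = 13)
    (pid : IsPrincipalIdealRing (𝓞 (CyclotomicField q ℚ)))
    (kum : KummerLemmaFor q (CyclotomicField q ℚ))
    (P : FreyPackage) (hp : P.p = q) : False := by
  subst hp
  have hdvd := freyPackage_caseII P hq
  have hc : IsCyclotomicExtension {P.p} ℚ (CyclotomicField P.p ℚ) :=
    CyclotomicField.isCyclotomicExtension P.p ℚ
  exact false_of_freyPackage_of_dvd P hdvd (CyclotomicField P.p ℚ) kum

end Fermat.Agent.Kummer.H44
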