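import Mathlib

set_option autoImplicit false

namespace Fermat.Agent.Kummer.H61

open Module

/-- Abstract counting lemma: if a commutative group `E` is generated by `n` elements `G i`
and `ψ` is a homomorphism to an `𝔽_p`-vector space taking `n` elements `s j` to linearly
independent vectors, then the kernel of `ψ` consists of `p`-th powers. -/
theorem exists_pow_of_indep {E : Type*} [CommGroup E] {p : ℕ} [Fact p.Prime]
    {V : Type*} [AddCommGroup V] [Module (ZMod p) V]
    (ψ : E →* Multiplicative V) {n : ℕ} (G : Fin n → E)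
    (hG : ∀ u : E, ∃ e : Fin n → ℤ, u = ∏ i, G i ^ e i)
    {ι : Type*} [Fintype ι] (hcard : n ≤ Fintype.card ι) (s : ι → E)
    (hs : LinearIndependent (ZMod p) (fun j => Multiplicative.toAdd (ψ (s j))))
    (u : E) (hu : ψ u = 1) : ∃ v : E, u = v ^ p := by
  classical
  set w : Fin n → V := fun i => Multiplicative.toAdd (ψ (G i)) with hw
  -- formula for ψ on a word
  have hword : ∀ e : Fin n → ℤ, Multiplicative.toAdd (ψ (∏ i, G i ^ e i)) =
      ∑ i, ((e i : ℤ) : ZMod p) • w i := by
    intro e
    rw [map_prod, toAdd_prod]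
    refine Finset.sum_congr rfl fun i _ => ?_
    rw [map_zpow, toAdd_zpow, hw, Int.cast_smul_eq_zsmul]
  -- the s j lie in the span of the w i
  have hspan : Submodule.span (ZMod p) (Set.range fun j => Multiplicative.toAdd (ψ (s j))) ≤
      Submodule.span (ZMod p) (Set.range w) := by
    rw [Submodule.span_le]
    rintro _ ⟨j, rfl⟩
    obtain ⟨e, he⟩ := hG (s j)
    simp only
    rw [he, hword e]
    exact Submodule.sum_mem _ fun i _ =>
      Submodule.smul_mem _ _ (Submodule.subset_span ⟨i, rfl⟩)
  have hfin1 : n ≤ finrank (ZMod p)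
      (Submodule.span (ZMod p) (Set.range fun j => Multiplicative.toAdd (ψ (s j)))) := by
    rw [finrank_span_eq_card hs]; exact hcard
  have hfin2 : finrank (ZMod p) (Submodule.span (ZMod p) (Set.range w)) ≤ n := by
    have := finrank_range_le_card (R := ZMod p) w
    rwa [Fintype.card_fin] at this
  have : Module.Finite (ZMod p) (Submodule.span (ZMod p) (Set.range w)) :=
    FiniteDimensional.span_of_finite (ZMod p) (Set.finite_range w)
  have hfin3 : n ≤ finrank (ZMod p) (Submodule.span (ZMod p) (Set.range w)) := by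
    calc n ≤ finrank (ZMod p)
          (Submodule.span (ZMod p) (Set.range fun j => Multiplicative.toAdd (ψ (s j)))) :=
          hfin1
      _ ≤ _ := Submodule.finrank_mono hspan
  have hwind : LinearIndependent (ZMod p) w := by
    rw [linearIndependent_iff_card_eq_finrank_span, Fintype.card_fin]
    exact le_antisymm hfin3 hfin2
  obtain ⟨e, he⟩ := hG u
  have h0 : ∑ i, ((e i : ℤ) : ZMod p) • w i = 0 := by
    rw [← hword e, ← he, hu]; rfl
  have hcoef : ∀ i, ((e i : ℤ) : ZMod p) = 0 := by
    intro i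
    exact (Fintype.linearIndependent_iff.1 hwind) (fun i => ((e i : ℤ) : ZMod p)) h0 i
  have hdvd : ∀ i, ∃ f : ℤ, e i = (p : ℤ) * f := by
    intro i
    exact (ZMod.intCast_zmod_eq_zero_iff_dvd (e i) p).1 (hcoef i)
  choose f hf using hdvd
  refine ⟨∏ i, G i ^ f i, ?_⟩
  rw [he, ← Finset.prod_pow]
  refine Finset.prod_congr rfl fun i _ => ?_
  rw [hf i, mul_comm, zpow_mul, zpow_natCast]

end Fermat.Agent.Kummer.H61

namespace Fermat.Agent.Kummer.H61

open NumberField NumberField.Units

/-- Dirichlet's unit theorem, in the form: the unit group is generated by `rank K + 1`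
elements. -/
theorem exists_generators (K : Type*) [Field K] [NumberField K] :
    ∃ G : Fin (rank K + 1) → (𝓞 K)ˣ,
      ∀ u : (𝓞 K)ˣ, ∃ e : Fin (rank K + 1) → ℤ, u = ∏ i, G i ^ e i := by
  classical
  obtain ⟨g, hg⟩ := IsCyclic.exists_generator (α := torsion K)
  refine ⟨Fin.cons (g : (𝓞 K)ˣ) (fundSystem K), fun u => ?_⟩
  obtain ⟨⟨t, e⟩, hte, -⟩ := exist_unique_eq_mul_prod K u
  obtain ⟨k, hk⟩ := Subgroup.mem_zpowers_iff.1 (hg t)
  refine ⟨Fin.cons k e, ?_⟩
  rw [Fin.prod_univ_succ]
  simp only [Fin.cons_zero, Fin.cons_succ]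
  rw [hte]
  congr 1
  rw [← hk]
  simp

end Fermat.Agent.Kummer.H61
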