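import Fermat.Agent.Kummer.H61_CertTools

set_option autoImplicit false

open Polynomial

namespace Fermat.Agent.Kummer.H61.C11

theorem Fz_eq_1 : Fz 1 = (1 : ℤ[X]) * X ^ 0 + (1 : ℤ[X]) * X ^ 1 := by
  simp only [Fz, Finset.sum_range_succ, Finset.sum_range_zero]
  ring

theorem Sz_eq_1 : Sz 1 = (1 : ℤ[X]) * X ^ 0 := by
  simp only [Sz, Finset.sum_range_succ, Finset.sum_range_zero]
  push_cast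
  ring

theorem Fz_eq_2 : Fz 2 = (2 : ℤ[X]) * X ^ 0 + (3 : ℤ[X]) * X ^ 1 + (1 : ℤ[X]) * X ^ 2 := by
  simp only [Fz, Finset.sum_range_succ, Finset.sum_range_zero]
  ring

theorem Sz_eq_2 : Sz 2 = (3 : ℤ[X]) * X ^ 0 + (2 : ℤ[X]) * X ^ 1 := by
  simp only [Sz, Finset.sum_range_succ, Finset.sum_range_zero]
  push_cast
  ring

theorem Fz_eq_3 : Fz 3 = (3 : ℤ[X]) * X ^ 0 + (6 : ℤ[X]) * X ^ 1 + (4 : ℤ[X]) * X ^ 2 + (1 : ℤ[X]) * X ^ 3 := by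
  simp only [Fz, Finset.sum_range_succ, Finset.sum_range_zero]
  ring

theorem Sz_eq_3 : Sz 3 = (6 : ℤ[X]) * X ^ 0 + (8 : ℤ[X]) * X ^ 1 + (3 : ℤ[X]) * X ^ 2 := by
  simp only [Sz, Finset.sum_range_succ, Finset.sum_range_zero]
  push_cast
  ring

theorem Fz_eq_4 : Fz 4 = (4 : ℤ[X]) * X ^ 0 + (10 : ℤ[X]) * X ^ 1 + (10 : ℤ[X]) * X ^ 2 + (5 : ℤ[X]) * X ^ 3 + (1 : ℤ[X]) * X ^ 4 := by
  simp only [Fz, Finset.sum_range_succ, Finset.sum_range_zero]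
  ring

theorem Sz_eq_4 : Sz 4 = (10 : ℤ[X]) * X ^ 0 + (20 : ℤ[X]) * X ^ 1 + (15 : ℤ[X]) * X ^ 2 + (4 : ℤ[X]) * X ^ 3 := by
  simp only [Sz, Finset.sum_range_succ, Finset.sum_range_zero]
  push_cast
  ring

theorem Fz_eq_5 : Fz 5 = (5 : ℤ[X]) * X ^ 0 + (15 : ℤ[X]) * X ^ 1 + (20 : ℤ[X]) * X ^ 2 + (15 : ℤ[X]) * X ^ 3 + (6 : ℤ[X]) * X ^ 4 + (1 : ℤ[X]) * X ^ 5 := by
  simp only [Fz, Finset.sum_range_succ, Finset.sum_range_zero]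
  ring

theorem Sz_eq_5 : Sz 5 = (15 : ℤ[X]) * X ^ 0 + (40 : ℤ[X]) * X ^ 1 + (45 : ℤ[X]) * X ^ 2 + (24 : ℤ[X]) * X ^ 3 + (5 : ℤ[X]) * X ^ 4 := by
  simp only [Sz, Finset.sum_range_succ, Finset.sum_range_zero]
  push_cast
  ring

theorem Wz_eq_0 : Wz 5 0 = (120 : ℤ[X]) * X ^ 0 + (1080 : ℤ[X]) * X ^ 1 + (4570 : ℤ[X]) * X ^ 2 + (12080 : ℤ[X]) * X ^ 3 + (22319 : ℤ[X]) * X ^ 4 + (30513 : ℤ[X]) * X ^ 5 + (31835 : ℤ[X]) * X ^ 6 + (25741 : ℤ[X]) * X ^ 7 + (16199 : ℤ[X]) * X ^ 8 + (7889 : ℤ[X]) * X ^ 9 + (2924 : ℤ[X]) * X ^ 10 + (799 : ℤ[X]) * X ^ 11 + (152 : ℤ[X]) * X ^ 12 + (18 : ℤ[X]) * X ^ 13 + (1 : ℤ[X]) * X ^ 14 := by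
  simp only [Wz, Fin.prod_univ_five]
  simp only [Fin.isValue, Fin.reduceEq, ↓reduceIte]
  norm_num
  rw [Fz_eq_2, Fz_eq_3, Fz_eq_4, Fz_eq_5, Sz_eq_1]
  ring

theorem Wz_eq_1 : Wz 5 1 = (180 : ℤ[X]) * X ^ 0 + (1650 : ℤ[X]) * X ^ 1 + (7110 : ℤ[X]) * X ^ 2 + (19135 : ℤ[X]) * X ^ 3 + (35991 : ℤ[X]) * X ^ 4 + (50093 : ℤ[X]) * X ^ 5 + (53219 : ℤ[X]) * X ^ 6 + (43837 : ℤ[X]) * X ^ 7 + (28121 : ℤ[X]) * X ^ 8 + (13972 : ℤ[X]) * X ^ 9 + (5289 : ℤ[X]) * X ^ 10 + (1478 : ℤ[X]) * X ^ 11 + (288 : ℤ[X]) * X ^ 12 + (35 : ℤ[X]) * X ^ 13 + (2 : ℤ[X]) * X ^ 14 := by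
  simp only [Wz, Fin.prod_univ_five]
  simp only [Fin.isValue, Fin.reduceEq, ↓reduceIte]
  norm_num
  rw [Fz_eq_1, Fz_eq_3, Fz_eq_4, Fz_eq_5, Sz_eq_2]
  ring

theorem Wz_eq_2 : Wz 5 2 = (240 : ℤ[X]) * X ^ 0 + (2240 : ℤ[X]) * X ^ 1 + (9820 : ℤ[X]) * X ^ 2 + (26860 : ℤ[X]) * X ^ 3 + (51288 : ℤ[X]) * X ^ 4 + (72382 : ℤ[X]) * X ^ 5 + (77879 : ℤ[X]) * X ^ 6 + (64882 : ℤ[X]) * X ^ 7 + (42034 : ℤ[X]) * X ^ 8 + (21055 : ℤ[X]) * X ^ 9 + (8018 : ℤ[X]) * X ^ 10 + (2248 : ℤ[X]) * X ^ 11 + (438 : ℤ[X]) * X ^ 12 + (53 : ℤ[X]) * X ^ 13 + (3 : ℤ[X]) * X ^ 14 := by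
  simp only [Wz, Fin.prod_univ_five]
  simp only [Fin.isValue, Fin.reduceEq, ↓reduceIte]
  norm_num
  rw [Fz_eq_1, Fz_eq_2, Fz_eq_4, Fz_eq_5, Sz_eq_3]
  ring

theorem Wz_eq_3 : Wz 5 3 = (300 : ℤ[X]) * X ^ 0 + (2850 : ℤ[X]) * X ^ 1 + (12700 : ℤ[X]) * X ^ 2 + (35245 : ℤ[X]) * X ^ 3 + (68135 : ℤ[X]) * X ^ 4 + (97125 : ℤ[X]) * X ^ 5 + (105295 : ℤ[X]) * X ^ 6 + (88169 : ℤ[X]) * X ^ 7 + (57267 : ℤ[X]) * X ^ 8 + (28688 : ℤ[X]) * X ^ 9 + (10901 : ℤ[X]) * X ^ 10 + (3044 : ℤ[X]) * X ^ 11 + (590 : ℤ[X]) * X ^ 12 + (71 : ℤ[X]) * X ^ 13 + (4 : ℤ[X]) * X ^ 14 := by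
  simp only [Wz, Fin.prod_univ_five]
  simp only [Fin.isValue, Fin.reduceEq, ↓reduceIte]
  norm_num
  rw [Fz_eq_1, Fz_eq_2, Fz_eq_3, Fz_eq_5, Sz_eq_4]
  ring

theorem Wz_eq_4 : Wz 5 4 = (360 : ℤ[X]) * X ^ 0 + (3480 : ℤ[X]) * X ^ 1 + (15750 : ℤ[X]) * X ^ 2 + (44276 : ℤ[X]) * X ^ 3 + (86427 : ℤ[X]) * X ^ 4 + (123975 : ℤ[X]) * X ^ 5 + (134804 : ℤ[X]) * X ^ 6 + (112891 : ℤ[X]) * X ^ 7 + (73171 : ℤ[X]) * X ^ 8 + (36526 : ℤ[X]) * X ^ 9 + (13821 : ℤ[X]) * X ^ 10 + (3843 : ℤ[X]) * X ^ 11 + (742 : ℤ[X]) * X ^ 12 + (89 : ℤ[X]) * X ^ 13 + (5 : ℤ[X]) * X ^ 14 := by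
  simp only [Wz, Fin.prod_univ_five]
  simp only [Fin.isValue, Fin.reduceEq, ↓reduceIte]
  norm_num
  rw [Fz_eq_1, Fz_eq_2, Fz_eq_3, Fz_eq_4, Sz_eq_5]
  ring

/-- Table of low coefficients of the `W_j` modulo `11`. -/
def T : Fin 5 → Fin 9 → ZMod 11 := ![![10, 2, 5, 2, 0, 10, 1, 1, 7], ![4, 0, 4, 6, 10, 10, 1, 2, 5], ![9, 7, 8, 9, 6, 2, 10, 4, 3], ![3, 1, 6, 1, 1, 6, 3, 4, 1], ![8, 4, 9, 1, 0, 5, 10, 9, 10]]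

/-- Left inverse of the table. -/
def L : Fin 5 → Fin 9 → ZMod 11 := ![![1, 9, 0, 6, 0, 5, 0, 10, 0], ![9, 3, 0, 10, 0, 5, 0, 10, 0], ![2, 3, 0, 3, 0, 5, 0, 6, 0], ![2, 2, 0, 5, 0, 8, 0, 7, 0], ![1, 1, 0, 7, 0, 6, 0, 2, 0]]

theorem hT : ∀ (j : Fin 5) (k : Fin 9), (((Wz 5 j).coeff (k : ℕ) : ℤ) : ZMod 11) = T j k := by
  intro j k
  fin_cases j
  · simp only [Fin.isValue, Fin.zero_eta, Fin.mk_one, Fin.reduceFinMk]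
    rw [Wz_eq_0]
    fin_cases k <;> simp [coeff_X_pow, coeff_X, T] <;> decide
  · simp only [Fin.isValue, Fin.zero_eta, Fin.mk_one, Fin.reduceFinMk]
    rw [Wz_eq_1]
    fin_cases k <;> simp [coeff_X_pow, coeff_X, T] <;> decide
  · simp only [Fin.isValue, Fin.zero_eta, Fin.mk_one, Fin.reduceFinMk]
    rw [Wz_eq_2]
    fin_cases k <;> simp [coeff_X_pow, coeff_X, T] <;> decide
  · simp only [Fin.isValue, Fin.zero_eta, Fin.mk_one, Fin.reduceFinMk]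
    rw [Wz_eq_3]
    fin_cases k <;> simp [coeff_X_pow, coeff_X, T] <;> decide
  · simp only [Fin.isValue, Fin.zero_eta, Fin.mk_one, Fin.reduceFinMk]
    rw [Wz_eq_4]
    fin_cases k <;> simp [coeff_X_pow, coeff_X, T] <;> decide

theorem hL : ∀ i j : Fin 5, ∑ k : Fin 9, L i k * T j k = if i = j then 1 else 0 := by
  decide

theorem cert : Cert 11 5 := cert_of_table 11 5 9 (by norm_num) T hT L hL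

end Fermat.Agent.Kummer.H61.C11

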