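import Fermat.Agent.Kummer.H61_CertTools

set_option autoImplicit false

open Polynomial

namespace Fermat.Agent.Kummer.H61.C13

theorem Fz_eq_1 : Fz 1 = (1 : ℤ[X]) * X ^ 0 + (1 : ℤ[X]) * X ^ 1 := by
  simp only [Fz, Finset.sum_range_succ, Finset.sum_range_zero]
  ring

theorem Sz_eq_1 : Sz 1 = (1 : ℤ[X]) * X ^ 0 := by
  simp only [Sz, Finset.sum_range_succ, Finset.sum_range_zero]
  push_cast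
  ring

theorem Fz_eq_2 : Fz 2 = (2 : ℤ[X]) * X ^ 0 + (3 : ℤ[X]) * X ^ 1 + (1 : ℤ[X]) * X ^ 2 := by
  simp only [Fz, Finset.sum_range_succ, Finset.sum_range_zero]
  ring

theorem Sz_eq_2 : Sz 2 = (3 : ℤ[X]) * X ^ 0 + (2 : ℤ[X]) * X ^ 1 := by
  simp only [Sz, Finset.sum_range_succ, Finset.sum_range_zero]
  push_cast
  ring

theorem Fz_eq_3 : Fz 3 = (3 : ℤ[X]) * X ^ 0 + (6 : ℤ[X]) * X ^ 1 + (4 : ℤ[X]) * X ^ 2 + (1 : ℤ[X]) * X ^ 3 := by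
  simp only [Fz, Finset.sum_range_succ, Finset.sum_range_zero]
  ring

theorem Sz_eq_3 : Sz 3 = (6 : ℤ[X]) * X ^ 0 + (8 : ℤ[X]) * X ^ 1 + (3 : ℤ[X]) * X ^ 2 := by
  simp only [Sz, Finset.sum_range_succ, Finset.sum_range_zero]
  push_cast
  ring

theorem Fz_eq_4 : Fz 4 = (4 : ℤ[X]) * X ^ 0 + (10 : ℤ[X]) * X ^ 1 + (10 : ℤ[X]) * X ^ 2 + (5 : ℤ[X]) * X ^ 3 + (1 : ℤ[X]) * X ^ 4 := by
  simp only [Fz, Finset.sum_range_succ, Finset.sum_range_zero]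
  ring

theorem Sz_eq_4 : Sz 4 = (10 : ℤ[X]) * X ^ 0 + (20 : ℤ[X]) * X ^ 1 + (15 : ℤ[X]) * X ^ 2 + (4 : ℤ[X]) * X ^ 3 := by
  simp only [Sz, Finset.sum_range_succ, Finset.sum_range_zero]
  push_cast
  ring

theorem Fz_eq_5 : Fz 5 = (5 : ℤ[X]) * X ^ 0 + (15 : ℤ[X]) * X ^ 1 + (20 : ℤ[X]) * X ^ 2 + (15 : ℤ[X]) * X ^ 3 + (6 : ℤ[X]) * X ^ 4 + (1 : ℤ[X]) * X ^ 5 := by
  simp only [Fz, Finset.sum_range_succ, Finset.sum_range_zero]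
  ring

theorem Sz_eq_5 : Sz 5 = (15 : ℤ[X]) * X ^ 0 + (40 : ℤ[X]) * X ^ 1 + (45 : ℤ[X]) * X ^ 2 + (24 : ℤ[X]) * X ^ 3 + (5 : ℤ[X]) * X ^ 4 := by
  simp only [Sz, Finset.sum_range_succ, Finset.sum_range_zero]
  push_cast
  ring

theorem Fz_eq_6 : Fz 6 = (6 : ℤ[X]) * X ^ 0 + (21 : ℤ[X]) * X ^ 1 + (35 : ℤ[X]) * X ^ 2 + (35 : ℤ[X]) * X ^ 3 + (21 : ℤ[X]) * X ^ 4 + (7 : ℤ[X]) * X ^ 5 + (1 : ℤ[X]) * X ^ 6 := by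
  simp only [Fz, Finset.sum_range_succ, Finset.sum_range_zero]
  ring

theorem Sz_eq_6 : Sz 6 = (21 : ℤ[X]) * X ^ 0 + (70 : ℤ[X]) * X ^ 1 + (105 : ℤ[X]) * X ^ 2 + (84 : ℤ[X]) * X ^ 3 + (35 : ℤ[X]) * X ^ 4 + (6 : ℤ[X]) * X ^ 5 := by
  simp only [Sz, Finset.sum_range_succ, Finset.sum_range_zero]
  push_cast
  ring

theorem Wz_eq_0 : Wz 6 0 = (720 : ℤ[X]) * X ^ 0 + (9000 : ℤ[X]) * X ^ 1 + (54300 : ℤ[X]) * X ^ 2 + (210450 : ℤ[X]) * X ^ 3 + (587864 : ℤ[X]) * X ^ 4 + (1258047 : ℤ[X]) * X ^ 5 + (2139398 : ℤ[X]) * X ^ 6 + (2958851 : ℤ[X]) * X ^ 7 + (3377764 : ℤ[X]) * X ^ 8 + (3211759 : ℤ[X]) * X ^ 9 + (2555558 : ℤ[X]) * X ^ 10 + (1703197 : ℤ[X]) * X ^ 11 + (948347 : ℤ[X]) * X ^ 12 + (438408 : ℤ[X]) * X ^ 13 + (166495 : ℤ[X]) * X ^ 14 + (51107 : ℤ[X]) * X ^ 15 + (12374 :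 ℤ[X]) * X ^ 16 + (2276 : ℤ[X]) * X ^ 17 + (299 : ℤ[X]) * X ^ 18 + (25 : ℤ[X]) * X ^ 19 + (1 : ℤ[X]) * X ^ 20 := by
  simp only [Wz, Fin.prod_univ_six]
  simp only [Fin.isValue, Fin.reduceEq, ↓reduceIte]
  norm_num
  rw [Fz_eq_2, Fz_eq_3, Fz_eq_4, Fz_eq_5, Fz_eq_6, Sz_eq_1]
  ring

theorem Wz_eq_1 : Wz 6 1 = (1080 : ℤ[X]) * X ^ 0 + (13680 : ℤ[X]) * X ^ 1 + (83610 : ℤ[X]) * X ^ 2 + (328170 : ℤ[X]) * X ^ 3 + (928161 : ℤ[X]) * X ^ 4 + (2010854 : ℤ[X]) * X ^ 5 + (3461717 : ℤ[X]) * X ^ 6 + (4846816 : ℤ[X]) * X ^ 7 + (5602089 : ℤ[X]) * X ^ 8 + (5394358 : ℤ[X]) * X ^ 9 + (4347917 : ℤ[X]) * X ^ 10 + (2936395 : ℤ[X]) * X ^ 11 + (1657520 : ℤ[X]) * X ^ 12 + (777199 : ℤ[X]) * X ^ 13 + (299551 : ℤ[X]) * X ^ 14 + (93380 : ℤ[X]) * X ^ 15 + (22978 : ℤ[X]) * X ^ 16 + (4299 : ℤ[X])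 * X ^ 17 + (575 : ℤ[X]) * X ^ 18 + (49 : ℤ[X]) * X ^ 19 + (2 : ℤ[X]) * X ^ 20 := by
  simp only [Wz, Fin.prod_univ_six]
  simp only [Fin.isValue, Fin.reduceEq, ↓reduceIte]
  norm_num
  rw [Fz_eq_1, Fz_eq_3, Fz_eq_4, Fz_eq_5, Fz_eq_6, Sz_eq_2]
  ring

theorem Wz_eq_2 : Wz 6 2 = (1440 : ℤ[X]) * X ^ 0 + (18480 : ℤ[X]) * X ^ 1 + (114360 : ℤ[X]) * X ^ 2 + (454180 : ℤ[X]) * X ^ 3 + (1298928 : ℤ[X]) * X ^ 4 + (2843860 : ℤ[X]) * X ^ 5 + (4944616 : ℤ[X]) * X ^ 6 + (6988241 : ℤ[X]) * X ^ 7 + (8148749 : ℤ[X]) * X ^ 8 + (7911577 : ℤ[X]) * X ^ 9 + (6425744 : ℤ[X]) * X ^ 10 + (4370038 : ℤ[X]) * X ^ 11 + (2482158 : ℤ[X]) * X ^ 12 + (1170101 : ℤ[X]) * X ^ 13 + (452938 : ℤ[X]) * X ^ 14 + (141637 : ℤ[X]) * X ^ 15 + (34912 : ℤ[X]) * X ^ 16 + (6532 : ℤ[X]) * X ^ 17 + (872 : ℤ[X]) *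 X ^ 18 + (74 : ℤ[X]) * X ^ 19 + (3 : ℤ[X]) * X ^ 20 := by
  simp only [Wz, Fin.prod_univ_six]
  simp only [Fin.isValue, Fin.reduceEq, ↓reduceIte]
  norm_num
  rw [Fz_eq_1, Fz_eq_2, Fz_eq_4, Fz_eq_5, Fz_eq_6, Sz_eq_3]
  ring

theorem Wz_eq_3 : Wz 6 3 = (1800 : ℤ[X]) * X ^ 0 + (23400 : ℤ[X]) * X ^ 1 + (146550 : ℤ[X]) * X ^ 2 + (588420 : ℤ[X]) * X ^ 3 + (1699505 : ℤ[X]) * X ^ 4 + (3753610 : ℤ[X]) * X ^ 5 + (6576645 : ℤ[X]) * X ^ 6 + (9356204 : ℤ[X]) * X ^ 7 + (10970101 : ℤ[X]) * X ^ 8 + (10697790 : ℤ[X]) * X ^ 9 + (8717319 : ℤ[X]) * X ^ 10 + (5941349 : ℤ[X]) * X ^ 11 + (3378164 : ℤ[X]) * X ^ 12 + (1592377 : ℤ[X]) * X ^ 13 + (615709 : ℤ[X]) * X ^ 14 + (192138 : ℤ[X]) * X ^ 15 + (47224 : ℤ[X]) * X ^ 16 + (8805 : ℤ[X]) * X ^ 17 + (1171 : ℤ[X]) * X ^ 18 + (99 : ℤ[X]) *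 X ^ 19 + (4 : ℤ[X]) * X ^ 20 := by
  simp only [Wz, Fin.prod_univ_six]
  simp only [Fin.isValue, Fin.reduceEq, ↓reduceIte]
  norm_num
  rw [Fz_eq_1, Fz_eq_2, Fz_eq_3, Fz_eq_5, Fz_eq_6, Sz_eq_4]
  ring

theorem Wz_eq_4 : Wz 6 4 = (2160 : ℤ[X]) * X ^ 0 + (28440 : ℤ[X]) * X ^ 1 + (180180 : ℤ[X]) * X ^ 2 + (730806 : ℤ[X]) * X ^ 3 + (2128968 : ℤ[X]) * X ^ 4 + (4735327 : ℤ[X]) * X ^ 5 + (8342374 : ℤ[X]) * X ^ 6 + (11915826 : ℤ[X]) * X ^ 7 + (14007651 : ℤ[X]) * X ^ 8 + (13677812 : ℤ[X]) * X ^ 9 + (11147278 : ℤ[X]) * X ^ 10 + (7591008 : ℤ[X]) * X ^ 11 + (4308932 : ℤ[X]) * X ^ 12 + (2026490 : ℤ[X]) * X ^ 13 + (781468 : ℤ[X]) * X ^ 14 + (243166 : ℤ[X]) * X ^ 15 + (59594 : ℤ[X]) * X ^ 16 + (11081 : ℤ[X]) * X ^ 17 + (1470 : ℤ[X]) * X ^ 18 + (124 : ℤ[X]) * X ^ 19 + (5 : ℤ[X])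 * X ^ 20 := by
  simp only [Wz, Fin.prod_univ_six]
  simp only [Fin.isValue, Fin.reduceEq, ↓reduceIte]
  norm_num
  rw [Fz_eq_1, Fz_eq_2, Fz_eq_3, Fz_eq_4, Fz_eq_6, Sz_eq_5]
  ring

theorem Wz_eq_5 : Wz 6 5 = (2520 : ℤ[X]) * X ^ 0 + (33600 : ℤ[X]) * X ^ 1 + (215250 : ℤ[X]) * X ^ 2 + (881230 : ℤ[X]) * X ^ 3 + (2586129 : ℤ[X]) * X ^ 4 + (5782972 : ℤ[X]) * X ^ 5 + (10222993 : ℤ[X]) * X ^ 6 + (14626982 : ℤ[X]) * X ^ 7 + (17199353 : ℤ[X]) * X ^ 8 + (16779874 : ℤ[X]) * X ^ 9 + (13652489 : ℤ[X]) * X ^ 10 + (9276541 : ℤ[X]) * X ^ 11 + (5252694 : ℤ[X]) * X ^ 12 + (2464067 : ℤ[X]) * X ^ 13 + (947869 : ℤ[X]) * X ^ 14 + (294268 : ℤ[X]) * X ^ 15 + (71968 : ℤ[X]) * X ^ 16 + (13357 : ℤ[X]) * X ^ 17 + (1769 : ℤ[X]) * X ^ 18 + (149 : ℤ[X]) * X ^ 19 + (6 : ℤ[X]) * X ^ 20 := by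
  simp only [Wz, Fin.prod_univ_six]
  simp only [Fin.isValue, Fin.reduceEq, ↓reduceIte]
  norm_num
  rw [Fz_eq_1, Fz_eq_2, Fz_eq_3, Fz_eq_4, Fz_eq_5, Sz_eq_6]
  ring

/-- Table of low coefficients of the `W_j` modulo `13`. -/
def T : Fin 6 → Fin 11 → ZMod 13 := ![![5, 4, 12, 6, 4, 11, 1, 12, 0, 5, 5], ![1, 4, 7, 11, 0, 1, 12, 0, 12, 8, 2], ![10, 7, 12, 12, 7, 6, 1, 0, 11, 11, 0], ![6, 0, 1, 1, 2, 3, 10, 0, 12, 12, 0], ![2, 9, 0, 11, 10, 12, 1, 0, 8, 5, 12], ![11, 8, 9, 12, 0, 0, 1, 6, 2, 7, 6]]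

/-- Left inverse of the table. -/
def L : Fin 6 → Fin 11 → ZMod 13 := ![![3, 6, 0, 12, 0, 9, 0, 0, 0, 5, 0], ![2, 9, 0, 11, 0, 4, 0, 6, 0, 9, 0], ![1, 4, 0, 4, 0, 11, 0, 4, 0, 4, 0], ![3, 2, 0, 12, 0, 11, 0, 6, 0, 10, 0], ![11, 1, 0, 8, 0, 6, 0, 9, 0, 1, 0], ![7, 1, 0, 2, 0, 8, 0, 11, 0, 3, 0]]

theorem hT : ∀ (j : Fin 6) (k : Fin 11), (((Wz 6 j).coeff (k : ℕ) : ℤ) : ZMod 13) = T j k := by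
  intro j k
  fin_cases j
  · simp only [Fin.isValue, Fin.zero_eta, Fin.mk_one, Fin.reduceFinMk]
    rw [Wz_eq_0]
    fin_cases k <;> simp [coeff_X_pow, coeff_X, T] <;> decide
  · simp only [Fin.isValue, Fin.zero_eta, Fin.mk_one, Fin.reduceFinMk]
    rw [Wz_eq_1]
    fin_cases k <;> simp [coeff_X_pow, coeff_X, T] <;> decide
  · simp only [Fin.isValue, Fin.zero_eta, Fin.mk_one, Fin.reduceFinMk]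
    rw [Wz_eq_2]
    fin_cases k <;> simp [coeff_X_pow, coeff_X, T] <;> decide
  · simp only [Fin.isValue, Fin.zero_eta, Fin.mk_one, Fin.reduceFinMk]
    rw [Wz_eq_3]
    fin_cases k <;> simp [coeff_X_pow, coeff_X, T] <;> decide
  · simp only [Fin.isValue, Fin.zero_eta, Fin.mk_one, Fin.reduceFinMk]
    rw [Wz_eq_4]
    fin_cases k <;> simp [coeff_X_pow, coeff_X, T] <;> decide
  · simp only [Fin.isValue, Fin.zero_eta, Fin.mk_one, Fin.reduceFinMk]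
    rw [Wz_eq_5]
    fin_cases k <;> simp [coeff_X_pow, coeff_X, T] <;> decide

theorem hL : ∀ i j : Fin 6, ∑ k : Fin 11, L i k * T j k = if i = j then 1 else 0 := by
  decide

theorem cert : Cert 13 6 := cert_of_table 13 6 11 (by norm_num) T hT L hL

end Fermat.Agent.Kummer.H61.C13

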