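import Fermat.Agent.Kummer.H61_CertTools

set_option autoImplicit false

open Polynomial

namespace Fermat.Agent.Kummer.H61.C5

theorem Fz_eq_1 : Fz 1 = (1 : ℤ[X]) * X ^ 0 + (1 : ℤ[X]) * X ^ 1 := by
  simp only [Fz, Finset.sum_range_succ, Finset.sum_range_zero]
  ring

theorem Sz_eq_1 : Sz 1 = (1 : ℤ[X]) * X ^ 0 := by
  simp only [Sz, Finset.sum_range_succ, Finset.sum_range_zero]
  push_cast
  ring

theorem Fz_eq_2 : Fz 2 = (2 : ℤ[X]) * X ^ 0 + (3 : ℤ[X]) * X ^ 1 + (1 : ℤ[X]) * X ^ 2 := by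
  simp only [Fz, Finset.sum_range_succ, Finset.sum_range_zero]
  ring

theorem Sz_eq_2 : Sz 2 = (3 : ℤ[X]) * X ^ 0 + (2 : ℤ[X]) * X ^ 1 := by
  simp only [Sz, Finset.sum_range_succ, Finset.sum_range_zero]
  push_cast
  ring

theorem Wz_eq_0 : Wz 2 0 = (2 : ℤ[X]) * X ^ 0 + (3 : ℤ[X]) * X ^ 1 + (1 : ℤ[X]) * X ^ 2 := by
  simp only [Wz, Fin.prod_univ_two]
  simp only [Fin.isValue, Fin.reduceEq, ↓reduceIte]
  norm_num
  rw [Fz_eq_2, Sz_eq_1]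
  ring

theorem Wz_eq_1 : Wz 2 1 = (3 : ℤ[X]) * X ^ 0 + (5 : ℤ[X]) * X ^ 1 + (2 : ℤ[X]) * X ^ 2 := by
  simp only [Wz, Fin.prod_univ_two]
  simp only [Fin.isValue, Fin.reduceEq, ↓reduceIte]
  norm_num
  rw [Fz_eq_1, Sz_eq_2]
  ring

/-- Table of low coefficients of the `W_j` modulo `5`. -/
def T : Fin 2 → Fin 3 → ZMod 5 := ![![2, 3, 1], ![3, 0, 2]]

/-- Left inverse of the table. -/
def L : Fin 2 → Fin 3 → ZMod 5 := ![![0, 2, 0], ![2, 2, 0]]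

theorem hT : ∀ (j : Fin 2) (k : Fin 3), (((Wz 2 j).coeff (k : ℕ) : ℤ) : ZMod 5) = T j k := by
  intro j k
  fin_cases j
  · simp only [Fin.isValue, Fin.zero_eta, Fin.mk_one, Fin.reduceFinMk]
    rw [Wz_eq_0]
    fin_cases k <;> simp [coeff_X_pow, coeff_X, T] <;> decide
  · simp only [Fin.isValue, Fin.zero_eta, Fin.mk_one, Fin.reduceFinMk]
    rw [Wz_eq_1]
    fin_cases k <;> simp [coeff_X_pow, coeff_X, T] <;> decide

theorem hL : ∀ i j : Fin 2, ∑ k : Fin 3, L i k * T j k = if i = j then 1 else 0 := by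
  decide

theorem cert : Cert 5 2 := cert_of_table 5 2 3 (by norm_num) T hT L hL

end Fermat.Agent.Kummer.H61.C5

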