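import Fermat.Agent.Kummer.H61_CertTools

set_option autoImplicit false

open Polynomial

namespace Fermat.Agent.Kummer.H61.C7

theorem Fz_eq_1 : Fz 1 = (1 : ℤ[X]) * X ^ 0 + (1 : ℤ[X]) * X ^ 1 := by
  simp only [Fz, Finset.sum_range_succ, Finset.sum_range_zero]
  ring

theorem Sz_eq_1 : Sz 1 = (1 : ℤ[X]) * X ^ 0 := by
  simp only [Sz, Finset.sum_range_succ, Finset.sum_range_zero]
  push_cast
  ring

theorem Fz_eq_2 : Fz 2 = (2 : ℤ[X]) * X ^ 0 + (3 : ℤ[X]) * X ^ 1 + (1 : ℤ[X]) * X ^ 2 := by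
  simp only [Fz, Finset.sum_range_succ, Finset.sum_range_zero]
  ring

theorem Sz_eq_2 : Sz 2 = (3 : ℤ[X]) * X ^ 0 + (2 : ℤ[X]) * X ^ 1 := by
  simp only [Sz, Finset.sum_range_succ, Finset.sum_range_zero]
  push_cast
  ring

theorem Fz_eq_3 : Fz 3 = (3 : ℤ[X]) * X ^ 0 + (6 : ℤ[X]) * X ^ 1 + (4 : ℤ[X]) * X ^ 2 + (1 : ℤ[X]) * X ^ 3 := by
  simp only [Fz, Finset.sum_range_succ, Finset.sum_range_zero]
  ring

theorem Sz_eq_3 : Sz 3 = (6 : ℤ[X]) * X ^ 0 + (8 : ℤ[X]) * X ^ 1 + (3 : ℤ[X]) * X ^ 2 := by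
  simp only [Sz, Finset.sum_range_succ, Finset.sum_range_zero]
  push_cast
  ring

theorem Wz_eq_0 : Wz 3 0 = (6 : ℤ[X]) * X ^ 0 + (21 : ℤ[X]) * X ^ 1 + (29 : ℤ[X]) * X ^ 2 + (20 : ℤ[X]) * X ^ 3 + (7 : ℤ[X]) * X ^ 4 + (1 : ℤ[X]) * X ^ 5 := by
  simp only [Wz, Fin.prod_univ_three]
  simp only [Fin.isValue, Fin.reduceEq, ↓reduceIte]
  norm_num
  rw [Fz_eq_2, Fz_eq_3, Sz_eq_1]
  ring

theorem Wz_eq_1 : Wz 3 1 = (9 : ℤ[X]) * X ^ 0 + (33 : ℤ[X]) * X ^ 1 + (48 : ℤ[X]) * X ^ 2 + (35 : ℤ[X]) * X ^ 3 + (13 : ℤ[X]) * X ^ 4 + (2 : ℤ[X]) * X ^ 5 := by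
  simp only [Wz, Fin.prod_univ_three]
  simp only [Fin.isValue, Fin.reduceEq, ↓reduceIte]
  norm_num
  rw [Fz_eq_1, Fz_eq_3, Sz_eq_2]
  ring

theorem Wz_eq_2 : Wz 3 2 = (12 : ℤ[X]) * X ^ 0 + (46 : ℤ[X]) * X ^ 1 + (70 : ℤ[X]) * X ^ 2 + (53 : ℤ[X]) * X ^ 3 + (20 : ℤ[X]) * X ^ 4 + (3 : ℤ[X]) * X ^ 5 := by
  simp only [Wz, Fin.prod_univ_three]
  simp only [Fin.isValue, Fin.reduceEq, ↓reduceIte]
  norm_num
  rw [Fz_eq_1, Fz_eq_2, Sz_eq_3]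
  ring

/-- Table of low coefficients of the `W_j` modulo `7`. -/
def T : Fin 3 → Fin 5 → ZMod 7 := ![![6, 0, 1, 6, 0], ![2, 5, 6, 0, 6], ![5, 4, 0, 4, 6]]

/-- Left inverse of the table. -/
def L : Fin 3 → Fin 5 → ZMod 7 := ![![5, 5, 0, 1, 0], ![6, 2, 0, 1, 0], ![3, 3, 0, 4, 0]]

theorem hT : ∀ (j : Fin 3) (k : Fin 5), (((Wz 3 j).coeff (k : ℕ) : ℤ) : ZMod 7) = T j k := by
  intro j k
  fin_cases j
  · simp only [Fin.isValue, Fin.zero_eta, Fin.mk_one, Fin.reduceFinMk]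
    rw [Wz_eq_0]
    fin_cases k <;> simp [coeff_X_pow, coeff_X, T] <;> decide
  · simp only [Fin.isValue, Fin.zero_eta, Fin.mk_one, Fin.reduceFinMk]
    rw [Wz_eq_1]
    fin_cases k <;> simp [coeff_X_pow, coeff_X, T] <;> decide
  · simp only [Fin.isValue, Fin.zero_eta, Fin.mk_one, Fin.reduceFinMk]
    rw [Wz_eq_2]
    fin_cases k <;> simp [coeff_X_pow, coeff_X, T] <;> decide

theorem hL : ∀ i j : Fin 3, ∑ k : Fin 5, L i k * T j k = if i = j then 1 else 0 := by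
  decide

theorem cert : Cert 7 3 := cert_of_table 7 3 5 (by norm_num) T hT L hL

end Fermat.Agent.Kummer.H61.C7

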