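import Fermat.Agent.Kummer.H61_LogDeriv

set_option autoImplicit false

namespace Fermat.Agent.Kummer.H61

open Polynomial

/-- A certificate is provided by a table `T` of the low coefficients of the `W_j` modulo `p`
together with a left inverse `L` of this table. -/
theorem cert_of_table (p m n : ℕ) (hn : n = p - 2)
    (T : Fin m → Fin n → ZMod p)
    (hT : ∀ (j : Fin m) (k : Fin n), (((Wz m j).coeff (k : ℕ) : ℤ) : ZMod p) = T j k)
    (L : Fin m → Fin n → ZMod p)
    (hL : ∀ i j : Fin m, ∑ k : Fin n, L i k * T j k = if i = j then 1 else 0) :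
    Cert p m := by
  classical
  subst hn
  intro c h
  rw [X_pow_dvd_iff] at h
  have hk : ∀ k : Fin (p - 2), ∑ j : Fin m, c j * T j k = 0 := by
    intro k
    have := h k k.2
    rw [finsetSum_coeff] at this
    rw [← this]
    refine Finset.sum_congr rfl fun j _ => ?_
    rw [coeff_C_mul, coeff_map, ← hT j k]
    rfl
  funext i
  have : c i = ∑ k : Fin (p - 2), L i k * ∑ j : Fin m, c j * T j k := by
    simp_rw [Finset.mul_sum]
    rw [Finset.sum_comm]
    have : ∀ j : Fin m, ∑ k : Fin (p - 2), L i k * (c j * T j k) =
        c j * if i = j then 1 else 0 := by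
      intro j
      rw [← hL i j, Finset.mul_sum]
      exact Finset.sum_congr rfl fun k _ => by ring
    simp_rw [this]
    simp
  rw [this]
  simp [hk]

end Fermat.Agent.Kummer.H61
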