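import Fermat.Agent.Kummer.H61_KummerOfCert
import Fermat.Agent.Kummer.H61_Cert5
import Fermat.Agent.Kummer.H61_Cert7
import Fermat.Agent.Kummer.H61_Cert11
import Fermat.Agent.Kummer.H61_Cert13

set_option autoImplicit false

namespace Fermat.Agent.Kummer.H61

open NumberField

/-- **Kummer's lemma** for `p ∈ {5, 7, 11, 13}`: a unit of the `p`-th cyclotomic ring of
integers that is congruent to a rational integer modulo `p` is a `p`-th power of a unit. -/
theorem kummer_lemma {K : Type*} [Field K] [NumberField K] {p : ℕ} [hp : Fact p.Prime]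
    [IsCyclotomicExtension {p} ℚ K] (h : p = 5 ∨ p = 7 ∨ p = 11 ∨ p = 13)
    (u : (𝓞 K)ˣ) (hcong : ∃ n : ℤ, (p : 𝓞 K) ∣ (u : 𝓞 K) - n) :
    ∃ v : (𝓞 K)ˣ, u = v ^ p := by
  rcases h with rfl | rfl | rfl | rfl
  · exact kummer_of_cert 5 K (by norm_num) C5.cert u hcong
  · exact kummer_of_cert 7 K (by norm_num) C7.cert u hcong
  · exact kummer_of_cert 11 K (by norm_num) C11.cert u hcong
  · exact kummer_of_cert 13 K (by norm_num) C13.cert u hcong

end Fermat.Agent.Kummer.H61
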