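import Mathlib

set_option autoImplicit false

namespace Fermat.Agent.Kummer.H61

open Polynomial NumberField TrivSqZeroExt

section ringB

variable (p : ℕ)

/-- The truncated polynomial ring `𝔽_p[X]/(X^(p-2))`. -/
abbrev B : Type := (ZMod p)[X] ⧸ Ideal.span {(X : (ZMod p)[X]) ^ (p - 2)}

/-- The class of `X`. -/
noncomputable def tB : B p := Ideal.Quotient.mk _ X

theorem tB_pow : (tB p) ^ (p - 2) = 0 := by
  rw [tB, ← map_pow, Ideal.Quotient.eq_zero_iff_mem]
  exact Ideal.mem_span_singleton_self _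

/-- The point `1 + t + ε` of the dual numbers over `B p`. -/
noncomputable def yD : DualNumber (B p) := inl (1 + tB p) + DualNumber.eps

theorem fst_yD : (yD p).fst = 1 + tB p := by
  simp [yD]

theorem snd_yD : (yD p).snd = 1 := by
  simp [yD]

variable [hp : Fact p.Prime]

theorem yD_sub_one_pow : (yD p - 1) ^ (p - 1) = 0 := by
  have h2 : 2 ≤ p := hp.out.two_le
  have hpred : p - 1 = (p - 2) + 1 := by omega
  ext
  · rw [fst_pow, fst_sub, fst_yD, fst_one, add_sub_cancel_left, fst_zero, hpred, pow_succ,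
      tB_pow, zero_mul]
  · rw [snd_pow, fst_sub, fst_yD, fst_one, add_sub_cancel_left, snd_zero, hpred]
    simp only [Nat.pred_eq_sub_one, add_tsub_cancel_right]
    rw [tB_pow]
    simp

theorem natCast_self_dual : ((p : ℕ) : DualNumber (B p)) = 0 := by
  have : ((p : ℕ) : DualNumber (B p)) = algebraMap (ZMod p) (DualNumber (B p)) (p : ZMod p) := by
    rw [map_natCast]
  rw [this, ZMod.natCast_self, map_zero]

theorem aeval_yD_cyclotomic : aeval (yD p) (cyclotomic p ℤ) = 0 := by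
  have h1 : cyclotomic p (ZMod p) = (X - 1) ^ (p - 1) := by
    have := cyclotomic_mul_prime_eq_pow_of_not_dvd (ZMod p) (p := p) (n := 1) (by
      intro h; exact hp.out.one_lt.ne' (Nat.dvd_one.1 h))
    rw [one_mul, cyclotomic_one] at this
    exact this
  have h2 : aeval (yD p) (cyclotomic p ℤ) = aeval (yD p) (cyclotomic p (ZMod p)) := by
    rw [← map_cyclotomic p (Int.castRingHom (ZMod p))]
    rw [← algebraMap_int_eq, aeval_map_algebraMap]
  rw [h2, h1, map_pow, map_sub, aeval_X, map_one, yD_sub_one_pow]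

end ringB

section theta

variable (p : ℕ) [hp : Fact p.Prime] (K : Type*) [Field K] [NumberField K]
  [IsCyclotomicExtension {p} ℚ K]

/-- The chosen primitive root, as an algebraic integer. -/
noncomputable def zetaInt : 𝓞 K := (IsCyclotomicExtension.zeta_spec p ℚ K).toInteger

theorem zetaInt_isPrimitiveRoot : IsPrimitiveRoot (zetaInt p K) p :=
  (IsCyclotomicExtension.zeta_spec p ℚ K).toInteger_isPrimitiveRoot

theorem minpoly_gen_eq :
    minpoly ℤ (IsCyclotomicExtension.zeta_spec p ℚ K).integralPowerBasis.gen = cyclotomic p ℤ := by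
  rw [IsPrimitiveRoot.integralPowerBasis_gen]
  rw [← RingOfIntegers.minpoly_coe]
  exact (cyclotomic_eq_minpoly (IsCyclotomicExtension.zeta_spec p ℚ K) hp.out.pos).symm

/-- The ring homomorphism `𝓞 K → 𝔽_p[X]/(X^(p-2))[ε]` sending `ζ` to `1 + X + ε`. -/
noncomputable def Theta : 𝓞 K →ₐ[ℤ] DualNumber (B p) :=
  (IsCyclotomicExtension.zeta_spec p ℚ K).integralPowerBasis.lift (yD p) (by
    rw [minpoly_gen_eq]; exact aeval_yD_cyclotomic p)

theorem Theta_zeta : Theta p K (zetaInt p K) = yD p := by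
  have h1 : zetaInt p K = (IsCyclotomicExtension.zeta_spec p ℚ K).integralPowerBasis.gen :=
    (IsPrimitiveRoot.integralPowerBasis_gen _).symm
  rw [h1]
  exact (IsCyclotomicExtension.zeta_spec p ℚ K).integralPowerBasis.lift_gen (yD p) _

/-- First component of `Theta`, as a ring homomorphism. -/
noncomputable def fstTheta : 𝓞 K →+* B p :=
  ((fstHom ℤ (B p) (B p) : DualNumber (B p) →ₐ[ℤ] B p).comp (Theta p K)).toRingHom

theorem fstTheta_apply (x : 𝓞 K) : fstTheta p K x = (Theta p K x).fst := rfl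

/-- The logarithmic derivative, as a homomorphism from the unit group to the additive group
of `B p`. -/
noncomputable def psi : (𝓞 K)ˣ →* Multiplicative (B p) where
  toFun u := Multiplicative.ofAdd
    ((Theta p K (u : 𝓞 K)).snd * ((Units.map (fstTheta p K).toMonoidHom u)⁻¹ : (B p)ˣ))
  map_one' := by
    simp
  map_mul' u v := by
    rw [← ofAdd_add]
    congr 1
    have hu : (Theta p K (u : 𝓞 K)).fst = ((Units.map (fstTheta p K).toMonoidHom u : (B p)ˣ) : B p) :=
      rfl
    have hv : (Theta p K (v : 𝓞 K)).fst = ((Units.map (fstTheta p K).toMonoidHom v : (B p)ˣ) : B p) :=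
      rfl
    rw [map_mul, Units.val_mul, map_mul, snd_mul, hu, hv]
    simp only [smul_eq_mul, MulOpposite.smul_eq_mul_unop, MulOpposite.unop_op]
    set a := Units.map (fstTheta p K).toMonoidHom u
    set b := Units.map (fstTheta p K).toMonoidHom v
    have ha : (a : B p) * ((a⁻¹ : (B p)ˣ) : B p) = 1 := Units.mul_inv a
    have hb : (b : B p) * ((b⁻¹ : (B p)ˣ) : B p) = 1 := Units.mul_inv b
    have hab : (((a * b)⁻¹ : (B p)ˣ) : B p) = ((a⁻¹ : (B p)ˣ) : B p) * ((b⁻¹ : (B p)ˣ) : B p) := by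
      rw [← Units.val_mul]
      exact congrArg Units.val (mul_inv a b)
    rw [hab]
    linear_combination ((Theta p K (v : 𝓞 K)).snd * ((b⁻¹ : (B p)ˣ) : B p)) * ha +
      ((Theta p K (u : 𝓞 K)).snd * ((a⁻¹ : (B p)ˣ) : B p)) * hb

theorem psi_apply (u : (𝓞 K)ˣ) : Multiplicative.toAdd (psi p K u) =
    (Theta p K (u : 𝓞 K)).snd * ((Units.map (fstTheta p K).toMonoidHom u)⁻¹ : (B p)ˣ) := rfl

/-- Key relation: `psi u * fst (Theta u) = snd (Theta u)`. -/
theorem psi_mul_fst (u : (𝓞 K)ˣ) :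
    Multiplicative.toAdd (psi p K u) * (Theta p K (u : 𝓞 K)).fst = (Theta p K (u : 𝓞 K)).snd := by
  rw [psi_apply]
  have hu : (Theta p K (u : 𝓞 K)).fst = ((Units.map (fstTheta p K).toMonoidHom u : (B p)ˣ) : B p) :=
    rfl
  rw [hu, mul_assoc, Units.inv_mul, mul_one]

theorem isUnit_fst_Theta (u : (𝓞 K)ˣ) : IsUnit (Theta p K (u : 𝓞 K)).fst :=
  (Units.map (fstTheta p K).toMonoidHom u).isUnit

/-- If `u` is congruent to an integer modulo `p` then `psi u = 0`. -/
theorem psi_eq_one_of_dvd_sub (u : (𝓞 K)ˣ) (n : ℤ) (h : (p : 𝓞 K) ∣ (u : 𝓞 K) - n) :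
    psi p K u = 1 := by
  obtain ⟨w, hw⟩ := h
  have hu : (u : 𝓞 K) = n + p * w := by rw [← hw]; ring
  have h1 : Theta p K (u : 𝓞 K) = (n : DualNumber (B p)) := by
    rw [hu, map_add, map_mul, map_intCast, map_natCast, natCast_self_dual, zero_mul, add_zero]
  have h2 : (Theta p K (u : 𝓞 K)).snd = 0 := by
    rw [h1]; simp
  change Multiplicative.ofAdd _ = 1
  rw [h2, zero_mul]
  rfl

/-- The map `ℤ[X] → B p`. -/
noncomputable def mkB : ℤ[X] →+* B p :=
  (Ideal.Quotient.mk _).comp (mapRingHom (Int.castRingHom (ZMod p)))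

theorem mkB_X : mkB p X = tB p := by
  simp [mkB, tB]

/-- `F_a = ∑_{i<a} (1+X)^(i+1)`. -/
noncomputable def Fz (a : ℕ) : ℤ[X] := ∑ i ∈ Finset.range a, (1 + X) ^ (i + 1)

/-- `S_a = ∑_{i<a} (i+1) (1+X)^i`, the derivative of `F_a`. -/
noncomputable def Sz (a : ℕ) : ℤ[X] := ∑ i ∈ Finset.range a, ((i + 1 : ℕ) : ℤ[X]) * (1 + X) ^ i

/-- The element `ζ + ζ² + ⋯ + ζ^a`. -/
noncomputable def geomElt (a : ℕ) : 𝓞 K := ∑ i ∈ Finset.range a, (zetaInt p K) ^ (i + 1)

theorem isUnit_geomElt (a : ℕ) (ha : a.Coprime p) : IsUnit (geomElt p K a) := by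
  have h2 : 2 ≤ p := hp.out.two_le
  have hz := zetaInt_isPrimitiveRoot p K
  have h1 : geomElt p K a = zetaInt p K * ∑ i ∈ Finset.range a, (zetaInt p K) ^ i := by
    rw [geomElt, Finset.mul_sum]
    exact Finset.sum_congr rfl fun i _ => by rw [pow_succ']
  rw [h1]
  exact (hz.isUnit hp.out.ne_zero).mul (hz.geom_sum_isUnit h2 ha)

theorem fst_Theta_geomElt (a : ℕ) : (Theta p K (geomElt p K a)).fst = mkB p (Fz a) := by
  rw [geomElt, Fz, map_sum, map_sum]
  rw [show (∑ i ∈ Finset.range a, (Theta p K) (zetaInt p K ^ (i + 1))).fst =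
    ∑ i ∈ Finset.range a, ((Theta p K) (zetaInt p K ^ (i + 1))).fst from
      map_sum (fstHom ℤ (B p) (B p)) _ _]
  refine Finset.sum_congr rfl fun i _ => ?_
  rw [map_pow, Theta_zeta, fst_pow, fst_yD, map_pow, map_add, map_one, mkB_X]

theorem snd_Theta_geomElt (a : ℕ) : (Theta p K (geomElt p K a)).snd = mkB p (Sz a) := by
  rw [geomElt, Sz, map_sum, map_sum]
  rw [show (∑ i ∈ Finset.range a, (Theta p K) (zetaInt p K ^ (i + 1))).snd =
    ∑ i ∈ Finset.range a, ((Theta p K) (zetaInt p K ^ (i + 1))).snd from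
      map_sum (sndHom (B p) (B p)) _ _]
  refine Finset.sum_congr rfl fun i _ => ?_
  rw [map_pow, Theta_zeta, snd_pow, fst_yD, snd_yD, map_mul, map_pow, map_add, map_one, mkB_X,
    map_natCast]
  simp [nsmul_eq_mul]

/-- The polynomial `W_j = S_{j+1} ∏_{i ≠ j} F_{i+1}` over `ℤ`. -/
noncomputable def Wz (m : ℕ) (j : Fin m) : ℤ[X] :=
  Sz (j + 1) * ∏ i : Fin m, if i = j then 1 else Fz (i + 1)

/-- The certificate: the `W_j` are linearly independent modulo `p` and `X^(p-2)`. -/
def Cert (p m : ℕ) : Prop :=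
  ∀ c : Fin m → ZMod p,
    (X : (ZMod p)[X]) ^ (p - 2) ∣ ∑ j, C (c j) * (Wz m j).map (Int.castRingHom (ZMod p)) → c = 0

theorem smul_mkB (c : ZMod p) (f : ℤ[X]) :
    c • mkB p f = Ideal.Quotient.mk (Ideal.span {(X : (ZMod p)[X]) ^ (p - 2)})
      (C c * f.map (Int.castRingHom (ZMod p))) := by
  rw [mkB, RingHom.comp_apply, coe_mapRingHom, ← smul_eq_C_mul]
  rfl

theorem prod_eq_mul_prod_ite {R : Type*} [CommRing R] {m : ℕ} (a : Fin m → R) (j : Fin m) :
    ∏ i, a i = a j * ∏ i, if i = j then 1 else a i := by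
  classical
  rw [← Finset.mul_prod_erase Finset.univ a (Finset.mem_univ j)]
  congr 1
  rw [← Finset.prod_erase (a := j) (s := Finset.univ) (f := fun i => if i = j then 1 else a i)
    (by simp)]
  refine Finset.prod_congr rfl fun i hi => ?_
  rw [if_neg (Finset.ne_of_mem_erase hi)]

theorem linearIndependent_psi (m : ℕ) (hm : ∀ j : Fin m, ((j : ℕ) + 1).Coprime p)
    (hcert : Cert p m) :
    LinearIndependent (ZMod p) (fun j : Fin m =>
      Multiplicative.toAdd (psi p K (isUnit_geomElt p K ((j : ℕ) + 1) (hm j)).unit)) := by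
  classical
  rw [Fintype.linearIndependent_iff]
  intro c hc j
  set v : Fin m → B p := fun j =>
    Multiplicative.toAdd (psi p K (isUnit_geomElt p K ((j : ℕ) + 1) (hm j)).unit) with hv
  have hvF : ∀ j, v j * mkB p (Fz ((j : ℕ) + 1)) = mkB p (Sz ((j : ℕ) + 1)) := by
    intro j
    have := psi_mul_fst p K (isUnit_geomElt p K ((j : ℕ) + 1) (hm j)).unit
    rw [IsUnit.unit_spec, fst_Theta_geomElt, snd_Theta_geomElt] at this
    exact this
  set P : B p := ∏ i : Fin m, mkB p (Fz ((i : ℕ) + 1)) with hP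
  have hvP : ∀ j, v j * P = mkB p (Wz m j) := by
    intro j
    rw [hP, prod_eq_mul_prod_ite _ j, ← mul_assoc, hvF j, Wz, map_mul, map_prod]
    congr 1
    refine Finset.prod_congr rfl fun i _ => ?_
    split_ifs
    · rw [map_one]
    · rfl
  have h1 : ∑ j, c j • mkB p (Wz m j) = 0 := by
    have : (∑ j, c j • v j) * P = 0 := by rw [hc, zero_mul]
    rw [Finset.sum_mul] at this
    rw [← this]
    refine Finset.sum_congr rfl fun j _ => ?_
    rw [smul_mul_assoc, hvP j]
  have h2 : Ideal.Quotient.mk (Ideal.span {(X : (ZMod p)[X]) ^ (p - 2)})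
      (∑ j, C (c j) * (Wz m j).map (Int.castRingHom (ZMod p))) = 0 := by
    rw [map_sum, ← h1]
    exact Finset.sum_congr rfl fun j _ => (smul_mkB p (c j) (Wz m j)).symm
  rw [Ideal.Quotient.eq_zero_iff_mem, Ideal.mem_span_singleton] at h2
  exact congrFun (hcert c h2) j

end theta


end Fermat.Agent.Kummer.H61
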