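import Fermat.Agent.Kummer.H61_Abstract
import Fermat.Agent.Kummer.H61_LogDeriv

set_option autoImplicit false

namespace Fermat.Agent.Kummer.H61

open Polynomial NumberField NumberField.Units

variable (p : ℕ) [hp : Fact p.Prime] (K : Type*) [Field K] [NumberField K]
  [IsCyclotomicExtension {p} ℚ K]

theorem rank_add_one (hp2 : p ≠ 2) : rank K + 1 = (p - 1) / 2 := by
  have h3 : 2 < p := lt_of_le_of_ne hp.out.two_le (Ne.symm hp2)
  have h1 : Fintype.card (InfinitePlace K) = (p - 1) / 2 := by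
    rw [InfinitePlace.card_eq_nrRealPlaces_add_nrComplexPlaces,
      IsCyclotomicExtension.Rat.nrRealPlaces_eq_zero K h3,
      IsCyclotomicExtension.Rat.nrComplexPlaces_eq_totient_div_two p K,
      Nat.totient_prime hp.out, zero_add]
  rw [rank, h1]
  have : 1 ≤ (p - 1) / 2 := by omega
  omega

theorem coprime_succ_of_lt (j : Fin ((p - 1) / 2)) : ((j : ℕ) + 1).Coprime p := by
  have hj := j.2
  apply Nat.Coprime.symm
  rw [Nat.Prime.coprime_iff_not_dvd hp.out]
  apply Nat.not_dvd_of_pos_of_lt (by omega)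
  omega

/-- Kummer's lemma for a prime `p` admitting a certificate. -/
theorem kummer_of_cert (hp2 : p ≠ 2) (hcert : Cert p ((p - 1) / 2)) (u : (𝓞 K)ˣ)
    (h : ∃ n : ℤ, (p : 𝓞 K) ∣ (u : 𝓞 K) - n) : ∃ v : (𝓞 K)ˣ, u = v ^ p := by
  obtain ⟨n, hn⟩ := h
  obtain ⟨G, hG⟩ := exists_generators K
  refine exists_pow_of_indep (p := p) (psi p K) G hG (ι := Fin ((p - 1) / 2)) ?_
    (fun j => (isUnit_geomElt p K ((j : ℕ) + 1) (coprime_succ_of_lt p j)).unit)
    (linearIndependent_psi p K ((p - 1) / 2) (coprime_succ_of_lt p) hcert) u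
    (psi_eq_one_of_dvd_sub p K u n hn)
  rw [Fintype.card_fin, rank_add_one p K hp2]

end Fermat.Agent.Kummer.H61
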