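import Fermat.Agent.Kummer.H62_PrincipalPrime

set_option autoImplicit false

namespace Fermat.Agent.Kummer.H62

open NumberField Polynomial


theorem geom_sum_13_53 : ∑ i ∈ Finset.range 13, ((16 : ℤ) : ZMod 53) ^ i = 0 := by decide

/-- A principal prime of `ℤ[ζ_13]` above `53`: generated by `1 - ζ + ζ ^ 3`. -/
theorem exists_principal_thirteen_53 {K : Type*} [Field K] [NumberField K] [IsCyclotomicExtension {13} ℚ K] :
    ∃ P ∈ Ideal.primesOver (Ideal.span {(53 : ℤ)}) (𝓞 K), Submodule.IsPrincipal P := by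
  have : Fact (Nat.Prime 13) := ⟨by norm_num⟩
  have hζ := IsCyclotomicExtension.zeta_spec 13 ℚ K
  obtain ⟨z, hz⟩ : ∃ z : 𝓞 K, z = hζ.toInteger := ⟨_, rfl⟩
  have hcyc : 1 + z + z ^ 2 + z ^ 3 + z ^ 4 + z ^ 5 + z ^ 6 + z ^ 7 + z ^ 8 + z ^ 9 + z ^ 10 + z ^ 11 + z ^ 12 = 0 := by
    have h := hζ.toInteger_isPrimitiveRoot.geom_sum_eq_zero (by norm_num)
    rw [← hz] at h
    simpa [Finset.sum_range_succ] using h
  refine exists_isPrincipal_mem_primesOver' hζ z hz 53 (by norm_num) 16 geom_sum_13_53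
    (1 - z + z ^ 3)
    (25 + 10 * z + 19 * z ^ 2 + 3 * z ^ 3 + 2 * z ^ 4 - 8 * z ^ 5 - 2 * z ^ 6 + 5 * z ^ 7 + 22 * z ^ 8 + 33 * z ^ 9 + 37 * z ^ 10 + 24 * z ^ 11)
    (-8 - 3 * z - 6 * z ^ 2 - z ^ 3 - z ^ 4 + 2 * z ^ 5 - 2 * z ^ 7 - 7 * z ^ 8 - 10 * z ^ 9 - 11 * z ^ 10 - 7 * z ^ 11) ?_ ?_ ?_
  · intro φ hφ
    simp only [map_add, map_sub, map_pow, map_one, hφ]
    decide
  · push_cast
    linear_combination (-28 + 13 * z + 24 * z ^ 2) * hcyc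
  · push_cast
    linear_combination (8 - 4 * z - 7 * z ^ 2) * hcyc


theorem geom_sum_13_79 : ∑ i ∈ Finset.range 13, ((62 : ℤ) : ZMod 79) ^ i = 0 := by decide

/-- A principal prime of `ℤ[ζ_13]` above `79`: generated by `1 - ζ - ζ ^ 4`. -/
theorem exists_principal_thirteen_79 {K : Type*} [Field K] [NumberField K] [IsCyclotomicExtension {13} ℚ K] :
    ∃ P ∈ Ideal.primesOver (Ideal.span {(79 : ℤ)}) (𝓞 K), Submodule.IsPrincipal P := by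
  have : Fact (Nat.Prime 13) := ⟨by norm_num⟩
  have hζ := IsCyclotomicExtension.zeta_spec 13 ℚ K
  obtain ⟨z, hz⟩ : ∃ z : 𝓞 K, z = hζ.toInteger := ⟨_, rfl⟩
  have hcyc : 1 + z + z ^ 2 + z ^ 3 + z ^ 4 + z ^ 5 + z ^ 6 + z ^ 7 + z ^ 8 + z ^ 9 + z ^ 10 + z ^ 11 + z ^ 12 = 0 := by
    have h := hζ.toInteger_isPrimitiveRoot.geom_sum_eq_zero (by norm_num)
    rw [← hz] at h
    simpa [Finset.sum_range_succ] using h
  refine exists_isPrincipal_mem_primesOver' hζ z hz 79 (by norm_num) 62 geom_sum_13_79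
    (1 - z - z ^ 4)
    (62 + 63 * z + 49 * z ^ 2 + 8 * z ^ 3 + 29 * z ^ 4 + 51 * z ^ 5 + 59 * z ^ 6 + 26 * z ^ 7 + 14 * z ^ 8 + 24 * z ^ 9 + 42 * z ^ 10 + 27 * z ^ 11)
    (-49 - 49 * z - 38 * z ^ 2 - 6 * z ^ 3 - 23 * z ^ 4 - 40 * z ^ 5 - 46 * z ^ 6 - 20 * z ^ 7 - 11 * z ^ 8 - 19 * z ^ 9 - 33 * z ^ 10 - 21 * z ^ 11) ?_ ?_ ?_
  · intro φ hφ
    simp only [map_add, map_sub, map_pow, map_one, hφ]
    decide
  · push_cast
    linear_combination (-17 + 18 * z - 15 * z ^ 2 - 27 * z ^ 3) * hcyc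
  · push_cast
    linear_combination (13 - 14 * z + 12 * z ^ 2 + 21 * z ^ 3) * hcyc


theorem geom_sum_13_131 : ∑ i ∈ Finset.range 13, ((80 : ℤ) : ZMod 131) ^ i = 0 := by decide

/-- A principal prime of `ℤ[ζ_13]` above `131`: generated by `1 - ζ - ζ ^ 3`. -/
theorem exists_principal_thirteen_131 {K : Type*} [Field K] [NumberField K] [IsCyclotomicExtension {13} ℚ K] :
    ∃ P ∈ Ideal.primesOver (Ideal.span {(131 : ℤ)}) (𝓞 K), Submodule.IsPrincipal P := by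
  have : Fact (Nat.Prime 13) := ⟨by norm_num⟩
  have hζ := IsCyclotomicExtension.zeta_spec 13 ℚ K
  obtain ⟨z, hz⟩ : ∃ z : 𝓞 K, z = hζ.toInteger := ⟨_, rfl⟩
  have hcyc : 1 + z + z ^ 2 + z ^ 3 + z ^ 4 + z ^ 5 + z ^ 6 + z ^ 7 + z ^ 8 + z ^ 9 + z ^ 10 + z ^ 11 + z ^ 12 = 0 := by
    have h := hζ.toInteger_isPrimitiveRoot.geom_sum_eq_zero (by norm_num)
    rw [← hz] at h
    simpa [Finset.sum_range_succ] using h
  refine exists_isPrincipal_mem_primesOver' hζ z hz 131 (by norm_num) 80 geom_sum_13_131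
    (1 - z - z ^ 3)
    (111 + 78 * z + 17 * z ^ 2 + 67 * z ^ 3 + 84 * z ^ 4 + 40 * z ^ 5 + 46 * z ^ 6 + 69 * z ^ 7 + 48 * z ^ 8 + 33 * z ^ 9 + 41 * z ^ 10 + 28 * z ^ 11)
    (-68 - 47 * z - 10 * z ^ 2 - 41 * z ^ 3 - 51 * z ^ 4 - 24 * z ^ 5 - 28 * z ^ 6 - 42 * z ^ 7 - 29 * z ^ 8 - 20 * z ^ 9 - 25 * z ^ 10 - 17 * z ^ 11) ?_ ?_ ?_
  · intro φ hφ
    simp only [map_add, map_sub, map_pow, map_one, hφ]
    decide
  · push_cast
    linear_combination (-20 - 13 * z - 28 * z ^ 2) * hcyc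
  · push_cast
    linear_combination (12 + 8 * z + 17 * z ^ 2) * hcyc


theorem geom_sum_13_157 : ∑ i ∈ Finset.range 13, ((75 : ℤ) : ZMod 157) ^ i = 0 := by decide

/-- A principal prime of `ℤ[ζ_13]` above `157`: generated by `1 - ζ + ζ ^ 2 + ζ ^ 4`. -/
theorem exists_principal_thirteen_157 {K : Type*} [Field K] [NumberField K] [IsCyclotomicExtension {13} ℚ K] :
    ∃ P ∈ Ideal.primesOver (Ideal.span {(157 : ℤ)}) (𝓞 K), Submodule.IsPrincipal P := by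
  have : Fact (Nat.Prime 13) := ⟨by norm_num⟩
  have hζ := IsCyclotomicExtension.zeta_spec 13 ℚ K
  obtain ⟨z, hz⟩ : ∃ z : 𝓞 K, z = hζ.toInteger := ⟨_, rfl⟩
  have hcyc : 1 + z + z ^ 2 + z ^ 3 + z ^ 4 + z ^ 5 + z ^ 6 + z ^ 7 + z ^ 8 + z ^ 9 + z ^ 10 + z ^ 11 + z ^ 12 = 0 := by
    have h := hζ.toInteger_isPrimitiveRoot.geom_sum_eq_zero (by norm_num)
    rw [← hz] at h
    simpa [Finset.sum_range_succ] using h
  refine exists_isPrincipal_mem_primesOver' hζ z hz 157 (by norm_num) 75 geom_sum_13_157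
    (1 - z + z ^ 2 + z ^ 4)
    (89 + 86 * z + 42 * z ^ 2 + 77 * z ^ 3 + 67 * z ^ 4 + 25 * z ^ 5 + 37 * z ^ 6 + 56 * z ^ 7 + 73 * z ^ 8 + 113 * z ^ 9 + 124 * z ^ 10 + 76 * z ^ 11)
    (-43 - 41 * z - 20 * z ^ 2 - 37 * z ^ 3 - 32 * z ^ 4 - 12 * z ^ 5 - 18 * z ^ 6 - 27 * z ^ 7 - 35 * z ^ 8 - 54 * z ^ 9 - 59 * z ^ 10 - 36 * z ^ 11) ?_ ?_ ?_
  · intro φ hφ
    simp only [map_add, map_sub, map_pow, map_one, hφ]
    decide
  · push_cast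
    linear_combination (-68 + 65 * z + 48 * z ^ 2 + 76 * z ^ 3) * hcyc
  · push_cast
    linear_combination (32 - 31 * z - 23 * z ^ 2 - 36 * z ^ 3) * hcyc


theorem geom_sum_11_23 : ∑ i ∈ Finset.range 11, ((13 : ℤ) : ZMod 23) ^ i = 0 := by decide

/-- A principal prime of `ℤ[ζ_11]` above `23`: generated by `1 - ζ + ζ ^ 3`. -/
theorem exists_principal_eleven_23 {K : Type*} [Field K] [NumberField K] [IsCyclotomicExtension {11} ℚ K] :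
    ∃ P ∈ Ideal.primesOver (Ideal.span {(23 : ℤ)}) (𝓞 K), Submodule.IsPrincipal P := by
  have : Fact (Nat.Prime 11) := ⟨by norm_num⟩
  have hζ := IsCyclotomicExtension.zeta_spec 11 ℚ K
  obtain ⟨z, hz⟩ : ∃ z : 𝓞 K, z = hζ.toInteger := ⟨_, rfl⟩
  have hcyc : 1 + z + z ^ 2 + z ^ 3 + z ^ 4 + z ^ 5 + z ^ 6 + z ^ 7 + z ^ 8 + z ^ 9 + z ^ 10 = 0 := by
    have h := hζ.toInteger_isPrimitiveRoot.geom_sum_eq_zero (by norm_num)
    rw [← hz] at h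
    simpa [Finset.sum_range_succ] using h
  refine exists_isPrincipal_mem_primesOver' hζ z hz 23 (by norm_num) 13 geom_sum_11_23
    (1 - z + z ^ 3)
    (8 - 2 * z - z ^ 2 - 8 * z ^ 3 - 5 * z ^ 4 - 3 * z ^ 5 + 6 * z ^ 6 + 12 * z ^ 7 + 16 * z ^ 8 + 11 * z ^ 9)
    (-5 + z + 4 * z ^ 3 + 2 * z ^ 4 + z ^ 5 - 4 * z ^ 6 - 7 * z ^ 7 - 9 * z ^ 8 - 6 * z ^ 9) ?_ ?_ ?_
  · intro φ hφ
    simp only [map_add, map_sub, map_pow, map_one, hφ]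
    decide
  · push_cast
    linear_combination (-15 + 5 * z + 11 * z ^ 2) * hcyc
  · push_cast
    linear_combination (8 - 3 * z - 6 * z ^ 2) * hcyc

end Fermat.Agent.Kummer.H62
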