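import Mathlib

set_option autoImplicit false

namespace Fermat.Agent.Kummer.H62

open NumberField Polynomial

/-- If `R = ℤ[ζ]`, `φ : R → ℤ/ℓ` sends `ζ` to `r`, and `α` is killed by `φ`, divides `ℓ` and
divides `ζ - r`, then `ker φ = (α)`. -/
theorem ker_eq_span_singleton {R : Type*} [CommRing R] {ℓ : ℕ} (φ : R →+* ZMod ℓ) (ζ : R) (r : ℤ)
    (hgen : ∀ x : R, x ∈ Algebra.adjoin ℤ {ζ}) (α β γ : R)
    (hα : φ α = 0) (hβ : α * β = ℓ) (hγ : α * γ = ζ - r) : RingHom.ker φ = Ideal.span {α} := by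
  have key : ∀ x : R, ∃ n : ℤ, α ∣ x - n := by
    intro x
    induction hgen x using Algebra.adjoin_induction with
    | mem b hb =>
      rw [Set.mem_singleton_iff] at hb
      subst hb
      exact ⟨r, γ, hγ.symm⟩
    | algebraMap n => exact ⟨n, 0, by simp⟩
    | add a b _ _ ha hb =>
      obtain ⟨n₁, k₁, h₁⟩ := ha
      obtain ⟨n₂, k₂, h₂⟩ := hb
      refine ⟨n₁ + n₂, k₁ + k₂, ?_⟩
      push_cast
      linear_combination h₁ + h₂
    | mul a b _ _ ha hb =>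
      obtain ⟨n₁, k₁, h₁⟩ := ha
      obtain ⟨n₂, k₂, h₂⟩ := hb
      refine ⟨n₁ * n₂, k₁ * b + n₁ * k₂, ?_⟩
      push_cast
      linear_combination b * h₁ + (n₁ : R) * h₂
  apply le_antisymm
  · intro x hx
    rw [RingHom.mem_ker] at hx
    obtain ⟨n, k, hk⟩ := key x
    rw [Ideal.mem_span_singleton]
    have hx' : x = n + α * k := by linear_combination hk
    have hn : ((n : ℤ) : ZMod ℓ) = 0 := by
      rw [hx', map_add, map_mul, hα, zero_mul, add_zero, map_intCast] at hx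
      exact hx
    rw [ZMod.intCast_zmod_eq_zero_iff_dvd] at hn
    obtain ⟨c, hc⟩ := hn
    rw [hx', hc]
    push_cast
    rw [← hβ]
    exact ⟨β * c + k, by ring⟩
  · rw [Ideal.span_singleton_le_iff_mem, RingHom.mem_ker]
    exact hα

variable {p : ℕ} [hpf : Fact p.Prime] {K : Type*} [Field K] [NumberField K]
  [IsCyclotomicExtension {p} ℚ K]

/-- Existence of the reduction map `𝓞 K → ℤ/ℓ` sending `ζ` to a root `r` of `Φ_p` mod `ℓ`. -/
theorem exists_ringHom_zmod {ζ : K} (hζ : IsPrimitiveRoot ζ p) (ℓ : ℕ) (r : ZMod ℓ)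
    (hr : ∑ i ∈ Finset.range p, r ^ i = 0) :
    ∃ φ : 𝓞 K →+* ZMod ℓ, φ hζ.toInteger = r := by
  have : NeZero p := ⟨hpf.out.ne_zero⟩
  have hmin : minpoly ℤ hζ.integralPowerBasis.gen = cyclotomic p ℤ := by
    rw [hζ.integralPowerBasis_gen]
    rw [cyclotomic_eq_minpoly hζ hpf.out.pos]
    exact (NumberField.RingOfIntegers.minpoly_coe hζ.toInteger).symm
  have hy : aeval r (minpoly ℤ hζ.integralPowerBasis.gen) = 0 := by
    rw [hmin, cyclotomic_prime, map_sum]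
    simpa using hr
  refine ⟨(hζ.integralPowerBasis.lift r hy).toRingHom, ?_⟩
  have := hζ.integralPowerBasis.lift_gen r hy
  rw [hζ.integralPowerBasis_gen] at this
  exact this

/-- Every element of `𝓞 K` is a polynomial in `ζ`. -/
theorem mem_adjoin_toInteger {ζ : K} (hζ : IsPrimitiveRoot ζ p) (x : 𝓞 K) :
    x ∈ Algebra.adjoin ℤ {hζ.toInteger} := by
  have : NeZero p := ⟨hpf.out.ne_zero⟩
  have h := hζ.integralPowerBasis.adjoin_gen_eq_top
  rw [hζ.integralPowerBasis_gen] at h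
  rw [h]
  exact Algebra.mem_top

/-- Certificate for a principal prime of degree one above `ℓ`. -/
theorem exists_isPrincipal_mem_primesOver {ζ : K} (hζ : IsPrimitiveRoot ζ p) (ℓ : ℕ)
    [hl : Fact ℓ.Prime] (r : ℤ) (hr : ∑ i ∈ Finset.range p, (r : ZMod ℓ) ^ i = 0) (α β γ : 𝓞 K)
    (hα : ∀ φ : 𝓞 K →+* ZMod ℓ, φ hζ.toInteger = (r : ZMod ℓ) → φ α = 0)
    (hβ : α * β = ℓ) (hγ : α * γ = hζ.toInteger - r) :
    ∃ P ∈ Ideal.primesOver (Ideal.span {(ℓ : ℤ)}) (𝓞 K), Submodule.IsPrincipal P := by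
  obtain ⟨φ, hφ⟩ := exists_ringHom_zmod hζ ℓ (r : ZMod ℓ) hr
  have hker := ker_eq_span_singleton φ hζ.toInteger r (mem_adjoin_toInteger hζ) α β γ
    (hα φ hφ) hβ hγ
  refine ⟨RingHom.ker φ, ⟨RingHom.ker_isPrime φ, ⟨?_⟩⟩, ⟨α, hker⟩⟩
  ext n
  rw [Ideal.under_def, Ideal.mem_comap, RingHom.mem_ker, Ideal.mem_span_singleton,
    algebraMap_int_eq, eq_intCast, map_intCast, ZMod.intCast_zmod_eq_zero_iff_dvd]

/-- Variant of `exists_isPrincipal_mem_primesOver` with an opaque name `z` for `ζ`. -/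
theorem exists_isPrincipal_mem_primesOver' {ζ : K} (hζ : IsPrimitiveRoot ζ p) (z : 𝓞 K)
    (hz : z = hζ.toInteger) (ℓ : ℕ) (hl : ℓ.Prime) (r : ℤ)
    (hr : ∑ i ∈ Finset.range p, (r : ZMod ℓ) ^ i = 0) (α β γ : 𝓞 K)
    (hα : ∀ φ : 𝓞 K →+* ZMod ℓ, φ z = (r : ZMod ℓ) → φ α = 0)
    (hβ : α * β = ℓ) (hγ : α * γ = z - r) :
    ∃ P ∈ Ideal.primesOver (Ideal.span {(ℓ : ℤ)}) (𝓞 K), Submodule.IsPrincipal P := by
  subst hz
  have : Fact ℓ.Prime := ⟨hl⟩
  exact exists_isPrincipal_mem_primesOver hζ ℓ r hr α β γ hα hβ hγ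

end Fermat.Agent.Kummer.H62
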