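import Mathlib

set_option autoImplicit false

namespace Fermat.Agent.Kummer.H63

open Module Submodule

variable {X : Type*} [AddCommGroup X]

lemma torsion_le_comap (ψ : X →ₗ[ℤ] X) : torsion ℤ X ≤ (torsion ℤ X).comap ψ := by
  intro x hx
  rw [mem_comap, mem_torsion_iff] at *
  obtain ⟨a, ha⟩ := hx
  refine ⟨a, ?_⟩
  rw [Submonoid.smul_def] at ha ⊢
  rw [← map_smul, ha, map_zero]

noncomputable def torsionQuotMap (ψ : X →ₗ[ℤ] X) :
    (X ⧸ torsion ℤ X) →ₗ[ℤ] (X ⧸ torsion ℤ X) :=
  (torsion ℤ X).mapQ (torsion ℤ X) ψ (torsion_le_comap ψ)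

lemma torsionQuotMap_mk (ψ : X →ₗ[ℤ] X) (x : X) :
    torsionQuotMap ψ ((torsion ℤ X).mkQ x) = (torsion ℤ X).mkQ (ψ x) := rfl

lemma torsionQuotMap_injective (ψ : X →ₗ[ℤ] X)
    (hψ : ∀ x, ψ x ∈ torsion ℤ X → x ∈ torsion ℤ X) :
    Function.Injective (torsionQuotMap ψ) := by
  rw [← LinearMap.ker_eq_bot, eq_bot_iff]
  intro y hy
  obtain ⟨x, rfl⟩ := (torsion ℤ X).mkQ_surjective y
  rw [LinearMap.mem_ker, torsionQuotMap_mk, mkQ_apply, Quotient.mk_eq_zero] at hy
  rw [mem_bot, mkQ_apply, Quotient.mk_eq_zero]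
  exact hψ x hy


lemma index_range_eq_card_ker {T : Type*} [AddCommGroup T] [Finite T] (f : T →+ T) :
    f.range.index = Nat.card f.ker := by
  have h1 := AddSubgroup.card_eq_card_quotient_mul_card_addSubgroup f.ker
  have h2 := AddSubgroup.card_eq_card_quotient_mul_card_addSubgroup f.range
  have h3 := AddSubgroup.index_ker f
  rw [AddSubgroup.index_eq_card] at h3 ⊢
  rw [h3] at h1
  have hpos : 0 < Nat.card f.range := Nat.card_pos
  have : Nat.card (T ⧸ f.range) * Nat.card f.range = Nat.card f.ker * Nat.card f.range := by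
    rw [← h2, h1, mul_comm]
  exact Nat.eq_of_mul_eq_mul_right hpos this

theorem natAbs_det_eq_card_quotient_range {Y : Type*} [AddCommGroup Y] [Module.Free ℤ Y]
    [Module.Finite ℤ Y] (f : Y →ₗ[ℤ] Y) (hf : Function.Injective f) :
    (LinearMap.det f).natAbs = Nat.card (Y ⧸ LinearMap.range f) := by
  have := Submodule.natAbs_det_equiv (LinearMap.range f) (LinearEquiv.ofInjective f hf)
  rw [← this]
  congr 2

theorem card_quotient_range [Module.Finite ℤ X] (ψ : X →ₗ[ℤ] X)
    (hψ : ∀ x, ψ x ∈ torsion ℤ X → x ∈ torsion ℤ X) :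
    Nat.card (X ⧸ LinearMap.range ψ) =
      Nat.card (LinearMap.ker ψ) * (LinearMap.det (torsionQuotMap ψ)).natAbs := by
  have : Finite (torsion ℤ X) := Module.finite_of_fg_torsion _ (torsion_isTorsion)
  have : Module.Free ℤ (X ⧸ torsion ℤ X) := Module.free_of_finite_type_torsion_free'
  have hinj := torsionQuotMap_injective ψ hψ
  rw [natAbs_det_eq_card_quotient_range _ hinj]
  -- AddSubgroups of X
  set R : AddSubgroup X := (LinearMap.range ψ).toAddSubgroup with hR
  set T : AddSubgroup X := (torsion ℤ X).toAddSubgroup with hT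
  have e1 : Nat.card (X ⧸ LinearMap.range ψ) = R.index := by
    rw [AddSubgroup.index_eq_card]; rfl
  have e2 : Nat.card ((X ⧸ torsion ℤ X) ⧸ LinearMap.range (torsionQuotMap ψ)) =
      (R ⊔ T).index := by
    have hsurj : Function.Surjective ((torsion ℤ X).mkQ.toAddMonoidHom) := (torsion ℤ X).mkQ_surjective
    have := AddSubgroup.index_comap_of_surjective
      ((LinearMap.range (torsionQuotMap ψ)).toAddSubgroup) hsurj
    rw [AddSubgroup.index_eq_card (LinearMap.range (torsionQuotMap ψ)).toAddSubgroup] at this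
    have hc : AddSubgroup.comap ((torsion ℤ X).mkQ.toAddMonoidHom)
        (LinearMap.range (torsionQuotMap ψ)).toAddSubgroup = R ⊔ T := by
      ext x
      simp only [AddSubgroup.mem_comap, LinearMap.toAddMonoidHom_coe, mem_toAddSubgroup,
        LinearMap.mem_range]
      constructor
      · rintro ⟨y, hy⟩
        obtain ⟨z, rfl⟩ := (torsion ℤ X).mkQ_surjective y
        rw [torsionQuotMap_mk] at hy
        have : x - ψ z ∈ torsion ℤ X := by
          rw [← Quotient.mk_eq_zero, Quotient.mk_sub, sub_eq_zero]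
          exact hy.symm
        have hx : x = ψ z + (x - ψ z) := by abel
        rw [hx]
        exact AddSubgroup.add_mem _ (AddSubgroup.mem_sup_left ⟨z, rfl⟩)
          (AddSubgroup.mem_sup_right this)
      · intro hx
        rw [AddSubgroup.mem_sup] at hx
        obtain ⟨r, ⟨z, rfl⟩, t, ht, rfl⟩ := hx
        refine ⟨(torsion ℤ X).mkQ z, ?_⟩
        rw [torsionQuotMap_mk, map_add]
        have : (torsion ℤ X).mkQ t = 0 := by
          rw [mkQ_apply, Quotient.mk_eq_zero]; exact ht
        rw [this, add_zero]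
    rw [← hc, this]
    rfl
  -- the restriction of ψ to the torsion subgroup
  let f : T →+ T := (ψ.toAddMonoidHom.comp T.subtype).codRestrict T
    (fun x => torsion_le_comap ψ x.2)
  have : Finite T := ‹Finite (torsion ℤ X)›
  have e3 : R.relIndex T = Nat.card (LinearMap.ker ψ) := by
    have h1 : R.addSubgroupOf T = f.range := by
      ext ⟨x, hx⟩
      rw [AddSubgroup.mem_addSubgroupOf, AddMonoidHom.mem_range]
      constructor
      · rintro ⟨z, rfl⟩
        exact ⟨⟨z, hψ z hx⟩, rfl⟩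
      · rintro ⟨⟨z, hz⟩, h⟩
        exact ⟨z, congrArg Subtype.val h⟩
    rw [AddSubgroup.relIndex, h1, index_range_eq_card_ker]
    refine Nat.card_congr ⟨fun x => ⟨x.1.1, ?_⟩, fun x => ⟨⟨x.1, ?_⟩, ?_⟩, ?_, ?_⟩
    · have := x.2
      rw [AddMonoidHom.mem_ker] at this
      exact congrArg Subtype.val this
    · exact hψ x.1 (by rw [LinearMap.mem_ker.mp x.2]; exact zero_mem _)
    · rw [AddMonoidHom.mem_ker]
      exact Subtype.ext (LinearMap.mem_ker.mp x.2)
    · intro x; rfl
    · intro x; rfl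
  rw [e1, e2, ← e3, ← AddSubgroup.relIndex_sup_right T R, sup_comm T R]
  exact (AddSubgroup.relIndex_mul_index le_sup_left).symm

end Fermat.Agent.Kummer.H63
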