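import Mathlib

/-!
Case II of Fermat for a prime `p` with `𝓞 ℚ(ζ_p)` a PID, given Kummer's lemma.
Part 1: basic facts on `ζ - 1`.
-/

open NumberField Polynomial Finset

set_option linter.unusedSectionVars false

namespace Fermat.Agent.Kummer.H74

variable {K : Type} [Field K] [NumberField K] {p : ℕ} [hpri : Fact p.Prime]
  [hK : IsCyclotomicExtension {p} ℚ K] {ζ : K} (hζ : IsPrimitiveRoot ζ p)

local notation3 "π" => hζ.toInteger - 1

/-- `p`-th roots of unity in `𝓞 K`. -/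
local notation3 "μp" => nthRootsFinset p (1 : 𝓞 K)

lemma one_mem_roots : (1 : 𝓞 K) ∈ nthRootsFinset p (1 : 𝓞 K) :=
  one_mem_nthRootsFinset hpri.out.pos

lemma zeta_mem_roots : hζ.toInteger ∈ nthRootsFinset p (1 : 𝓞 K) :=
  (mem_nthRootsFinset hpri.out.pos 1).2 hζ.toInteger_isPrimitiveRoot.pow_eq_one

lemma pow_eq_one_of_mem_roots {η : 𝓞 K} (hη : η ∈ nthRootsFinset p (1 : 𝓞 K)) : η ^ p = 1 :=
  (mem_nthRootsFinset hpri.out.pos 1).1 hη

lemma isUnit_of_mem_roots {η : 𝓞 K} (hη : η ∈ nthRootsFinset p (1 : 𝓞 K)) : IsUnit η :=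
  IsUnit.of_pow_eq_one (pow_eq_one_of_mem_roots hη) hpri.out.ne_zero

lemma mul_mem_roots {η₁ η₂ : 𝓞 K} (h₁ : η₁ ∈ nthRootsFinset p (1 : 𝓞 K))
    (h₂ : η₂ ∈ nthRootsFinset p (1 : 𝓞 K)) : η₁ * η₂ ∈ nthRootsFinset p (1 : 𝓞 K) := by
  rw [mem_nthRootsFinset hpri.out.pos 1, mul_pow, pow_eq_one_of_mem_roots h₁,
    pow_eq_one_of_mem_roots h₂, one_mul]

/-- `π ∣ η₁ - η₂` for roots of unity. -/
lemma pi_dvd_sub {η₁ η₂ : 𝓞 K} (h₁ : η₁ ∈ nthRootsFinset p (1 : 𝓞 K))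
    (h₂ : η₂ ∈ nthRootsFinset p (1 : 𝓞 K)) : π ∣ η₁ - η₂ :=
  hζ.toInteger_isPrimitiveRoot.sub_one_dvd_sub hpri.out h₁ h₂

/-- `π` is associated to `η₁ - η₂` for distinct roots of unity. -/
lemma pi_associated_sub {η₁ η₂ : 𝓞 K} (h₁ : η₁ ∈ nthRootsFinset p (1 : 𝓞 K))
    (h₂ : η₂ ∈ nthRootsFinset p (1 : 𝓞 K)) (hne : η₁ ≠ η₂) : Associated π (η₁ - η₂) :=
  hζ.toInteger_isPrimitiveRoot.nthRootsFinset_pairwise_associated_sub_one_sub_of_prime
    hpri.out h₁ h₂ hne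

lemma card_quot_pi (hp : p ≠ 2) : Nat.card (𝓞 K ⧸ Ideal.span {π}) = p := by
  rw [hζ.card_quotient_toInteger_sub_one, hζ.norm_toInteger_sub_one_of_prime_ne_two' hp]
  simp

/-- `p` divides `π ^ p` (indeed `π ^ (p-1)` is associated to `p`). -/
lemma p_dvd_pi_pow {n : ℕ} (hn : p - 1 ≤ n) : (p : 𝓞 K) ∣ π ^ n :=
  (IsCyclotomicExtension.Rat.associated_zeta_sub_one_pow_prime p hζ).symm.dvd.trans
    (pow_dvd_pow _ hn)

/-- an integer is divisible by `π` iff it is divisible by `p`. -/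
lemma pi_dvd_intCast_iff {n : ℤ} : π ∣ (n : 𝓞 K) ↔ (p : ℤ) ∣ n :=
  IsCyclotomicExtension.Rat.zeta_sub_one_dvd_intCast_iff' p hζ

include hζ in
/-- every `p`-th power is congruent to a rational integer mod `p`. -/
lemma exists_int_dvd_pow_sub (x : 𝓞 K) : ∃ n : ℤ, (p : 𝓞 K) ∣ x ^ p - n := by
  have hx : x ∈ Algebra.adjoin ℤ {hζ.toInteger} := by
    rw [IsCyclotomicExtension.Rat.adjoin_singleton_eq_top hζ]; trivial
  induction hx using Algebra.adjoin_induction with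
  | mem y hy =>
    rw [Set.mem_singleton_iff] at hy
    subst hy
    exact ⟨1, by simp [hζ.toInteger_isPrimitiveRoot.pow_eq_one]⟩
  | algebraMap r =>
    exact ⟨r ^ p, by simp⟩
  | add x y _ _ hx hy =>
    obtain ⟨n, hn⟩ := hx
    obtain ⟨m, hm⟩ := hy
    obtain ⟨r, hr⟩ := exists_add_pow_prime_eq hpri.out x y
    refine ⟨n + m, ?_⟩
    rw [hr]
    have : x ^ p + y ^ p + (p : 𝓞 K) * x * y * r - ((n + m : ℤ) : 𝓞 K)
        = (x ^ p - n) + (y ^ p - m) + (p : 𝓞 K) * (x * y * r) := by push_cast; ring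
    rw [this]
    exact dvd_add (dvd_add hn hm) (dvd_mul_right _ _)
  | mul x y _ _ hx hy =>
    obtain ⟨n, hn⟩ := hx
    obtain ⟨m, hm⟩ := hy
    refine ⟨n * m, ?_⟩
    have : (x * y) ^ p - ((n * m : ℤ) : 𝓞 K)
        = (x ^ p - n) * y ^ p + n * (y ^ p - m) := by push_cast; ring
    rw [this]
    exact dvd_add (dvd_mul_of_dvd_left hn _) (dvd_mul_of_dvd_right hm _)

/-- `1 + ζ` is a unit (for `p` odd). -/
lemma isUnit_one_add_zeta (hp : p ≠ 2) : IsUnit (1 + hζ.toInteger) := by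
  have h2 : (2 : ℕ).Coprime p :=
    (Nat.coprime_primes Nat.prime_two hpri.out).2 (Ne.symm hp)
  have := hζ.toInteger_isPrimitiveRoot.geom_sum_isUnit hpri.out.two_le h2
  simpa [Finset.sum_range_succ] using this

end Fermat.Agent.Kummer.H74
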