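import Fermat.Agent.Kummer.H74_Step

/-!
Case II descent, part 4: the descent step and the final statement.
-/

open NumberField Polynomial Finset

set_option linter.unusedSectionVars false

namespace Fermat.Agent.Kummer.H74

/-- Kummer's lemma, as a hypothesis. -/
def KummerLemma (p : ℕ) (K : Type) [Field K] [NumberField K] : Prop :=
  ∀ u : (𝓞 K)ˣ, (∃ n : ℤ, (p : 𝓞 K) ∣ (u : 𝓞 K) - n) → ∃ v : (𝓞 K)ˣ, u = v ^ p

variable {K : Type} [Field K] [NumberField K] {p : ℕ} [hpri : Fact p.Prime]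
  [hK : IsCyclotomicExtension {p} ℚ K] {ζ : K} {hζ : IsPrimitiveRoot ζ p}

local notation3 "π" => hζ.toInteger - 1

variable {m : ℕ} {a b w : 𝓞 K} {u : (𝓞 K)ˣ}

/-- a unit `u₄` with `p ∣ Y ^ p + u₄ * Z ^ p` and `π ∤ Z` is congruent to an integer mod `p`. -/
lemma exists_int_dvd_unit_sub {Y Z : 𝓞 K} {u₄ : (𝓞 K)ˣ} (hZ : ¬ π ∣ Z)
    (hdvd : (p : 𝓞 K) ∣ Y ^ p + u₄ * Z ^ p) : ∃ n : ℤ, (p : 𝓞 K) ∣ (u₄ : 𝓞 K) - n := by
  obtain ⟨n₁, hn₁⟩ := exists_int_dvd_pow_sub hζ Y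
  obtain ⟨n₂, hn₂⟩ := exists_int_dvd_pow_sub hζ Z
  have hπp : π ∣ (p : 𝓞 K) := hζ.toInteger_sub_one_dvd_prime'
  have h1 : (p : 𝓞 K) ∣ (n₁ : 𝓞 K) + u₄ * n₂ := by
    have : (n₁ : 𝓞 K) + u₄ * n₂ = (Y ^ p + u₄ * Z ^ p) - (Y ^ p - n₁) - u₄ * (Z ^ p - n₂) := by
      ring
    rw [this]
    exact dvd_sub (dvd_sub hdvd hn₁) (Dvd.dvd.mul_left hn₂ _)
  have hn₂' : ¬ (p : ℤ) ∣ n₂ := by
    intro hd
    apply hZ
    have h2 : π ∣ (n₂ : 𝓞 K) := (pi_dvd_intCast_iff hζ).2 hd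
    have h3 : π ∣ Z ^ p := by
      have : Z ^ p = (Z ^ p - n₂) + n₂ := by ring
      rw [this]
      exact dvd_add (hπp.trans hn₂) h2
    exact hζ.zeta_sub_one_prime'.dvd_of_dvd_pow h3
  have hcop : IsCoprime (p : ℤ) n₂ :=
    (Prime.coprime_iff_not_dvd (Nat.prime_iff_prime_int.1 hpri.out)).2 hn₂'
  obtain ⟨r, s, hrs⟩ := hcop
  refine ⟨-(s * n₁), ?_⟩
  have hrs' : (r : 𝓞 K) * p + s * n₂ = 1 := by exact_mod_cast congrArg (Int.cast : ℤ → 𝓞 K) hrs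
  have : (u₄ : 𝓞 K) - ((-(s * n₁) : ℤ) : 𝓞 K)
      = (p : 𝓞 K) * (r * u₄) + s * ((n₁ : 𝓞 K) + u₄ * n₂) := by
    push_cast
    linear_combination (-(u₄ : 𝓞 K)) * hrs'
  rw [this]
  exact dvd_add (dvd_mul_right _ _) (Dvd.dvd.mul_left h1 _)

variable [IsPrincipalIdealRing (𝓞 K)]

/-- The descent step. -/
theorem descent_step (hp : p ≠ 2) (hKum : KummerLemma p K) (hm : 1 ≤ m)
    (h : IsSol hζ m a b w u) (hab : π ^ 2 ∣ a + b) :
    2 ≤ m ∧ ∃ (a' b' w' : 𝓞 K) (u' : (𝓞 K)ˣ), IsSol hζ (m - 1) a' b' w' u' := by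
  obtain ⟨h2m, t, ht, htn, hprod⟩ := exists_factors hp hm h hab
  refine ⟨h2m, ?_⟩
  have hπ : Prime π := hζ.zeta_sub_one_prime'
  have hπ0 : π ≠ 0 := hπ.ne_zero
  have hp3 : 3 ≤ p := by
    have := hpri.out.two_le
    omega
  have hprim := hζ.toInteger_isPrimitiveRoot
  set z : 𝓞 K := hζ.toInteger with hz
  have hzp : z ^ p = 1 := hprim.pow_eq_one
  have hzz : z * z ^ (p - 1) = 1 := by
    rw [← pow_succ', Nat.sub_add_cancel (by omega), hzp]
  have h1mem : (1 : 𝓞 K) ∈ nthRootsFinset p (1 : 𝓞 K) := one_mem_roots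
  have hzmem : z ∈ nthRootsFinset p (1 : 𝓞 K) := zeta_mem_roots hζ
  have hz'mem : z ^ (p - 1) ∈ nthRootsFinset p (1 : 𝓞 K) := by
    rw [mem_nthRootsFinset hpri.out.pos 1, ← pow_mul, mul_comm, pow_mul, hzp, one_pow]
  have hzne1 : z ≠ 1 := hprim.ne_one hpri.out.one_lt
  have hz'ne1 : z ^ (p - 1) ≠ 1 := hprim.pow_ne_one_of_pos_of_lt (by omega) (by omega)
  have hzne : z ≠ z ^ (p - 1) := by
    intro heq
    have h2 : z ^ 2 = 1 := by rw [pow_two]; nth_rewrite 2 [heq]; exact hzz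
    exact hprim.pow_ne_one_of_pos_of_lt (by omega) (by omega) h2
  -- the three factors
  have e0 := ht 1 h1mem
  have e1 := ht z hzmem
  have e2 := ht (z ^ (p - 1)) hz'mem
  rw [expo_one, one_mul] at e0
  rw [expo_of_ne p m hzne1, pow_one] at e1
  rw [expo_of_ne p m hz'ne1, pow_one] at e2
  obtain ⟨X, v₀, hX⟩ := exists_pow_factor (m := m) h.2.2.1 ht htn hprod h1mem
  obtain ⟨Y, v₁, hY⟩ := exists_pow_factor (m := m) h.2.2.1 ht htn hprod hzmem
  obtain ⟨Z, v₂, hZ⟩ := exists_pow_factor (m := m) h.2.2.1 ht htn hprod hz'mem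
  -- the linear relation
  have hrel : t z + z * t (z ^ (p - 1)) = (1 + z) * (π ^ (p * (m - 1)) * t 1) := by
    have h3 : π * (t z + z * t (z ^ (p - 1))) = π * ((1 + z) * (π ^ (p * (m - 1)) * t 1)) := by
      have : π * ((1 + z) * (π ^ (p * (m - 1)) * t 1)) = (1 + z) * (π ^ (p * (m - 1) + 1) * t 1) := by
        rw [pow_succ]; ring
      rw [this, ← e0, mul_add, ← e1, mul_left_comm, ← e2]
      linear_combination b * hzz
    exact mul_left_cancel₀ hπ0 h3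
  have hpow : π ^ (p * (m - 1)) = (π ^ (m - 1)) ^ p := by rw [← pow_mul, mul_comm]
  rw [hX, hY, hZ, hpow] at hrel
  -- units
  set zu : (𝓞 K)ˣ := (isUnit_of_mem_roots hzmem).unit with hzu
  set eu : (𝓞 K)ˣ := (isUnit_one_add_zeta hζ hp).unit with heu
  have hzu' : (zu : 𝓞 K) = z := IsUnit.unit_spec _
  have heu' : (eu : 𝓞 K) = 1 + z := IsUnit.unit_spec _
  set u₄ : (𝓞 K)ˣ := zu * v₂ * v₁⁻¹ with hu₄
  set u₅ : (𝓞 K)ˣ := eu * v₀ * v₁⁻¹ with hu₅
  have hv₁ : ((v₁⁻¹ : (𝓞 K)ˣ) : 𝓞 K) * v₁ = 1 := Units.inv_mul v₁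
  have hmain : Y ^ p + u₄ * Z ^ p = u₅ * (π ^ (m - 1) * X) ^ p := by
    rw [hu₄, hu₅]
    push_cast
    rw [hzu', heu', mul_pow]
    linear_combination ((v₁⁻¹ : (𝓞 K)ˣ) : 𝓞 K) * hrel +
      (-(Y ^ p)) * hv₁
  -- Kummer
  have hZn : ¬ π ∣ Z := fun hd => htn _ hz'mem (by
    rw [hZ]; exact Dvd.dvd.mul_left (dvd_pow hd hpri.out.ne_zero) _)
  have hXn : ¬ π ∣ X := fun hd => htn _ h1mem (by
    rw [hX]; exact Dvd.dvd.mul_left (dvd_pow hd hpri.out.ne_zero) _)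
  have hpdvd : (p : 𝓞 K) ∣ Y ^ p + u₄ * Z ^ p := by
    rw [hmain, mul_pow, ← pow_mul]
    refine Dvd.dvd.mul_left (Dvd.dvd.mul_right (p_dvd_pi_pow hζ ?_) _) _
    have : 1 ≤ m - 1 := by omega
    calc p - 1 ≤ p := Nat.sub_le _ _
      _ = 1 * p := (one_mul p).symm
      _ ≤ (m - 1) * p := Nat.mul_le_mul_right p this
  obtain ⟨v, hv⟩ := hKum u₄ (exists_int_dvd_unit_sub hZn hpdvd)
  -- the new solution
  refine ⟨Y, v * Z, X, u₅, ?_, hXn, ?_, ?_⟩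
  · rwa [Units.dvd_mul_left]
  · have hc : IsCoprime (t z) (t (z ^ (p - 1))) :=
      isCoprime_factors (m := m) h.2.2.1 ht htn hzmem hz'mem hzne
    rw [hY, hZ, isCoprime_mul_unit_left_left v₁.isUnit,
      isCoprime_mul_unit_left_right v₂.isUnit,
      IsCoprime.pow_iff hpri.out.pos hpri.out.pos] at hc
    exact (isCoprime_mul_unit_left_right v.isUnit _ _).2 hc
  · rw [mul_pow, ← Units.val_pow_eq_pow_val, ← hv, hmain]

end Fermat.Agent.Kummer.H74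

namespace Fermat.Agent.Kummer.H74

variable {K : Type} [Field K] [NumberField K] {p : ℕ} [hpri : Fact p.Prime]
  [hK : IsCyclotomicExtension {p} ℚ K] {ζ : K} {hζ : IsPrimitiveRoot ζ p}
  [IsPrincipalIdealRing (𝓞 K)]

local notation3 "π" => hζ.toInteger - 1

/-- The generalised equation has no solution. -/
theorem not_isSol (hp : p ≠ 2) (hKum : KummerLemma p K) :
    ∀ m : ℕ, 1 ≤ m → ∀ (a b w : 𝓞 K) (u : (𝓞 K)ˣ), ¬ IsSol hζ m a b w u := by
  intro m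
  induction m using Nat.strong_induction_on with
  | _ m ih =>
    intro hm a b w u h
    obtain ⟨b', h', hab⟩ := exists_sol_pi_sq_dvd hp hm h
    obtain ⟨h2m, a'', b'', w'', u'', h''⟩ := descent_step hp hKum hm h' hab
    exact ih (m - 1) (by omega) (by omega) a'' b'' w'' u'' h''

section
variable (hζ)
include hζ

/-- Case II when `p ∣ z`. -/
theorem caseII_aux (hp : p ≠ 2) (hKum : KummerLemma p K) {x y z : ℤ} (hxy : IsCoprime x y)
    (hz : z ≠ 0) (hpz : (p : ℤ) ∣ z) (hpy : ¬ (p : ℤ) ∣ y) (H : x ^ p + y ^ p = z ^ p) :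
    False := by
  have hfin : FiniteMultiplicity (p : ℤ) z :=
    Int.finiteMultiplicity_iff.2 ⟨by simpa using hpri.out.ne_one, hz⟩
  obtain ⟨z', hz', hpz'⟩ := hfin.exists_eq_pow_mul_and_not_dvd
  set k := multiplicity (p : ℤ) z with hk
  have hk1 : 1 ≤ k := by
    by_contra hlt
    have hk0 : k = 0 := by omega
    rw [hk0, pow_zero, one_mul] at hz'
    exact hpz' (hz' ▸ hpz)
  obtain ⟨ε, hε⟩ := IsCyclotomicExtension.Rat.associated_zeta_sub_one_pow_prime p hζ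
  -- `π ^ (p-1) * ε = p`
  have hzK : (z : 𝓞 K) = (ε ^ k : (𝓞 K)ˣ) * (π ^ ((p - 1) * k) * (z' : 𝓞 K)) := by
    rw [hz']
    push_cast
    rw [← hε, mul_pow, ← pow_mul]
    ring
  have hp1 : 1 ≤ p - 1 := by
    have := hpri.out.two_le
    omega
  refine not_isSol (hζ := hζ) hp hKum ((p - 1) * k) (Nat.mul_pos hp1 hk1) (x : 𝓞 K) (y : 𝓞 K)
    (z' : 𝓞 K) ((ε ^ k) ^ p) ⟨?_, ?_, ?_, ?_⟩
  · rwa [pi_dvd_intCast_iff hζ]
  · rwa [pi_dvd_intCast_iff hζ]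
  · exact hxy.intCast
  · have := congrArg (Int.cast : ℤ → 𝓞 K) H
    push_cast at this
    rw [this, hzK, mul_pow]
    push_cast
    ring

omit hζ in
/-- pairwise coprimality from the Fermat equation. -/
lemma isCoprime_right_of_eq {n : ℕ} (hn : 0 < n) {a b c : ℤ} (hab : IsCoprime a b)
    (H : a ^ n + b ^ n = c ^ n) : IsCoprime b c := by
  rw [← IsCoprime.pow_iff hn hn, ← H]
  have h1 : IsCoprime (b ^ n) (a ^ n) := (hab.pow).symm
  simpa using h1.add_mul_left_right 1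

/-- **Case II** of Fermat's Last Theorem for an odd prime `p` such that `𝓞 ℚ(ζ_p)` is a PID,
assuming Kummer's lemma. -/
theorem caseII_of_isPrimitiveRoot (hp : p ≠ 2) (hKum : KummerLemma p K) {a b c : ℤ}
    (hab : IsCoprime a b) (habc : a * b * c ≠ 0) (hdvd : (p : ℤ) ∣ a * b * c) :
    a ^ p + b ^ p ≠ c ^ p := by
  intro H
  have hpp : Prime (p : ℤ) := Nat.prime_iff_prime_int.1 hpri.out
  have hodd : Odd p := hpri.out.odd_of_ne_two hp
  have ha0 : a ≠ 0 := fun h => habc (by simp [h])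
  have hb0 : b ≠ 0 := fun h => habc (by simp [h])
  have hc0 : c ≠ 0 := fun h => habc (by simp [h])
  have hbc : IsCoprime b c := isCoprime_right_of_eq hpri.out.pos hab H
  have hac : IsCoprime a c :=
    isCoprime_right_of_eq hpri.out.pos hab.symm (by rw [add_comm]; exact H)
  have hnot : ∀ {x y : ℤ}, IsCoprime x y → (p : ℤ) ∣ x → ¬ (p : ℤ) ∣ y := by
    intro x y hxy hx hy
    exact hpp.not_isUnit (hxy.isUnit_of_dvd' hx hy)
  rcases (hpp.dvd_mul.1 hdvd) with hd | hd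
  · rcases (hpp.dvd_mul.1 hd) with hd | hd
    · -- p ∣ a
      refine caseII_aux hζ hp hKum (x := c) (y := -b) (z := a) hbc.symm.neg_right ha0 hd ?_ ?_
      · rw [dvd_neg]; exact hnot hab hd
      · rw [hodd.neg_pow, ← H]; ring
    · -- p ∣ b
      refine caseII_aux hζ hp hKum (x := c) (y := -a) (z := b) hac.symm.neg_right hb0 hd ?_ ?_
      · rw [dvd_neg]; exact hnot hab.symm hd
      · rw [hodd.neg_pow, ← H]; ring
  · -- p ∣ c
    exact caseII_aux hζ hp hKum hab hc0 hd (hnot hbc.symm hd) H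

end

/-- **Case II**, with no reference to a chosen primitive root. -/
theorem caseII {p : ℕ} [Fact p.Prime] (hp : p ≠ 2) {K : Type} [Field K] [NumberField K]
    [IsCyclotomicExtension {p} ℚ K] [IsPrincipalIdealRing (𝓞 K)] (hKum : KummerLemma p K)
    {a b c : ℤ} (hab : IsCoprime a b) (habc : a * b * c ≠ 0) (hdvd : (p : ℤ) ∣ a * b * c) :
    a ^ p + b ^ p ≠ c ^ p :=
  caseII_of_isPrimitiveRoot (IsCyclotomicExtension.zeta_spec p ℚ K) hp hKum hab habc hdvd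

end Fermat.Agent.Kummer.H74
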