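import Fermat.Agent.Kummer.H74_Basic

/-!
Case II descent, part 2: the generalised equation and the factors `a + η b`.
-/

open NumberField Polynomial Finset

set_option linter.unusedSectionVars false

namespace Fermat.Agent.Kummer.H74

variable {K : Type} [Field K] [NumberField K] {p : ℕ} [hpri : Fact p.Prime]
  [hK : IsCyclotomicExtension {p} ℚ K] {ζ : K} (hζ : IsPrimitiveRoot ζ p)

local notation3 "π" => hζ.toInteger - 1

/-- `(a, b, w, u)` solves `a ^ p + b ^ p = u * (π ^ m * w) ^ p` with the side conditions. -/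
def IsSol (m : ℕ) (a b w : 𝓞 K) (u : (𝓞 K)ˣ) : Prop :=
  ¬ π ∣ b ∧ ¬ π ∣ w ∧ IsCoprime a b ∧ a ^ p + b ^ p = u * (π ^ m * w) ^ p

variable {m : ℕ} {a b w : 𝓞 K} {u : (𝓞 K)ˣ}

include hζ in
lemma prod_factors (hp : p ≠ 2) (a b : 𝓞 K) :
    a ^ p + b ^ p = ∏ η ∈ nthRootsFinset p (1 : 𝓞 K), (a + η * b) :=
  hζ.toInteger_isPrimitiveRoot.pow_add_pow_eq_prod_add_mul a b (hpri.out.odd_of_ne_two hp)

variable {hζ}

/-- every factor is divisible by `π`. -/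
lemma pi_dvd_factor (hp : p ≠ 2) (hm : 1 ≤ m) (h : IsSol hζ m a b w u) {η : 𝓞 K}
    (hη : η ∈ nthRootsFinset p (1 : 𝓞 K)) : π ∣ a + η * b := by
  obtain ⟨-, -, -, H⟩ := h
  have h1 : π ∣ ∏ η ∈ nthRootsFinset p (1 : 𝓞 K), (a + η * b) := by
    rw [← prod_factors hζ hp, H]
    refine Dvd.dvd.mul_left (dvd_pow (Dvd.dvd.mul_right (dvd_pow_self _ (by omega)) _)
      hpri.out.ne_zero) _
  obtain ⟨η₀, hη₀, h0⟩ := (Prime.dvd_finsetProd_iff hζ.zeta_sub_one_prime' _).1 h1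
  have : a + η * b = (a + η₀ * b) + (η - η₀) * b := by ring
  rw [this]
  exact dvd_add h0 (Dvd.dvd.mul_right (pi_dvd_sub hζ hη hη₀) _)

/-- two factors congruent mod `π ^ 2` are equal. -/
lemma eq_of_pi_sq_dvd_sub (hb : ¬ π ∣ b) {η₁ η₂ : 𝓞 K}
    (h₁ : η₁ ∈ nthRootsFinset p (1 : 𝓞 K)) (h₂ : η₂ ∈ nthRootsFinset p (1 : 𝓞 K))
    (h : π ^ 2 ∣ (a + η₁ * b) - (a + η₂ * b)) : η₁ = η₂ := by
  by_contra hne
  obtain ⟨v, hv⟩ := pi_associated_sub hζ h₁ h₂ hne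
  apply hb
  have h' : π ^ 2 ∣ π * (v * b) := by
    have : (a + η₁ * b) - (a + η₂ * b) = π * (v * b) := by rw [← mul_assoc, hv]; ring
    rwa [this] at h
  rw [pow_two] at h'
  have h'' := (mul_dvd_mul_iff_left hζ.zeta_sub_one_prime'.ne_zero).1 h'
  exact (Units.dvd_mul_left).1 h''

/-- Pigeonhole: some factor is divisible by `π ^ 2`. -/
lemma exists_pi_sq_dvd_factor (hp : p ≠ 2) (hm : 1 ≤ m) (h : IsSol hζ m a b w u) :
    ∃ η₀ ∈ nthRootsFinset p (1 : 𝓞 K), π ^ 2 ∣ a + η₀ * b := by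
  classical
  have hdiv : ∀ η : nthRootsFinset p (1 : 𝓞 K), ∃ q, a + (η : 𝓞 K) * b = π * q :=
    fun η => pi_dvd_factor hp hm h η.2
  choose q hq using hdiv
  let φ : nthRootsFinset p (1 : 𝓞 K) → 𝓞 K ⧸ Ideal.span {π} :=
    fun η => Ideal.Quotient.mk _ (q η)
  have hinj : Function.Injective φ := by
    intro η₁ η₂ h12
    apply Subtype.ext
    apply eq_of_pi_sq_dvd_sub h.1 η₁.2 η₂.2
    have h3 : π ∣ q η₁ - q η₂ := by
      rw [← Ideal.mem_span_singleton, ← Ideal.Quotient.eq]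
      exact h12
    rw [hq η₁, hq η₂, ← mul_sub, pow_two]
    exact mul_dvd_mul_left _ h3
  have hfin : Finite (𝓞 K ⧸ Ideal.span {π}) :=
    hζ.finite_quotient_toInteger_sub_one hpri.out.one_lt
  have hcard : Nat.card (𝓞 K ⧸ Ideal.span {π}) ≤ Nat.card (nthRootsFinset p (1 : 𝓞 K)) := by
    rw [card_quot_pi hζ hp, Nat.card_eq_fintype_card, Fintype.card_coe,
      hζ.toInteger_isPrimitiveRoot.card_nthRootsFinset]
  obtain ⟨η₀, hη₀⟩ := (hinj.bijective_of_nat_card_le hcard).2 0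
  refine ⟨η₀, η₀.2, ?_⟩
  rw [hq η₀, pow_two]
  refine mul_dvd_mul_left _ ?_
  rw [← Ideal.mem_span_singleton, ← Ideal.Quotient.eq_zero_iff_mem]
  exact hη₀

/-- We may assume `π ^ 2 ∣ a + b`. -/
lemma exists_sol_pi_sq_dvd (hp : p ≠ 2) (hm : 1 ≤ m) (h : IsSol hζ m a b w u) :
    ∃ b', IsSol hζ m a b' w u ∧ π ^ 2 ∣ a + b' := by
  obtain ⟨η₀, hη₀, hdvd⟩ := exists_pi_sq_dvd_factor hp hm h
  obtain ⟨hb, hw, hcop, H⟩ := h
  have hu : IsUnit η₀ := isUnit_of_mem_roots hη₀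
  refine ⟨η₀ * b, ⟨?_, hw, ?_, ?_⟩, hdvd⟩
  · rwa [hu.dvd_mul_left]
  · exact (isCoprime_mul_unit_left_right hu _ _).2 hcop
  · rw [mul_pow, pow_eq_one_of_mem_roots hη₀, one_mul, H]

end Fermat.Agent.Kummer.H74
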