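import Fermat.Agent.Kummer.H74_Descent

/-!
Case II descent, part 3: the descent step.
-/

open NumberField Polynomial Finset

set_option linter.unusedSectionVars false

namespace Fermat.Agent.Kummer.H74

variable {K : Type} [Field K] [NumberField K] {p : ℕ} [hpri : Fact p.Prime]
  [hK : IsCyclotomicExtension {p} ℚ K] {ζ : K} {hζ : IsPrimitiveRoot ζ p}

local notation3 "π" => hζ.toInteger - 1

variable {m : ℕ} {a b w : 𝓞 K} {u : (𝓞 K)ˣ}

/-- For `η ≠ 1` the factor `a + η b` is not divisible by `π ^ 2`. -/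
lemma not_pi_sq_dvd_factor (hb : ¬ π ∣ b) (hab : π ^ 2 ∣ a + b) {η : 𝓞 K}
    (hη : η ∈ nthRootsFinset p (1 : 𝓞 K)) (hne : η ≠ 1) : ¬ π ^ 2 ∣ a + η * b := by
  intro h
  apply hne
  apply eq_of_pi_sq_dvd_sub hb hη one_mem_roots
  rw [one_mul]
  exact dvd_sub h hab

open Classical in
/-- The exponent of `π` in the factor `a + η b`. -/
noncomputable def expo (p m : ℕ) (η : 𝓞 K) : ℕ := if η = 1 then p * (m - 1) + 1 else 1

lemma expo_one (p m : ℕ) : expo p m (1 : 𝓞 K) = p * (m - 1) + 1 := by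
  simp [expo]

lemma expo_of_ne (p m : ℕ) {η : 𝓞 K} (h : η ≠ 1) : expo p m η = 1 := by
  simp [expo, h]

open Classical in
/-- the normalised factors `t η`. -/
lemma exists_factors (hp : p ≠ 2) (hm : 1 ≤ m) (h : IsSol hζ m a b w u) (hab : π ^ 2 ∣ a + b) :
    2 ≤ m ∧ ∃ t : 𝓞 K → 𝓞 K,
      (∀ η ∈ nthRootsFinset p (1 : 𝓞 K), a + η * b = π ^ (expo p m η) * t η) ∧
      (∀ η ∈ nthRootsFinset p (1 : 𝓞 K), ¬ π ∣ t η) ∧
      ∏ η ∈ nthRootsFinset p (1 : 𝓞 K), t η = u * w ^ p := by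
  have hπ : Prime π := hζ.zeta_sub_one_prime'
  have hπ0 : π ≠ 0 := hπ.ne_zero
  have h1mem : (1 : 𝓞 K) ∈ nthRootsFinset p (1 : 𝓞 K) := one_mem_roots
  -- the factors for η ≠ 1
  have hdiv : ∀ η : 𝓞 K, η ∈ (nthRootsFinset p (1 : 𝓞 K)).erase 1 →
      ∃ q, a + η * b = π * q ∧ ¬ π ∣ q := by
    intro η hη
    obtain ⟨hne, hη'⟩ := Finset.mem_erase.1 hη
    obtain ⟨q, hq⟩ := pi_dvd_factor hp hm h hη'
    refine ⟨q, hq, fun hdq => ?_⟩
    apply not_pi_sq_dvd_factor h.1 hab hη' hne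
    rw [hq, pow_two]
    exact mul_dvd_mul_left _ hdq
  choose! q hq hqn using hdiv
  set T := ∏ η ∈ (nthRootsFinset p (1 : 𝓞 K)).erase 1, q η with hT
  have hTn : ¬ π ∣ T := by
    rw [hT, Prime.dvd_finsetProd_iff hπ]
    rintro ⟨η, hη, hd⟩
    exact hqn η hη hd
  have hcard : ((nthRootsFinset p (1 : 𝓞 K)).erase 1).card = p - 1 := by
    rw [Finset.card_erase_of_mem h1mem, hζ.toInteger_isPrimitiveRoot.card_nthRootsFinset]
  -- the product formula
  have hprod : (a + b) * (π ^ (p - 1) * T) = u * (π ^ m * w) ^ p := by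
    rw [← h.2.2.2, prod_factors hζ hp a b, ← Finset.mul_prod_erase _ _ h1mem, one_mul]
    congr 1
    rw [hT, ← hcard, ← Finset.prod_const, ← Finset.prod_mul_distrib]
    exact Finset.prod_congr rfl fun η hη => (hq η hη).symm
  have hexp : m * p = (p - 1) + (p * (m - 1) + 1) := by
    have := hpri.out.one_lt
    obtain ⟨k, rfl⟩ : ∃ k, m = k + 1 := ⟨m - 1, by omega⟩
    obtain ⟨j, rfl⟩ : ∃ j, p = j + 1 := ⟨p - 1, by omega⟩
    simp only [Nat.add_sub_cancel]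
    ring
  have hprod' : (a + b) * T = π ^ (p * (m - 1) + 1) * (u * w ^ p) := by
    have h2 : π ^ (p - 1) * ((a + b) * T) = π ^ (p - 1) * (π ^ (p * (m - 1) + 1) * (u * w ^ p)) := by
      rw [← mul_assoc (π ^ (p - 1)) (π ^ (p * (m - 1) + 1)), ← pow_add, ← hexp]
      rw [mul_pow, ← pow_mul] at hprod
      rw [← mul_assoc (a + b)] at hprod
      linear_combination hprod
    exact mul_left_cancel₀ (pow_ne_zero _ hπ0) h2
  have hdvd1 : π ^ (p * (m - 1) + 1) ∣ a + b := by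
    refine hπ.pow_dvd_of_dvd_mul_right _ hTn ?_
    rw [hprod']
    exact dvd_mul_right _ _
  obtain ⟨t₁, ht₁⟩ := hdvd1
  have ht₁T : t₁ * T = u * w ^ p := by
    rw [ht₁, mul_assoc] at hprod'
    exact mul_left_cancel₀ (pow_ne_zero _ hπ0) hprod'
  have ht₁n : ¬ π ∣ t₁ := by
    intro hd
    have : π ∣ (u : 𝓞 K) * w ^ p := by rw [← ht₁T]; exact Dvd.dvd.mul_right hd _
    rw [Units.dvd_mul_left] at this
    exact h.2.1 (hπ.dvd_of_dvd_pow this)
  have h2m : 2 ≤ m := by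
    by_contra hlt
    have hm1 : m = 1 := by omega
    subst hm1
    simp only [Nat.sub_self, mul_zero, zero_add, pow_one] at ht₁
    apply ht₁n
    rw [ht₁, pow_two] at hab
    exact (mul_dvd_mul_iff_left hπ0).1 hab
  refine ⟨h2m, fun η => if η = 1 then t₁ else q η, ?_, ?_, ?_⟩
  · intro η hη
    by_cases h1 : η = 1
    · subst h1
      simp only [expo_one, if_true, one_mul]
      exact ht₁
    · simp only [expo_of_ne p m h1, if_neg h1, pow_one]
      exact hq η (Finset.mem_erase.2 ⟨h1, hη⟩)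
  · intro η hη
    by_cases h1 : η = 1
    · simp only [if_pos h1]; exact ht₁n
    · simp only [if_neg h1]
      exact hqn η (Finset.mem_erase.2 ⟨h1, hη⟩)
  · rw [← Finset.mul_prod_erase _ _ h1mem, if_pos rfl, ← ht₁T, hT]
    congr 1
    refine Finset.prod_congr rfl fun η hη => ?_
    rw [if_neg (Finset.mem_erase.1 hη).1]

end Fermat.Agent.Kummer.H74

namespace Fermat.Agent.Kummer.H74

variable {K : Type} [Field K] [NumberField K] {p : ℕ} [hpri : Fact p.Prime]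
  [hK : IsCyclotomicExtension {p} ℚ K] {ζ : K} {hζ : IsPrimitiveRoot ζ p}

local notation3 "π" => hζ.toInteger - 1

variable {m : ℕ} {a b w : 𝓞 K} {u : (𝓞 K)ˣ}

variable (hζ) in
/-- a common prime divisor of two distinct factors is associated to `π`. -/
lemma pi_dvd_of_prime_dvd_factors (hcop : IsCoprime a b) {η₁ η₂ : 𝓞 K}
    (h₁ : η₁ ∈ nthRootsFinset p (1 : 𝓞 K)) (h₂ : η₂ ∈ nthRootsFinset p (1 : 𝓞 K))
    (hne : η₁ ≠ η₂) {q : 𝓞 K} (hq : Prime q) (hq₁ : q ∣ a + η₁ * b) (hq₂ : q ∣ a + η₂ * b) :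
    Associated q π := by
  obtain ⟨r, s, hrs⟩ := hcop
  obtain ⟨v, hv⟩ := pi_associated_sub hζ h₁ h₂ hne
  have hb' : q ∣ (η₁ - η₂) * b := by
    have : (η₁ - η₂) * b = (a + η₁ * b) - (a + η₂ * b) := by ring
    rw [this]; exact dvd_sub hq₁ hq₂
  have ha' : q ∣ (η₁ - η₂) * a := by
    have : (η₁ - η₂) * a = η₁ * (a + η₂ * b) - η₂ * (a + η₁ * b) := by ring
    rw [this]; exact dvd_sub (Dvd.dvd.mul_left hq₂ _) (Dvd.dvd.mul_left hq₁ _)
  have h3 : q ∣ η₁ - η₂ := by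
    have : η₁ - η₂ = r * ((η₁ - η₂) * a) + s * ((η₁ - η₂) * b) := by
      linear_combination (-(η₁ - η₂)) * hrs
    rw [this]; exact dvd_add (Dvd.dvd.mul_left ha' _) (Dvd.dvd.mul_left hb' _)
  rw [← hv, Units.dvd_mul_right] at h3
  exact hq.associated_of_dvd hζ.zeta_sub_one_prime' h3

variable [IsPrincipalIdealRing (𝓞 K)]

/-- the normalised factors are pairwise coprime. -/
lemma isCoprime_factors (hcop : IsCoprime a b) {t : 𝓞 K → 𝓞 K}
    (ht : ∀ η ∈ nthRootsFinset p (1 : 𝓞 K), a + η * b = π ^ (expo p m η) * t η)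
    (htn : ∀ η ∈ nthRootsFinset p (1 : 𝓞 K), ¬ π ∣ t η) {η₁ η₂ : 𝓞 K}
    (h₁ : η₁ ∈ nthRootsFinset p (1 : 𝓞 K)) (h₂ : η₂ ∈ nthRootsFinset p (1 : 𝓞 K))
    (hne : η₁ ≠ η₂) : IsCoprime (t η₁) (t η₂) := by
  refine isCoprime_of_prime_dvd (fun h0 => htn η₁ h₁ (by rw [h0.1]; exact dvd_zero _))
    (fun q hq hq₁ hq₂ => htn η₁ h₁ ?_)
  have hass := pi_dvd_of_prime_dvd_factors hζ hcop h₁ h₂ hne hq
    (by rw [ht η₁ h₁]; exact Dvd.dvd.mul_left hq₁ _)
    (by rw [ht η₂ h₂]; exact Dvd.dvd.mul_left hq₂ _)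
  exact hass.symm.dvd.trans hq₁

open Classical in
/-- each normalised factor is a `p`-th power up to a unit. -/
lemma exists_pow_factor (hcop : IsCoprime a b) {t : 𝓞 K → 𝓞 K}
    (ht : ∀ η ∈ nthRootsFinset p (1 : 𝓞 K), a + η * b = π ^ (expo p m η) * t η)
    (htn : ∀ η ∈ nthRootsFinset p (1 : 𝓞 K), ¬ π ∣ t η)
    (hprod : ∏ η ∈ nthRootsFinset p (1 : 𝓞 K), t η = u * w ^ p) {η : 𝓞 K}
    (hη : η ∈ nthRootsFinset p (1 : 𝓞 K)) :
    ∃ (X : 𝓞 K) (v : (𝓞 K)ˣ), t η = v * X ^ p := by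
  have hcop' : IsCoprime (t η) (∏ η' ∈ (nthRootsFinset p (1 : 𝓞 K)).erase η, t η') :=
    IsCoprime.prod_right fun η' hη' =>
      isCoprime_factors (m := m) hcop ht htn hη (Finset.mem_erase.1 hη').2
        (Finset.mem_erase.1 hη').1.symm
  have hass : Associated (w ^ p) (t η * ∏ η' ∈ (nthRootsFinset p (1 : 𝓞 K)).erase η, t η') := by
    rw [Finset.mul_prod_erase _ _ hη, hprod]
    exact ⟨u, by rw [mul_comm]⟩
  obtain ⟨X, v, hv⟩ := exists_associated_pow_of_associated_pow_mul hcop' hass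
  exact ⟨X, v, by rw [← hv, mul_comm]⟩

end Fermat.Agent.Kummer.H74
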