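import Fermat.Agent.Kummer.H75_Poly

set_option autoImplicit false

namespace Fermat.Agent.Kummer.H75

open Polynomial Finset

variable (p : ℕ)

/-- The polynomial (in `X = ζ - 1`) representing the `i`-th test unit: `ζ = 1 + X` for `i = 0`,
and `1 + ζ + ... + ζ ^ i` for `i ≥ 1`. -/
noncomputable def unitPoly (i : ℕ) : (ZMod p)[X] :=
  if i = 0 then 1 + X else ∑ t ∈ range (i + 1), (1 + X) ^ t

/-- Coefficients of `unitPoly`. -/
def ucoef (i j : ℕ) : ZMod p :=
  if i = 0 then (Nat.choose 1 j : ZMod p) else ∑ t ∈ range (i + 1), (Nat.choose t j : ZMod p)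

theorem coeff_unitPoly (i j : ℕ) : (unitPoly p i).coeff j = ucoef p i j := by
  unfold unitPoly ucoef
  split_ifs with h
  · have : (1 + X : (ZMod p)[X]) = (1 + X) ^ 1 := by rw [pow_one]
    rw [this, coeff_one_add_X_pow]
  · rw [finsetSum_coeff]
    exact Finset.sum_congr rfl fun t _ => coeff_one_add_X_pow _ _ _

variable {p}
variable {s m : ℕ}

/-- The polynomial with coefficient vector the `i`-th row of `Dm`. -/
noncomputable def dpoly (Dm : Matrix (Fin s) (Fin m) (ZMod p)) (i : Fin s) : (ZMod p)[X] :=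
  ∑ k : Fin m, C (Dm i k) * X ^ (k : ℕ)

/-- Coefficients of `dpoly`. -/
def dcoef (Dm : Matrix (Fin s) (Fin m) (ZMod p)) (i : Fin s) (j : ℕ) : ZMod p :=
  if h : j < m then Dm i ⟨j, h⟩ else 0

theorem coeff_dpoly (Dm : Matrix (Fin s) (Fin m) (ZMod p)) (i : Fin s) (j : ℕ) :
    (dpoly Dm i).coeff j = dcoef Dm i j := by
  unfold dpoly dcoef
  rw [finsetSum_coeff]
  simp only [coeff_C_mul, coeff_X_pow]
  split_ifs with h
  · rw [Finset.sum_eq_single (⟨j, h⟩ : Fin m)]
    · simp
    · intro b _ hb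
      have : j ≠ (b : ℕ) := fun hj => hb (Fin.ext hj.symm)
      simp [this]
    · simp
  · refine Finset.sum_eq_zero fun b _ => ?_
    have : j ≠ (b : ℕ) := fun hj => h (hj ▸ b.2)
    simp [this]

/-- A certificate that the test units are independent modulo `p`-th powers and integers. -/
structure Cert (p s m : ℕ) where
  Dm : Matrix (Fin s) (Fin m) (ZMod p)
  N : Matrix (Fin m) (Fin s) (ZMod p)
  inv : Dm * N = 1
  dl : ∀ i : Fin s, ∀ k : Fin m,
    ucoef p i ((k : ℕ) + 1) * (((k : ℕ) + 1 : ℕ) : ZMod p)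
      = ∑ x ∈ antidiagonal (k : ℕ), dcoef Dm i x.1 * ucoef p i x.2
  ne0 : ∀ i : Fin s, ucoef p i 0 ≠ 0

theorem Cert.DL_unitPoly (c : Cert p s m) (i : Fin s) :
    DL m (unitPoly p i) (dpoly c.Dm i) := by
  unfold DL
  rw [X_pow_dvd_iff]
  intro k hk
  rw [coeff_sub, coeff_derivative, coeff_mul, coeff_unitPoly, sub_eq_zero]
  have := c.dl i ⟨k, hk⟩
  simp only at this
  rw [show ((k : ZMod p) + 1) = (((k + 1 : ℕ)) : ZMod p) by push_cast; rfl, this]
  refine Finset.sum_congr rfl fun x _ => ?_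
  rw [coeff_dpoly, coeff_unitPoly]

variable [Fact p.Prime]

/-- Independence of the test polynomials: if `∏ unitPoly i ^ e i` is congruent to a constant
modulo `X ^ (m + 1)` then `p` divides all the exponents. -/
theorem Cert.dvd_of_prod_eq_const (c : Cert p s m) (e : Fin s → ℕ) (a : ZMod p)
    (h : X ^ (m + 1) ∣ ∏ i : Fin s, unitPoly p i ^ e i - C a) (i : Fin s) : p ∣ e i := by
  obtain ⟨H, hH⟩ := h
  set P := ∏ i : Fin s, unitPoly p (i : ℕ) ^ e i with hPdef
  have hP : P = C a + X ^ (m + 1) * H := by rw [← hH]; ring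
  have hDL : DL m P (∑ i : Fin s, (e i : (ZMod p)[X]) * dpoly c.Dm i) :=
    DL.prod Finset.univ (fun i : Fin s => unitPoly p (i : ℕ)) (dpoly c.Dm) e
      fun i _ => c.DL_unitPoly i
  have h0 : P.coeff 0 ≠ 0 := by
    rw [coeff_zero_eq_eval_zero, hPdef, eval_prod]
    refine Finset.prod_ne_zero_iff.mpr fun j _ => ?_
    rw [eval_pow, ← coeff_zero_eq_eval_zero, coeff_unitPoly]
    exact pow_ne_zero _ (c.ne0 j)
  have hdvd := DL.dvd_of_eq_const hP h0 hDL
  rw [X_pow_dvd_iff] at hdvd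
  have hvec : Matrix.vecMul (fun i : Fin s => (e i : ZMod p)) c.Dm = 0 := by
    funext k
    have := hdvd k k.2
    rw [finsetSum_coeff] at this
    simp only [Matrix.vecMul, dotProduct, Pi.zero_apply]
    rw [← this]
    refine Finset.sum_congr rfl fun j _ => ?_
    rw [← C_eq_natCast, coeff_C_mul, coeff_dpoly, dcoef, dif_pos k.2]
  have hzero : (fun i : Fin s => (e i : ZMod p)) = 0 := by
    have h1 : Matrix.vecMul (fun i : Fin s => (e i : ZMod p)) (c.Dm * c.N) = 0 := by
      rw [← Matrix.vecMul_vecMul, hvec, Matrix.zero_vecMul]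
    rwa [c.inv, Matrix.vecMul_one] at h1
  have := congrFun hzero i
  simpa [ZMod.natCast_eq_zero_iff] using this

end Fermat.Agent.Kummer.H75
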