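import Fermat.Agent.Kummer.H75_Cert

set_option autoImplicit false

namespace Fermat.Agent.Kummer.H75

open Polynomial Finset

/-- Certificate for `p = 5`. -/
def cert5 : Cert 5 2 3 where
  Dm := !![1, 4, 1;
      3, 1, 2]
  N := !![4, 4;
      3, 4;
      0, 0]
  inv := by decide
  dl := by decide
  ne0 := by decide


/-- Certificate for `p = 7`. -/
def cert7 : Cert 7 3 5 where
  Dm := !![1, 6, 1, 6, 1;
      4, 5, 1, 3, 2;
      1, 2, 0, 4, 3]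
  N := !![0, 3, 3;
      5, 4, 0;
      0, 0, 0;
      1, 6, 3;
      0, 0, 0]
  inv := by decide
  dl := by decide
  ne0 := by decide


/-- Certificate for `p = 11`. -/
def cert11 : Cert 11 5 9 where
  Dm := !![1, 10, 1, 10, 1, 10, 1, 10, 1;
      6, 8, 7, 2, 10, 6, 8, 7, 2;
      1, 7, 0, 5, 6, 7, 2, 3, 0;
      7, 8, 1, 8, 7, 6, 4, 0, 0;
      2, 0, 10, 3, 0, 6, 5, 6, 5]
  N := !![9, 6, 7, 0, 2;
      1, 8, 7, 4, 2;
      0, 0, 0, 0, 0;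
      9, 0, 1, 3, 1;
      0, 0, 0, 0, 0;
      0, 8, 5, 0, 1;
      0, 0, 0, 0, 0;
      9, 1, 5, 4, 9;
      0, 0, 0, 0, 0]
  inv := by decide
  dl := by decide
  ne0 := by decide


/-- Certificate for `p = 13`. -/
def cert13 : Cert 13 6 11 where
  Dm := !![1, 12, 1, 12, 1, 12, 1, 12, 1, 12, 1;
      7, 3, 5, 4, 11, 1, 6, 10, 8, 9, 2;
      1, 4, 0, 3, 10, 2, 12, 9, 0, 10, 3;
      8, 3, 11, 11, 1, 1, 11, 5, 4, 9, 4;
      2, 0, 12, 6, 0, 2, 11, 4, 7, 3, 5;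
      9, 8, 3, 8, 9, 1, 6, 7, 6, 7, 6]
  N := !![1, 10, 12, 7, 4, 4;
      3, 2, 12, 11, 2, 1;
      0, 0, 0, 0, 0, 0;
      3, 10, 2, 9, 2, 2;
      0, 0, 0, 0, 0, 0;
      9, 7, 4, 9, 7, 11;
      0, 0, 0, 0, 0, 0;
      7, 11, 0, 6, 1, 1;
      0, 0, 0, 0, 0, 0;
      4, 6, 7, 11, 5, 2;
      0, 0, 0, 0, 0, 0]
  inv := by decide
  dl := by decide
  ne0 := by decide


end Fermat.Agent.Kummer.H75
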