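import Mathlib

set_option autoImplicit false

namespace Fermat.Agent.Kummer.H75

section

variable {G : Type*} [CommGroup G] (p : ℕ) [NeZero p]

/-- The subgroup of `p`-th powers. -/
abbrev powSubgroup : Subgroup G := (powMonoidHom p : G →* G).range

theorem mk_zpow_eq (y : G) (k : ℤ) :
    (QuotientGroup.mk (y ^ k) : G ⧸ powSubgroup (G := G) p)
      = QuotientGroup.mk (y ^ ((k : ZMod p).val)) := by
  rw [QuotientGroup.eq]
  refine ⟨y ^ (-(k / (p : ℤ))), ?_⟩
  simp only [powMonoidHom_apply]
  have h1 : ((k : ZMod p).val : ℤ) = k % p := ZMod.val_intCast k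
  have h2 : (y ^ ((k : ZMod p).val) : G) = y ^ (k % (p : ℤ)) := by
    rw [← h1, zpow_natCast]
  rw [h2, ← zpow_natCast, ← zpow_mul, ← zpow_neg, ← zpow_add]
  congr 1
  have := Int.emod_add_mul_ediv k p
  linarith

theorem card_quot_pow_le (r : ℕ) (g : G) (ε : Fin r → G)
    (hgen : ∀ x : G, ∃ (k : ℤ) (n : Fin r → ℤ), x = g ^ k * ∏ i, ε i ^ n i) :
    Finite (G ⧸ powSubgroup (G := G) p) ∧
      Nat.card (G ⧸ powSubgroup (G := G) p) ≤ p ^ (r + 1) := by
  let f : ZMod p × (Fin r → ZMod p) → G ⧸ powSubgroup (G := G) p := fun ab =>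
    QuotientGroup.mk (g ^ (ab.1.val) * ∏ i, ε i ^ ((ab.2 i).val))
  have hf : Function.Surjective f := by
    intro x
    obtain ⟨x, rfl⟩ := QuotientGroup.mk_surjective x
    obtain ⟨k, n, rfl⟩ := hgen x
    refine ⟨((k : ZMod p), fun i => (n i : ZMod p)), ?_⟩
    simp only [f]
    rw [QuotientGroup.mk_mul, QuotientGroup.mk_mul, QuotientGroup.mk_prod, QuotientGroup.mk_prod,
      mk_zpow_eq p g k]
    congr 1
    refine Finset.prod_congr rfl fun i _ => ?_
    exact (mk_zpow_eq p (ε i) (n i)).symm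
  have : Fintype (ZMod p) := ZMod.fintype p
  refine ⟨Finite.of_surjective f hf, ?_⟩
  refine (Nat.card_le_card_of_surjective f hf).trans ?_
  rw [Nat.card_prod, Nat.card_fun, Nat.card_eq_fintype_card, ZMod.card, Nat.card_eq_fintype_card,
    Fintype.card_fin, pow_succ, mul_comm]

/-- The counting argument: if `G / G^p` has at most `p ^ s` elements and `s` elements of `G`
are multiplicatively independent modulo a subgroup `H ⊇ G^p`, then `H = G^p`. -/
theorem le_powSubgroup_of_indep (hp : p.Prime) (s : ℕ) (H : Subgroup G)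
    (hH : powSubgroup (G := G) p ≤ H)
    [Finite (G ⧸ powSubgroup (G := G) p)]
    (hcard : Nat.card (G ⧸ powSubgroup (G := G) p) ≤ p ^ s)
    (u : Fin s → G)
    (hind : ∀ e : Fin s → ℕ, ∏ i, u i ^ e i ∈ H → ∀ i, p ∣ e i) :
    H ≤ powSubgroup (G := G) p := by
  have : (powSubgroup (G := G) p).FiniteIndex := Subgroup.finiteIndex_of_finite_quotient
  have : H.FiniteIndex := Subgroup.finiteIndex_of_le hH
  have : Finite (G ⧸ H) := Subgroup.finite_quotient_of_finiteIndex
  have : Fintype (ZMod p) := ZMod.fintype p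
  -- the injection
  let ι : (Fin s → ZMod p) → G ⧸ H := fun a => QuotientGroup.mk (∏ i, u i ^ ((a i).val))
  have hι : Function.Injective ι := by
    intro a b hab
    simp only [ι] at hab
    rw [QuotientGroup.eq] at hab
    have hmem : ∏ i, u i ^ ((b i).val + (p - 1) * (a i).val) ∈ H := by
      have h1 : ∏ i, u i ^ ((b i).val + (p - 1) * (a i).val)
          = ((∏ i, u i ^ ((a i).val))⁻¹ * ∏ i, u i ^ ((b i).val)) *
            (∏ i, u i ^ ((a i).val)) ^ p := by
        rw [← Finset.prod_inv_distrib, ← Finset.prod_mul_distrib, ← Finset.prod_pow,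
          ← Finset.prod_mul_distrib]
        refine Finset.prod_congr rfl fun i _ => ?_
        have hp1 : 1 ≤ p := hp.one_lt.le
        rw [pow_add, pow_mul, ← pow_mul (u i) ((a i).val) p]
        have : (u i ^ (a i).val) ^ p = u i ^ (a i).val * (u i ^ (a i).val) ^ (p - 1) := by
          rw [← pow_succ', Nat.sub_add_cancel hp1]
        rw [pow_mul, this, ← pow_mul, ← pow_mul]
        rw [mul_comm (p - 1) ((a i).val)]
        group
      rw [h1]
      exact H.mul_mem hab (hH ⟨_, rfl⟩)
    have hdvd := hind _ hmem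
    funext i
    have h2 := hdvd i
    have h3 : (((b i).val + (p - 1) * (a i).val : ℕ) : ZMod p) = 0 :=
      (ZMod.natCast_eq_zero_iff _ _).mpr h2
    have h4 : ((p - 1 : ℕ) : ZMod p) = -1 := by
      rw [Nat.cast_sub hp.one_lt.le]; simp
    rw [Nat.cast_add, Nat.cast_mul, ZMod.natCast_zmod_val, ZMod.natCast_zmod_val, h4] at h3
    linear_combination (-1 : ZMod p) * h3
  have hcardH : p ^ s ≤ Nat.card (G ⧸ H) := by
    have h5 := Nat.card_le_card_of_injective ι hι
    have hc : Nat.card (Fin s → ZMod p) = p ^ s := by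
      rw [Nat.card_eq_fintype_card, Fintype.card_fun, ZMod.card, Fintype.card_fin]
    rwa [hc] at h5
  have hmul := Subgroup.relIndex_mul_index hH
  rw [Subgroup.index_eq_card, Subgroup.index_eq_card] at hmul
  have hpos : 0 < Nat.card (G ⧸ powSubgroup (G := G) p) := Nat.card_pos
  have hposH : 0 < Nat.card (G ⧸ H) := Nat.card_pos
  rw [← Subgroup.relIndex_eq_one]
  have hrel_pos : 0 < (powSubgroup (G := G) p).relIndex H := by
    rcases Nat.eq_zero_or_pos ((powSubgroup (G := G) p).relIndex H) with h0 | h0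
    · rw [h0, zero_mul] at hmul; omega
    · exact h0
  have hle : (powSubgroup (G := G) p).relIndex H * Nat.card (G ⧸ H) ≤ 1 * Nat.card (G ⧸ H) := by
    rw [hmul, one_mul]; exact hcard.trans hcardH
  have := Nat.le_of_mul_le_mul_right hle hposH
  omega

end

end Fermat.Agent.Kummer.H75
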