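import Fermat.Agent.Kummer.H75_CertData
import Fermat.Agent.Kummer.H75_Group

set_option autoImplicit false

namespace Fermat.Agent.Kummer.H75

open Polynomial NumberField

variable (p : ℕ) [hp : Fact p.Prime]

/-- The truncated polynomial ring `𝔽_p[X] / (X ^ (p - 1))`, isomorphic to `𝓞 K / p`. -/
abbrev TQ : Type := (ZMod p)[X] ⧸ Ideal.span {(X : (ZMod p)[X]) ^ (p - 1)}

theorem aeval_cyclotomic_one_add_X :
    aeval (Ideal.Quotient.mk (Ideal.span {(X : (ZMod p)[X]) ^ (p - 1)}) (1 + X))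
      (cyclotomic p ℤ) = 0 := by
  have h1 : cyclotomic p (ZMod p)[X] = (X - 1) ^ (p - 1) := by
    have := cyclotomic_mul_prime_pow_eq (ZMod p)[X] (p := p) (m := 1) hp.out.not_dvd_one
      (k := 1) one_pos
    simpa [cyclotomic_one] using this
  have h2 : aeval (1 + X : (ZMod p)[X]) (cyclotomic p ℤ) = X ^ (p - 1) := by
    rw [aeval_def, eval₂_eq_eval_map, map_cyclotomic, h1]
    simp
  rw [← Ideal.Quotient.algebraMap_eq, aeval_algebraMap_apply, h2, Ideal.Quotient.algebraMap_eq,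
    Ideal.Quotient.eq_zero_iff_mem]
  exact Ideal.mem_span_singleton_self _

variable (K : Type) [Field K] [NumberField K] [IsCyclotomicExtension {p} ℚ K]

/-- the chosen primitive root, as an algebraic integer -/
noncomputable def zetaInt : 𝓞 K := (IsCyclotomicExtension.zeta_spec p ℚ K).toInteger

theorem zetaInt_isPrimitiveRoot : IsPrimitiveRoot (zetaInt p K) p :=
  (IsCyclotomicExtension.zeta_spec p ℚ K).toInteger_isPrimitiveRoot

theorem minpoly_zetaInt : minpoly ℤ (zetaInt p K) = cyclotomic p ℤ := by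
  have h := cyclotomic_eq_minpoly (IsCyclotomicExtension.zeta_spec p ℚ K) hp.out.pos
  rw [h, ← minpoly.algebraMap_eq (RingOfIntegers.coe_injective) (zetaInt p K)]
  rfl

theorem theta_aux :
    aeval (Ideal.Quotient.mk (Ideal.span {(X : (ZMod p)[X]) ^ (p - 1)}) (1 + X))
      (minpoly ℤ (IsCyclotomicExtension.zeta_spec p ℚ K).integralPowerBasis.gen) = 0 := by
  rw [IsPrimitiveRoot.integralPowerBasis_gen]
  have := minpoly_zetaInt p K
  unfold zetaInt at this
  rw [this]
  exact aeval_cyclotomic_one_add_X p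

/-- Reduction `𝓞 K → 𝔽_p[X] / (X ^ (p - 1))`, sending `ζ` to `1 + X`. -/
noncomputable def theta : 𝓞 K →+* TQ p :=
  ((IsCyclotomicExtension.zeta_spec p ℚ K).integralPowerBasis.lift
    (Ideal.Quotient.mk _ (1 + X)) (theta_aux p K)).toRingHom

theorem theta_zeta : theta p K (zetaInt p K) = Ideal.Quotient.mk _ (1 + X) := by
  have h := (IsCyclotomicExtension.zeta_spec p ℚ K).integralPowerBasis.lift_gen
    (Ideal.Quotient.mk (Ideal.span {(X : (ZMod p)[X]) ^ (p - 1)}) (1 + X)) (theta_aux p K)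
  rw [IsPrimitiveRoot.integralPowerBasis_gen] at h
  exact h


/-- The test elements: `ζ` for `i = 0` and `1 + ζ + ... + ζ ^ i` otherwise. -/
noncomputable def testElt (i : ℕ) : 𝓞 K :=
  if i = 0 then zetaInt p K else ∑ t ∈ Finset.range (i + 1), zetaInt p K ^ t

theorem theta_testElt (i : ℕ) :
    theta p K (testElt p K i) = Ideal.Quotient.mk _ (unitPoly p i) := by
  unfold testElt unitPoly
  split_ifs with h
  · exact theta_zeta p K
  · rw [map_sum, map_sum]
    refine Finset.sum_congr rfl fun t _ => ?_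
    rw [map_pow, map_pow, theta_zeta]

theorem isUnit_testElt (i : ℕ) (hi : i + 1 < p) : IsUnit (testElt p K i) := by
  unfold testElt
  split_ifs with h
  · exact (zetaInt_isPrimitiveRoot p K).isUnit hp.out.ne_zero
  · refine (zetaInt_isPrimitiveRoot p K).geom_sum_isUnit hp.out.two_le ?_
    exact (Nat.coprime_of_lt_prime (Nat.succ_ne_zero i) hi hp.out).symm


/-- `p`-th powers in `𝔽_p[X]` are constant modulo `X ^ (p - 1)`. -/
theorem X_pow_dvd_pow_sub_C (g : (ZMod p)[X]) : X ^ (p - 1) ∣ g ^ p - C (g.coeff 0) := by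
  rw [← ZMod.expand_card, X_pow_dvd_iff]
  intro d hd
  rw [coeff_sub, coeff_expand hp.out.pos, coeff_C]
  have hdp : d < p := lt_of_lt_of_le hd (Nat.sub_le _ _)
  rcases Nat.eq_zero_or_pos d with rfl | hpos
  · simp
  · have h1 : ¬ p ∣ d := Nat.not_dvd_of_pos_of_lt hpos hdp
    simp [h1, hpos.ne']

/-- The subgroup of units whose reduction to `𝔽_p[X] / (X ^ (p - 1))` is a constant. -/
noncomputable def constUnits : Subgroup (𝓞 K)ˣ where
  carrier := {u | ∃ c : ZMod p, theta p K (u : 𝓞 K) = Ideal.Quotient.mk _ (C c)}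
  one_mem' := ⟨1, by simp⟩
  mul_mem' := by
    rintro u v ⟨c, hc⟩ ⟨d, hd⟩
    exact ⟨c * d, by rw [Units.val_mul, map_mul, hc, hd, C_mul, map_mul]⟩
  inv_mem' := by
    rintro u ⟨c, hc⟩
    have hne : c ≠ 0 := by
      rintro rfl
      have h1 : theta p K ((u : 𝓞 K) * ((u⁻¹ : (𝓞 K)ˣ) : 𝓞 K)) = 1 := by
        rw [← Units.val_mul, mul_inv_cancel, Units.val_one, map_one]
      rw [map_mul, hc, C_0, map_zero, zero_mul] at h1
      have hnt : Nontrivial (TQ p) := by
        apply Ideal.Quotient.nontrivial_iff.mpr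
        intro htop
        rw [Ideal.span_singleton_eq_top] at htop
        have hdeg := natDegree_eq_zero_of_isUnit htop
        rw [natDegree_X_pow] at hdeg
        have := hp.out.two_le
        omega
      exact zero_ne_one h1
    refine ⟨c⁻¹, ?_⟩
    have h1 : theta p K ((u : 𝓞 K)) * theta p K (((u⁻¹ : (𝓞 K)ˣ) : 𝓞 K)) = 1 := by
      rw [← map_mul, ← Units.val_mul, mul_inv_cancel, Units.val_one, map_one]
    have h2 : (Ideal.Quotient.mk (Ideal.span {(X : (ZMod p)[X]) ^ (p - 1)}) (C c)) *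
        Ideal.Quotient.mk _ (C c⁻¹) = 1 := by
      rw [← map_mul, ← C_mul, mul_inv_cancel₀ hne, C_1, map_one]
    rw [hc] at h1
    calc theta p K (((u⁻¹ : (𝓞 K)ˣ) : 𝓞 K))
        = (Ideal.Quotient.mk _ (C c⁻¹) * Ideal.Quotient.mk _ (C c)) *
            theta p K (((u⁻¹ : (𝓞 K)ˣ) : 𝓞 K)) := by rw [mul_comm _ (Ideal.Quotient.mk _ (C c)), h2, one_mul]
      _ = Ideal.Quotient.mk _ (C c⁻¹) := by rw [mul_assoc, h1, mul_one]

theorem mem_constUnits_iff (u : (𝓞 K)ˣ) :
    u ∈ constUnits p K ↔ ∃ c : ZMod p, theta p K (u : 𝓞 K) = Ideal.Quotient.mk _ (C c) :=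
  Iff.rfl

theorem pow_mem_constUnits (v : (𝓞 K)ˣ) : v ^ p ∈ constUnits p K := by
  obtain ⟨g, hg⟩ := Ideal.Quotient.mk_surjective (theta p K (v : 𝓞 K))
  refine ⟨g.coeff 0, ?_⟩
  rw [Units.val_pow_eq_pow_val, map_pow, ← hg, ← map_pow, Ideal.Quotient.eq,
    Ideal.mem_span_singleton]
  exact X_pow_dvd_pow_sub_C p g

theorem mem_constUnits_of_dvd (u : (𝓞 K)ˣ) (n : ℤ) (h : (p : 𝓞 K) ∣ (u : 𝓞 K) - n) :
    u ∈ constUnits p K := by
  obtain ⟨k, hk⟩ := h
  refine ⟨(n : ZMod p), ?_⟩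
  have h1 : (u : 𝓞 K) = n + p * k := by rw [← hk]; ring
  have h2 : theta p K (p : 𝓞 K) = 0 := by
    rw [map_natCast]
    have : ((p : (ZMod p)[X])) = 0 := CharP.cast_eq_zero _ p
    rw [← map_natCast (Ideal.Quotient.mk (Ideal.span {(X : (ZMod p)[X]) ^ (p - 1)})), this,
      map_zero]
  rw [h1, map_add, map_mul, h2, zero_mul, add_zero, map_intCast]
  have h3 : (C (n : ZMod p) : (ZMod p)[X]) = ((n : ℤ) : (ZMod p)[X]) := by simp
  rw [h3, map_intCast]


variable {p K}
variable {s m : ℕ}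

/-- The test units. -/
noncomputable def testUnit (hs : s < p) (i : Fin s) : (𝓞 K)ˣ :=
  (isUnit_testElt p K (i : ℕ) (by omega)).unit

@[simp] theorem coe_testUnit (hs : s < p) (i : Fin s) :
    ((testUnit (K := K) hs i : (𝓞 K)ˣ) : 𝓞 K) = testElt p K (i : ℕ) :=
  IsUnit.unit_spec _

/-- Multiplicative independence of the test units modulo `constUnits`. -/
theorem indep (c : Cert p s m) (hm : m + 1 = p - 1) (hs : s < p) (e : Fin s → ℕ)
    (h : ∏ i, testUnit (K := K) hs i ^ e i ∈ constUnits p K) (i : Fin s) : p ∣ e i := by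
  obtain ⟨a, ha⟩ := h
  rw [Units.coe_prod, map_prod] at ha
  simp only [Units.val_pow_eq_pow_val, coe_testUnit, map_pow, theta_testElt] at ha
  simp only [← map_pow] at ha
  rw [← map_prod, Ideal.Quotient.eq, Ideal.mem_span_singleton, ← hm] at ha
  exact c.dvd_of_prod_eq_const e a ha i


theorem units_generated (K : Type) [Field K] [NumberField K] :
    ∃ g : (𝓞 K)ˣ, ∀ x : (𝓞 K)ˣ, ∃ (k : ℤ) (n : Fin (Units.rank K) → ℤ),
      x = g ^ k * ∏ i, Units.fundSystem K i ^ n i := by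
  obtain ⟨g, hg⟩ := IsCyclic.exists_generator (α := Units.torsion K)
  refine ⟨(g : (𝓞 K)ˣ), fun x => ?_⟩
  obtain ⟨ζe, hζe, -⟩ := Units.exist_unique_eq_mul_prod K x
  obtain ⟨k, hk⟩ := Subgroup.mem_zpowers_iff.mp (hg ζe.1)
  refine ⟨k, ζe.2, ?_⟩
  rw [hζe, ← hk, Subgroup.coe_zpow]

theorem rank_add_one_eq (hp2 : p ≠ 2) : Units.rank K + 1 = (p - 1) / 2 := by
  have hp3 : 2 < p := lt_of_le_of_ne hp.out.two_le (Ne.symm hp2)
  have h1 : Units.rank K = Fintype.card (InfinitePlace K) - 1 := rfl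
  rw [h1, InfinitePlace.card_eq_nrRealPlaces_add_nrComplexPlaces,
    IsCyclotomicExtension.Rat.nrRealPlaces_eq_zero K hp3,
    IsCyclotomicExtension.Rat.nrComplexPlaces_eq_totient_div_two p K, Nat.totient_prime hp.out,
    zero_add]
  have : 1 ≤ (p - 1) / 2 := by omega
  omega

/-- **Kummer's lemma** from a certificate. -/
theorem kummer_of_cert (c : Cert p s m) (hm : m + 1 = p - 1) (hs : s = (p - 1) / 2)
    (hp2 : p ≠ 2) (u : (𝓞 K)ˣ) (hcong : ∃ n : ℤ, (p : 𝓞 K) ∣ (u : 𝓞 K) - n) :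
    ∃ v : (𝓞 K)ˣ, u = v ^ p := by
  have hsp : s < p := by
    have := hp.out.two_le
    omega
  obtain ⟨g, hgen⟩ := units_generated K
  obtain ⟨hfin, hcard⟩ := card_quot_pow_le p (Units.rank K) g (Units.fundSystem K) hgen
  rw [rank_add_one_eq (p := p) (K := K) hp2, ← hs] at hcard
  have hH : powSubgroup (G := (𝓞 K)ˣ) p ≤ constUnits p K := by
    rintro x ⟨v, rfl⟩
    exact pow_mem_constUnits p K v
  have hle := le_powSubgroup_of_indep p hp.out s (constUnits p K) hH hcard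
    (testUnit (K := K) hsp) (fun e he i => indep c hm hsp e he i)
  obtain ⟨n, hn⟩ := hcong
  obtain ⟨v, hv⟩ := hle (mem_constUnits_of_dvd p K u n hn)
  exact ⟨v, hv.symm⟩


end Fermat.Agent.Kummer.H75

namespace Fermat.Agent.Kummer.H75

open NumberField

/-- **Kummer's lemma** for `p ∈ {5, 7, 11, 13}`: a unit of `ℤ[ζ_p]` congruent to a rational
integer modulo `p` is a `p`-th power. -/
theorem kummer_lemma_small {K : Type} [Field K] [NumberField K] {p : ℕ} [Fact p.Prime]
    [IsCyclotomicExtension {p} ℚ K] (hp : p = 5 ∨ p = 7 ∨ p = 11 ∨ p = 13)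
    (u : (NumberField.RingOfIntegers K)ˣ)
    (hcong : ∃ n : ℤ, (p : NumberField.RingOfIntegers K) ∣ (u : NumberField.RingOfIntegers K) - n) :
    ∃ v : (NumberField.RingOfIntegers K)ˣ, u = v ^ p := by
  rcases hp with rfl | rfl | rfl | rfl
  · exact kummer_of_cert cert5 (by norm_num) (by norm_num) (by norm_num) u hcong
  · exact kummer_of_cert cert7 (by norm_num) (by norm_num) (by norm_num) u hcong
  · exact kummer_of_cert cert11 (by norm_num) (by norm_num) (by norm_num) u hcong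
  · exact kummer_of_cert cert13 (by norm_num) (by norm_num) (by norm_num) u hcong

end Fermat.Agent.Kummer.H75
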