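import Mathlib

set_option autoImplicit false

namespace Fermat.Agent.Kummer.H75

open Polynomial

section DL

variable {R : Type*} [CommRing R]

/-- `DL m P D`: the polynomial `D` represents the logarithmic derivative of `P` modulo `X ^ m`. -/
def DL (m : ℕ) (P D : R[X]) : Prop := X ^ m ∣ derivative P - D * P

theorem DL.one (m : ℕ) : DL m (1 : R[X]) 0 := by
  simp [DL]

theorem DL.mul {m : ℕ} {P Q D E : R[X]} (hP : DL m P D) (hQ : DL m Q E) :
    DL m (P * Q) (D + E) := by
  unfold DL at *
  have h : derivative (P * Q) - (D + E) * (P * Q)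
      = (derivative P - D * P) * Q + P * (derivative Q - E * Q) := by
    rw [derivative_mul]; ring
  rw [h]
  exact dvd_add (Dvd.dvd.mul_right hP _) (Dvd.dvd.mul_left hQ _)

theorem DL.pow {m : ℕ} {P D : R[X]} (hP : DL m P D) (a : ℕ) :
    DL m (P ^ a) ((a : R[X]) * D) := by
  induction a with
  | zero => simpa using DL.one (R := R) m
  | succ a ih =>
    have := ih.mul hP
    rw [pow_succ]
    convert this using 1
    push_cast; ring

theorem DL.prod {ι : Type*} {m : ℕ} (s : Finset ι) (f d : ι → R[X]) (a : ι → ℕ)
    (h : ∀ i ∈ s, DL m (f i) (d i)) :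
    DL m (∏ i ∈ s, f i ^ a i) (∑ i ∈ s, (a i : R[X]) * d i) := by
  classical
  induction s using Finset.induction_on with
  | empty => simpa using DL.one (R := R) m
  | insert i s hi ih =>
    rw [Finset.prod_insert hi, Finset.sum_insert hi]
    exact ((h i (Finset.mem_insert_self i s)).pow (a i)).mul
      (ih fun j hj => h j (Finset.mem_insert_of_mem hj))

end DL

section Field

variable {F : Type*} [Field F]

/-- Key step: if `P ≡ const (mod X^(m+1))` has nonzero constant term and `D` represents its
logarithmic derivative modulo `X ^ m`, then `X ^ m ∣ D`. -/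
theorem DL.dvd_of_eq_const {m : ℕ} {P D H : F[X]} {c : F}
    (hP : P = C c + X ^ (m + 1) * H) (h0 : P.coeff 0 ≠ 0) (hDL : DL m P D) : X ^ m ∣ D := by
  have hder : X ^ m ∣ derivative P := by
    rw [hP]
    simp only [derivative_add, derivative_C, zero_add, derivative_mul, derivative_X_pow,
      Nat.add_sub_cancel]
    refine dvd_add ?_ ?_
    · exact Dvd.dvd.mul_right (Dvd.dvd.mul_left (dvd_refl _) _) _
    · rw [pow_succ, mul_assoc]; exact Dvd.dvd.mul_right (dvd_refl _) _
  have hDP : X ^ m ∣ D * P := by
    have := dvd_sub hder hDL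
    simpa using this
  have hcop : IsCoprime (X ^ m) P := by
    refine IsCoprime.pow_left ?_
    rw [(Polynomial.irreducible_X).coprime_iff_not_dvd]
    rwa [Polynomial.X_dvd_iff]
  exact hcop.dvd_of_dvd_mul_right hDP

end Field

end Fermat.Agent.Kummer.H75
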