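import Mathlib

set_option autoImplicit false

namespace Fermat.Agent.Kummer.H91

theorem normId_11_23 {R : Type*} [CommRing R] (ζ : R) (h : 1 + ζ + ζ^2 + ζ^3 + ζ^4 + ζ^5 + ζ^6 + ζ^7 + ζ^8 + ζ^9 + ζ^10 = 0) :
    ((1) + (-1) * ζ^1 + (1) * ζ^3) * ((1) + (-1) * ζ^2 + (1) * ζ^6) * ((1) + (-1) * ζ^3 + (1) * ζ^9) * ((1) + (-1) * ζ^4 + (1) * ζ^12) * ((1) + (-1) * ζ^5 + (1) * ζ^15) * ((1) + (-1) * ζ^6 + (1) * ζ^18) * ((1) + (-1) * ζ^7 + (1) * ζ^21) * ((1) + (-1) * ζ^8 + (1) * ζ^24) * ((1) + (-1) * ζ^9 + (1) * ζ^27) * ((1) + (-1) * ζ^10 + (1) * ζ^30) = (23 : R) := by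
  linear_combination ((-22) + (21) * ζ + (2) * ζ^3 + (-1) * ζ^4 + (-1) * ζ^7 + (1) * ζ^8 + (1) * ζ^9 + (-1) * ζ^10 + (-21) * ζ^11 + (22) * ζ^12 + (-4) * ζ^13 + (2) * ζ^14 + (4) * ζ^15 + (-5) * ζ^16 + (2) * ζ^18 + (-2) * ζ^19 + (4) * ζ^20 + (-25) * ζ^22 + (26) * ζ^23 + (-7) * ζ^25 + (5) * ζ^26 + (-6) * ζ^28 + (1) * ζ^29 + (5) * ζ^30 + (-4) * ζ^31 + (3) * ζ^32 + (-18) * ζ^33 + (17) * ζ^34 + (10) * ζ^35 + (-4) * ζ^36 + (-10) * ζ^37 + (4) * ζ^38 + (6) * ζ^39 + (-13) * ζ^40 + (3) * ζ^41 + (5) * ζ^42 + (-10) * ζ^43 + (-13) * ζ^44 + (30) * ζ^45 + (-7) * ζ^46 + (6) * ζ^47 + (4) * ζ^48 + (-20) * ζ^49 + (19) * ζ^50 + (-1) * ζ^51 + (-19) * ζ^52 + (7) * ζ^53 + (3) * ζ^54 + (-31) * ζ^55 + (33) * ζ^56 + (4) * ζ^57 + (-15) * ζ^58 + (18) * ζ^59 + (-14) * ζ^61 + (10)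 * ζ^62 + (8) * ζ^63 + (-25) * ζ^64 + (15) * ζ^65 + (-20) * ζ^66 + (5) * ζ^67 + (12) * ζ^68 + (4) * ζ^69 + (-6) * ζ^70 + (7) * ζ^71 + (5) * ζ^72 + (-25) * ζ^73 + (24) * ζ^74 + (7) * ζ^75 + (-25) * ζ^76 + (-12) * ζ^77 + (29) * ζ^78 + (-28) * ζ^79 + (26) * ζ^80 + (8) * ζ^81 + (-27) * ζ^82 + (16) * ζ^83 + (-2) * ζ^84 + (-8) * ζ^85 + (18) * ζ^86 + (3) * ζ^87 + (-49) * ζ^88 + (41) * ζ^89 + (-1) * ζ^90 + (-16) * ζ^91 + (17) * ζ^92 + (3) * ζ^93 + (-24) * ζ^94 + (18) * ζ^95 + (6) * ζ^96 + (-17) * ζ^97 + (14) * ζ^98 + (-16) * ζ^99 + (4) * ζ^100 + (8) * ζ^101 + (8) * ζ^102 + (-25) * ζ^103 + (18) * ζ^104 + (3) * ζ^105 + (-17) * ζ^106 + (12) * ζ^107 + (9) * ζ^108 + (-23) * ζ^109 + (11) * ζ^110 + (8) * ζ^111 + (-18) * ζ^112 + (20) * ζ^113 + (-9) * ζ^114 + (-4)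 * ζ^115 + (7) * ζ^116 + (5) * ζ^117 + (-21) * ζ^118 + (16) * ζ^119 + (3) * ζ^120 + (-12) * ζ^121 + (8) * ζ^122 + (-1) * ζ^123 + (-4) * ζ^124 + (5) * ζ^125 + (2) * ζ^126 + (-9) * ζ^127 + (7) * ζ^128 + (-4) * ζ^129 + (1) * ζ^130 + (3) * ζ^131 + (1) * ζ^132 + (-9) * ζ^133 + (6) * ζ^134 + (3) * ζ^135 + (-6) * ζ^136 + (5) * ζ^137 + (-4) * ζ^139 + (1) * ζ^140 + (3) * ζ^141 + (-3) * ζ^142 + (2) * ζ^143 + (-2) * ζ^144 + (2) * ζ^146 + (-2) * ζ^148 + (1) * ζ^149 + (1) * ζ^150 + (-2) * ζ^151 + (2) * ζ^152 + (-1) * ζ^153 + (-1) * ζ^154 + (1) * ζ^155) * h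

end Fermat.Agent.Kummer.H91
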