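import Mathlib

set_option autoImplicit false

namespace Fermat.Agent.Kummer.H91

theorem normId_13_27 {R : Type*} [CommRing R] (ζ : R) (h : 1 + ζ + ζ^2 + ζ^3 + ζ^4 + ζ^5 + ζ^6 + ζ^7 + ζ^8 + ζ^9 + ζ^10 + ζ^11 + ζ^12 = 0) :
    ((1) + (1) * ζ^1 + (-1) * ζ^3) * ((1) + (1) * ζ^2 + (-1) * ζ^6) * ((1) + (1) * ζ^3 + (-1) * ζ^9) * ((1) + (1) * ζ^4 + (-1) * ζ^12) * ((1) + (1) * ζ^5 + (-1) * ζ^15) * ((1) + (1) * ζ^6 + (-1) * ζ^18) * ((1) + (1) * ζ^7 + (-1) * ζ^21) * ((1) + (1) * ζ^8 + (-1) * ζ^24) * ((1) + (1) * ζ^9 + (-1) * ζ^27) * ((1) + (1) * ζ^10 + (-1) * ζ^30) * ((1) + (1) * ζ^11 + (-1) * ζ^33) * ((1) + (1) * ζ^12 + (-1) * ζ^36) = (27 : R) := by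
  linear_combination ((-26) + (27) * ζ + (1) * ζ^4 + (1) * ζ^7 + (1) * ζ^8 + (1) * ζ^9 + (-1) * ζ^10 + (2) * ζ^11 + (2) * ζ^12 + (-26) * ζ^13 + (27) * ζ^14 + (2) * ζ^16 + (1) * ζ^17 + (1) * ζ^19 + (2) * ζ^20 + (-1) * ζ^22 + (1) * ζ^24 + (1) * ζ^25 + (-30) * ζ^26 + (25) * ζ^27 + (1) * ζ^28 + (-2) * ζ^29 + (-3) * ζ^30 + (-3) * ζ^31 + (-1) * ζ^32 + (-4) * ζ^33 + (-6) * ζ^34 + (-2) * ζ^35 + (-1) * ζ^36 + (-5) * ζ^37 + (-6) * ζ^38 + (-32) * ζ^39 + (26) * ζ^40 + (-5) * ζ^41 + (-6) * ζ^42 + (-4) * ζ^43 + (-1) * ζ^44 + (-1) * ζ^45 + (-7) * ζ^46 + (-1) * ζ^47 + (5) * ζ^48 + (-1) * ζ^49 + (-5) * ζ^50 + (3) * ζ^51 + (-24) * ζ^52 + (32) * ζ^53 + (6) * ζ^55 + (11) * ζ^56 + (6) * ζ^57 + (3) * ζ^58 + (6) * ζ^59 + (12) * ζ^60 + (11) * ζ^61 + (4) * ζ^62 + (6) * ζ^63 + (16) * ζ^64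 + (-22) * ζ^65 + (33) * ζ^66 + (10) * ζ^67 + (11) * ζ^68 + (2) * ζ^69 + (2) * ζ^70 + (3) * ζ^71 + (7) * ζ^72 + (1) * ζ^73 + (1) * ζ^74 + (-7) * ζ^75 + (1) * ζ^76 + (-45) * ζ^78 + (29) * ζ^79 + (-9) * ζ^80 + (-7) * ζ^81 + (-17) * ζ^82 + (-7) * ζ^83 + (-3) * ζ^84 + (-16) * ζ^85 + (-18) * ζ^86 + (-8) * ζ^87 + (-10) * ζ^88 + (-10) * ζ^89 + (-10) * ζ^90 + (-46) * ζ^91 + (29) * ζ^92 + (-3) * ζ^93 + (-14) * ζ^94 + (-5) * ζ^95 + (7) * ζ^96 + (-5) * ζ^97 + (-4) * ζ^98 + (2) * ζ^99 + (10) * ζ^100 + (1) * ζ^101 + (9) * ζ^102 + (6) * ζ^103 + (-24) * ζ^104 + (42) * ζ^105 + (8) * ζ^106 + (9) * ζ^107 + (11) * ζ^108 + (15) * ζ^109 + (13) * ζ^110 + (7) * ζ^111 + (11) * ζ^112 + (10) * ζ^113 + (-1) * ζ^114 + (16) * ζ^115 + (3) * ζ^116 + (-36) * ζ^117 + (40) * ζ^118 + (5) * ζ^119 +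 (-1) * ζ^120 + (10) * ζ^121 + (-8) * ζ^122 + (-5) * ζ^123 + (-9) * ζ^124 + (-1) * ζ^125 + (-10) * ζ^126 + (-7) * ζ^127 + (-3) * ζ^128 + (-15) * ζ^129 + (-32) * ζ^130 + (25) * ζ^131 + (-4) * ζ^132 + (-8) * ζ^133 + (-8) * ζ^134 + (-10) * ζ^135 + (-9) * ζ^136 + (-2) * ζ^137 + (6) * ζ^138 + (-13) * ζ^139 + (1) * ζ^140 + (2) * ζ^141 + (-1) * ζ^142 + (-32) * ζ^143 + (41) * ζ^144 + (-11) * ζ^145 + (9) * ζ^146 + (11) * ζ^147 + (-10) * ζ^148 + (9) * ζ^149 + (8) * ζ^150 + (8) * ζ^151 + (-11) * ζ^152 + (12) * ζ^153 + (7) * ζ^154 + (2) * ζ^155 + (-28) * ζ^156 + (32) * ζ^157 + (3) * ζ^158 + (5) * ζ^159 + (-3) * ζ^160 + (-1) * ζ^161 + (-3) * ζ^162 + (7) * ζ^163 + (-3) * ζ^164 + (-6) * ζ^165 + (5) * ζ^166 + (-1) * ζ^167 + (-9) * ζ^168 + (-16) * ζ^169 + (18) * ζ^170 + (-11) * ζ^171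 + (10) * ζ^172 + (-8) * ζ^173 + (1) * ζ^174 + (-6) * ζ^175 + (6) * ζ^176 + (-7) * ζ^177 + (2) * ζ^178 + (-4) * ζ^181 + (-8) * ζ^182 + (12) * ζ^183 + (-4) * ζ^184 + (6) * ζ^185 + (-2) * ζ^186 + (2) * ζ^187 + (-1) * ζ^188 + (8) * ζ^189 + (-6) * ζ^190 + (3) * ζ^191 + (1) * ζ^192 + (1) * ζ^193 + (-6) * ζ^194 + (5) * ζ^196 + (-2) * ζ^197 + (1) * ζ^198 + (-2) * ζ^199 + (2) * ζ^200 + (1) * ζ^202 + (-3) * ζ^203 + (2) * ζ^204 + (-1) * ζ^205 + (1) * ζ^206 + (-4) * ζ^207 + (1) * ζ^209 + (-1) * ζ^210 + (1) * ζ^211 + (2) * ζ^215 + (-1) * ζ^216 + (1) * ζ^217 + (-1) * ζ^220 + (-1) * ζ^221 + (1) * ζ^222) * h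

theorem normId_13_53 {R : Type*} [CommRing R] (ζ : R) (h : 1 + ζ + ζ^2 + ζ^3 + ζ^4 + ζ^5 + ζ^6 + ζ^7 + ζ^8 + ζ^9 + ζ^10 + ζ^11 + ζ^12 = 0) :
    ((1) + (-1) * ζ^1 + (1) * ζ^3) * ((1) + (-1) * ζ^2 + (1) * ζ^6) * ((1) + (-1) * ζ^3 + (1) * ζ^9) * ((1) + (-1) * ζ^4 + (1) * ζ^12) * ((1) + (-1) * ζ^5 + (1) * ζ^15) * ((1) + (-1) * ζ^6 + (1) * ζ^18) * ((1) + (-1) * ζ^7 + (1) * ζ^21) * ((1) + (-1) * ζ^8 + (1) * ζ^24) * ((1) + (-1) * ζ^9 + (1) * ζ^27) * ((1) + (-1) * ζ^10 + (1) * ζ^30) * ((1) + (-1) * ζ^11 + (1) * ζ^33) * ((1) + (-1) * ζ^12 + (1) * ζ^36) = (53 : R) := by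
  linear_combination ((-52) + (51) * ζ + (2) * ζ^3 + (-1) * ζ^4 + (-1) * ζ^7 + (1) * ζ^8 + (1) * ζ^9 + (-1) * ζ^10 + (2) * ζ^12 + (-54) * ζ^13 + (49) * ζ^14 + (4) * ζ^15 + (-2) * ζ^16 + (-1) * ζ^17 + (4) * ζ^18 + (-3) * ζ^19 + (2) * ζ^21 + (-3) * ζ^22 + (2) * ζ^23 + (5) * ζ^24 + (-3) * ζ^25 + (-56) * ζ^26 + (53) * ζ^27 + (3) * ζ^28 + (-6) * ζ^29 + (5) * ζ^30 + (-3) * ζ^31 + (-3) * ζ^32 + (10) * ζ^33 + (-8) * ζ^34 + (9) * ζ^36 + (-5) * ζ^37 + (-46) * ζ^39 + (44) * ζ^40 + (-1) * ζ^41 + (2) * ζ^42 + (-2) * ζ^43 + (-5) * ζ^44 + (9) * ζ^45 + (-7) * ζ^46 + (-7) * ζ^47 + (23) * ζ^48 + (-11) * ζ^49 + (-5) * ζ^50 + (17) * ζ^51 + (-60) * ζ^52 + (48) * ζ^53 + (12) * ζ^54 + (-12) * ζ^55 + (-5) * ζ^56 + (6) * ζ^57 + (-5) * ζ^58 + (-10) * ζ^59 + (16) * ζ^60 + (-5) * ζ^61 + (-18)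 * ζ^62 + (32) * ζ^63 + (-8) * ζ^64 + (-58) * ζ^65 + (67) * ζ^66 + (-12) * ζ^67 + (3) * ζ^68 + (18) * ζ^69 + (-22) * ζ^70 + (-9) * ζ^71 + (19) * ζ^72 + (-9) * ζ^73 + (-17) * ζ^74 + (17) * ζ^75 + (-5) * ζ^76 + (-16) * ζ^77 + (-11) * ζ^78 + (25) * ζ^79 + (-7) * ζ^80 + (35) * ζ^81 + (-25) * ζ^82 + (-1) * ζ^83 + (31) * ζ^84 + (-24) * ζ^85 + (-14) * ζ^86 + (20) * ζ^87 + (-4) * ζ^88 + (-20) * ζ^89 + (24) * ζ^90 + (-58) * ζ^91 + (15) * ζ^92 + (57) * ζ^93 + (-24) * ζ^94 + (-21) * ζ^95 + (51) * ζ^96 + (-29) * ζ^97 + (-12) * ζ^98 + (42) * ζ^99 + (-36) * ζ^100 + (-3) * ζ^101 + (23) * ζ^102 + (-6) * ζ^103 + (-68) * ζ^104 + (60) * ζ^105 + (-2) * ζ^106 + (-33) * ζ^107 + (63) * ζ^108 + (-19) * ζ^109 + (-35) * ζ^110 + (45) * ζ^111 + (-21) * ζ^112 + (-14) * ζ^113 + (49) * ζ^114 +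 (-38) * ζ^115 + (3) * ζ^116 + (-22) * ζ^117 + (14) * ζ^118 + (-13) * ζ^119 + (35) * ζ^120 + (-6) * ζ^121 + (-32) * ζ^122 + (51) * ζ^123 + (-21) * ζ^124 + (-33) * ζ^125 + (50) * ζ^126 + (-25) * ζ^127 + (-17) * ζ^128 + (71) * ζ^129 + (-92) * ζ^130 + (15) * ζ^131 + (38) * ζ^132 + (-10) * ζ^133 + (-20) * ζ^134 + (34) * ζ^135 + (-15) * ζ^136 + (-26) * ζ^137 + (46) * ζ^138 + (-13) * ζ^139 + (-39) * ζ^140 + (48) * ζ^141 + (-5) * ζ^142 + (-54) * ζ^143 + (67) * ζ^144 + (-35) * ζ^145 + (-3) * ζ^146 + (23) * ζ^147 + (-6) * ζ^148 + (-21) * ζ^149 + (32) * ζ^150 + (-18) * ζ^151 + (-15) * ζ^152 + (32) * ζ^153 + (-7) * ζ^154 + (-32) * ζ^155 + (32) * ζ^156 + (-6) * ζ^157 + (-23) * ζ^158 + (49) * ζ^159 + (-41) * ζ^160 + (1) * ζ^161 + (21) * ζ^162 + (-3) * ζ^163 + (-23) * ζ^164 + (32)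 * ζ^165 + (-19) * ζ^166 + (-11) * ζ^167 + (23) * ζ^168 + (-8) * ζ^169 + (-14) * ζ^170 + (27) * ζ^171 + (-10) * ζ^172 + (-22) * ζ^173 + (35) * ζ^174 + (-18) * ζ^175 + (-8) * ζ^176 + (11) * ζ^177 + (4) * ζ^178 + (-12) * ζ^179 + (14) * ζ^180 + (-12) * ζ^181 + (-4) * ζ^182 + (14) * ζ^183 + (2) * ζ^184 + (-18) * ζ^185 + (14) * ζ^186 + (-2) * ζ^187 + (-11) * ζ^188 + (18) * ζ^189 + (-12) * ζ^190 + (1) * ζ^191 + (7) * ζ^192 + (-5) * ζ^193 + (-6) * ζ^194 + (8) * ζ^195 + (-3) * ζ^196 + (3) * ζ^198 + (-6) * ζ^200 + (6) * ζ^201 + (-1) * ζ^202 + (-5) * ζ^203 + (8) * ζ^204 + (-3) * ζ^205 + (-3) * ζ^206 + (2) * ζ^207 + (-1) * ζ^209 + (3) * ζ^210 + (-3) * ζ^211 + (2) * ζ^213 + (-2) * ζ^215 + (1) * ζ^216 + (1) * ζ^217 + (-2) * ζ^218 + (2) * ζ^219 + (-1) * ζ^220 + (-1) * ζ^221 + (1)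 * ζ^222) * h

theorem normId_13_79 {R : Type*} [CommRing R] (ζ : R) (h : 1 + ζ + ζ^2 + ζ^3 + ζ^4 + ζ^5 + ζ^6 + ζ^7 + ζ^8 + ζ^9 + ζ^10 + ζ^11 + ζ^12 = 0) :
    ((1) + (-1) * ζ^1 + (-1) * ζ^4) * ((1) + (-1) * ζ^2 + (-1) * ζ^8) * ((1) + (-1) * ζ^3 + (-1) * ζ^12) * ((1) + (-1) * ζ^4 + (-1) * ζ^16) * ((1) + (-1) * ζ^5 + (-1) * ζ^20) * ((1) + (-1) * ζ^6 + (-1) * ζ^24) * ((1) + (-1) * ζ^7 + (-1) * ζ^28) * ((1) + (-1) * ζ^8 + (-1) * ζ^32) * ((1) + (-1) * ζ^9 + (-1) * ζ^36) * ((1) + (-1) * ζ^10 + (-1) * ζ^40) * ((1) + (-1) * ζ^11 + (-1) * ζ^44) * ((1) + (-1) * ζ^12 + (-1) * ζ^48) = (79 : R) := by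
  linear_combination ((-78) + (77) * ζ + (1) * ζ^3 + (-1) * ζ^4 + (2) * ζ^5 + (1) * ζ^7 + (-2) * ζ^8 + (1) * ζ^9 + (-1) * ζ^10 + (-2) * ζ^12 + (-75) * ζ^13 + (76) * ζ^14 + (-6) * ζ^15 + (6) * ζ^16 + (-3) * ζ^17 + (2) * ζ^18 + (3) * ζ^19 + (4) * ζ^20 + (-4) * ζ^21 + (8) * ζ^22 + (-5) * ζ^23 + (-3) * ζ^25 + (-71) * ζ^26 + (70) * ζ^27 + (-6) * ζ^28 + (2) * ζ^29 + (-9) * ζ^30 + (4) * ζ^31 + (2) * ζ^32 + (5) * ζ^33 + (-6) * ζ^34 + (14) * ζ^35 + (-5) * ζ^36 + (5) * ζ^37 + (-5) * ζ^38 + (-56) * ζ^39 + (59) * ζ^40 + (-10) * ζ^43 + (7) * ζ^45 + (-9) * ζ^46 + (-4) * ζ^47 + (16) * ζ^48 + (-18) * ζ^49 + (13) * ζ^50 + (3) * ζ^51 + (-59) * ζ^52 + (53) * ζ^53 + (10) * ζ^54 + (-7) * ζ^55 + (-8) * ζ^56 + (16) * ζ^57 + (1) * ζ^58 + (-16) * ζ^59 + (15) * ζ^60 + (-10) * ζ^61 + (-19)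 * ζ^62 + (18) * ζ^63 + (7) * ζ^64 + (-53) * ζ^65 + (52) * ζ^66 + (-7) * ζ^67 + (-3) * ζ^68 + (-10) * ζ^69 + (15) * ζ^70 + (12) * ζ^71 + (-15) * ζ^72 + (24) * ζ^73 + (-4) * ζ^74 + (-31) * ζ^75 + (6) * ζ^76 + (-4) * ζ^77 + (-8) * ζ^78 + (24) * ζ^79 + (-4) * ζ^80 + (3) * ζ^81 + (-19) * ζ^82 + (-4) * ζ^83 + (18) * ζ^84 + (2) * ζ^85 + (11) * ζ^86 + (6) * ζ^87 + (-30) * ζ^88 + (13) * ζ^89 + (-23) * ζ^90 + (11) * ζ^91 + (32) * ζ^92 + (-27) * ζ^93 + (16) * ζ^94 + (-9) * ζ^95 + (-34) * ζ^96 + (38) * ζ^97 + (-16) * ζ^98 + (10) * ζ^99 + (24) * ζ^100 + (-26) * ζ^101 + (-8) * ζ^102 + (8) * ζ^103 + (-9) * ζ^104 + (-1) * ζ^105 + (24) * ζ^106 + (20) * ζ^107 + (-49) * ζ^108 + (14) * ζ^109 + (1) * ζ^110 + (-27) * ζ^111 + (32) * ζ^112 + (34) * ζ^113 + (-61) * ζ^114 + (31) * ζ^115 +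 (15) * ζ^116 + (-60) * ζ^117 + (22) * ζ^118 + (23) * ζ^119 + (-1) * ζ^120 + (-8) * ζ^121 + (21) * ζ^122 + (-41) * ζ^123 + (13) * ζ^124 + (26) * ζ^125 + (-19) * ζ^126 + (4) * ζ^127 + (25) * ζ^128 + (-32) * ζ^129 + (-2) * ζ^130 + (-1) * ζ^131 + (-27) * ζ^132 + (38) * ζ^133 + (13) * ζ^134 + (-30) * ζ^135 + (11) * ζ^136 + (13) * ζ^137 + (-7) * ζ^138 + (-10) * ζ^139 + (11) * ζ^140 + (7) * ζ^141 + (-3) * ζ^142 + (-2) * ζ^143 + (-9) * ζ^144 + (-30) * ζ^145 + (40) * ζ^146 + (-24) * ζ^147 + (16) * ζ^148 + (5) * ζ^149 + (8) * ζ^150 + (-9) * ζ^151 + (-5) * ζ^152 + (-7) * ζ^153 + (-1) * ζ^154 + (28) * ζ^155 + (-12) * ζ^156 + (-15) * ζ^157 + (2) * ζ^158 + (22) * ζ^159 + (-42) * ζ^160 + (8) * ζ^161 + (44) * ζ^162 + (-28) * ζ^163 + (27) * ζ^165 + (-48) * ζ^166 + (5) * ζ^167 + (43)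 * ζ^168 + (-28) * ζ^169 + (-17) * ζ^170 + (49) * ζ^171 + (-29) * ζ^172 + (-35) * ζ^173 + (49) * ζ^174 + (-20) * ζ^175 + (-9) * ζ^176 + (62) * ζ^177 + (-56) * ζ^178 + (-16) * ζ^179 + (55) * ζ^180 + (-38) * ζ^181 + (-35) * ζ^182 + (83) * ζ^183 + (-45) * ζ^184 + (-16) * ζ^185 + (53) * ζ^186 + (-50) * ζ^187 + (-20) * ζ^188 + (77) * ζ^189 + (-30) * ζ^190 + (-38) * ζ^191 + (70) * ζ^192 + (-36) * ζ^193 + (-48) * ζ^194 + (68) * ζ^195 + (-32) * ζ^196 + (-27) * ζ^197 + (80) * ζ^198 + (-47) * ζ^199 + (-42) * ζ^200 + (82) * ζ^201 + (-40) * ζ^202 + (-37) * ζ^203 + (86) * ζ^204 + (-45) * ζ^205 + (-38) * ζ^206 + (75) * ζ^207 + (-50) * ζ^208 + (-39) * ζ^209 + (89) * ζ^210 + (-30) * ζ^211 + (-49) * ζ^212 + (74) * ζ^213 + (-25) * ζ^214 + (-53) * ζ^215 + (78) * ζ^216 + (-32) * ζ^217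 + (-34) * ζ^218 + (65) * ζ^219 + (-29) * ζ^220 + (-46) * ζ^221 + (69) * ζ^222 + (-24) * ζ^223 + (-36) * ζ^224 + (62) * ζ^225 + (-22) * ζ^226 + (-38) * ζ^227 + (60) * ζ^228 + (-27) * ζ^229 + (-36) * ζ^230 + (55) * ζ^231 + (-11) * ζ^232 + (-41) * ζ^233 + (51) * ζ^234 + (-13) * ζ^235 + (-37) * ζ^236 + (51) * ζ^237 + (-21) * ζ^238 + (-24) * ζ^239 + (45) * ζ^240 + (-17) * ζ^241 + (-29) * ζ^242 + (41) * ζ^243 + (-14) * ζ^244 + (-23) * ζ^245 + (36) * ζ^246 + (-12) * ζ^247 + (-22) * ζ^248 + (32) * ζ^249 + (-11) * ζ^250 + (-22) * ζ^251 + (28) * ζ^252 + (-2) * ζ^253 + (-21) * ζ^254 + (23) * ζ^255 + (-4) * ζ^256 + (-19) * ζ^257 + (21) * ζ^258 + (-4) * ζ^259 + (-15) * ζ^260 + (21) * ζ^261 + (-6) * ζ^262 + (-12) * ζ^263 + (11) * ζ^264 + (-1) * ζ^265 + (-10) * ζ^266 + (16) * ζ^267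 + (-5) * ζ^268 + (-8) * ζ^269 + (10) * ζ^270 + (-4) * ζ^271 + (-7) * ζ^272 + (9) * ζ^273 + (1) * ζ^274 + (-8) * ζ^275 + (8) * ζ^276 + (-3) * ζ^277 + (-4) * ζ^278 + (5) * ζ^279 + (1) * ζ^280 + (-5) * ζ^281 + (5) * ζ^282 + (-2) * ζ^283 + (-2) * ζ^284 + (2) * ζ^285 + (-2) * ζ^287 + (3) * ζ^288 + (-3) * ζ^290 + (3) * ζ^291 + (-1) * ζ^292 + (-1) * ζ^293 + (1) * ζ^294 + (1) * ζ^295 + (-2) * ζ^296 + (1) * ζ^297 + (-1) * ζ^299 + (1) * ζ^300) * h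

theorem normId_13_131 {R : Type*} [CommRing R] (ζ : R) (h : 1 + ζ + ζ^2 + ζ^3 + ζ^4 + ζ^5 + ζ^6 + ζ^7 + ζ^8 + ζ^9 + ζ^10 + ζ^11 + ζ^12 = 0) :
    ((1) + (-1) * ζ^1 + (-1) * ζ^3) * ((1) + (-1) * ζ^2 + (-1) * ζ^6) * ((1) + (-1) * ζ^3 + (-1) * ζ^9) * ((1) + (-1) * ζ^4 + (-1) * ζ^12) * ((1) + (-1) * ζ^5 + (-1) * ζ^15) * ((1) + (-1) * ζ^6 + (-1) * ζ^18) * ((1) + (-1) * ζ^7 + (-1) * ζ^21) * ((1) + (-1) * ζ^8 + (-1) * ζ^24) * ((1) + (-1) * ζ^9 + (-1) * ζ^27) * ((1) + (-1) * ζ^10 + (-1) * ζ^30) * ((1) + (-1) * ζ^11 + (-1) * ζ^33) * ((1) + (-1) * ζ^12 + (-1) * ζ^36) = (131 : R) := by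
  linear_combination ((-130) + (129) * ζ + (1) * ζ^4 + (2) * ζ^5 + (-2) * ζ^6 + (3) * ζ^7 + (-3) * ζ^8 + (1) * ζ^9 + (-1) * ζ^10 + (-4) * ζ^12 + (-126) * ζ^13 + (127) * ζ^14 + (-2) * ζ^15 + (1) * ζ^17 + (8) * ζ^18 + (-5) * ζ^19 + (8) * ζ^20 + (-2) * ζ^21 + (7) * ζ^22 + (-6) * ζ^23 + (5) * ζ^24 + (-17) * ζ^25 + (-114) * ζ^26 + (117) * ζ^27 + (-5) * ζ^28 + (-10) * ζ^29 + (3) * ζ^30 + (5) * ζ^31 + (-3) * ζ^32 + (10) * ζ^33 + (-4) * ζ^34 + (8) * ζ^35 + (9) * ζ^36 + (11) * ζ^37 + (-20) * ζ^38 + (-98) * ζ^39 + (100) * ζ^40 + (13) * ζ^41 + (-32) * ζ^42 + (20) * ζ^43 + (-9) * ζ^44 + (-5) * ζ^45 + (1) * ζ^46 + (1) * ζ^47 + (-13) * ζ^48 + (25) * ζ^49 + (-5) * ζ^50 + (-1) * ζ^51 + (-88) * ζ^52 + (88) * ζ^53 + (-6) * ζ^54 + (-12) * ζ^55 + (25) * ζ^56 + (2) * ζ^57 + (-13) * ζ^58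 + (8) * ζ^59 + (-6) * ζ^60 + (-7) * ζ^61 + (20) * ζ^62 + (-26) * ζ^63 + (30) * ζ^64 + (-72) * ζ^65 + (67) * ζ^66 + (-22) * ζ^67 + (-13) * ζ^68 + (16) * ζ^69 + (6) * ζ^70 + (-21) * ζ^71 + (25) * ζ^72 + (-17) * ζ^73 + (7) * ζ^74 + (37) * ζ^75 + (-61) * ζ^76 + (-6) * ζ^77 + (39) * ζ^78 + (-7) * ζ^79 + (31) * ζ^80 + (-61) * ζ^81 + (55) * ζ^82 + (-17) * ζ^83 + (-1) * ζ^84 + (-14) * ζ^85 + (2) * ζ^86 + (-32) * ζ^87 + (72) * ζ^88 + (-58) * ζ^89 + (20) * ζ^90 + (6) * ζ^91 + (-9) * ζ^92 + (13) * ζ^93 + (-30) * ζ^94 + (47) * ζ^95 + (-23) * ζ^96 + (7) * ζ^97 + (-4) * ζ^98 + (-22) * ζ^99 + (10) * ζ^100 + (23) * ζ^101 + (-27) * ζ^102 + (24) * ζ^103 + (-28) * ζ^106 + (11) * ζ^107 + (-9) * ζ^108 + (31) * ζ^109 + (-21) * ζ^110 + (1) * ζ^111 + (-27) * ζ^112 + (54) * ζ^113 + (-35)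 * ζ^114 + (32) * ζ^115 + (-51) * ζ^116 + (64) * ζ^117 + (-54) * ζ^118 + (31) * ζ^119 + (-21) * ζ^120 + (8) * ζ^121 + (-20) * ζ^122 + (51) * ζ^123 + (-57) * ζ^124 + (43) * ζ^125 + (-34) * ζ^126 + (25) * ζ^127 + (-17) * ζ^128 + (23) * ζ^129 + (-8) * ζ^130 + (-13) * ζ^131 + (-12) * ζ^132 + (38) * ζ^133 + (-42) * ζ^134 + (42) * ζ^135 + (-25) * ζ^136 + (2) * ζ^137 + (4) * ζ^138 + (7) * ζ^139 + (-5) * ζ^140 + (-10) * ζ^141 + (11) * ζ^142 + (10) * ζ^143 + (-19) * ζ^144 + (3) * ζ^145 + (7) * ζ^146 + (-13) * ζ^147 + (20) * ζ^148 + (-15) * ζ^149 + (12) * ζ^150 + (-22) * ζ^151 + (31) * ζ^152 + (-26) * ζ^153 + (23) * ζ^154 + (-12) * ζ^155 + (10) * ζ^156 + (-26) * ζ^157 + (31) * ζ^158 + (-33) * ζ^159 + (37) * ζ^160 + (-41) * ζ^161 + (41) * ζ^162 + (-35) * ζ^163 + (33) * ζ^164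 + (-28) * ζ^165 + (19) * ζ^166 + (-25) * ζ^167 + (41) * ζ^168 + (-38) * ζ^169 + (34) * ζ^170 + (-41) * ζ^171 + (34) * ζ^172 + (-30) * ζ^173 + (33) * ζ^174 + (-30) * ζ^175 + (24) * ζ^176 + (-25) * ζ^177 + (34) * ζ^178 + (-38) * ζ^179 + (34) * ζ^180 + (-30) * ζ^181 + (26) * ζ^182 + (-24) * ζ^183 + (22) * ζ^184 + (-22) * ζ^185 + (20) * ζ^186 + (-18) * ζ^187 + (21) * ζ^188 + (-22) * ζ^189 + (20) * ζ^190 + (-19) * ζ^191 + (17) * ζ^192 + (-15) * ζ^193 + (16) * ζ^194 + (-16) * ζ^195 + (11) * ζ^196 + (-10) * ζ^197 + (11) * ζ^198 + (-10) * ζ^199 + (12) * ζ^200 + (-12) * ζ^201 + (9) * ζ^202 + (-7) * ζ^203 + (6) * ζ^204 + (-5) * ζ^205 + (3) * ζ^206 + (-2) * ζ^207 + (4) * ζ^208 + (-5) * ζ^209 + (5) * ζ^210 + (-5) * ζ^211 + (4) * ζ^212 + (-2) * ζ^213 + (2) * ζ^214 + (-2) * ζ^215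 + (1) * ζ^216 + (-1) * ζ^217 + (2) * ζ^218 + (-2) * ζ^219 + (1) * ζ^220 + (-1) * ζ^221 + (1) * ζ^222) * h

theorem normId_13_157 {R : Type*} [CommRing R] (ζ : R) (h : 1 + ζ + ζ^2 + ζ^3 + ζ^4 + ζ^5 + ζ^6 + ζ^7 + ζ^8 + ζ^9 + ζ^10 + ζ^11 + ζ^12 = 0) :
    ((1) + (-1) * ζ^1 + (1) * ζ^2 + (1) * ζ^4) * ((1) + (-1) * ζ^2 + (1) * ζ^4 + (1) * ζ^8) * ((1) + (-1) * ζ^3 + (1) * ζ^6 + (1) * ζ^12) * ((1) + (-1) * ζ^4 + (1) * ζ^8 + (1) * ζ^16) * ((1) + (-1) * ζ^5 + (1) * ζ^10 + (1) * ζ^20) * ((1) + (-1) * ζ^6 + (1) * ζ^12 + (1) * ζ^24) * ((1) + (-1) * ζ^7 + (1) * ζ^14 + (1) * ζ^28) * ((1) + (-1) * ζ^8 + (1) * ζ^16 + (1) * ζ^32) * ((1) + (-1) * ζ^9 + (1) * ζ^18 + (1) * ζ^36) * ((1) + (-1) * ζ^10 + (1) * ζ^20 + (1) * ζ^40) * ((1) + (-1) * ζ^11 + (1) * ζ^22 + (1) * ζ^44) * ((1) +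 (-1) * ζ^12 + (1) * ζ^24 + (1) * ζ^48) = (157 : R) := by
  linear_combination ((-156) + (155) * ζ + (1) * ζ^2 + (1) * ζ^4 + (-2) * ζ^5 + (1) * ζ^6 + (-2) * ζ^7 + (4) * ζ^8 + (-3) * ζ^9 + (3) * ζ^10 + (-4) * ζ^11 + (6) * ζ^12 + (-163) * ζ^13 + (159) * ζ^14 + (-2) * ζ^15 + (5) * ζ^16 + (-6) * ζ^17 + (6) * ζ^18 + (-7) * ζ^19 + (10) * ζ^20 + (-12) * ζ^21 + (10) * ζ^22 + (-9) * ζ^23 + (15) * ζ^24 + (-15) * ζ^25 + (-148) * ζ^26 + (141) * ζ^27 + (24) * ζ^28 + (-25) * ζ^29 + (24) * ζ^30 + (-27) * ζ^31 + (33) * ζ^32 + (-25) * ζ^33 + (20) * ζ^34 + (-25) * ζ^35 + (37) * ζ^36 + (-39) * ζ^37 + (34) * ζ^38 + (-199) * ζ^39 + (204) * ζ^40 + (-54) * ζ^41 + (45) * ζ^42 + (-47) * ζ^43 + (62) * ζ^44 + (-63) * ζ^45 + (62) * ζ^46 + (-71) * ζ^47 + (104) * ζ^48 + (-93) * ζ^49 + (82) * ζ^50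 + (-99) * ζ^51 + (-40) * ζ^52 + (42) * ζ^53 + (95) * ζ^54 + (-118) * ζ^55 + (137) * ζ^56 + (-146) * ζ^57 + (132) * ζ^58 + (-150) * ζ^59 + (178) * ζ^60 + (-169) * ζ^61 + (165) * ζ^62 + (-158) * ζ^63 + (196) * ζ^64 + (-354) * ζ^65 + (345) * ζ^66 + (-219) * ζ^67 + (268) * ζ^68 + (-256) * ζ^69 + (237) * ζ^70 + (-293) * ζ^71 + (317) * ζ^72 + (-316) * ζ^73 + (281) * ζ^74 + (-323) * ζ^75 + (384) * ζ^76 + (-371) * ζ^77 + (200) * ζ^78 + (-243) * ζ^79 + (462) * ζ^80 + (-444) * ζ^81 + (432) * ζ^82 + (-435) * ζ^83 + (497) * ζ^84 + (-484) * ζ^85 + (450) * ζ^86 + (-534) * ζ^87 + (619) * ζ^88 + (-611) * ζ^89 + (578) * ζ^90 + (-819) * ζ^91 + (856) * ζ^92 + (-653) * ζ^93 + (627) * ζ^94 + (-713) * ζ^95 + (807) * ζ^96 + (-794) * ζ^97 + (798) * ζ^98 + (-850) * ζ^99 + (908) * ζ^100 +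 (-870) * ζ^101 + (837) * ζ^102 + (-864) * ζ^103 + (786) * ζ^104 + (-834) * ζ^105 + (974) * ζ^106 + (-1033) * ζ^107 + (1142) * ζ^108 + (-1115) * ζ^109 + (1067) * ζ^110 + (-1174) * ζ^111 + (1252) * ζ^112 + (-1189) * ζ^113 + (1167) * ζ^114 + (-1295) * ζ^115 + (1422) * ζ^116 + (-1542) * ζ^117 + (1475) * ζ^118 + (-1445) * ζ^119 + (1570) * ζ^120 + (-1492) * ζ^121 + (1433) * ζ^122 + (-1488) * ζ^123 + (1593) * ζ^124 + (-1587) * ζ^125 + (1546) * ζ^126 + (-1650) * ζ^127 + (1788) * ζ^128 + (-1708) * ζ^129 + (1530) * ζ^130 + (-1690) * ζ^131 + (1871) * ζ^132 + (-1780) * ζ^133 + (1787) * ζ^134 + (-1950) * ζ^135 + (2046) * ζ^136 + (-1976) * ζ^137 + (1975) * ζ^138 + (-2096) * ζ^139 + (2142) * ζ^140 + (-2096) * ζ^141 + (2082) * ζ^142 + (-2170) * ζ^143 + (2227) * ζ^144 + (-2125) *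 ζ^145 + (2092) * ζ^146 + (-2168) * ζ^147 + (2271) * ζ^148 + (-2248) * ζ^149 + (2182) * ζ^150 + (-2239) * ζ^151 + (2297) * ζ^152 + (-2201) * ζ^153 + (2166) * ζ^154 + (-2340) * ζ^155 + (2409) * ζ^156 + (-2344) * ζ^157 + (2421) * ζ^158 + (-2516) * ζ^159 + (2518) * ζ^160 + (-2406) * ζ^161 + (2328) * ζ^162 + (-2360) * ζ^163 + (2447) * ζ^164 + (-2462) * ζ^165 + (2416) * ζ^166 + (-2443) * ζ^167 + (2526) * ζ^168 + (-2473) * ζ^169 + (2385) * ζ^170 + (-2362) * ζ^171 + (2377) * ζ^172 + (-2318) * ζ^173 + (2294) * ζ^174 + (-2404) * ζ^175 + (2462) * ζ^176 + (-2366) * ζ^177 + (2326) * ζ^178 + (-2378) * ζ^179 + (2394) * ζ^180 + (-2311) * ζ^181 + (2254) * ζ^182 + (-2236) * ζ^183 + (2280) * ζ^184 + (-2266) * ζ^185 + (2210) * ζ^186 + (-2205) * ζ^187 + (2201) * ζ^188 + (-2128) * ζ^189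 + (2080) * ζ^190 + (-2078) * ζ^191 + (2084) * ζ^192 + (-1981) * ζ^193 + (1885) * ζ^194 + (-1907) * ζ^195 + (1953) * ζ^196 + (-1898) * ζ^197 + (1858) * ζ^198 + (-1853) * ζ^199 + (1821) * ζ^200 + (-1756) * ζ^201 + (1725) * ζ^202 + (-1665) * ζ^203 + (1626) * ζ^204 + (-1603) * ζ^205 + (1576) * ζ^206 + (-1567) * ζ^207 + (1578) * ζ^208 + (-1487) * ζ^209 + (1378) * ζ^210 + (-1349) * ζ^211 + (1361) * ζ^212 + (-1296) * ζ^213 + (1221) * ζ^214 + (-1199) * ζ^215 + (1210) * ζ^216 + (-1168) * ζ^217 + (1126) * ζ^218 + (-1107) * ζ^219 + (1069) * ζ^220 + (-986) * ζ^221 + (957) * ζ^222 + (-947) * ζ^223 + (933) * ζ^224 + (-881) * ζ^225 + (832) * ζ^226 + (-810) * ζ^227 + (806) * ζ^228 + (-766) * ζ^229 + (713) * ζ^230 + (-675) * ζ^231 + (660) * ζ^232 + (-616) * ζ^233 + (583) * ζ^234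 + (-562) * ζ^235 + (544) * ζ^236 + (-501) * ζ^237 + (486) * ζ^238 + (-488) * ζ^239 + (470) * ζ^240 + (-415) * ζ^241 + (380) * ζ^242 + (-365) * ζ^243 + (354) * ζ^244 + (-338) * ζ^245 + (327) * ζ^246 + (-301) * ζ^247 + (296) * ζ^248 + (-279) * ζ^249 + (252) * ζ^250 + (-234) * ζ^251 + (223) * ζ^252 + (-196) * ζ^253 + (181) * ζ^254 + (-178) * ζ^255 + (177) * ζ^256 + (-158) * ζ^257 + (142) * ζ^258 + (-133) * ζ^259 + (131) * ζ^260 + (-114) * ζ^261 + (100) * ζ^262 + (-90) * ζ^263 + (87) * ζ^264 + (-83) * ζ^265 + (80) * ζ^266 + (-73) * ζ^267 + (70) * ζ^268 + (-60) * ζ^269 + (52) * ζ^270 + (-49) * ζ^271 + (50) * ζ^272 + (-40) * ζ^273 + (31) * ζ^274 + (-30) * ζ^275 + (32) * ζ^276 + (-26) * ζ^277 + (22) * ζ^278 + (-21) * ζ^279 + (22) * ζ^280 + (-17) * ζ^281 + (14) * ζ^282 +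 (-12) * ζ^283 + (9) * ζ^284 + (-7) * ζ^285 + (9) * ζ^286 + (-9) * ζ^287 + (9) * ζ^288 + (-7) * ζ^289 + (5) * ζ^290 + (-4) * ζ^291 + (4) * ζ^292 + (-2) * ζ^293 + (1) * ζ^294 + (-2) * ζ^295 + (3) * ζ^296 + (-2) * ζ^297 + (1) * ζ^298 + (-1) * ζ^299 + (1) * ζ^300) * h

end Fermat.Agent.Kummer.H91
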