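import Fermat.Agent.Kummer.H91_PIDAux
import Fermat.Agent.Kummer.H91_NormId11

set_option autoImplicit false

open NumberField Polynomial InfinitePlace Nat Real cyclotomic Ideal Module IsCyclotomicExtension

namespace Fermat.Agent.Kummer.H91

variable (K : Type*) [Field K] [NumberField K]

theorem minkowski_eleven [IsCyclotomicExtension {11} ℚ K] :
    ⌊(4 / π) ^ nrComplexPlaces K *
      ((finrank ℚ K)! / (finrank ℚ K) ^ (finrank ℚ K) * √|discr K|)⌋₊ ≤ 58 := by
  have : Fact (Nat.Prime 11) := ⟨by norm_num⟩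
  rw [IsCyclotomicExtension.Rat.discr_prime 11 K, IsCyclotomicExtension.finrank (n := 11) K
    (irreducible_rat (by simp)), IsCyclotomicExtension.Rat.nrComplexPlaces_eq_totient_div_two 11,
    totient_prime (by norm_num : Nat.Prime 11)]
  rw [← Nat.lt_succ_iff, Nat.floor_lt (by positivity)]
  norm_num [Nat.factorial]
  have h1 : (4 / π) ≤ 4 / 3.1415 :=
    div_le_div_of_nonneg_left (by norm_num) (by norm_num) pi_gt_d4.le
  have h2 : √(2357947691:ℝ) ≤ 48558.71 := by
    rw [Real.sqrt_le_left (by norm_num)]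
    norm_num
  calc (4 / π) ^ 5 * (567 / 1562500 * √2357947691)
      ≤ (4 / 3.1415) ^ 5 * (567 / 1562500 * 48558.71) := by gcongr
    _ < 59 := by norm_num

theorem check_11 : primeCheck 11 58 6 [11, 23] = true := by decide +kernel

theorem orderOf_23_mod_11 : orderOf ((23 : ℕ) : ZMod 11) = 1 := by
  rw [orderOf_eq_iff (by norm_num)]
  decide

section

variable [IsCyclotomicExtension {11} ℚ K]

theorem sum_zeta11 : let ζ := (zeta_spec 11 ℚ K).toInteger
    1 + ζ + ζ^2 + ζ^3 + ζ^4 + ζ^5 + ζ^6 + ζ^7 + ζ^8 + ζ^9 + ζ^10 = 0 := by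
  have : Fact (Nat.Prime 11) := ⟨by norm_num⟩
  intro ζ
  have := sum_pow_toInteger_eq_zero (p := 11) K
  simpa [Finset.sum_range_succ] using this

theorem norm_11_23 :
    Algebra.norm ℤ (aeval (zeta_spec 11 ℚ K).toInteger (C (1) + C (-1) * X + C (1) * X ^ 3 : ℤ[X]))
      = 23 := by
  have : Fact (Nat.Prime 11) := ⟨by norm_num⟩
  refine norm_eq_of_prod_eq K _ _ ?_
  have hid := normId_11_23 _ (sum_zeta11 K)
  simp only [Finset.prod_Ico_eq_prod_range, Finset.prod_range_succ, Finset.prod_range_zero,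
    map_add, map_mul, aeval_C, aeval_X, map_pow]
  push_cast
  linear_combination hid

end

theorem eleven_pid [IsCyclotomicExtension {11} ℚ K] : IsPrincipalIdealRing (𝓞 K) := by
  have : Fact (Nat.Prime 11) := ⟨by norm_num⟩
  have : IsGalois ℚ K := IsCyclotomicExtension.isGalois {11} ℚ K
  apply RingOfIntegers.isPrincipalIdealRing_of_isPrincipal_of_lt_or_isPrincipal_of_mem_primesOver_of_mem_Icc
  intro ℓ hℓ hprime
  have hM := minkowski_eleven K
  have hℓB : ℓ ≤ 58 := (Finset.mem_Icc.mp hℓ).2.trans hM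
  have : Fact ℓ.Prime := ⟨hprime⟩
  by_cases h11 : ℓ = 11
  · subst h11
    obtain ⟨P, hP, hPp⟩ := exists_principal_prime_over_self (p := 11) K
    exact ⟨P, hP, Or.inr hPp⟩
  have hℓ11 : ¬ ℓ ∣ 11 := by
    intro h
    exact h11 ((Nat.prime_dvd_prime_iff_eq hprime (by norm_num)).mp h)
  by_cases h23 : ℓ = 23
  · subst h23
    obtain ⟨P, hP, hPp⟩ := exists_principal_prime_over (p := 11) K 23 hℓ11 _ (by
      rw [norm_11_23 K, orderOf_23_mod_11]; rfl)
    exact ⟨P, hP, Or.inr hPp⟩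
  obtain ⟨P, hP, hPlt⟩ := exists_prime_over_lt (p := 11) K (B := 58) hℓ11 hprime
    (primeCheck_spec' check_11 (by norm_num) hℓB hprime (by simp [h11, h23]))
  exact ⟨P, hP, Or.inl (lt_of_le_of_lt hM hPlt)⟩

end Fermat.Agent.Kummer.H91
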