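import Fermat.Agent.Kummer.H91_PIDAux
import Fermat.Agent.Kummer.H91_NormId13

set_option autoImplicit false

open NumberField Polynomial InfinitePlace Nat Real cyclotomic Ideal Module IsCyclotomicExtension

namespace Fermat.Agent.Kummer.H91

variable (K : Type*) [Field K] [NumberField K]

theorem minkowski_thirteen [IsCyclotomicExtension {13} ℚ K] :
    ⌊(4 / π) ^ nrComplexPlaces K *
      ((finrank ℚ K)! / (finrank ℚ K) ^ (finrank ℚ K) * √|discr K|)⌋₊ ≤ 306 := by
  have : Fact (Nat.Prime 13) := ⟨by norm_num⟩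
  rw [IsCyclotomicExtension.Rat.discr_prime 13 K, IsCyclotomicExtension.finrank (n := 13) K
    (irreducible_rat (by simp)), IsCyclotomicExtension.Rat.nrComplexPlaces_eq_totient_div_two 13,
    totient_prime (by norm_num : Nat.Prime 13)]
  rw [← Nat.lt_succ_iff, Nat.floor_lt (by positivity)]
  norm_num [Nat.factorial]
  have h1 : (4 / π) ≤ 4 / 3.1415 :=
    div_le_div_of_nonneg_left (by norm_num) (by norm_num) pi_gt_d4.le
  have h2 : √(1792160394037:ℝ) ≤ 1338715.95 := by
    rw [Real.sqrt_le_left (by norm_num)]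
    norm_num
  calc (4 / π) ^ 6 * (1925 / 35831808 * √1792160394037)
      ≤ (4 / 3.1415) ^ 6 * (1925 / 35831808 * 1338715.95) := by gcongr
    _ < 307 := by norm_num

theorem check_13 : primeCheck 13 306 9 [13, 3, 53, 79, 131, 157] = true := by decide +kernel

theorem orderOf_3_mod_13 : orderOf ((3 : ℕ) : ZMod 13) = 3 := by
  rw [orderOf_eq_iff (by norm_num)]
  decide

theorem orderOf_53_mod_13 : orderOf ((53 : ℕ) : ZMod 13) = 1 := by
  rw [orderOf_eq_iff (by norm_num)]
  decide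

theorem orderOf_79_mod_13 : orderOf ((79 : ℕ) : ZMod 13) = 1 := by
  rw [orderOf_eq_iff (by norm_num)]
  decide

theorem orderOf_131_mod_13 : orderOf ((131 : ℕ) : ZMod 13) = 1 := by
  rw [orderOf_eq_iff (by norm_num)]
  decide

theorem orderOf_157_mod_13 : orderOf ((157 : ℕ) : ZMod 13) = 1 := by
  rw [orderOf_eq_iff (by norm_num)]
  decide

section

variable [IsCyclotomicExtension {13} ℚ K]

theorem sum_zeta13 : let ζ := (zeta_spec 13 ℚ K).toInteger
    1 + ζ + ζ^2 + ζ^3 + ζ^4 + ζ^5 + ζ^6 + ζ^7 + ζ^8 + ζ^9 + ζ^10 + ζ^11 + ζ^12 = 0 := by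
  have : Fact (Nat.Prime 13) := ⟨by norm_num⟩
  intro ζ
  have := sum_pow_toInteger_eq_zero (p := 13) K
  simpa [Finset.sum_range_succ] using this

theorem norm_13_3 :
    Algebra.norm ℤ (aeval (zeta_spec 13 ℚ K).toInteger (C (1) + C (1) * X + C (-1) * X ^ 3 : ℤ[X])) = 27 := by
  have : Fact (Nat.Prime 13) := ⟨by norm_num⟩
  refine norm_eq_of_prod_eq K _ _ ?_
  have hid := normId_13_27 _ (sum_zeta13 K)
  simp only [Finset.prod_Ico_eq_prod_range, Finset.prod_range_succ, Finset.prod_range_zero,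
    map_add, map_mul, aeval_C, aeval_X, map_pow]
  push_cast
  linear_combination hid

theorem norm_13_53 :
    Algebra.norm ℤ (aeval (zeta_spec 13 ℚ K).toInteger (C (1) + C (-1) * X + C (1) * X ^ 3 : ℤ[X])) = 53 := by
  have : Fact (Nat.Prime 13) := ⟨by norm_num⟩
  refine norm_eq_of_prod_eq K _ _ ?_
  have hid := normId_13_53 _ (sum_zeta13 K)
  simp only [Finset.prod_Ico_eq_prod_range, Finset.prod_range_succ, Finset.prod_range_zero,
    map_add, map_mul, aeval_C, aeval_X, map_pow]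
  push_cast
  linear_combination hid

theorem norm_13_79 :
    Algebra.norm ℤ (aeval (zeta_spec 13 ℚ K).toInteger (C (1) + C (-1) * X + C (-1) * X ^ 4 : ℤ[X])) = 79 := by
  have : Fact (Nat.Prime 13) := ⟨by norm_num⟩
  refine norm_eq_of_prod_eq K _ _ ?_
  have hid := normId_13_79 _ (sum_zeta13 K)
  simp only [Finset.prod_Ico_eq_prod_range, Finset.prod_range_succ, Finset.prod_range_zero,
    map_add, map_mul, aeval_C, aeval_X, map_pow]
  push_cast
  linear_combination hid

theorem norm_13_131 :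
    Algebra.norm ℤ (aeval (zeta_spec 13 ℚ K).toInteger (C (1) + C (-1) * X + C (-1) * X ^ 3 : ℤ[X])) = 131 := by
  have : Fact (Nat.Prime 13) := ⟨by norm_num⟩
  refine norm_eq_of_prod_eq K _ _ ?_
  have hid := normId_13_131 _ (sum_zeta13 K)
  simp only [Finset.prod_Ico_eq_prod_range, Finset.prod_range_succ, Finset.prod_range_zero,
    map_add, map_mul, aeval_C, aeval_X, map_pow]
  push_cast
  linear_combination hid

theorem norm_13_157 :
    Algebra.norm ℤ (aeval (zeta_spec 13 ℚ K).toInteger (C (1) + C (-1) * X + C (1) * X ^ 2 + C (1) * X ^ 4 : ℤ[X])) = 157 := by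
  have : Fact (Nat.Prime 13) := ⟨by norm_num⟩
  refine norm_eq_of_prod_eq K _ _ ?_
  have hid := normId_13_157 _ (sum_zeta13 K)
  simp only [Finset.prod_Ico_eq_prod_range, Finset.prod_range_succ, Finset.prod_range_zero,
    map_add, map_mul, aeval_C, aeval_X, map_pow]
  push_cast
  linear_combination hid

end

theorem thirteen_pid [IsCyclotomicExtension {13} ℚ K] : IsPrincipalIdealRing (𝓞 K) := by
  have : Fact (Nat.Prime 13) := ⟨by norm_num⟩
  have : IsGalois ℚ K := IsCyclotomicExtension.isGalois {13} ℚ K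
  apply RingOfIntegers.isPrincipalIdealRing_of_isPrincipal_of_lt_or_isPrincipal_of_mem_primesOver_of_mem_Icc
  intro ℓ hℓ hprime
  have hM := minkowski_thirteen K
  have hℓB : ℓ ≤ 306 := (Finset.mem_Icc.mp hℓ).2.trans hM
  have : Fact ℓ.Prime := ⟨hprime⟩
  by_cases h13 : ℓ = 13
  · subst h13
    obtain ⟨P, hP, hPp⟩ := exists_principal_prime_over_self (p := 13) K
    exact ⟨P, hP, Or.inr hPp⟩
  have hℓ13 : ¬ ℓ ∣ 13 := by
    intro h
    exact h13 ((Nat.prime_dvd_prime_iff_eq hprime (by norm_num)).mp h)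
  by_cases h3 : ℓ = 3
  · subst h3
    obtain ⟨P, hP, hPp⟩ := exists_principal_prime_over (p := 13) K 3 hℓ13 _ (by
      rw [norm_13_3 K, orderOf_3_mod_13]; rfl)
    exact ⟨P, hP, Or.inr hPp⟩
  by_cases h53 : ℓ = 53
  · subst h53
    obtain ⟨P, hP, hPp⟩ := exists_principal_prime_over (p := 13) K 53 hℓ13 _ (by
      rw [norm_13_53 K, orderOf_53_mod_13]; rfl)
    exact ⟨P, hP, Or.inr hPp⟩
  by_cases h79 : ℓ = 79
  · subst h79
    obtain ⟨P, hP, hPp⟩ := exists_principal_prime_over (p := 13) K 79 hℓ13 _ (by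
      rw [norm_13_79 K, orderOf_79_mod_13]; rfl)
    exact ⟨P, hP, Or.inr hPp⟩
  by_cases h131 : ℓ = 131
  · subst h131
    obtain ⟨P, hP, hPp⟩ := exists_principal_prime_over (p := 13) K 131 hℓ13 _ (by
      rw [norm_13_131 K, orderOf_131_mod_13]; rfl)
    exact ⟨P, hP, Or.inr hPp⟩
  by_cases h157 : ℓ = 157
  · subst h157
    obtain ⟨P, hP, hPp⟩ := exists_principal_prime_over (p := 13) K 157 hℓ13 _ (by
      rw [norm_13_157 K, orderOf_157_mod_13]; rfl)
    exact ⟨P, hP, Or.inr hPp⟩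
  obtain ⟨P, hP, hPlt⟩ := exists_prime_over_lt (p := 13) K (B := 306) hℓ13 hprime
    (primeCheck_spec' check_13 (by norm_num) hℓB hprime (by simp [h13, h3, h53, h79, h131, h157]))
  exact ⟨P, hP, Or.inl (lt_of_le_of_lt hM hPlt)⟩

end Fermat.Agent.Kummer.H91
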