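import Fermat.Agent.Kummer.H91_PIDAux

set_option autoImplicit false

open NumberField Polynomial InfinitePlace Nat Real cyclotomic Ideal Module IsCyclotomicExtension

namespace Fermat.Agent.Kummer.H91

variable (K : Type*) [Field K] [NumberField K]

theorem minkowski_seven [IsCyclotomicExtension {7} ℚ K] :
    ⌊(4 / π) ^ nrComplexPlaces K *
      ((finrank ℚ K)! / (finrank ℚ K) ^ (finrank ℚ K) * √|discr K|)⌋₊ ≤ 4 := by
  have : Fact (Nat.Prime 7) := ⟨by norm_num⟩
  rw [IsCyclotomicExtension.Rat.discr_prime 7 K, IsCyclotomicExtension.finrank (n := 7) K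
    (irreducible_rat (by simp)), IsCyclotomicExtension.Rat.nrComplexPlaces_eq_totient_div_two 7,
    totient_prime (by norm_num : Nat.Prime 7)]
  rw [← Nat.lt_succ_iff, Nat.floor_lt (by positivity)]
  norm_num [Nat.factorial]
  have h1 : (4 / π) ≤ 4 / 3.14 :=
    div_le_div_of_nonneg_left (by norm_num) (by norm_num) pi_gt_d2.le
  have h2 : √(16807:ℝ) ≤ 129.65 := by
    rw [Real.sqrt_le_left (by norm_num)]
    norm_num
  calc (4 / π) ^ 3 * (5 / 324 * √16807) ≤ (4 / 3.14) ^ 3 * (5 / 324 * 129.65) := by gcongr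
    _ < 5 := by norm_num

theorem check_7 : primeCheck 7 4 3 [] = true := by decide +kernel

theorem seven_pid [IsCyclotomicExtension {7} ℚ K] : IsPrincipalIdealRing (𝓞 K) := by
  have : Fact (Nat.Prime 7) := ⟨by norm_num⟩
  have : IsGalois ℚ K := IsCyclotomicExtension.isGalois {7} ℚ K
  apply RingOfIntegers.isPrincipalIdealRing_of_isPrincipal_of_lt_or_isPrincipal_of_mem_primesOver_of_mem_Icc
  intro ℓ hℓ hprime
  have hM := minkowski_seven K
  have hℓB : ℓ ≤ 4 := (Finset.mem_Icc.mp hℓ).2.trans hM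
  have hℓ7 : ¬ ℓ ∣ 7 := by
    intro h
    have := (Nat.prime_dvd_prime_iff_eq hprime (by norm_num)).mp h
    omega
  obtain ⟨P, hP, hPlt⟩ := exists_prime_over_lt (p := 7) K (B := 4) hℓ7 hprime
    (primeCheck_spec' check_7 (by norm_num) hℓB hprime (by simp))
  exact ⟨P, hP, Or.inl (lt_of_le_of_lt hM hPlt)⟩

end Fermat.Agent.Kummer.H91
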