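import Mathlib

set_option autoImplicit false

open NumberField Polynomial Ideal Module

namespace Fermat.Agent.Kummer.H91

/-- product over units of `ZMod p` as a product over `Ico 1 p`. -/
theorem prod_units_zmod_eq_prod_Ico {p : ℕ} [hp : Fact p.Prime] {M : Type*} [CommMonoid M]
    (F : ℕ → M) :
    ∏ t : (ZMod p)ˣ, F ((t : ZMod p).val) = ∏ k ∈ Finset.Ico 1 p, F k := by
  have : NeZero p := ⟨hp.out.ne_zero⟩
  refine Finset.prod_bij (fun t _ => ((t : (ZMod p)ˣ) : ZMod p).val) ?_ ?_ ?_ ?_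
  · intro t _
    rw [Finset.mem_Ico]
    refine ⟨?_, ZMod.val_lt _⟩
    rw [Nat.one_le_iff_ne_zero, Ne, ZMod.val_eq_zero]
    exact t.ne_zero
  · intro a _ b _ h
    exact Units.ext (ZMod.val_injective p h)
  · intro k hk
    rw [Finset.mem_Ico] at hk
    have hk0 : (k : ZMod p) ≠ 0 := by
      rw [Ne, ZMod.natCast_eq_zero_iff]
      intro h
      have := Nat.le_of_dvd (by omega) h
      omega
    refine ⟨Units.mk0 (k : ZMod p) hk0, Finset.mem_univ _, ?_⟩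
    simp [ZMod.val_natCast, Nat.mod_eq_of_lt hk.2]
  · intro t _
    rfl


open IsCyclotomicExtension

/-- boolean check that every power `ℓ ^ j ≤ B` with `0 < j < n` is not `1` mod `p`. -/
def powCheck (p B n ℓ : ℕ) : Bool :=
  (List.range n).all fun j => j == 0 || !(decide (ℓ ^ j ≤ B)) || !(decide (ℓ ^ j % p = 1))

/-- boolean check of `powCheck` for all primes up to `B` outside the list `exc`. -/
def primeCheck (p B n : ℕ) (exc : List ℕ) : Bool :=
  (List.range (B + 1)).all fun ℓ => !(decide ℓ.Prime) || exc.contains ℓ || powCheck p B n ℓ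

theorem primeCheck_spec {p B n : ℕ} {exc : List ℕ} (h : primeCheck p B n exc = true)
    {ℓ : ℕ} (hℓB : ℓ ≤ B) (hℓ : ℓ.Prime) (hexc : ℓ ∉ exc) {j : ℕ} (hjn : j < n) (hj : 1 ≤ j)
    (hle : ℓ ^ j ≤ B) : ℓ ^ j % p ≠ 1 := by
  rw [primeCheck, List.all_eq_true] at h
  have h1 := h ℓ (List.mem_range.mpr (by omega))
  simp only [Bool.or_eq_true, Bool.not_eq_true', decide_eq_false_iff_not, List.contains_iff_mem,
    hℓ, not_true_eq_false, hexc, false_or] at h1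
  rw [powCheck, List.all_eq_true] at h1
  have h2 := h1 j (List.mem_range.mpr hjn)
  simp only [Bool.or_eq_true, beq_iff_eq, Bool.not_eq_true', decide_eq_false_iff_not, hle,
    not_true_eq_false, or_false] at h2
  rcases h2 with h2 | h2
  · omega
  · exact h2

/-- version of `primeCheck_spec` without the bound on `j`. -/
theorem primeCheck_spec' {p B n : ℕ} {exc : List ℕ} (h : primeCheck p B n exc = true)
    (hB : B < 2 ^ n) {ℓ : ℕ} (hℓB : ℓ ≤ B) (hℓ : ℓ.Prime) (hexc : ℓ ∉ exc) (j : ℕ) (hj : 1 ≤ j)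
    (hle : ℓ ^ j ≤ B) : ℓ ^ j % p ≠ 1 := by
  refine primeCheck_spec h hℓB hℓ hexc ?_ hj hle
  by_contra hcon
  rw [not_lt] at hcon
  have h2 : 2 ^ n ≤ ℓ ^ j :=
    (Nat.pow_le_pow_left hℓ.two_le n).trans (Nat.pow_le_pow_right hℓ.pos hcon)
  omega

section norm

variable {p : ℕ} [hp : Fact p.Prime] (K : Type*) [Field K] [NumberField K]
  [hK : IsCyclotomicExtension {p} ℚ K]

/-- the norm of `f(ζ)` as a product over the conjugates, in `K`. -/
theorem norm_aeval_zeta_field (f : ℤ[X]) :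
    algebraMap ℚ K (Algebra.norm ℚ (aeval (zeta p ℚ K) f)) =
      ∏ k ∈ Finset.Ico 1 p, aeval ((zeta p ℚ K) ^ k) f := by
  have : NeZero p := ⟨hp.out.ne_zero⟩
  have : IsGalois ℚ K := IsCyclotomicExtension.isGalois {p} ℚ K
  have hirr : Irreducible (cyclotomic p ℚ) := cyclotomic.irreducible_rat hp.out.pos
  rw [Algebra.norm_eq_prod_automorphisms]
  rw [← prod_units_zmod_eq_prod_Ico (p := p) (fun k => aeval ((zeta p ℚ K) ^ k) f)]
  refine Fintype.prod_equiv (autEquivPow K hirr).toEquiv _ _ ?_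
  intro σ
  have h1 : σ (aeval (zeta p ℚ K) f) = aeval (σ (zeta p ℚ K)) f := by
    simp only [aeval_def]
    have h2 := Polynomial.hom_eval₂ f (algebraMap ℤ K) (σ : K →+* K) (zeta p ℚ K)
    rw [show ((σ : K →+* K).comp (algebraMap ℤ K)) = algebraMap ℤ K from
      Subsingleton.elim _ _] at h2
    exact h2
  rw [h1]
  have h3 : σ (zeta p ℚ K) = zeta p ℚ K ^ ((autEquivPow K hirr σ : (ZMod p)ˣ) : ZMod p).val := by
    simp only [autEquivPow_apply]
    exact ((zeta_spec p ℚ K).autToPow_spec ℚ σ).symm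
  rw [h3]
  rfl

/-- the norm of `f(ζ)` as a product over the conjugates, in `𝓞 K`. -/
theorem norm_aeval_zeta_int (f : ℤ[X]) :
    ((Algebra.norm ℤ (aeval (zeta_spec p ℚ K).toInteger f) : ℤ) : 𝓞 K) =
      ∏ k ∈ Finset.Ico 1 p, aeval ((zeta_spec p ℚ K).toInteger ^ k) f := by
  apply FaithfulSMul.algebraMap_injective (𝓞 K) K
  rw [map_prod, map_intCast]
  have h0 : ∀ x : 𝓞 K, algebraMap (𝓞 K) K (aeval x f) = aeval (algebraMap (𝓞 K) K x) f :=
    fun x => (aeval_algebraMap_apply K x f).symm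
  have h1 : ((Algebra.norm ℤ (aeval (zeta_spec p ℚ K).toInteger f) : ℤ) : K) =
      algebraMap ℚ K (Algebra.norm ℚ (aeval (zeta p ℚ K) f)) := by
    have h2 := Algebra.coe_norm_int (K := K) (aeval (zeta_spec p ℚ K).toInteger f)
    have h3 : ((aeval (zeta_spec p ℚ K).toInteger f : 𝓞 K) : K) = aeval (zeta p ℚ K) f := by
      exact h0 (zeta_spec p ℚ K).toInteger
    rw [h3] at h2
    rw [← h2]
    simp
  rw [h1, norm_aeval_zeta_field]
  refine Finset.prod_congr rfl fun k _ => ?_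
  rw [h0, map_pow]
  rfl

theorem eq_of_le_of_absNorm_eq {S : Type*} [CommRing S] [IsDedekindDomain S] [Module.Free ℤ S]
    [Module.Finite ℤ S] {I J : Ideal S} (h : I ≤ J) (hn : absNorm I = absNorm J)
    (h0 : absNorm I ≠ 0) : I = J := by
  obtain ⟨Q, rfl⟩ := Ideal.dvd_iff_le.mpr h
  rw [map_mul] at hn h0
  have hJ : absNorm J ≠ 0 := left_ne_zero_of_mul h0
  have hQ : absNorm Q = 1 := by
    have : absNorm J * absNorm Q = absNorm J * 1 := by rw [hn, mul_one]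
    exact Nat.eq_of_mul_eq_mul_left (Nat.pos_of_ne_zero hJ) this
  rw [absNorm_eq_one_iff.mp hQ, Ideal.mul_top]

/-- if `α` has norm `± ℓ ^ f` where `f` is the residue degree of `ℓ` in the `p`-th cyclotomic
field, then `(α)` is a prime above `ℓ`. -/
theorem exists_principal_prime_over (ℓ : ℕ) [hℓ : Fact ℓ.Prime] (hℓp : ¬ ℓ ∣ p) (α : 𝓞 K)
    (hα : (Algebra.norm ℤ α).natAbs = ℓ ^ orderOf (ℓ : ZMod p)) :
    ∃ P ∈ primesOver (span {(ℓ : ℤ)}) (𝓞 K), Submodule.IsPrincipal P := by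
  have : NeZero p := ⟨hp.out.ne_zero⟩
  have hf : 0 < orderOf (ℓ : ZMod p) := by
    have hunit : IsUnit (ℓ : ZMod p) := by
      rw [ZMod.isUnit_iff_coprime]
      exact (Nat.coprime_primes hℓ.out hp.out).mpr (fun h => hℓp (h ▸ dvd_rfl))
    obtain ⟨u, hu⟩ := hunit
    rw [← hu, orderOf_units]
    exact orderOf_pos u
  have hnorm : absNorm (span {α}) = ℓ ^ orderOf (ℓ : ZMod p) := by
    rw [absNorm_span_singleton, hα]
  have hne : span {α} ≠ ⊤ := by
    intro h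
    rw [h, absNorm_top] at hnorm
    have := Nat.one_lt_pow hf.ne' hℓ.out.one_lt
    omega
  obtain ⟨P, hPmax, hle⟩ := Ideal.exists_le_maximal _ hne
  have hPprime : P.IsPrime := hPmax.isPrime
  have hmem : (ℓ : 𝓞 K) ∈ P := by
    have h1 : ((ℓ ^ orderOf (ℓ : ZMod p) : ℕ) : 𝓞 K) ∈ P := by
      rw [← hnorm]
      exact hle (absNorm_mem _)
    rw [Nat.cast_pow] at h1
    exact hPprime.mem_of_pow_mem _ h1
  have hmaxℓ : (span {(ℓ : ℤ)}).IsMaximal :=
    (Ideal.span_singleton_prime (by exact_mod_cast hℓ.out.ne_zero)).mpr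
      (Nat.prime_iff_prime_int.mp hℓ.out) |>.isMaximal (by
        rw [Ne, span_singleton_eq_bot]; exact_mod_cast hℓ.out.ne_zero)
  have hlies : P.LiesOver (span {(ℓ : ℤ)}) := by
    constructor
    refine hmaxℓ.eq_of_le (Ideal.IsPrime.ne_top (hPprime.comap _)) ?_
    rw [span_singleton_le_iff_mem, Ideal.mem_comap]
    simpa using hmem
  have hdeg := IsCyclotomicExtension.Rat.inertiaDeg_eq_of_not_dvd ℓ K P hℓp
  have hP : absNorm P = ℓ ^ orderOf (ℓ : ZMod p) := by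
    rw [← hdeg, ← inertiaDeg'_eq_inertiaDeg (span {(ℓ : ℤ)}) P]
    exact absNorm_eq_pow_inertiaDeg' P hℓ.out
  have hEq : span {α} = P :=
    eq_of_le_of_absNorm_eq hle (hnorm.trans hP.symm)
      (by rw [hnorm]; exact pow_ne_zero _ hℓ.out.ne_zero)
  exact ⟨P, ⟨hPprime, hlies⟩, hEq ▸ ⟨⟨α, rfl⟩⟩⟩

/-- the prime above `p` in the `p`-th cyclotomic field is principal. -/
theorem exists_principal_prime_over_self :
    ∃ P ∈ primesOver (span {(p : ℤ)}) (𝓞 K), Submodule.IsPrincipal P := by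
  obtain ⟨⟨P, hP1, hP2⟩⟩ := (span {(p : ℤ)}).nonempty_primesOver (S := 𝓞 K)
  refine ⟨P, ⟨hP1, hP2⟩, ?_⟩
  rw [IsCyclotomicExtension.Rat.eq_span_zeta_sub_one_of_liesOver' p K (zeta_spec p ℚ K) P]
  exact ⟨⟨_, rfl⟩⟩

omit [NumberField K] hK in
/-- a computable criterion for `B < ℓ ^ f`, `f` the order of `ℓ` mod `p`. -/
theorem lt_pow_orderOf {B ℓ : ℕ} (hℓp : ¬ ℓ ∣ p) (hℓ : ℓ.Prime)
    (h : ∀ j, 1 ≤ j → ℓ ^ j ≤ B → ℓ ^ j % p ≠ 1) : B < ℓ ^ orderOf (ℓ : ZMod p) := by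
  have : NeZero p := ⟨hp.out.ne_zero⟩
  have hf : 0 < orderOf (ℓ : ZMod p) := by
    have hunit : IsUnit (ℓ : ZMod p) := by
      rw [ZMod.isUnit_iff_coprime]
      exact (Nat.coprime_primes hℓ hp.out).mpr (fun h => hℓp (h ▸ dvd_rfl))
    obtain ⟨u, hu⟩ := hunit
    rw [← hu, orderOf_units]
    exact orderOf_pos u
  by_contra hcon
  rw [not_lt] at hcon
  apply h _ hf hcon
  have h1 : ((ℓ ^ orderOf (ℓ : ZMod p) : ℕ) : ZMod p) = 1 := by
    rw [Nat.cast_pow, pow_orderOf_eq_one]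
  have h2 := (ZMod.natCast_eq_natCast_iff' (ℓ ^ orderOf (ℓ : ZMod p)) 1 p).mp
    (by rw [h1, Nat.cast_one])
  rw [h2, Nat.mod_eq_of_lt hp.out.one_lt]

/-- generic step: for a prime `ℓ ≠ p` with `B < ℓ ^ f`, any prime over `ℓ` has large norm. -/
theorem exists_prime_over_lt {B ℓ : ℕ} (hℓp : ¬ ℓ ∣ p) (hℓ : ℓ.Prime)
    (h : ∀ j, 1 ≤ j → ℓ ^ j ≤ B → ℓ ^ j % p ≠ 1) :
    ∃ P ∈ primesOver (span {(ℓ : ℤ)}) (𝓞 K), B < ℓ ^ P.inertiaDeg ℤ := by
  have : Fact ℓ.Prime := ⟨hℓ⟩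
  obtain ⟨⟨P, hP1, hP2⟩⟩ := (span {(ℓ : ℤ)}).nonempty_primesOver (S := 𝓞 K)
  refine ⟨P, ⟨hP1, hP2⟩, ?_⟩
  rw [IsCyclotomicExtension.Rat.inertiaDeg_eq_of_not_dvd ℓ K P hℓp]
  exact lt_pow_orderOf hℓp hℓ h

/-- the sum of the powers of a primitive `p`-th root of unity vanishes (integer version). -/
theorem sum_pow_toInteger_eq_zero :
    ∑ i ∈ Finset.range p, (zeta_spec p ℚ K).toInteger ^ i = 0 := by
  have : NeZero p := ⟨hp.out.ne_zero⟩
  have h := (zeta_spec p ℚ K).toInteger_isPrimitiveRoot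
  exact h.geom_sum_eq_zero hp.out.one_lt

theorem norm_eq_of_prod_eq (f : ℤ[X]) (N : ℤ)
    (h : ∏ k ∈ Finset.Ico 1 p, aeval ((zeta_spec p ℚ K).toInteger ^ k) f = (N : 𝓞 K)) :
    Algebra.norm ℤ (aeval (zeta_spec p ℚ K).toInteger f) = N := by
  have h1 := (norm_aeval_zeta_int K f).trans h
  exact_mod_cast h1

end norm

end Fermat.Agent.Kummer.H91
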