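import Mathlib

set_option autoImplicit false

namespace Fermat.Agent.Kummer.H92

open Polynomial Finset

/-- `Φ_p ∣ ∏_{1 ≤ k < p} (1 - X^k) - p` in `ℤ[X]`. -/
theorem cyclotomic_dvd_prod_sub (p : ℕ) [hp : Fact p.Prime] :
    cyclotomic p ℤ ∣ (∏ k ∈ range (p - 1), (1 - (X : ℤ[X]) ^ (k + 1))) - C (p : ℤ) := by
  have hpos : 0 < p := hp.out.pos
  have hζ : IsPrimitiveRoot (Complex.exp (2 * Real.pi * Complex.I / p)) p :=
    Complex.isPrimitiveRoot_exp p hpos.ne'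
  rw [cyclotomic_eq_minpoly hζ hpos]
  apply minpoly.isIntegrallyClosed_dvd (hζ.isIntegral hpos)
  have hp1 : p - 1 + 1 = p := Nat.sub_add_cancel hp.out.one_le
  have hζ' : IsPrimitiveRoot (Complex.exp (2 * Real.pi * Complex.I / p)) (p - 1 + 1) := by
    rwa [hp1]
  have := hζ'.prod_one_sub_pow_eq_order
  simp only [map_sub, map_prod, map_one, map_pow, aeval_X, aeval_C, this]
  have : ((p - 1 : ℕ) : ℂ) + 1 = (p : ℂ) := by exact_mod_cast hp1
  simp [this]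

/-- If `τ` in a `ℤ`-algebra satisfies `Φ_p(τ) = 0`, then `(∏_{1 ≤ k < p} (1 - X^k))(τ) = p`. -/
theorem aeval_prod_one_sub_pow_eq {A : Type*} [Ring A] (p : ℕ) [hp : Fact p.Prime] (τ : A)
    (hτ : aeval τ (cyclotomic p ℤ) = 0) :
    aeval τ (∏ k ∈ range (p - 1), (1 - (X : ℤ[X]) ^ (k + 1))) = (p : A) := by
  obtain ⟨g, hg⟩ := cyclotomic_dvd_prod_sub p
  have h2 := congrArg (aeval τ) hg
  rw [map_mul, hτ, zero_mul, map_sub, sub_eq_zero, aeval_C] at h2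
  simpa using h2

theorem aeval_cyclotomic_prime {A : Type*} [Ring A] (p : ℕ) [hp : Fact p.Prime] (τ : A) :
    aeval τ (cyclotomic p ℤ) = ∑ i ∈ range p, τ ^ i := by
  rw [cyclotomic_prime]
  simp

theorem pow_prime_eq_one_of_aeval_cyclotomic {A : Type*} [Ring A] (p : ℕ) [hp : Fact p.Prime]
    (τ : A) (hτ : aeval τ (cyclotomic p ℤ) = 0) : τ ^ p = 1 := by
  rw [aeval_cyclotomic_prime] at hτ
  have := mul_geom_sum τ p
  rw [hτ, mul_zero] at this
  exact (sub_eq_zero.mp this.symm)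

/-- For `1 ≤ k < p`, `1 - τ` is a multiple of `1 - τ^k` by a polynomial in `τ`. -/
theorem one_sub_eq_mul {A : Type*} [Ring A] (p : ℕ) [hp : Fact p.Prime]
    (τ : A) (hτ : τ ^ p = 1) {k : ℕ} (hk0 : k ≠ 0) (hkp : k < p) :
    ∃ k' : ℕ, 1 - τ = (1 - τ ^ k) * ∑ j ∈ range k', (τ ^ k) ^ j := by
  have hcop : Nat.Coprime k p := (Nat.coprime_of_lt_prime hk0 hkp hp.out).symm
  obtain ⟨m, -, hm⟩ := Nat.exists_mul_mod_eq_one_of_coprime hcop hp.out.one_lt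
  refine ⟨m, ?_⟩
  rw [mul_neg_geom_sum, ← pow_mul]
  congr 1
  conv_rhs => rw [← Nat.div_add_mod (k * m) p, pow_add, pow_mul, hτ, one_pow, one_mul, hm, pow_one]

end Fermat.Agent.Kummer.H92
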