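import Mathlib
import Fermat.Agent.Kummer.H92_Poly

set_option autoImplicit false

namespace Fermat.Agent.Kummer.H92

open Polynomial Finset Module

section Free

variable {F : Type*} [AddCommGroup F] [Module.Free ℤ F] [Module.Finite ℤ F]

set_option linter.unusedSectionVars false

/-- For an injective endomorphism of a finite free `ℤ`-module, the cokernel has `|det|` elements. -/
theorem natAbs_det_eq_card_quotient (φ : F →ₗ[ℤ] F) (hφ : Function.Injective φ) :
    (LinearMap.det φ).natAbs = Nat.card (F ⧸ LinearMap.range φ) := by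
  have := Submodule.natAbs_det_equiv (LinearMap.range φ) (LinearEquiv.ofInjective φ hφ)
  rw [← this]
  congr 2

theorem det_aeval_prod (p : ℕ) [hp : Fact p.Prime] (τ : F →ₗ[ℤ] F)
    (hτ : aeval τ (cyclotomic p ℤ) = 0) :
    ∏ k ∈ range (p - 1), LinearMap.det (1 - τ ^ (k + 1)) = (p : ℤ) ^ finrank ℤ F := by
  have h := aeval_prod_one_sub_pow_eq p τ hτ
  let f : ℤ[X] →* ℤ := (LinearMap.det (M := F) (A := ℤ)).comp
    ((aeval τ : ℤ[X] →ₐ[ℤ] (F →ₗ[ℤ] F)) : ℤ[X] →* (F →ₗ[ℤ] F))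
  have hf : ∀ q : ℤ[X], f q = LinearMap.det (aeval τ q) := fun q => rfl
  have h2 : f (∏ k ∈ range (p - 1), (1 - (X : ℤ[X]) ^ (k + 1))) = LinearMap.det ((p : ℕ) : F →ₗ[ℤ] F) := by
    rw [hf, h]
  rw [map_prod] at h2
  have h3 : ∀ k, f (1 - (X : ℤ[X]) ^ (k + 1)) = LinearMap.det (1 - τ ^ (k + 1)) := by
    intro k
    rw [hf]
    simp
  simp only [h3] at h2
  rw [h2]
  have : ((p : ℕ) : F →ₗ[ℤ] F) = (p : ℤ) • (1 : F →ₗ[ℤ] F) := by
    ext x; simp
  rw [this, LinearMap.det_smul, map_one, mul_one]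

theorem pow_finrank_le_natAbs_det_pow (p : ℕ) [hp : Fact p.Prime] (τ : F →ₗ[ℤ] F)
    (hτ : aeval τ (cyclotomic p ℤ) = 0) :
    LinearMap.det (1 - τ) ≠ 0 ∧
      p ^ finrank ℤ F ≤ (LinearMap.det (1 - τ)).natAbs ^ (p - 1) := by
  have hprod := det_aeval_prod p τ hτ
  have hτp : τ ^ p = 1 := pow_prime_eq_one_of_aeval_cyclotomic p τ hτ
  have h2 : 2 ≤ p := hp.out.two_le
  have hd0 : LinearMap.det (1 - τ) ≠ 0 := by
    intro h0
    have hmem : 0 ∈ range (p - 1) := by simp; omega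
    have : ∏ k ∈ range (p - 1), LinearMap.det (1 - τ ^ (k + 1)) = 0 := by
      apply Finset.prod_eq_zero hmem
      simpa using h0
    rw [this] at hprod
    exact (pow_ne_zero _ (by exact_mod_cast hp.out.ne_zero)) hprod.symm
  refine ⟨hd0, ?_⟩
  have hle : ∀ k ∈ range (p - 1),
      (LinearMap.det (1 - τ ^ (k + 1))).natAbs ≤ (LinearMap.det (1 - τ)).natAbs := by
    intro k hk
    have hk' : k + 1 < p := by
      have := mem_range.mp hk; omega
    obtain ⟨k', hk'⟩ := one_sub_eq_mul p τ hτp (Nat.succ_ne_zero k) hk'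
    have hdvd : LinearMap.det (1 - τ ^ (k + 1)) ∣ LinearMap.det (1 - τ) := by
      rw [hk', map_mul]
      exact dvd_mul_right _ _
    exact Nat.le_of_dvd (Int.natAbs_pos.mpr hd0) (Int.natAbs_dvd_natAbs.mpr hdvd)
  have h3 := congrArg Int.natAbs hprod
  rw [Int.natAbs_pow, Int.natAbs_natCast] at h3
  rw [← h3]
  have h4 : (∏ k ∈ range (p - 1), LinearMap.det (1 - τ ^ (k + 1))).natAbs
      = ∏ k ∈ range (p - 1), (LinearMap.det (1 - τ ^ (k + 1))).natAbs := by
    exact map_prod Int.natAbsHom _ _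
  rw [h4]
  have h5 := Finset.prod_le_prod (s := range (p - 1))
    (f := fun k => (LinearMap.det (1 - τ ^ (k + 1))).natAbs)
    (g := fun _ => (LinearMap.det (1 - τ)).natAbs) (fun _ _ => Nat.zero_le _) hle
  simpa using h5

end Free

end Fermat.Agent.Kummer.H92
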