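import Mathlib

set_option autoImplicit false

namespace Fermat.Agent.Kummer.H92

/-- For an endomorphism of a finite additive group, the index of the range is the size of the
kernel. -/
theorem index_range_eq_card_ker {T : Type*} [AddCommGroup T] [Finite T] (ψ : T →+ T) :
    ψ.range.index = Nat.card ψ.ker := by
  have h1 := AddSubgroup.card_mul_index ψ.ker
  have h2 := AddSubgroup.card_mul_index ψ.range
  have h3 := AddSubgroup.index_ker ψ
  rw [h3] at h1
  have hpos : 0 < Nat.card ψ.range := Nat.card_pos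
  have : Nat.card ψ.range * ψ.range.index = Nat.card ψ.range * Nat.card ψ.ker := by
    rw [h2, mul_comm, h1]
  exact Nat.eq_of_mul_eq_mul_left hpos this

/-- Multiplicativity of `|coker| / |ker|` for an endomorphism `φ` preserving a finite
subgroup `T` such that `φ` is injective modulo `T`. -/
theorem index_range_eq_mul {X : Type*} [AddCommGroup X] (φ : X →+ X) (T : AddSubgroup X)
    [Finite T] (hT : ∀ x ∈ T, φ x ∈ T) (h : ∀ x, φ x ∈ T → x ∈ T) :
    φ.range.index = (φ.range ⊔ T).index * Nat.card φ.ker := by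
  have h1 : φ.range.relIndex (φ.range ⊔ T) * (φ.range ⊔ T).index = φ.range.index :=
    AddSubgroup.relIndex_mul_index le_sup_left
  have h2 : φ.range.relIndex (φ.range ⊔ T) = φ.range.relIndex T :=
    AddSubgroup.relIndex_sup_left _ _
  let ψ : T →+ T := (φ.comp T.subtype).codRestrict T (fun x => hT x x.2)
  have hψ : ∀ x : T, (ψ x : X) = φ x := fun x => rfl
  have h3 : φ.range.addSubgroupOf T = ψ.range := by
    ext ⟨x, hx⟩
    simp only [AddSubgroup.mem_addSubgroupOf, AddMonoidHom.mem_range]
    constructor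
    · rintro ⟨y, hy⟩
      refine ⟨⟨y, h y (by rw [hy]; exact hx)⟩, ?_⟩
      exact Subtype.ext hy
    · rintro ⟨y, hy⟩
      exact ⟨y, by rw [← hψ, hy]⟩
  have h4 : φ.range.relIndex T = Nat.card ψ.ker := by
    rw [AddSubgroup.relIndex, h3, index_range_eq_card_ker]
  have h5 : Nat.card ψ.ker = Nat.card φ.ker := by
    apply Nat.card_congr
    refine ⟨fun x => ⟨x.1.1, ?_⟩, fun x => ⟨⟨x.1, h x.1 (by rw [x.2]; exact T.zero_mem)⟩, ?_⟩,
      fun x => rfl, fun x => rfl⟩
    · have := x.2
      rw [AddMonoidHom.mem_ker] at this ⊢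
      rw [← hψ, this]; rfl
    · rw [AddMonoidHom.mem_ker]
      apply Subtype.ext
      rw [hψ]
      exact x.2
  rw [← h1, h2, h4, h5, mul_comm]

end Fermat.Agent.Kummer.H92
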