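import Mathlib
import Fermat.Agent.Kummer.H92_Det
import Fermat.Agent.Kummer.H92_Index

set_option autoImplicit false

namespace Fermat.Agent.Kummer.H92

open Module Submodule

section

variable {X : Type*} [AddCommGroup X] [Module.Finite ℤ X]

instance finite_torsion : Finite (torsion ℤ X) := by
  have : Module.Finite ℤ (torsion ℤ X) := Module.Finite.of_fg (IsNoetherian.noetherian _)
  exact Module.finite_of_fg_torsion _ (Submodule.torsion_isTorsion)

omit [Module.Finite ℤ X] in
theorem map_mem_torsion (φ : X →ₗ[ℤ] X) : torsion ℤ X ≤ (torsion ℤ X).comap φ := by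
  intro x hx
  rw [mem_comap]
  obtain ⟨a, ha⟩ := (mem_torsion_iff x).mp hx
  refine (mem_torsion_iff _).mpr ⟨a, ?_⟩
  rw [Submonoid.smul_def] at ha ⊢
  rw [← map_smul, ha, map_zero]

/-- The endomorphism induced on the torsion-free quotient. -/
noncomputable def quotMap (φ : X →ₗ[ℤ] X) : (X ⧸ torsion ℤ X) →ₗ[ℤ] (X ⧸ torsion ℤ X) :=
  (torsion ℤ X).mapQ (torsion ℤ X) φ (map_mem_torsion φ)

omit [Module.Finite ℤ X] in
theorem quotMap_mk (φ : X →ₗ[ℤ] X) (x : X) :
    quotMap φ (Submodule.Quotient.mk x) = Submodule.Quotient.mk (φ x) := rfl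

/-- `|coker φ| = |det (φ mod torsion)| * |ker φ|` when `φ` is injective modulo torsion. -/
theorem card_quotient_range_eq (φ : X →ₗ[ℤ] X) (hinj : Function.Injective (quotMap φ)) :
    Nat.card (X ⧸ LinearMap.range φ) =
      (LinearMap.det (quotMap φ)).natAbs * Nat.card (LinearMap.ker φ) := by
  have : Finite (torsion ℤ X).toAddSubgroup := (inferInstance : Finite (torsion ℤ X))
  have h1 := index_range_eq_mul φ.toAddMonoidHom (torsion ℤ X).toAddSubgroup
    (fun x hx => map_mem_torsion φ hx)
    (fun x hx => by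
      have h0 : quotMap φ (Submodule.Quotient.mk x) = 0 := by
        rw [quotMap_mk]
        exact (Submodule.Quotient.mk_eq_zero _).mpr hx
      have := hinj (h0.trans (map_zero _).symm)
      exact (Submodule.Quotient.mk_eq_zero _).mp this)
  have h2 : Nat.card (X ⧸ LinearMap.range φ) = φ.toAddMonoidHom.range.index := by
    rw [AddSubgroup.index_eq_card]
    rfl
  have h3 : Nat.card (LinearMap.ker φ) = Nat.card φ.toAddMonoidHom.ker := rfl
  rw [h2, h1, h3, natAbs_det_eq_card_quotient _ hinj]
  congr 1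
  have h4 : LinearMap.range (quotMap φ) = (LinearMap.range φ).map (torsion ℤ X).mkQ := by
    unfold quotMap
    exact Submodule.range_mapQ (torsion ℤ X) (torsion ℤ X) φ (map_mem_torsion φ)
  have h5 : φ.toAddMonoidHom.range ⊔ (torsion ℤ X).toAddSubgroup =
      (torsion ℤ X ⊔ LinearMap.range φ).toAddSubgroup := by
    rw [Submodule.sup_toAddSubgroup, sup_comm]
    rfl
  rw [h4, Nat.card_congr (quotientQuotientEquivQuotientSup (torsion ℤ X) (LinearMap.range φ)).toEquiv,
    h5, AddSubgroup.index_eq_card]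
  rfl

end

end Fermat.Agent.Kummer.H92
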