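import Mathlib
import Fermat.Agent.Kummer.H92_Coker

set_option autoImplicit false

namespace Fermat.Agent.Kummer.H92

open Module Submodule Polynomial Finset

section General

variable {X : Type*} [AddCommGroup X]

/-- `mapQ` commutes with polynomial evaluation. -/
theorem aeval_mapQ_mk (S : Submodule ℤ X) (φ : X →ₗ[ℤ] X) (h : S ≤ S.comap φ) (q : ℤ[X]) (x : X) :
    aeval (S.mapQ S φ h) q (Submodule.Quotient.mk x) = Submodule.Quotient.mk (aeval φ q x) := by
  have hpow : ∀ n : ℕ, ∀ y : X, ((S.mapQ S φ h) ^ n) (Submodule.Quotient.mk y) =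
      Submodule.Quotient.mk ((φ ^ n) y) := by
    intro n
    induction n with
    | zero => intro y; simp
    | succ n ih =>
      intro y
      rw [pow_succ, pow_succ, Module.End.mul_apply, Module.End.mul_apply]
      rw [show (S.mapQ S φ h) (Submodule.Quotient.mk y) = Submodule.Quotient.mk (φ y) from rfl, ih]
  induction q using Polynomial.induction_on' with
  | add q₁ q₂ h₁ h₂ =>
    rw [map_add, map_add, LinearMap.add_apply, LinearMap.add_apply, h₁, h₂, Submodule.Quotient.mk_add]
  | monomial n a =>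
    rw [aeval_monomial, aeval_monomial]
    simp only [Algebra.algebraMap_eq_smul_one, Module.End.mul_apply, LinearMap.smul_apply,
      Module.End.one_apply]
    rw [hpow, Submodule.Quotient.mk_smul]

variable [Module.Finite ℤ X]

theorem finrank_quotient_torsion : finrank ℤ (X ⧸ torsion ℤ X) = finrank ℤ X := by
  have h := Submodule.finrank_quotient_add_finrank (torsion ℤ X)
  have h0 : finrank ℤ (torsion ℤ X) = 0 := by
    rw [Module.finrank_eq_zero_iff]
    intro x
    obtain ⟨a, ha⟩ := (mem_torsion_iff (x : X)).mp x.2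
    refine ⟨a, nonZeroDivisors.coe_ne_zero a, ?_⟩
    apply Subtype.ext
    rw [Submonoid.smul_def] at ha
    simpa using ha
  omega

theorem aeval_quotMap_mk (φ : X →ₗ[ℤ] X) (q : ℤ[X]) (x : X) :
    aeval (quotMap φ) q (Submodule.Quotient.mk x) = Submodule.Quotient.mk (aeval φ q x) :=
  aeval_mapQ_mk _ φ (map_mem_torsion φ) q x

end General

end Fermat.Agent.Kummer.H92

namespace Fermat.Agent.Kummer.H92

open Module Submodule Polynomial Finset

section SmulP

variable {X : Type*} [AddCommGroup X] [Module.Finite ℤ X]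

omit [Module.Finite ℤ X] in
theorem quotMap_smul_id (n : ℤ) :
    quotMap (n • (LinearMap.id : X →ₗ[ℤ] X)) = n • (LinearMap.id : (X ⧸ torsion ℤ X) →ₗ[ℤ] _) := by
  apply LinearMap.ext
  intro y
  induction y using Submodule.Quotient.induction_on with
  | H x => rw [quotMap_mk]; simp

/-- `|X / nX| = n ^ rank X * |X[n]|` for a finitely generated abelian group `X`, `n ≠ 0`. -/
theorem card_quotient_smul (n : ℕ) (hn : n ≠ 0) :
    Nat.card (X ⧸ LinearMap.range ((n : ℤ) • (LinearMap.id : X →ₗ[ℤ] X))) =
      n ^ finrank ℤ X * Nat.card (LinearMap.ker ((n : ℤ) • (LinearMap.id : X →ₗ[ℤ] X))) := by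
  have hinj : Function.Injective (quotMap ((n : ℤ) • (LinearMap.id : X →ₗ[ℤ] X))) := by
    rw [quotMap_smul_id]
    intro a b hab
    simp only [LinearMap.smul_apply, LinearMap.id_coe, id_eq] at hab
    exact smul_right_injective _ (by exact_mod_cast hn : (n : ℤ) ≠ 0) hab
  rw [card_quotient_range_eq _ hinj, quotMap_smul_id, LinearMap.det_smul, LinearMap.det_id,
    mul_one, finrank_quotient_torsion, Int.natAbs_pow, Int.natAbs_natCast]

end SmulP

end Fermat.Agent.Kummer.H92

namespace Fermat.Agent.Kummer.H92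

open Module Submodule Polynomial Finset

section Main

variable {M : Type*} [AddCommGroup M] [Module.Finite ℤ M] (p : ℕ) [hp : Fact p.Prime]
  (σ : M →ₗ[ℤ] M)

omit [Module.Finite ℤ M] in
theorem norm_mul_one_sub (hσ : σ ^ p = 1) : aeval σ (cyclotomic p ℤ) * (1 - σ) = 0 := by
  rw [aeval_cyclotomic_prime, geom_sum_mul_neg, hσ, sub_self]

omit [Module.Finite ℤ M] in
theorem one_sub_mul_norm (hσ : σ ^ p = 1) : (1 - σ) * aeval σ (cyclotomic p ℤ) = 0 := by
  rw [aeval_cyclotomic_prime, mul_neg_geom_sum, hσ, sub_self]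

omit [Module.Finite ℤ M] in
theorem fixed_le_comap : LinearMap.ker (1 - σ) ≤ (LinearMap.ker (1 - σ)).comap σ := by
  intro x hx
  rw [LinearMap.mem_ker, LinearMap.sub_apply, Module.End.one_apply, sub_eq_zero] at hx
  rw [mem_comap, ← hx]
  rw [LinearMap.mem_ker, LinearMap.sub_apply, Module.End.one_apply, sub_eq_zero]
  exact hx

omit [Module.Finite ℤ M] in
theorem pow_apply_fixed {x : M} (hx : x ∈ LinearMap.ker (1 - σ)) (n : ℕ) : (σ ^ n) x = x := by
  rw [LinearMap.mem_ker, LinearMap.sub_apply, Module.End.one_apply, sub_eq_zero] at hx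
  induction n with
  | zero => simp
  | succ n ih => rw [pow_succ, Module.End.mul_apply, ← hx, ih]

omit [Module.Finite ℤ M] in
theorem norm_apply_fixed {x : M} (hx : x ∈ LinearMap.ker (1 - σ)) :
    aeval σ (cyclotomic p ℤ) x = (p : ℤ) • x := by
  rw [aeval_cyclotomic_prime, LinearMap.sum_apply]
  simp only [pow_apply_fixed σ hx]
  simp

omit [Module.Finite ℤ M] in
theorem norm_mem_fixed (hσ : σ ^ p = 1) (x : M) :
    aeval σ (cyclotomic p ℤ) x ∈ LinearMap.ker (1 - σ) := by
  rw [LinearMap.mem_ker, ← Module.End.mul_apply, one_sub_mul_norm p σ hσ]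
  rfl

/-- The pure algebra core of Hilbert 92: a finitely generated abelian group `M` with an
automorphism `σ` of prime order `p` such that `rank M + 1 = p * (rank M^σ + 1)` has an element of
norm zero that is not of the form `(1 - σ) m`. -/
theorem lemmaA (hσ : σ ^ p = 1) (r : ℕ) (h0 : finrank ℤ (LinearMap.ker (1 - σ)) = r)
    (hM : finrank ℤ M + 1 = p * (r + 1)) :
    ∃ η : M, aeval σ (cyclotomic p ℤ) η = 0 ∧ η ∉ LinearMap.range (1 - σ) := by
  by_contra Hcon
  push Not at Hcon
  -- notation
  set Nm : M →ₗ[ℤ] M := aeval σ (cyclotomic p ℤ) with hNm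
  set M₀ : Submodule ℤ M := LinearMap.ker (1 - σ) with hM₀
  let Q := M ⧸ M₀
  let σq : Q →ₗ[ℤ] Q := M₀.mapQ M₀ σ (fixed_le_comap σ)
  let Dq : Q →ₗ[ℤ] Q := 1 - σq
  have hDq : ∀ m : M, Dq (Submodule.Quotient.mk m) = Submodule.Quotient.mk ((1 - σ) m) := by
    intro m; rfl
  have hp2 : 2 ≤ p := hp.out.two_le
  -- the torsion-free quotient of Q and the induced map
  let τ := quotMap σq
  have hτ : aeval τ (cyclotomic p ℤ) = 0 := by
    apply LinearMap.ext
    intro y
    induction y using Submodule.Quotient.induction_on with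
    | H y =>
      induction y using Submodule.Quotient.induction_on with
      | H m =>
        rw [aeval_quotMap_mk, aeval_mapQ_mk, LinearMap.zero_apply]
        have : (Submodule.Quotient.mk (aeval σ (cyclotomic p ℤ) m) : M ⧸ M₀) = 0 :=
          (Submodule.Quotient.mk_eq_zero _).mpr (norm_mem_fixed p σ hσ m)
        rw [this]; rfl
  obtain ⟨hdet0, hdetle⟩ := pow_finrank_le_natAbs_det_pow p τ hτ
  have hquotD : quotMap Dq = 1 - τ := by
    apply LinearMap.ext
    intro y
    induction y using Submodule.Quotient.induction_on with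
    | H y => rfl
  have hinjD : Function.Injective (quotMap Dq) := by
    rw [hquotD, ← LinearMap.ker_eq_bot]
    by_contra hne
    exact hdet0 (LinearMap.det_eq_zero_iff_ker_ne_bot.mpr hne)
  have hcardQ := card_quotient_range_eq Dq hinjD
  rw [hquotD] at hcardQ
  -- rank of Q
  have hrankQ : finrank ℤ (Q ⧸ torsion ℤ Q) = (p - 1) * (r + 1) := by
    rw [finrank_quotient_torsion]
    have h1 := Submodule.finrank_quotient_add_finrank M₀
    have h2 : finrank ℤ Q + r + 1 = p * (r + 1) := by
      show finrank ℤ (M ⧸ M₀) + r + 1 = p * (r + 1)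
      omega
    obtain ⟨k, rfl⟩ : ∃ k, p = k + 1 := ⟨p - 1, by omega⟩
    simp only [add_tsub_cancel_right]
    have : (k + 1) * (r + 1) = k * (r + 1) + (r + 1) := by ring
    omega
  have hdetge : p ^ (r + 1) ≤ (LinearMap.det (1 - τ)).natAbs := by
    rw [hrankQ, mul_comm, pow_mul] at hdetle
    exact (Nat.pow_le_pow_iff_left (by omega)).mp hdetle
  -- the multiplication by p on M₀
  let P : M₀ →ₗ[ℤ] M₀ := (p : ℤ) • LinearMap.id
  have hcardP := card_quotient_smul (X := M₀) p hp.out.ne_zero
  rw [h0] at hcardP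
  -- finiteness
  have hfinker : Finite (LinearMap.ker Dq) := by
    have hle : LinearMap.ker Dq ≤ torsion ℤ Q := by
      intro y hy
      have h1 : quotMap Dq (Submodule.Quotient.mk y) = 0 := by
        rw [quotMap_mk, LinearMap.mem_ker.mp hy]; rfl
      have h2 := hinjD (h1.trans (map_zero _).symm)
      exact (Submodule.Quotient.mk_eq_zero _).mp h2
    exact Finite.of_injective _ (Submodule.inclusion_injective hle)
  -- kernel bound
  have hker : Nat.card (LinearMap.ker P) ≤ Nat.card (LinearMap.ker Dq) := by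
    have hex : ∀ x : LinearMap.ker P, ∃ m : M, (1 - σ) m = ((x : M₀) : M) := by
      intro x
      have hx : P (x : M₀) = 0 := x.2
      have h1 : Nm ((x : M₀) : M) = 0 := by
        rw [hNm, norm_apply_fixed p σ (x : M₀).2]
        have := congrArg (Subtype.val) hx
        simpa [P] using this
      exact Hcon _ h1
    choose mf hmf using hex
    let j : LinearMap.ker P → LinearMap.ker Dq := fun x =>
      ⟨Submodule.Quotient.mk (mf x), by
        rw [LinearMap.mem_ker, hDq, hmf]
        exact (Submodule.Quotient.mk_eq_zero _).mpr (x : M₀).2⟩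
    apply Nat.card_le_card_of_injective j
    intro x y hxy
    have h1 : (Submodule.Quotient.mk (mf x) : M ⧸ M₀) = Submodule.Quotient.mk (mf y) :=
      congrArg Subtype.val hxy
    rw [Submodule.Quotient.eq] at h1
    have h2 : (1 - σ) (mf x - mf y) = 0 := h1
    rw [map_sub, hmf, hmf, sub_eq_zero] at h2
    exact Subtype.ext (Subtype.ext h2)
  -- upper bound for |Q / Dq Q|
  have hfinP : Finite (M₀ ⧸ LinearMap.range P) := by
    apply Nat.finite_of_card_ne_zero
    rw [hcardP]
    have : Finite (LinearMap.ker P) := by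
      have : Finite (torsion ℤ M₀) := inferInstance
      have hle : LinearMap.ker P ≤ torsion ℤ M₀ := by
        intro y hy
        rw [mem_torsion_iff]
        refine ⟨⟨(p : ℤ), mem_nonZeroDivisors_of_ne_zero (by exact_mod_cast hp.out.ne_zero)⟩, ?_⟩
        simpa [P] using hy
      exact Finite.of_injective _ (Submodule.inclusion_injective hle)
    exact Nat.mul_ne_zero (pow_ne_zero _ hp.out.ne_zero) Nat.card_pos.ne'
  have hupper : Nat.card (Q ⧸ LinearMap.range Dq) ≤ Nat.card (M₀ ⧸ LinearMap.range P) := by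
    let g : M →ₗ[ℤ] (M₀ ⧸ LinearMap.range P) :=
      (LinearMap.range P).mkQ ∘ₗ (Nm.codRestrict M₀ (norm_mem_fixed p σ hσ))
    let f : M →ₗ[ℤ] (Q ⧸ LinearMap.range Dq) := (LinearMap.range Dq).mkQ ∘ₗ M₀.mkQ
    have hf : Function.Surjective f :=
      (Submodule.mkQ_surjective _).comp (Submodule.mkQ_surjective _)
    have hgf : LinearMap.ker g ≤ LinearMap.ker f := by
      intro m hm
      rw [LinearMap.mem_ker] at hm ⊢
      have h1 : Nm.codRestrict M₀ (norm_mem_fixed p σ hσ) m ∈ LinearMap.range P :=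
        (Submodule.Quotient.mk_eq_zero _).mp hm
      obtain ⟨m₀, hm₀⟩ := h1
      have h2 : Nm (m₀ : M) = Nm m := by
        rw [hNm, norm_apply_fixed p σ m₀.2]
        have := congrArg Subtype.val hm₀
        simpa [P] using this
      have h3 : Nm (m - m₀) = 0 := by rw [map_sub, h2, sub_self]
      obtain ⟨m', hm'⟩ := Hcon _ h3
      have h4 : (Submodule.Quotient.mk m : Q) = Dq (Submodule.Quotient.mk m') := by
        rw [hDq, hm', Submodule.Quotient.mk_sub]
        have : (Submodule.Quotient.mk (m₀ : M) : M ⧸ M₀) = 0 :=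
          (Submodule.Quotient.mk_eq_zero _).mpr m₀.2
        rw [this, sub_zero]
      show (LinearMap.range Dq).mkQ (M₀.mkQ m) = 0
      rw [Submodule.mkQ_apply, Submodule.mkQ_apply, Submodule.Quotient.mk_eq_zero, h4]
      exact LinearMap.mem_range_self _ _
    have hinjg : Function.Injective ((LinearMap.ker g).liftQ g le_rfl) := by
      rw [← LinearMap.ker_eq_bot]
      exact Submodule.ker_liftQ_eq_bot _ _ _ le_rfl
    have hfin2 : Finite (M ⧸ LinearMap.ker g) := Finite.of_injective _ hinjg
    calc Nat.card (Q ⧸ LinearMap.range Dq)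
        = Nat.card (M ⧸ LinearMap.ker f) :=
          Nat.card_congr (f.quotKerEquivOfSurjective hf).symm.toEquiv
      _ ≤ Nat.card (M ⧸ LinearMap.ker g) :=
          Nat.card_le_card_of_surjective _ (Submodule.factor_surjective hgf)
      _ ≤ Nat.card (M₀ ⧸ LinearMap.range P) := Nat.card_le_card_of_injective _ hinjg
  -- final contradiction
  have hpos : 0 < Nat.card (LinearMap.ker Dq) := Nat.card_pos
  have hchain : p ^ (r + 1) * Nat.card (LinearMap.ker Dq) ≤ p ^ r * Nat.card (LinearMap.ker Dq) := by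
    calc p ^ (r + 1) * Nat.card (LinearMap.ker Dq)
        ≤ (LinearMap.det (1 - τ)).natAbs * Nat.card (LinearMap.ker Dq) :=
          Nat.mul_le_mul_right _ hdetge
      _ = Nat.card (Q ⧸ LinearMap.range Dq) := hcardQ.symm
      _ ≤ Nat.card (M₀ ⧸ LinearMap.range P) := hupper
      _ = p ^ r * Nat.card (LinearMap.ker P) := hcardP
      _ ≤ p ^ r * Nat.card (LinearMap.ker Dq) := Nat.mul_le_mul_left _ hker
  have h5 : p ^ (r + 1) ≤ p ^ r := Nat.le_of_mul_le_mul_right hchain hpos
  have h6 : p ^ r < p ^ (r + 1) := Nat.pow_lt_pow_right hp.out.one_lt (Nat.lt_succ_self r)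
  omega

end Main

end Fermat.Agent.Kummer.H92
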