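import Mathlib
import Fermat.Agent.Kummer.H92_LemmaA

set_option autoImplicit false
set_option linter.unusedSectionVars false

namespace Fermat.Agent.Kummer.H92

open NumberField Module Polynomial Finset

section Group

/-- In a finite group generated by `g`, a product over the group is a product over the powers
of `g`. -/
theorem prod_univ_eq_prod_range_pow {G : Type*} [Group G] [Fintype G] {A : Type*} [CommMonoid A]
    (g : G) (hg : ∀ x, x ∈ Subgroup.zpowers g) (f : G → A) :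
    ∏ x : G, f x = ∏ i ∈ range (orderOf g), f (g ^ i) := by
  classical
  symm
  apply Finset.prod_bij (fun i _ => g ^ i)
  · intro i _; exact Finset.mem_univ _
  · intro i hi j hj hij
    exact pow_injOn_Iio_orderOf (by simpa using hi) (by simpa using hj) hij
  · intro x _
    have := (mem_zpowers_iff_mem_range_orderOf (x := g) (y := x)).mp (hg x)
    obtain ⟨i, hi, rfl⟩ := Finset.mem_image.mp this
    exact ⟨i, hi, rfl⟩
  · intro i _; rfl

end Group

variable {K L : Type*} [Field K] [Field L] [NumberField K] [NumberField L] [Algebra K L]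

/-- The action of a `K`-automorphism of `L` on the units of `𝓞 L`. -/
noncomputable def sigmaUnits (σ : L ≃ₐ[K] L) : (𝓞 L)ˣ →* (𝓞 L)ˣ :=
  Units.map ((RingOfIntegers.mapRingEquiv σ.toRingEquiv : 𝓞 L ≃+* 𝓞 L) : 𝓞 L →* 𝓞 L)

@[simp]
theorem coe_sigmaUnits (σ : L ≃ₐ[K] L) (u : (𝓞 L)ˣ) :
    ((sigmaUnits σ u : 𝓞 L) : L) = σ ((u : 𝓞 L) : L) := rfl

theorem sigmaUnits_one (u : (𝓞 L)ˣ) : sigmaUnits (1 : L ≃ₐ[K] L) u = u := by
  apply Units.ext
  apply RingOfIntegers.ext
  simp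

theorem sigmaUnits_mul (σ τ : L ≃ₐ[K] L) (u : (𝓞 L)ˣ) :
    sigmaUnits (σ * τ) u = sigmaUnits σ (sigmaUnits τ u) := by
  apply Units.ext
  apply RingOfIntegers.ext
  simp

/-- The additive version of `sigmaUnits`, as a `ℤ`-linear endomorphism. -/
noncomputable def sigmaAdd (σ : L ≃ₐ[K] L) :
    Additive (𝓞 L)ˣ →ₗ[ℤ] Additive (𝓞 L)ˣ :=
  (MonoidHom.toAdditive (sigmaUnits σ)).toIntLinearMap

@[simp]
theorem sigmaAdd_apply (σ : L ≃ₐ[K] L) (u : (𝓞 L)ˣ) :
    sigmaAdd σ (Additive.ofMul u) = Additive.ofMul (sigmaUnits σ u) := rfl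

theorem sigmaAdd_pow (σ : L ≃ₐ[K] L) (n : ℕ) : sigmaAdd σ ^ n = sigmaAdd (σ ^ n) := by
  induction n with
  | zero =>
    apply LinearMap.ext
    intro x
    obtain ⟨u, rfl⟩ := Additive.ofMul.surjective x
    rw [pow_zero, pow_zero, Module.End.one_apply, sigmaAdd_apply, sigmaUnits_one]
  | succ n ih =>
    apply LinearMap.ext
    intro x
    obtain ⟨u, rfl⟩ := Additive.ofMul.surjective x
    rw [pow_succ, pow_succ, Module.End.mul_apply, ih, sigmaAdd_apply, sigmaAdd_apply,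
      sigmaAdd_apply, sigmaUnits_mul]

/-- The "norm" `∑_{i<p} σ^i` applied to a unit, multiplicatively. -/
theorem aeval_sigmaAdd_apply (p : ℕ) [Fact p.Prime] (σ : L ≃ₐ[K] L) (u : (𝓞 L)ˣ) :
    aeval (sigmaAdd σ) (cyclotomic p ℤ) (Additive.ofMul u) =
      Additive.ofMul (∏ i ∈ range p, sigmaUnits (σ ^ i) u) := by
  rw [aeval_cyclotomic_prime, LinearMap.sum_apply, ofMul_prod]
  refine Finset.sum_congr rfl fun i _ => ?_
  rw [sigmaAdd_pow, sigmaAdd_apply]

section Galois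

variable [IsGalois K L]

theorem orderOf_eq_finrank (σ : L ≃ₐ[K] L) (hσ : ∀ x, x ∈ Subgroup.zpowers σ) :
    orderOf σ = finrank K L := by
  rw [orderOf_eq_card_of_forall_mem_zpowers hσ, IsGalois.card_aut_eq_finrank]

/-- The product of the conjugates `σ^i u`, `i < [L:K]`, is the norm. -/
theorem coe_prod_sigmaUnits (σ : L ≃ₐ[K] L) (hσ : ∀ x, x ∈ Subgroup.zpowers σ) (u : (𝓞 L)ˣ) :
    (((∏ i ∈ range (finrank K L), sigmaUnits (σ ^ i) u : (𝓞 L)ˣ) : 𝓞 L) : L) =
      algebraMap K L (Algebra.norm K ((u : 𝓞 L) : L)) := by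
  classical
  rw [Algebra.norm_eq_prod_automorphisms, prod_univ_eq_prod_range_pow σ hσ,
    orderOf_eq_finrank σ hσ]
  rw [Units.coe_prod]
  exact map_prod (algebraMap (𝓞 L) L) _ _

end Galois

end Fermat.Agent.Kummer.H92
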