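import Mathlib
import Fermat.Agent.Kummer.H92_Units

set_option autoImplicit false
set_option linter.unusedSectionVars false

namespace Fermat.Agent.Kummer.H92

open NumberField Module Polynomial Finset

variable {K L : Type*} [Field K] [Field L] [NumberField K] [NumberField L] [Algebra K L]

/-- The inclusion of the units of `𝓞 K` into those of `𝓞 L`. -/
noncomputable def unitsIncl : (𝓞 K)ˣ →* (𝓞 L)ˣ :=
  Units.map (algebraMap (𝓞 K) (𝓞 L) : 𝓞 K →* 𝓞 L)

variable (K L) in
@[simp]
theorem coe_unitsIncl (v : (𝓞 K)ˣ) :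
    (((unitsIncl (L := L) v : (𝓞 L)ˣ) : 𝓞 L) : L) = algebraMap K L ((v : 𝓞 K) : K) := rfl

variable (K L) in
/-- Additive version of `unitsIncl`. -/
noncomputable def inclAdd : Additive (𝓞 K)ˣ →ₗ[ℤ] Additive (𝓞 L)ˣ :=
  (MonoidHom.toAdditive (unitsIncl (K := K) (L := L))).toIntLinearMap

variable (K L) in
theorem inclAdd_injective : Function.Injective (inclAdd K L) := by
  intro x y hxy
  obtain ⟨u, rfl⟩ := Additive.ofMul.surjective x
  obtain ⟨v, rfl⟩ := Additive.ofMul.surjective y
  have h1 : unitsIncl (L := L) u = unitsIncl (L := L) v := Additive.ofMul.injective hxy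
  have h2 := congrArg (fun w : (𝓞 L)ˣ => ((w : 𝓞 L) : L)) h1
  simp only [coe_unitsIncl] at h2
  have h3 := (algebraMap K L).injective h2
  exact congrArg Additive.ofMul (Units.ext (RingOfIntegers.ext h3))

section Galois

variable [IsGalois K L]

theorem range_inclAdd_eq_ker (σ : L ≃ₐ[K] L) (hσ : ∀ x, x ∈ Subgroup.zpowers σ) :
    LinearMap.range (inclAdd K L) = LinearMap.ker (1 - sigmaAdd σ) := by
  apply le_antisymm
  · rintro _ ⟨x, rfl⟩
    obtain ⟨v, rfl⟩ := Additive.ofMul.surjective x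
    rw [LinearMap.mem_ker, LinearMap.sub_apply, Module.End.one_apply, sub_eq_zero]
    show Additive.ofMul (unitsIncl v) = Additive.ofMul (sigmaUnits σ (unitsIncl v))
    congr 1
    apply Units.ext
    apply RingOfIntegers.ext
    simp
  · intro x hx
    obtain ⟨u, rfl⟩ := Additive.ofMul.surjective x
    rw [LinearMap.mem_ker, LinearMap.sub_apply, Module.End.one_apply, sub_eq_zero] at hx
    have hfix : σ ((u : 𝓞 L) : L) = ((u : 𝓞 L) : L) := by
      have h1 : sigmaUnits σ u = u := (Additive.ofMul.injective hx).symm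
      have h2 := congrArg (fun w : (𝓞 L)ˣ => ((w : 𝓞 L) : L)) h1
      simpa using h2
    have hall : ∀ τ : L ≃ₐ[K] L, τ ((u : 𝓞 L) : L) = ((u : 𝓞 L) : L) := by
      intro τ
      have hle : Subgroup.zpowers σ ≤ MulAction.stabilizer (L ≃ₐ[K] L) (((u : 𝓞 L) : L)) := by
        rw [Subgroup.zpowers_le]
        exact hfix
      exact hle (hσ τ)
    obtain ⟨k, hk⟩ := (IsGalois.mem_range_algebraMap_iff_fixed (F := K) (E := L) _).mpr hall
    have hkint : IsIntegral ℤ k := by
      have : IsIntegral ℤ (algebraMap K L k) := by rw [hk]; exact (u : 𝓞 L).2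
      exact (isIntegral_algHom_iff (IsScalarTower.toAlgHom ℤ K L) (algebraMap K L).injective).mp this
    have hkinv : algebraMap K L k⁻¹ = (((u⁻¹ : (𝓞 L)ˣ) : 𝓞 L) : L) := by
      rw [map_inv₀, hk]
      have h1 : ((u : 𝓞 L) : L) * (((u⁻¹ : (𝓞 L)ˣ) : 𝓞 L) : L) = 1 := by
        rw [← map_mul (algebraMap (𝓞 L) L), ← Units.val_mul, mul_inv_cancel]
        simp
      exact (eq_inv_of_mul_eq_one_right h1).symm
    have hkinvint : IsIntegral ℤ k⁻¹ := by
      have : IsIntegral ℤ (algebraMap K L k⁻¹) := by rw [hkinv]; exact ((u⁻¹ : (𝓞 L)ˣ) : 𝓞 L).2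
      exact (isIntegral_algHom_iff (IsScalarTower.toAlgHom ℤ K L) (algebraMap K L).injective).mp this
    have hk0 : k ≠ 0 := by
      rintro rfl
      rw [map_zero] at hk
      exact (u.ne_zero) (RingOfIntegers.ext (hk.symm.trans (map_zero (algebraMap (𝓞 L) L)).symm))
    let v : (𝓞 K)ˣ :=
      { val := ⟨k, hkint⟩
        inv := ⟨k⁻¹, hkinvint⟩
        val_inv := by apply RingOfIntegers.ext; show k * k⁻¹ = 1; exact mul_inv_cancel₀ hk0
        inv_val := by apply RingOfIntegers.ext; show k⁻¹ * k = 1; exact inv_mul_cancel₀ hk0 }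
    refine ⟨Additive.ofMul v, ?_⟩
    show Additive.ofMul (unitsIncl v) = Additive.ofMul u
    congr 1
    apply Units.ext
    apply RingOfIntegers.ext
    exact hk

theorem finrank_ker_eq (σ : L ≃ₐ[K] L) (hσ : ∀ x, x ∈ Subgroup.zpowers σ) :
    finrank ℤ (LinearMap.ker (1 - sigmaAdd σ)) = Units.rank K := by
  rw [← range_inclAdd_eq_ker σ hσ, LinearMap.finrank_range_of_inj (inclAdd_injective K L),
    Units.finrank_eq]

end Galois

end Fermat.Agent.Kummer.H92
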