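import Mathlib
import Fermat.Agent.Kummer.H92_Fixed

set_option autoImplicit false
set_option linter.unusedSectionVars false

namespace Fermat.Agent.Kummer.H92

open NumberField Module Polynomial Finset

variable {K L : Type*} [Field K] [Field L] [NumberField K] [NumberField L] [Algebra K L]
  [IsGalois K L]

theorem finrank_units_add_one {p : ℕ} (hp : p.Prime) (hp2 : p ≠ 2)
    (hKL : Module.finrank K L = p) :
    finrank ℤ (Additive (𝓞 L)ˣ) + 1 = p * (Units.rank K + 1) := by
  have hodd : Odd (finrank K L) := by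
    rw [hKL]; exact hp.odd_of_ne_two hp2
  have : IsUnramifiedAtInfinitePlaces K L := IsUnramifiedAtInfinitePlaces_of_odd_finrank hodd
  have hcard := IsUnramifiedAtInfinitePlaces.card_infinitePlace K L
  rw [hKL] at hcard
  rw [Units.finrank_eq, Units.rank, Units.rank, hcard]
  have hK : 0 < Fintype.card (InfinitePlace K) := Fintype.card_pos
  have hL : 0 < Fintype.card (InfinitePlace K) * p := Nat.mul_pos hK hp.pos
  rw [Nat.sub_add_cancel hL, Nat.sub_add_cancel hK, mul_comm]

/-- **Hilbert's Theorem 92** for cyclic extensions of odd prime degree: there is a unit of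
relative norm one which is not of the form `ε / σ ε`. -/
theorem hilbert92 {p : ℕ} (hp : p.Prime) (hp2 : p ≠ 2) (hKL : Module.finrank K L = p)
    (σ : L ≃ₐ[K] L) (hσ : ∀ x, x ∈ Subgroup.zpowers σ) :
    ∃ η : (𝓞 L)ˣ, Algebra.norm K ((η : 𝓞 L) : L) = 1 ∧
      ∀ ε : (𝓞 L)ˣ, ((η : 𝓞 L) : L) ≠ ((ε : 𝓞 L) : L) / σ ((ε : 𝓞 L) : L) := by
  have : Fact p.Prime := ⟨hp⟩
  have hord : orderOf σ = p := by rw [orderOf_eq_finrank σ hσ, hKL]
  have hσp : sigmaAdd σ ^ p = 1 := by
    rw [sigmaAdd_pow, ← hord, pow_orderOf_eq_one]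
    apply LinearMap.ext
    intro x
    obtain ⟨u, rfl⟩ := Additive.ofMul.surjective x
    rw [sigmaAdd_apply, sigmaUnits_one, Module.End.one_apply]
  obtain ⟨x, hx1, hx2⟩ := lemmaA p (sigmaAdd σ) hσp (Units.rank K) (finrank_ker_eq σ hσ)
    (finrank_units_add_one hp hp2 hKL)
  obtain ⟨η, rfl⟩ := Additive.ofMul.surjective x
  refine ⟨η, ?_, ?_⟩
  · rw [aeval_sigmaAdd_apply] at hx1
    have h1 : (∏ i ∈ range p, sigmaUnits (σ ^ i) η : (𝓞 L)ˣ) = 1 := Additive.ofMul.injective hx1
    have h2 := coe_prod_sigmaUnits σ hσ η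
    rw [hKL, h1] at h2
    apply (algebraMap K L).injective
    rw [← h2, map_one]
    simp
  · intro ε hε
    apply hx2
    refine ⟨Additive.ofMul ε, ?_⟩
    rw [LinearMap.sub_apply, Module.End.one_apply, sigmaAdd_apply, ← ofMul_div]
    congr 1
    apply Units.ext
    apply RingOfIntegers.ext
    rw [hε]
    have hne : σ ((ε : 𝓞 L) : L) ≠ 0 := by
      rw [ne_eq, map_eq_zero_iff σ σ.injective]
      exact fun h => ε.ne_zero (RingOfIntegers.ext (h.trans (map_zero (algebraMap (𝓞 L) L)).symm))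
    rw [eq_div_iff hne, ← coe_sigmaUnits, ← map_mul (algebraMap (𝓞 L) L), ← Units.val_mul,
      div_mul_cancel]

end Fermat.Agent.Kummer.H92
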