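import Mathlib

set_option autoImplicit false

open Polynomial

namespace Fermat.Agent.Kummer.H96

variable {R : Type*} [CommRing R]

/-- Horner-form polynomial attached to a coefficient list. -/
noncomputable def lp : List R → R[X]
  | [] => 0
  | c :: l => C c + X * lp l

@[simp] lemma lp_nil : lp ([] : List R) = 0 := rfl
@[simp] lemma lp_cons (c : R) (l : List R) : lp (c :: l) = C c + X * lp l := rfl

/-- coefficientwise addition of lists -/
def ladd : List R → List R → List R
  | [], b => b
  | a, [] => a
  | x :: a, y :: b => (x + y) :: ladd a b

lemma lp_ladd (a b : List R) : lp (ladd a b) = lp a + lp b := by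
  induction a generalizing b with
  | nil => simp [ladd]
  | cons x a ih =>
    cases b with
    | nil => simp [ladd]
    | cons y b =>
      simp only [ladd, lp_cons, ih, map_add]
      ring

/-- scalar multiplication of lists -/
def lsmul (c : R) (a : List R) : List R := a.map (c * ·)

lemma lp_lsmul (c : R) (a : List R) : lp (lsmul c a) = C c * lp a := by
  induction a with
  | nil => simp [lsmul]
  | cons x a ih =>
    simp only [lsmul, List.map_cons, lp_cons, map_mul] at ih ⊢
    rw [ih]; ring

/-- multiplication of lists (convolution) -/
def lmul : List R → List R → List R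
  | [], _ => []
  | x :: a, b => ladd (lsmul x b) (0 :: lmul a b)

lemma lp_lmul (a b : List R) : lp (lmul a b) = lp a * lp b := by
  induction a with
  | nil => simp [lmul]
  | cons x a ih =>
    simp only [lmul, lp_ladd, lp_lsmul, lp_cons, ih, map_zero]
    ring

/-- derivative of lists -/
def lderivAux : ℕ → List R → List R
  | _, [] => []
  | n, x :: a => ((n : R) * x) :: lderivAux (n + 1) a

def lderiv : List R → List R
  | [] => []
  | _ :: a => lderivAux 1 a

lemma lp_lderivAux (n : ℕ) (a : List R) :
    lp (lderivAux n a) = C (n : R) * lp a + X * derivative (lp a) := by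
  induction a generalizing n with
  | nil => simp [lderivAux]
  | cons x a ih =>
    simp only [lderivAux, lp_cons, ih, derivative_C, derivative_mul, derivative_X,
      map_mul, map_add, map_natCast, Nat.cast_add, Nat.cast_one, map_one]
    ring

lemma lp_lderiv (a : List R) : lp (lderiv a) = derivative (lp a) := by
  cases a with
  | nil => simp [lderiv]
  | cons x a =>
    simp only [lderiv, lp_lderivAux, lp_cons, derivative_add, derivative_C, derivative_mul,
      derivative_X, Nat.cast_one, map_one]
    ring

lemma coeff_lp (a : List R) (d : ℕ) : (lp a).coeff d = a.getD d 0 := by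
  induction a generalizing d with
  | nil => simp
  | cons x a ih =>
    cases d with
    | zero => simp
    | succ d => simp [ih, coeff_C_succ]

end Fermat.Agent.Kummer.H96
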