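import Mathlib
import Fermat.Agent.Kummer.H96_ListPoly

set_option autoImplicit false

open Polynomial

namespace Fermat.Agent.Kummer.H96

variable {R : Type*} [CommRing R]

/-- product of a list of coefficient lists -/
def lprod : List (List R) → List R
  | [] => [1]
  | a :: l => lmul a (lprod l)

lemma lp_lprod (l : List (List R)) : lp (lprod l) = (l.map lp).prod := by
  induction l with
  | nil => simp [lprod]
  | cons a l ih => simp [lprod, lp_lmul, ih]

lemma comp_shift_dvd {n : ℕ} {P : R[X]} (h : (X - 1 : R[X]) ^ n ∣ P) :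
    (X : R[X]) ^ n ∣ P.comp (X + 1) := by
  have := map_dvd (compRingHom (X + 1 : R[X])) h
  simpa using this

lemma derivative_comp_shift (P : R[X]) :
    (derivative P).comp (X + 1) = derivative (P.comp (X + 1)) := by
  rw [derivative_comp]
  simp

lemma prod_erase_eq_list {m : ℕ} (j : Fin m) (f : Fin m → R[X]) :
    ∏ i ∈ Finset.univ.erase j, f i = (((List.finRange m).filter (· ≠ j)).map f).prod := by
  rw [← List.prod_toFinset f ((List.nodup_finRange m).filter _)]
  congr 1
  ext i
  simp

/-- the list attached to the `j`-th summand -/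
def gl {m : ℕ} (s : Fin m → List R) (j : Fin m) : List R :=
  lmul (lderiv (s j)) (lprod (((List.finRange m).filter (· ≠ j)).map s))

lemma comp_shift_sum {m : ℕ} (c : Fin m → R) (F : Fin m → R[X]) (s : Fin m → List R)
    (hs : ∀ j, (F j).comp (X + 1) = lp (s j)) :
    (∑ j, C (c j) * derivative (F j) * ∏ i ∈ Finset.univ.erase j, F i).comp (X + 1) =
      ∑ j, C (c j) * lp (gl s j) := by
  have hcomp : ∀ P : R[X], P.comp (X + 1) = compRingHom (X + 1 : R[X]) P := fun _ => rfl
  rw [hcomp, map_sum]
  refine Finset.sum_congr rfl fun j _ => ?_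
  rw [map_mul, map_mul, prod_erase_eq_list, map_list_prod, List.map_map]
  have h1 : compRingHom (X + 1 : R[X]) (C (c j)) = C (c j) := by
    rw [← hcomp, C_comp]
  have h2 : compRingHom (X + 1 : R[X]) (derivative (F j)) = lp (lderiv (s j)) := by
    rw [← hcomp, derivative_comp_shift, hs, lp_lderiv]
  have h3 : (List.map (⇑(compRingHom (X + 1 : R[X])) ∘ F)
      ((List.finRange m).filter (· ≠ j))).prod =
      lp (lprod (((List.finRange m).filter (· ≠ j)).map s)) := by
    rw [lp_lprod, List.map_map]
    congr 1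
    apply List.map_congr_left
    intro i _
    simp only [Function.comp_apply, ← hcomp, hs]
  rw [h1, h2, h3, gl, lp_lmul, mul_assoc]

/-- Main reduction: divisibility by `(X-1)^n` gives `n` linear equations on `c`. -/
theorem linear_eqs_of_dvd {m n : ℕ} (c : Fin m → R) (F : Fin m → R[X]) (s : Fin m → List R)
    (hs : ∀ j, (F j).comp (X + 1) = lp (s j))
    (h : (X - 1 : R[X]) ^ n ∣ ∑ j, C (c j) * derivative (F j) * ∏ i ∈ Finset.univ.erase j, F i) :
    ∀ d < n, ∑ j, c j * (gl s j).getD d 0 = 0 := by
  intro d hd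
  have h1 := comp_shift_dvd h
  rw [comp_shift_sum c F s hs, X_pow_dvd_iff] at h1
  have h2 := h1 d hd
  rw [finsetSum_coeff] at h2
  simpa [coeff_C_mul, coeff_lp] using h2

end Fermat.Agent.Kummer.H96
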