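import Mathlib
import Fermat.Agent.Kummer.H96_CertGeneral

set_option autoImplicit false

open Polynomial

namespace Fermat.Agent.Kummer.H96

/-- `cycF p 0 = X` (for `zeta`), `cycF p j = 1 + X + ... + X ^ j` for `j ≥ 1`
(for the cyclotomic unit `1 + zeta + ... + zeta ^ j`), as polynomials over `ZMod p`. -/
noncomputable def cycF (p : ℕ) (j : ℕ) : (ZMod p)[X] :=
  if j = 0 then X else ∑ i ∈ Finset.range (j + 1), X ^ i

section shifts
variable {R : Type*} [CommRing R]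

lemma shift_zero : (X : R[X]).comp (X + 1) = lp [1, 1] := by
  simp [lp, add_comm]
lemma shift_1 : (∑ i ∈ Finset.range 2, (X : R[X]) ^ i).comp (X + 1) = lp [2, 1] := by
  simp [lp, Finset.sum_range_succ, C_ofNat]; ring
lemma shift_2 : (∑ i ∈ Finset.range 3, (X : R[X]) ^ i).comp (X + 1) = lp [3, 3, 1] := by
  simp [lp, Finset.sum_range_succ, C_ofNat]; ring
lemma shift_3 : (∑ i ∈ Finset.range 4, (X : R[X]) ^ i).comp (X + 1) = lp [4, 6, 4, 1] := by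
  simp [lp, Finset.sum_range_succ, C_ofNat]; ring
lemma shift_4 : (∑ i ∈ Finset.range 5, (X : R[X]) ^ i).comp (X + 1) = lp [5, 10, 10, 5, 1] := by
  simp [lp, Finset.sum_range_succ, C_ofNat]; ring
lemma shift_5 :
    (∑ i ∈ Finset.range 6, (X : R[X]) ^ i).comp (X + 1) = lp [6, 15, 20, 15, 6, 1] := by
  simp [lp, Finset.sum_range_succ, C_ofNat]; ring
end shifts

section P5

/-- coefficient lists of `cycF 5 j` in the variable `X - 1` -/
def s5 : Fin 2 → List (ZMod 5) :=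
  ![[1, 1], [2, 1]]

lemma hs5 : ∀ j : Fin 2, (cycF 5 j).comp (X + 1) = lp (s5 j) := by
  intro j
  fin_cases j
  · exact shift_zero
  · exact shift_1

/-- Taylor coefficients at `1` (orders `< 3`) of `F_j' * ∏_(i ≠ j) F_i` for `p = 5` -/
def T5 : Fin 2 → Fin 3 → ZMod 5 :=
  !![2, 1, 0;
    1, 1, 0]

set_option maxRecDepth 100000 in
lemma tbl5 : ∀ j : Fin 2, ∀ d : Fin 3, (gl s5 j).getD d 0 = T5 j d := by
  decide

theorem cert5 (c : Fin 2 → ZMod 5)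
    (h : (X - 1 : (ZMod 5)[X]) ^ 3 ∣
      ∑ j, C (c j) * derivative (cycF 5 j) * ∏ i ∈ Finset.univ.erase j, cycF 5 i) :
    c = 0 := by
  have H := linear_eqs_of_dvd c (fun j => cycF 5 j) s5 hs5 h
  have hp : (5 : ZMod 5) = 0 := by decide
  have e0 := H ((0 : Fin 3) : ℕ) (Fin.isLt _)
  have e1 := H ((1 : Fin 3) : ℕ) (Fin.isLt _)
  simp only [tbl5, T5, Fin.sum_univ_succ, Fin.sum_univ_zero] at e0 e1
  simp at e0 e1
  funext k
  fin_cases k
  · show c 0 = 0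
    linear_combination 1 * e0 + 4 * e1 -
      (1 * c 0 + 1 * c 1) * hp
  · show c 1 = 0
    linear_combination 4 * e0 + 2 * e1 -
      (2 * c 0 + 1 * c 1) * hp

end P5

section P7

/-- coefficient lists of `cycF 7 j` in the variable `X - 1` -/
def s7 : Fin 3 → List (ZMod 7) :=
  ![[1, 1], [2, 1], [3, 3, 1]]

lemma hs7 : ∀ j : Fin 3, (cycF 7 j).comp (X + 1) = lp (s7 j) := by
  intro j
  fin_cases j
  · exact shift_zero
  · exact shift_1
  · exact shift_2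

/-- Taylor coefficients at `1` (orders `< 5`) of `F_j' * ∏_(i ≠ j) F_i` for `p = 7` -/
def T7 : Fin 3 → Fin 5 → ZMod 7 :=
  !![6, 2, 5, 1, 0;
    3, 6, 4, 1, 0;
    6, 6, 2, 2, 0]

set_option maxRecDepth 100000 in
lemma tbl7 : ∀ j : Fin 3, ∀ d : Fin 5, (gl s7 j).getD d 0 = T7 j d := by
  decide

theorem cert7 (c : Fin 3 → ZMod 7)
    (h : (X - 1 : (ZMod 7)[X]) ^ 5 ∣
      ∑ j, C (c j) * derivative (cycF 7 j) * ∏ i ∈ Finset.univ.erase j, cycF 7 i) :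
    c = 0 := by
  have H := linear_eqs_of_dvd c (fun j => cycF 7 j) s7 hs7 h
  have hp : (7 : ZMod 7) = 0 := by decide
  have e0 := H ((0 : Fin 5) : ℕ) (Fin.isLt _)
  have e1 := H ((1 : Fin 5) : ℕ) (Fin.isLt _)
  have e2 := H ((3 : Fin 5) : ℕ) (Fin.isLt _)
  simp only [tbl7, T7, Fin.sum_univ_succ, Fin.sum_univ_zero] at e0 e1 e2
  simp at e0 e1 e2
  funext k
  fin_cases k
  · show c 0 = 0
    linear_combination 5 * e0 + 6 * e2 -
      (5 * c 0 + 3 * c 1 + 6 * c 2) * hp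
  · show c 1 = 0
    linear_combination 4 * e0 + 5 * e1 + 1 * e2 -
      (5 * c 0 + 6 * c 1 + 8 * c 2) * hp
  · show c 2 = 0
    linear_combination 6 * e0 + 1 * e1 + 4 * e2 -
      (6 * c 0 + 4 * c 1 + 7 * c 2) * hp

end P7

section P11

/-- coefficient lists of `cycF 11 j` in the variable `X - 1` -/
def s11 : Fin 5 → List (ZMod 11) :=
  ![[1, 1], [2, 1], [3, 3, 1], [4, 6, 4, 1], [5, 10, 10, 5, 1]]

lemma hs11 : ∀ j : Fin 5, (cycF 11 j).comp (X + 1) = lp (s11 j) := by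
  intro j
  fin_cases j
  · exact shift_zero
  · exact shift_1
  · exact shift_2
  · exact shift_3
  · exact shift_4

/-- Taylor coefficients at `1` (orders `< 9`) of `F_j' * ∏_(i ≠ j) F_i` for `p = 11` -/
def T11 : Fin 5 → Fin 9 → ZMod 11 :=
  !![10, 6, 9, 0, 0, 1, 10, 10, 2;
    5, 0, 2, 9, 1, 0, 0, 10, 1;
    10, 9, 6, 10, 5, 0, 10, 10, 1;
    4, 5, 1, 4, 10, 0, 2, 6, 3;
    9, 10, 9, 10, 0, 10, 8, 5, 5]

set_option maxRecDepth 100000 in
lemma tbl11 : ∀ j : Fin 5, ∀ d : Fin 9, (gl s11 j).getD d 0 = T11 j d := by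
  decide

theorem cert11 (c : Fin 5 → ZMod 11)
    (h : (X - 1 : (ZMod 11)[X]) ^ 9 ∣
      ∑ j, C (c j) * derivative (cycF 11 j) * ∏ i ∈ Finset.univ.erase j, cycF 11 i) :
    c = 0 := by
  have H := linear_eqs_of_dvd c (fun j => cycF 11 j) s11 hs11 h
  have hp : (11 : ZMod 11) = 0 := by decide
  have e0 := H ((0 : Fin 9) : ℕ) (Fin.isLt _)
  have e1 := H ((1 : Fin 9) : ℕ) (Fin.isLt _)
  have e2 := H ((3 : Fin 9) : ℕ) (Fin.isLt _)
  have e3 := H ((5 : Fin 9) : ℕ) (Fin.isLt _)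
  have e4 := H ((7 : Fin 9) : ℕ) (Fin.isLt _)
  simp only [tbl11, T11, Fin.sum_univ_succ, Fin.sum_univ_zero] at e0 e1 e2 e3 e4
  simp at e0 e1 e2 e3 e4
  funext k
  fin_cases k
  · show c 0 = 0
    linear_combination 5 * e1 + 10 * e2 + 6 * e3 + 2 * e4 -
      (5 * c 0 + 10 * c 1 + 15 * c 2 + 7 * c 3 + 20 * c 4) * hp
  · show c 1 = 0
    linear_combination 8 * e0 + 3 * e1 + 9 * e2 + 10 * e4 -
      (18 * c 0 + 20 * c 1 + 27 * c 2 + 13 * c 3 + 22 * c 4) * hp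
  · show c 2 = 0
    linear_combination 1 * e0 + 10 * e1 + 5 * e2 + 2 * e3 + 6 * e4 -
      (12 * c 0 + 10 * c 1 + 19 * c 2 + 10 * c 3 + 19 * c 4) * hp
  · show c 3 = 0
    linear_combination 7 * e0 + 8 * e1 + 3 * e2 + 10 * e3 + 7 * e4 -
      (18 * c 0 + 12 * c 1 + 22 * c 2 + 11 * c 3 + 28 * c 4) * hp
  · show c 4 = 0
    linear_combination 5 * e1 + 10 * e2 + 5 * e3 + 2 * e4 -
      (5 * c 0 + 10 * c 1 + 15 * c 2 + 7 * c 3 + 19 * c 4) * hp

end P11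

section P13

/-- coefficient lists of `cycF 13 j` in the variable `X - 1` -/
def s13 : Fin 6 → List (ZMod 13) :=
  ![[1, 1], [2, 1], [3, 3, 1], [4, 6, 4, 1], [5, 10, 10, 5, 1], [6, 15, 20, 15, 6, 1]]

lemma hs13 : ∀ j : Fin 6, (cycF 13 j).comp (X + 1) = lp (s13 j) := by
  intro j
  fin_cases j
  · exact shift_zero
  · exact shift_1
  · exact shift_2
  · exact shift_3
  · exact shift_4
  · exact shift_5

/-- Taylor coefficients at `1` (orders `< 11`) of `F_j' * ∏_(i ≠ j) F_i` for `p = 13` -/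
def T13 : Fin 6 → Fin 11 → ZMod 13 :=
  !![5, 5, 2, 0, 0, 0, 12, 2, 0, 8, 2;
    9, 7, 0, 1, 6, 10, 1, 0, 1, 10, 0;
    5, 4, 8, 6, 10, 1, 12, 1, 2, 7, 12;
    1, 4, 11, 7, 3, 10, 8, 6, 1, 4, 11;
    10, 7, 9, 11, 1, 11, 7, 3, 5, 1, 6;
    6, 0, 2, 1, 6, 1, 6, 4, 11, 5, 3]

set_option maxRecDepth 100000 in
lemma tbl13 : ∀ j : Fin 6, ∀ d : Fin 11, (gl s13 j).getD d 0 = T13 j d := by
  decide

theorem cert13 (c : Fin 6 → ZMod 13)
    (h : (X - 1 : (ZMod 13)[X]) ^ 11 ∣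
      ∑ j, C (c j) * derivative (cycF 13 j) * ∏ i ∈ Finset.univ.erase j, cycF 13 i) :
    c = 0 := by
  have H := linear_eqs_of_dvd c (fun j => cycF 13 j) s13 hs13 h
  have hp : (13 : ZMod 13) = 0 := by decide
  have e0 := H ((0 : Fin 11) : ℕ) (Fin.isLt _)
  have e1 := H ((1 : Fin 11) : ℕ) (Fin.isLt _)
  have e2 := H ((3 : Fin 11) : ℕ) (Fin.isLt _)
  have e3 := H ((5 : Fin 11) : ℕ) (Fin.isLt _)
  have e4 := H ((7 : Fin 11) : ℕ) (Fin.isLt _)
  have e5 := H ((9 : Fin 11) : ℕ) (Fin.isLt _)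
  simp only [tbl13, T13, Fin.sum_univ_succ, Fin.sum_univ_zero] at e0 e1 e2 e3 e4 e5
  simp at e0 e1 e2 e3 e4 e5
  funext k
  fin_cases k
  · show c 0 = 0
    linear_combination 10 * e0 + 6 * e1 + 10 * e2 + 11 * e3 + 8 * e4 + 6 * e5 -
      (11 * c 0 + 24 * c 1 + 15 * c 2 + 22 * c 3 + 31 * c 4 + 11 * c 5) * hp
  · show c 1 = 0
    linear_combination 12 * e0 + 1 * e1 + 5 * e2 + 9 * e3 + 3 * e4 + 9 * e5 -
      (11 * c 0 + 23 * c 1 + 13 * c 2 + 15 * c 3 + 23 * c 4 + 11 * c 5) * hp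
  · show c 2 = 0
    linear_combination 12 * e0 + 10 * e1 + 5 * e2 + 5 * e3 + 7 * e4 + 4 * e5 -
      (12 * c 0 + 21 * c 1 + 13 * c 2 + 15 * c 3 + 25 * c 4 + 10 * c 5) * hp
  · show c 3 = 0
    linear_combination 10 * e0 + 5 * e1 + 6 * e2 + 12 * e3 + 7 * e4 + 10 * e5 -
      (13 * c 0 + 27 * c 1 + 15 * c 2 + 21 * c 3 + 28 * c 4 + 12 * c 5) * hp
  · show c 4 = 0
    linear_combination 11 * e0 + 3 * e1 + 2 * e2 + 5 * e3 + 1 * e5 -
      (6 * c 0 + 14 * c 1 + 7 * c 2 + 7 * c 3 + 16 * c 4 + 6 * c 5) * hp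
  · show c 5 = 0
    linear_combination 11 * e0 + 1 * e1 + 6 * e2 + 4 * e3 + 10 * e4 + 3 * e5 -
      (8 * c 0 + 14 * c 1 + 10 * c 2 + 13 * c 3 + 20 * c 4 + 10 * c 5) * hp

end P13

/-- Independence certificate: for `p ∈ {5, 7, 11, 13}` the logarithmic derivatives
`F_j' / F_j` of `F_0 = X`, `F_j = 1 + X + ... + X ^ j` (`1 ≤ j ≤ (p - 3) / 2`) are
`ZMod p`-linearly independent modulo `(X - 1) ^ (p - 2)` (denominators cleared). -/
theorem cert (p : ℕ) (hp : p = 5 ∨ p = 7 ∨ p = 11 ∨ p = 13)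
    (c : Fin ((p - 1) / 2) → ZMod p)
    (h : (X - 1 : (ZMod p)[X]) ^ (p - 2) ∣
      ∑ j, C (c j) * derivative (cycF p j) * ∏ i ∈ Finset.univ.erase j, cycF p i) :
    c = 0 := by
  rcases hp with rfl | rfl | rfl | rfl
  · exact cert5 c h
  · exact cert7 c h
  · exact cert11 c h
  · exact cert13 c h

end Fermat.Agent.Kummer.H96
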