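import Mathlib
import Fermat.Agent.Kummer.H96_Cert

set_option autoImplicit false

open Polynomial

namespace Fermat.Agent.Kummer.H96

/-- Linear-independence form of the certificate, for any `ZMod p`-algebra `B` receiving
`(ZMod p)[X]` with kernel inside `((X - 1) ^ (p - 2))` (e.g. the quotient ring itself, or
`AdjoinRoot ((X - 1) ^ (p - 2))`): any family `v j` of "logarithmic derivatives"
`F_j * v_j = F_j'` is linearly independent over `ZMod p`. -/
theorem linearIndependent_of_cert (p : ℕ) (hp : p = 5 ∨ p = 7 ∨ p = 11 ∨ p = 13)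
    {B : Type*} [CommRing B] [Algebra (ZMod p) B] (π : (ZMod p)[X] →ₐ[ZMod p] B)
    (hker : ∀ P : (ZMod p)[X], π P = 0 → (X - 1 : (ZMod p)[X]) ^ (p - 2) ∣ P)
    (v : Fin ((p - 1) / 2) → B)
    (hv : ∀ j : Fin ((p - 1) / 2), π (cycF p j) * v j = π (derivative (cycF p j))) :
    LinearIndependent (ZMod p) v := by
  rw [Fintype.linearIndependent_iff]
  intro c hc
  have hzero : π (∑ j, C (c j) * derivative (cycF p j) * ∏ i ∈ Finset.univ.erase j, cycF p i)
      = 0 := by
    rw [map_sum]
    have key : ∀ j : Fin ((p - 1) / 2),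
        π (C (c j) * derivative (cycF p j) * ∏ i ∈ Finset.univ.erase j, cycF p i) =
          (∏ i : Fin ((p - 1) / 2), π (cycF p i)) * (c j • v j) := by
      intro j
      rw [map_mul, map_mul, map_prod, ← hv j,
        ← Finset.mul_prod_erase Finset.univ (fun i : Fin ((p - 1) / 2) => π (cycF p i)) (Finset.mem_univ j),
        Algebra.smul_def, ← Polynomial.algebraMap_eq, AlgHom.commutes]
      ring
    rw [Finset.sum_congr rfl fun j _ => key j, ← Finset.mul_sum, hc, mul_zero]
  have hcert := cert p hp c (hker _ hzero)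
  intro j
  rw [hcert]
  rfl

/-- The special case `B = (ZMod p)[X] ⧸ ((X - 1) ^ (p - 2))`. -/
theorem linearIndependent_quotient (p : ℕ) (hp : p = 5 ∨ p = 7 ∨ p = 11 ∨ p = 13)
    (v : Fin ((p - 1) / 2) →
      (ZMod p)[X] ⧸ Ideal.span {(X - 1 : (ZMod p)[X]) ^ (p - 2)})
    (hv : ∀ j : Fin ((p - 1) / 2),
      Ideal.Quotient.mk _ (cycF p j) * v j = Ideal.Quotient.mk _ (derivative (cycF p j))) :
    LinearIndependent (ZMod p) v := by
  refine linearIndependent_of_cert p hp
    (Ideal.Quotient.mkₐ (ZMod p) (Ideal.span {(X - 1 : (ZMod p)[X]) ^ (p - 2)})) ?_ v hv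
  intro P hP
  rw [Ideal.Quotient.mkₐ_eq_mk, Ideal.Quotient.eq_zero_iff_mem, Ideal.mem_span_singleton] at hP
  exact hP

end Fermat.Agent.Kummer.H96
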