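import Mathlib

set_option autoImplicit false
set_option linter.unusedSectionVars false

open NumberField Polynomial Finset

namespace Fermat.Agent.Kummer.K2

variable {p : ℕ} [hpri : Fact p.Prime] {K : Type} [Field K] [NumberField K]
  [IsCyclotomicExtension {p} ℚ K] {ζ : K} (hζ : IsPrimitiveRoot ζ p)

/-- `λ = ζ - 1` is prime. -/
theorem lam_prime : Prime (hζ.toInteger - 1) := hζ.zeta_sub_one_prime'

theorem lam_ne_zero : hζ.toInteger - 1 ≠ 0 := (lam_prime hζ).ne_zero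

theorem lam_pow_assoc_p : Associated ((hζ.toInteger - 1) ^ (p - 1)) (p : 𝓞 K) :=
  IsCyclotomicExtension.Rat.associated_zeta_sub_one_pow_prime p hζ

theorem p_dvd_lam_pow {n : ℕ} (hn : p - 1 ≤ n) : (p : 𝓞 K) ∣ (hζ.toInteger - 1) ^ n :=
  (lam_pow_assoc_p hζ).symm.dvd.trans (pow_dvd_pow _ hn)

theorem lam_dvd_p : hζ.toInteger - 1 ∣ (p : 𝓞 K) := by
  have h2 : 1 ≤ p - 1 := by have := hpri.out.two_le; omega
  exact (dvd_pow_self _ (by omega)).trans (lam_pow_assoc_p hζ).dvd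

theorem lam_dvd_intCast_iff {n : ℤ} : hζ.toInteger - 1 ∣ (n : 𝓞 K) ↔ (p : ℤ) ∣ n :=
  IsCyclotomicExtension.Rat.zeta_sub_one_dvd_intCast_iff' p hζ

theorem card_quot_lam : Nat.card (𝓞 K ⧸ Ideal.span {hζ.toInteger - 1}) = p := by
  rw [← Submodule.cardQuot_apply, ← Ideal.absNorm_apply]
  have hK : IsCyclotomicExtension {p ^ (0 + 1)} ℚ K := by
    simpa using ‹IsCyclotomicExtension {p} ℚ K›
  have hζ' : IsPrimitiveRoot ζ (p ^ (0 + 1)) := by simpa using hζ
  exact IsCyclotomicExtension.Rat.absNorm_span_zeta_sub_one p 0 hζ'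


theorem adjoin_toInteger_eq_top : Algebra.adjoin ℤ {hζ.toInteger} = ⊤ := by
  have := hζ.integralPowerBasis.adjoin_gen_eq_top
  rwa [hζ.integralPowerBasis_gen] at this

include hζ in
theorem not_isUnit_p : ¬ IsUnit (p : 𝓞 K) := by
  intro h
  exact (lam_prime hζ).not_isUnit (isUnit_of_dvd_unit (lam_dvd_p hζ) h)

include hζ in
/-- Every `p`-th power in `𝓞 K` is congruent to a rational integer modulo `p`. -/
theorem exists_int_pow_sub_dvd (α : 𝓞 K) : ∃ n : ℤ, (p : 𝓞 K) ∣ α ^ p - n := by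
  set I : Ideal (𝓞 K) := Ideal.span {(p : 𝓞 K)} with hI
  have hne : I ≠ ⊤ := by
    rw [hI, Ne, Ideal.span_singleton_eq_top]
    exact not_isUnit_p hζ
  have : Nontrivial (𝓞 K ⧸ I) := Ideal.Quotient.nontrivial_iff.mpr hne
  have : CharP (𝓞 K ⧸ I) p := by
    rw [CharP.charP_iff_prime_eq_zero hpri.out]
    rw [← map_natCast (Ideal.Quotient.mk I), Ideal.Quotient.eq_zero_iff_mem]
    exact Ideal.subset_span rfl
  let φ : 𝓞 K →+* 𝓞 K ⧸ I := (frobenius (𝓞 K ⧸ I) p).comp (Ideal.Quotient.mk I)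
  let S : Subring (𝓞 K) := (Int.castRingHom (𝓞 K ⧸ I)).range.comap φ
  have hζS : hζ.toInteger ∈ S := by
    refine ⟨1, ?_⟩
    simp only [φ, RingHom.comp_apply, frobenius_def, ← map_pow,
      hζ.toInteger_isPrimitiveRoot.pow_eq_one, map_one]
  have htop : (⊤ : Subalgebra ℤ (𝓞 K)) ≤ subalgebraOfSubring S := by
    rw [← adjoin_toInteger_eq_top hζ]
    exact Algebra.adjoin_le (by simpa using hζS)
  obtain ⟨n, hn⟩ : α ∈ S := htop (Algebra.mem_top)
  refine ⟨n, ?_⟩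
  rw [← Ideal.mem_span_singleton, ← Ideal.Quotient.eq_zero_iff_mem, map_sub, map_pow, map_intCast,
    sub_eq_zero]
  simpa [φ, frobenius_def] using hn.symm

end Fermat.Agent.Kummer.K2
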