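import Mathlib
import Fermat.Agent.Kummer.K2_Basic

set_option autoImplicit false
set_option linter.unusedSectionVars false

open NumberField Polynomial Finset

namespace Fermat.Agent.Kummer.K2

variable {p : ℕ} [hpri : Fact p.Prime] {K : Type} [Field K] [NumberField K]
  [IsCyclotomicExtension {p} ℚ K] {ζ : K} (hζ : IsPrimitiveRoot ζ p)

local notation "Λ" => (IsPrimitiveRoot.toInteger hζ - 1)
local notation "μp" => nthRootsFinset p (1 : 𝓞 K)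

theorem one_mem_roots : (1 : 𝓞 K) ∈ μp := by
  rw [mem_nthRootsFinset hpri.out.pos]; exact one_pow _

theorem zeta_mem_roots : hζ.toInteger ∈ μp := by
  rw [mem_nthRootsFinset hpri.out.pos]; exact hζ.toInteger_isPrimitiveRoot.pow_eq_one

theorem isUnit_of_mem_roots {η : 𝓞 K} (hη : η ∈ μp) : IsUnit η := by
  rw [mem_nthRootsFinset hpri.out.pos] at hη
  exact IsUnit.of_pow_eq_one hη hpri.out.ne_zero

include hζ in
theorem card_roots : (μp).card = p :=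
  hζ.toInteger_isPrimitiveRoot.card_nthRootsFinset

/-- `ζ - 1` divides `η₁ - η₂` for `p`-th roots of unity. -/
theorem lam_dvd_sub {η₁ η₂ : 𝓞 K} (h₁ : η₁ ∈ μp) (h₂ : η₂ ∈ μp) : Λ ∣ η₁ - η₂ :=
  hζ.toInteger_isPrimitiveRoot.sub_one_dvd_sub hpri.out h₁ h₂

theorem exists_unit_sub {η₁ η₂ : 𝓞 K} (h₁ : η₁ ∈ μp) (h₂ : η₂ ∈ μp) (hne : η₁ ≠ η₂) :
    ∃ u : (𝓞 K)ˣ, η₁ - η₂ = Λ * u := by
  obtain ⟨u, hu⟩ := hζ.toInteger_isPrimitiveRoot.nthRootsFinset_pairwise_associated_sub_one_sub_of_prime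
    hpri.out h₁ h₂ hne
  exact ⟨u, hu.symm⟩

variable {x y z : 𝓞 K} {ε : (𝓞 K)ˣ} {m : ℕ}

/-- All the factors `x + η y` are divisible by `ζ - 1`. -/
theorem lam_dvd_add_mul (hp : p ≠ 2) (hm : 1 ≤ m)
    (e : x ^ p + y ^ p = ε * (Λ ^ m * z) ^ p) {η : 𝓞 K} (hη : η ∈ μp) :
    Λ ∣ x + η * y := by
  have hodd : Odd p := hpri.out.odd_of_ne_two hp
  have h1 : Λ ∣ x ^ p + y ^ p := by
    rw [e, mul_pow, ← pow_mul]
    refine Dvd.dvd.mul_left (Dvd.dvd.mul_right (dvd_pow_self _ ?_) _) _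
    exact Nat.mul_ne_zero (by omega) hpri.out.ne_zero
  rw [hζ.toInteger_isPrimitiveRoot.pow_add_pow_eq_prod_add_mul x y hodd] at h1
  obtain ⟨η₁, hη₁, h2⟩ := (Prime.dvd_finsetProd_iff (lam_prime hζ) _).mp h1
  have h3 : Λ ∣ (η - η₁) * y := Dvd.dvd.mul_right (lam_dvd_sub hζ hη hη₁) y
  have : x + η * y = (x + η₁ * y) + (η - η₁) * y := by ring
  rw [this]
  exact dvd_add h2 h3

/-- Some factor `x + η₀ y` is divisible by `(ζ - 1)^2`. -/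
theorem exists_lam_sq_dvd (hp : p ≠ 2) (hm : 1 ≤ m) (hy : ¬ Λ ∣ y)
    (e : x ^ p + y ^ p = ε * (Λ ^ m * z) ^ p) :
    ∃ η₀ ∈ μp, Λ ^ 2 ∣ x + η₀ * y := by
  have hdiv : ∀ η : 𝓞 K, ∃ c : 𝓞 K, η ∈ μp → x + η * y = Λ * c := by
    intro η
    by_cases hη : η ∈ μp
    · obtain ⟨c, hc⟩ := lam_dvd_add_mul hζ hp hm e hη
      exact ⟨c, fun _ => hc⟩
    · exact ⟨0, fun h => absurd h hη⟩
  choose c hc using hdiv
  let f : {η // η ∈ μp} → 𝓞 K ⧸ Ideal.span {Λ} := fun η => Ideal.Quotient.mk _ (c η.1)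
  have hinj : Function.Injective f := by
    rintro ⟨η₁, h₁⟩ ⟨η₂, h₂⟩ h
    by_contra hne
    have hne' : η₁ ≠ η₂ := fun h' => hne (Subtype.ext h')
    obtain ⟨u, hu⟩ := exists_unit_sub hζ h₁ h₂ hne'
    simp only [f] at h
    rw [Ideal.Quotient.eq, Ideal.mem_span_singleton] at h
    obtain ⟨d, hd⟩ := h
    have h3 : Λ * (c η₁ - c η₂) = Λ * (u * y) := by
      rw [mul_sub, ← hc η₁ h₁, ← hc η₂ h₂, ← mul_assoc, ← hu]; ring
    have h4 := mul_left_cancel₀ (lam_ne_zero hζ) h3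
    apply hy
    rw [hd] at h4
    have : y = Λ * (↑u⁻¹ * d) := by
      calc y = ↑u⁻¹ * (↑u * y) := by rw [← mul_assoc, Units.inv_mul, one_mul]
        _ = _ := by rw [← h4]; ring
    exact ⟨_, this⟩
  have : Finite (𝓞 K ⧸ Ideal.span {Λ}) :=
    hζ.finite_quotient_toInteger_sub_one hpri.out.one_lt
  have hbij : Function.Bijective f := by
    apply hinj.bijective_of_nat_card_le
    rw [card_quot_lam hζ, Nat.card_eq_fintype_card, Fintype.card_coe, card_roots hζ]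
  obtain ⟨⟨η₀, h₀⟩, h⟩ := hbij.2 0
  refine ⟨η₀, h₀, ?_⟩
  simp only [f] at h
  rw [Ideal.Quotient.eq_zero_iff_mem, Ideal.mem_span_singleton] at h
  obtain ⟨d, hd⟩ := h
  rw [hc η₀ h₀, hd, pow_two, ← mul_assoc]
  exact dvd_mul_right _ _

section Core

variable {c : 𝓞 K → 𝓞 K}

/-- Differences of the cofactors. -/
theorem cofactor_sub (hc : ∀ η ∈ μp, x + η * y = Λ * c η) {η₁ η₂ : 𝓞 K}
    (h₁ : η₁ ∈ μp) (h₂ : η₂ ∈ μp) {u : (𝓞 K)ˣ} (hu : η₁ - η₂ = Λ * u) :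
    c η₁ - c η₂ = u * y ∧ η₁ * c η₂ - η₂ * c η₁ = u * x := by
  constructor
  · apply mul_left_cancel₀ (lam_ne_zero hζ)
    rw [mul_sub, ← hc η₁ h₁, ← hc η₂ h₂, ← mul_assoc, ← hu]; ring
  · apply mul_left_cancel₀ (lam_ne_zero hζ)
    rw [mul_sub, mul_left_comm, ← hc η₂ h₂, mul_left_comm, ← hc η₁ h₁, ← mul_assoc, ← hu]; ring

theorem cofactor_isCoprime (hc : ∀ η ∈ μp, x + η * y = Λ * c η) (hxy : IsCoprime x y)
    {η₁ η₂ : 𝓞 K} (h₁ : η₁ ∈ μp) (h₂ : η₂ ∈ μp) (hne : η₁ ≠ η₂) :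
    IsCoprime (c η₁) (c η₂) := by
  obtain ⟨u, hu⟩ := exists_unit_sub hζ h₁ h₂ hne
  obtain ⟨h3, h4⟩ := cofactor_sub hζ hc h₁ h₂ hu
  obtain ⟨a, b, hab⟩ := hxy
  refine ⟨↑u⁻¹ * (b - a * η₂), ↑u⁻¹ * (a * η₁ - b), ?_⟩
  have : ↑u⁻¹ * (b - a * η₂) * c η₁ + ↑u⁻¹ * (a * η₁ - b) * c η₂
      = ↑u⁻¹ * (a * (η₁ * c η₂ - η₂ * c η₁) + b * (c η₁ - c η₂)) := by ring
  rw [this, h3, h4]
  have : (↑u⁻¹ : 𝓞 K) * (a * (↑u * x) + b * (↑u * y)) = (↑u⁻¹ * ↑u) * (a * x + b * y) := by ring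
  rw [this, hab, Units.inv_mul, one_mul]

include hζ in
theorem cofactor_prod (hp : p ≠ 2) (hm : 1 ≤ m) (hc : ∀ η ∈ μp, x + η * y = Λ * c η)
    (e : x ^ p + y ^ p = ε * (Λ ^ m * z) ^ p) :
    ∏ η ∈ μp, c η = ε * (Λ ^ (m - 1) * z) ^ p := by
  have hodd : Odd p := hpri.out.odd_of_ne_two hp
  have h1 : ∏ η ∈ μp, (x + η * y) = Λ ^ p * ∏ η ∈ μp, c η := by
    rw [Finset.prod_congr rfl hc, Finset.prod_mul_distrib, Finset.prod_const, card_roots hζ]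
  rw [← hζ.toInteger_isPrimitiveRoot.pow_add_pow_eq_prod_add_mul x y hodd, e] at h1
  apply mul_left_cancel₀ (pow_ne_zero p (lam_ne_zero hζ))
  rw [← h1]
  obtain ⟨k, rfl⟩ : ∃ k, m = k + 1 := ⟨m - 1, by omega⟩
  simp only [Nat.add_sub_cancel]
  have : ∀ L : 𝓞 K, (ε : 𝓞 K) * (L ^ (k + 1) * z) ^ p = L ^ p * (ε * (L ^ k * z) ^ p) := by
    intro L; ring
  rw [this]

end Core

/-- If a product of pairwise coprime elements is associated to a `k`-th power, so is each factor. -/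
theorem exists_associated_pow_of_prod {R ι : Type*} [CommRing R] [IsDomain R]
    [IsPrincipalIdealRing R] {s : Finset ι} {f : ι → R} {d : R} {k : ℕ}
    (hcop : ∀ i ∈ s, ∀ j ∈ s, i ≠ j → IsCoprime (f i) (f j))
    (hprod : Associated (d ^ k) (∏ i ∈ s, f i)) {i : ι} (hi : i ∈ s) :
    ∃ a : R, Associated (a ^ k) (f i) := by
  classical
  rw [← Finset.mul_prod_erase s f hi] at hprod
  refine exists_associated_pow_of_associated_pow_mul ?_ hprod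
  exact IsCoprime.prod_right fun j hj =>
    hcop i hi j (Finset.mem_of_mem_erase hj) (Finset.ne_of_mem_erase hj).symm

/-- A unit `ε₁` with `p ∣ a₁ ^ p + ε₁ a₂ ^ p` and `λ ∤ a₂` is congruent to an integer mod `p`. -/
theorem exists_int_dvd_unit_sub (ε₁ : (𝓞 K)ˣ) (a1 a2 : 𝓞 K) (ha2 : ¬ Λ ∣ a2)
    (h : (p : 𝓞 K) ∣ a1 ^ p + ε₁ * a2 ^ p) : ∃ n : ℤ, (p : 𝓞 K) ∣ (ε₁ : 𝓞 K) - n := by
  obtain ⟨r, s, hrs⟩ := IsCyclotomicExtension.Rat.isCoprime_of_not_zeta_sub_one_dvd p hζ ha2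
  obtain ⟨n, hn⟩ := exists_int_pow_sub_dvd hζ (s * a1)
  refine ⟨-n, ?_⟩
  have h1 : (p : 𝓞 K) ∣ 1 - (s * a2) ^ p := by
    have h2 : (1 : 𝓞 K) - s * a2 ∣ 1 ^ p - (s * a2) ^ p := sub_dvd_pow_sub_pow 1 (s * a2) p
    rw [one_pow] at h2
    refine dvd_trans ?_ h2
    exact ⟨r, by rw [← hrs]; ring⟩
  have hid : (ε₁ : 𝓞 K) - ((-n : ℤ) : 𝓞 K)
      = ε₁ * (1 - (s * a2) ^ p) + s ^ p * (a1 ^ p + ε₁ * a2 ^ p) - ((s * a1) ^ p - n) := by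
    push_cast; ring
  rw [hid]
  exact dvd_sub (dvd_add (Dvd.dvd.mul_left h1 _) (Dvd.dvd.mul_left h _)) hn

variable [IsPrincipalIdealRing (𝓞 K)]

/-- The main descent step, under the normalisation `λ² ∣ x + y`. -/
theorem descent_core (hp : p ≠ 2)
    (hkummer : ∀ u : (𝓞 K)ˣ, (∃ n : ℤ, (p : 𝓞 K) ∣ (u : 𝓞 K) - n) → ∃ v : (𝓞 K)ˣ, u = v ^ p)
    (hm : 1 ≤ m) (hxy : IsCoprime x y) (hy : ¬ Λ ∣ y) (hz : ¬ Λ ∣ z) (h2 : Λ ^ 2 ∣ x + y)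
    (e : x ^ p + y ^ p = ε * (Λ ^ m * z) ^ p) :
    2 ≤ m ∧ ∃ (x' y' z' : 𝓞 K) (ε' : (𝓞 K)ˣ), IsCoprime x' y' ∧ ¬ Λ ∣ y' ∧ ¬ Λ ∣ z' ∧
      x' ^ p + y' ^ p = ε' * (Λ ^ (m - 1) * z') ^ p := by
  classical
  have hp0 : p ≠ 0 := hpri.out.ne_zero
  have hdiv : ∀ η : 𝓞 K, ∃ c : 𝓞 K, η ∈ μp → x + η * y = Λ * c := by
    intro η
    by_cases hη : η ∈ μp
    · obtain ⟨c, hc⟩ := lam_dvd_add_mul hζ hp hm e hη
      exact ⟨c, fun _ => hc⟩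
    · exact ⟨0, fun h => absurd h hη⟩
  choose c hc using hdiv
  have hprod := cofactor_prod hζ hp hm hc e
  have hcop : ∀ η₁ ∈ μp, ∀ η₂ ∈ μp, η₁ ≠ η₂ → IsCoprime (c η₁) (c η₂) :=
    fun η₁ h₁ η₂ h₂ hne => cofactor_isCoprime hζ hc hxy h₁ h₂ hne
  have h1mem : (1 : 𝓞 K) ∈ μp := one_mem_roots
  -- `λ ∣ c 1`
  have hc1 : Λ ∣ c 1 := by
    have h := hc 1 h1mem
    rw [one_mul] at h
    rw [h, pow_two] at h2
    exact (mul_dvd_mul_iff_left (lam_ne_zero hζ)).mp h2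
  -- for `η ≠ 1`, `λ ∤ c η`
  have hcη : ∀ η ∈ μp, η ≠ 1 → ¬ Λ ∣ c η := by
    intro η hη hne hdvd
    obtain ⟨u, hu⟩ := exists_unit_sub hζ hη h1mem hne
    have h3 := (cofactor_sub hζ hc hη h1mem hu).1
    have h4 : Λ ∣ (u : 𝓞 K) * y := by rw [← h3]; exact dvd_sub hdvd hc1
    exact hy ((Units.dvd_mul_left).mp h4)
  -- split the product
  set P := ∏ η ∈ (μp).erase 1, c η with hP
  have hsplit : c 1 * P = ε * (Λ ^ (m - 1) * z) ^ p := by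
    rw [hP, Finset.mul_prod_erase _ _ h1mem, hprod]
  have hPndvd : ¬ Λ ∣ P := by
    intro h
    obtain ⟨η, hη, hd⟩ := (Prime.dvd_finsetProd_iff (lam_prime hζ) _).mp h
    exact hcη η (Finset.mem_of_mem_erase hη) (Finset.ne_of_mem_erase hη) hd
  have hpow : Λ ^ ((m - 1) * p) ∣ c 1 := by
    apply (lam_prime hζ).pow_dvd_of_dvd_mul_right _ hPndvd
    rw [hsplit, mul_pow, ← pow_mul]
    exact Dvd.dvd.mul_left (dvd_mul_right _ _) _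
  obtain ⟨c0, hc0⟩ := hpow
  have hc0P : c0 * P = ε * z ^ p := by
    apply mul_left_cancel₀ (pow_ne_zero ((m - 1) * p) (lam_ne_zero hζ))
    rw [← mul_assoc, ← hc0, hsplit, mul_pow, ← pow_mul]; ring
  have hc0ndvd : ¬ Λ ∣ c0 := by
    intro h
    have h3 : Λ ∣ (ε : 𝓞 K) * z ^ p := by rw [← hc0P]; exact Dvd.dvd.mul_right h _
    rw [Units.dvd_mul_left] at h3
    exact hz ((lam_prime hζ).dvd_of_dvd_pow h3)
  have hm2 : 2 ≤ m := by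
    by_contra hlt
    have hm1 : m = 1 := by omega
    subst hm1
    simp only [Nat.sub_self, zero_mul, pow_zero, one_mul] at hc0
    exact hc0ndvd (hc0 ▸ hc1)
  refine ⟨hm2, ?_⟩
  -- `c0` is associated to a `p`-th power
  have hcop0 : IsCoprime c0 P := by
    have h3 : IsCoprime (c 1) P := IsCoprime.prod_right fun η hη =>
      hcop 1 h1mem η (Finset.mem_of_mem_erase hη) (Finset.ne_of_mem_erase hη).symm
    rw [hc0] at h3
    exact h3.of_mul_left_right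
  obtain ⟨a0, ha0⟩ : ∃ a0, Associated (a0 ^ p) c0 := by
    refine exists_associated_pow_of_associated_pow_mul hcop0 (c := z) ?_
    rw [hc0P]
    exact (associated_unit_mul_left _ _ ε.isUnit).symm
  have ha0ndvd : ¬ Λ ∣ a0 := fun h => hc0ndvd (ha0.dvd_iff_dvd_right.mp (dvd_pow h hp0))
  -- the roots `ζ` and `ζ⁻¹`
  set η₁ : 𝓞 K := hζ.toInteger with hη₁
  set η₂ : 𝓞 K := hζ.toInteger ^ (p - 1) with hη₂
  have hη₁mem : η₁ ∈ μp := zeta_mem_roots hζ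
  have hη₁₂ : η₁ * η₂ = 1 := by
    rw [hη₂, ← pow_succ', Nat.sub_add_cancel hpri.out.one_le]
    exact hζ.toInteger_isPrimitiveRoot.pow_eq_one
  have hη₂mem : η₂ ∈ μp := by
    rw [mem_nthRootsFinset hpri.out.pos, hη₂, ← pow_mul, mul_comm, pow_mul,
      hζ.toInteger_isPrimitiveRoot.pow_eq_one, one_pow]
  have hη₁ne : η₁ ≠ 1 := hζ.toInteger_isPrimitiveRoot.ne_one hpri.out.one_lt
  have hη₂ne : η₂ ≠ 1 := by
    intro h
    rw [h, mul_one] at hη₁₂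
    exact hη₁ne hη₁₂
  have hη₁η₂ : η₁ ≠ η₂ := by
    intro h
    have h3 : η₁ ^ 2 = 1 := by
      rw [pow_two]
      nth_rewrite 2 [h]
      exact hη₁₂
    have h4 := hζ.toInteger_isPrimitiveRoot.dvd_of_pow_eq_one 2 h3
    have h5 := Nat.le_of_dvd (by norm_num) h4
    have h6 := hpri.out.two_le
    omega
  have hassoc : Associated ((Λ ^ (m - 1) * z) ^ p) (∏ η ∈ μp, c η) := by
    rw [hprod]
    exact (associated_unit_mul_left _ _ ε.isUnit).symm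
  obtain ⟨a1, ha1⟩ := exists_associated_pow_of_prod hcop hassoc hη₁mem
  obtain ⟨a2, ha2⟩ := exists_associated_pow_of_prod hcop hassoc hη₂mem
  have ha2ndvd : ¬ Λ ∣ a2 := fun h =>
    hcη η₂ hη₂mem hη₂ne (ha2.dvd_iff_dvd_right.mp (dvd_pow h hp0))
  have hcop12 : IsCoprime a1 a2 := by
    have h3 := hcop η₁ hη₁mem η₂ hη₂mem hη₁η₂
    have h4 : IsCoprime (a1 ^ p) (a2 ^ p) :=
      (h3.of_isCoprime_of_dvd_left ha1.dvd).of_isCoprime_of_dvd_right ha2.dvd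
    exact (IsCoprime.pow_iff hpri.out.pos hpri.out.pos).mp h4
  obtain ⟨u0, hu0⟩ := ha0
  obtain ⟨u1, hu1⟩ := ha1
  obtain ⟨u2, hu2⟩ := ha2
  -- the key relation
  have hrel : c η₁ + η₁ * c η₂ = (1 + η₁) * c 1 := by
    apply mul_left_cancel₀ (lam_ne_zero hζ)
    have e1 := hc η₁ hη₁mem
    have e2 := hc η₂ hη₂mem
    have e0 := hc 1 h1mem
    rw [mul_add, ← e1, mul_left_comm, ← e2, mul_left_comm, ← e0]
    have h3 : η₁ * (x + η₂ * y) = η₁ * x + (η₁ * η₂) * y := by ring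
    rw [h3, hη₁₂]; ring
  have hunit : IsUnit (1 + η₁) := by
    have h3 := hζ.toInteger_isPrimitiveRoot.geom_sum_isUnit hpri.out.two_le (j := 2)
      ((Nat.coprime_primes Nat.prime_two hpri.out).mpr (Ne.symm hp))
    simpa [Finset.sum_range_succ] using h3
  obtain ⟨w, hw⟩ := hunit
  obtain ⟨ηu, hηu⟩ := isUnit_of_mem_roots hη₁mem
  set ε₁ : (𝓞 K)ˣ := ηu * u2 * u1⁻¹ with hε₁
  set ε₂ : (𝓞 K)ˣ := w * u0 * u1⁻¹ with hε₂
  have hnew : a1 ^ p + ε₁ * a2 ^ p = ε₂ * (Λ ^ (m - 1) * a0) ^ p := by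
    rw [← Units.mul_left_inj u1]
    have hinv : (↑u1⁻¹ : 𝓞 K) * u1 = 1 := Units.inv_mul u1
    rw [← hu1, ← hu2, hc0, ← hu0, ← hw] at hrel
    simp only [hε₁, hε₂, Units.val_mul, hηu]
    linear_combination hrel + (η₁ * u2 * a2 ^ p
      - (w : 𝓞 K) * u0 * ((η₁ - 1) ^ (m - 1) * a0) ^ p) * hinv
  have hpdvd : (p : 𝓞 K) ∣ a1 ^ p + ε₁ * a2 ^ p := by
    rw [hnew, mul_pow, ← pow_mul]
    refine Dvd.dvd.mul_left (Dvd.dvd.mul_right (p_dvd_lam_pow hζ ?_) _) _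
    calc p - 1 ≤ p := Nat.sub_le _ _
      _ = 1 * p := (one_mul p).symm
      _ ≤ (m - 1) * p := Nat.mul_le_mul_right p (by omega)
  obtain ⟨n, hn⟩ := exists_int_dvd_unit_sub hζ ε₁ a1 a2 ha2ndvd hpdvd
  obtain ⟨v, hv⟩ := hkummer ε₁ ⟨n, hn⟩
  refine ⟨a1, v * a2, a0, ε₂, ?_, ?_, ha0ndvd, ?_⟩
  · exact (isCoprime_mul_unit_left_right v.isUnit a1 a2).mpr hcop12
  · rw [Units.dvd_mul_left]; exact ha2ndvd
  · rw [mul_pow, ← Units.val_pow_eq_pow_val, ← hv]; exact hnew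

end Fermat.Agent.Kummer.K2
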