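import Mathlib
import Fermat.Agent.Kummer.K2_Descent

set_option autoImplicit false
set_option linter.unusedSectionVars false

open NumberField Polynomial Finset

namespace Fermat.Agent.Kummer.K2

variable {p : ℕ} [hpri : Fact p.Prime] {K : Type} [Field K] [NumberField K]
  [IsCyclotomicExtension {p} ℚ K] {ζ : K} (hζ : IsPrimitiveRoot ζ p)
  [IsPrincipalIdealRing (𝓞 K)]

local notation "Λ" => (IsPrimitiveRoot.toInteger hζ - 1)
local notation "μp" => nthRootsFinset p (1 : 𝓞 K)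

variable {x y z : 𝓞 K} {ε : (𝓞 K)ˣ} {m : ℕ}

/-- Descent step without the normalisation. -/
theorem descent_step (hp : p ≠ 2)
    (hkummer : ∀ u : (𝓞 K)ˣ, (∃ n : ℤ, (p : 𝓞 K) ∣ (u : 𝓞 K) - n) → ∃ v : (𝓞 K)ˣ, u = v ^ p)
    (hm : 1 ≤ m) (hxy : IsCoprime x y) (hy : ¬ Λ ∣ y) (hz : ¬ Λ ∣ z)
    (e : x ^ p + y ^ p = ε * (Λ ^ m * z) ^ p) :
    2 ≤ m ∧ ∃ (x' y' z' : 𝓞 K) (ε' : (𝓞 K)ˣ), IsCoprime x' y' ∧ ¬ Λ ∣ y' ∧ ¬ Λ ∣ z' ∧
      x' ^ p + y' ^ p = ε' * (Λ ^ (m - 1) * z') ^ p := by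
  obtain ⟨η₀, h₀, h2⟩ := exists_lam_sq_dvd hζ hp hm hy e
  have hu : IsUnit η₀ := isUnit_of_mem_roots h₀
  have hpow : η₀ ^ p = 1 := (mem_nthRootsFinset hpri.out.pos _).mp h₀
  refine descent_core hζ hp hkummer hm (x := x) (y := η₀ * y) (z := z) (ε := ε) ?_ ?_ hz h2 ?_
  · exact (isCoprime_mul_unit_left_right hu x y).mpr hxy
  · rw [hu.dvd_mul_left]; exact hy
  · rw [mul_pow, hpow, one_mul]; exact e

/-- There is no solution of the generalised Fermat equation in `𝓞 K`. -/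
theorem not_exists_solution (hp : p ≠ 2)
    (hkummer : ∀ u : (𝓞 K)ˣ, (∃ n : ℤ, (p : 𝓞 K) ∣ (u : 𝓞 K) - n) → ∃ v : (𝓞 K)ˣ, u = v ^ p) :
    ∀ m : ℕ, 1 ≤ m → ¬ ∃ (x y z : 𝓞 K) (ε : (𝓞 K)ˣ), IsCoprime x y ∧ ¬ Λ ∣ y ∧ ¬ Λ ∣ z ∧
      x ^ p + y ^ p = ε * (Λ ^ m * z) ^ p := by
  intro m hm
  induction m, hm using Nat.le_induction with
  | base =>
    rintro ⟨x, y, z, ε, hxy, hy, hz, e⟩
    have := (descent_step hζ hp hkummer le_rfl hxy hy hz e).1
    omega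
  | succ m hm ih =>
    rintro ⟨x, y, z, ε, hxy, hy, hz, e⟩
    obtain ⟨-, x', y', z', ε', h⟩ := descent_step hζ hp hkummer (by omega) hxy hy hz e
    exact ih ⟨x', y', z', ε', by simpa using h⟩

include hζ in
/-- Case II for coprime `a`, `b` with `p ∣ c`. -/
theorem caseII_aux (hp : p ≠ 2)
    (hkummer : ∀ u : (𝓞 K)ˣ, (∃ n : ℤ, (p : 𝓞 K) ∣ (u : 𝓞 K) - n) → ∃ v : (𝓞 K)ˣ, u = v ^ p)
    {a b c : ℤ} (hab : IsCoprime a b) (hc : c ≠ 0) (hpc : (p : ℤ) ∣ c)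
    (e : a ^ p + b ^ p = c ^ p) : False := by
  have hpZ : Prime (p : ℤ) := Nat.prime_iff_prime_int.mp hpri.out
  have hp0 : p ≠ 0 := hpri.out.ne_zero
  -- `p ∤ b`
  have hpb : ¬ (p : ℤ) ∣ b := by
    intro hb
    have ha : (p : ℤ) ∣ a := by
      have h1 : (p : ℤ) ∣ a ^ p := by
        have h2 : a ^ p = c ^ p - b ^ p := by linarith
        rw [h2]
        exact dvd_sub (dvd_pow hpc hp0) (dvd_pow hb hp0)
      exact hpZ.dvd_of_dvd_pow h1
    exact hpZ.not_isUnit (hab.isUnit_of_dvd' ha hb)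
  obtain ⟨k, c', hck, hc'⟩ : ∃ (k : ℕ) (c' : ℤ), c = (p : ℤ) ^ k * c' ∧ ¬ (p : ℤ) ∣ c' := by
    have hfin : FiniteMultiplicity (p : ℤ) c :=
      Int.finiteMultiplicity_iff.mpr ⟨by simpa using hpri.out.ne_one, hc⟩
    obtain ⟨c', h1, h2⟩ := hfin.exists_eq_pow_mul_and_not_dvd
    exact ⟨_, c', h1, h2⟩
  have hk : 1 ≤ k := by
    by_contra hlt
    have hk0 : k = 0 := by omega
    subst hk0
    rw [pow_zero, one_mul] at hck
    exact hc' (hck ▸ hpc)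
  obtain ⟨u, hu⟩ := lam_pow_assoc_p hζ
  have h1 : 1 ≤ (p - 1) * k := by
    have := hpri.out.two_le
    exact Nat.one_le_iff_ne_zero.mpr (Nat.mul_ne_zero (by omega) (by omega))
  refine not_exists_solution hζ hp hkummer ((p - 1) * k) h1
    ⟨(a : 𝓞 K), (b : 𝓞 K), (c' : 𝓞 K), u ^ (k * p), ?_, ?_, ?_, ?_⟩
  · exact (hab.map (Int.castRingHom (𝓞 K)))
  · rw [lam_dvd_intCast_iff hζ]; exact hpb
  · rw [lam_dvd_intCast_iff hζ]; exact hc'
  · have e' : (a : 𝓞 K) ^ p + (b : 𝓞 K) ^ p = (c : 𝓞 K) ^ p := by exact_mod_cast congrArg (Int.cast : ℤ → 𝓞 K) e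
    rw [e', hck]
    push_cast
    have hu' : (p : 𝓞 K) = Λ ^ (p - 1) * u := hu.symm
    rw [hu']
    have : ∀ (L U C : 𝓞 K),
        ((L ^ (p - 1) * U) ^ k * C) ^ p = U ^ (k * p) * (L ^ ((p - 1) * k) * C) ^ p := by
      intro L U C
      ring
    rw [this]

/-- Pairwise coprimality of a primitive solution. -/
theorem pairwise_coprime_of_gcd {a b c : ℤ} {n : ℕ} (hn : n ≠ 0) (hprod : a * b * c ≠ 0)
    (hgcd : ({a, b, c} : Finset ℤ).gcd id = 1) (e : a ^ n + b ^ n = c ^ n) :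
    IsCoprime a b ∧ IsCoprime a c ∧ IsCoprime b c := by
  have ha : a ≠ 0 := fun h => hprod (by simp [h])
  have hb : b ≠ 0 := fun h => hprod (by simp [h])
  have key : ∀ q : ℤ, Prime q → q ∣ a → q ∣ b → q ∣ c → False := by
    intro q hq h1 h2 h3
    have : q ∣ ({a, b, c} : Finset ℤ).gcd id := by
      apply Finset.dvd_gcd
      intro x hx
      simp only [Finset.mem_insert, Finset.mem_singleton] at hx
      rcases hx with rfl | rfl | rfl <;> simpa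
    rw [hgcd] at this
    exact hq.not_isUnit (isUnit_of_dvd_one this)
  refine ⟨?_, ?_, ?_⟩
  · refine isCoprime_of_prime_dvd (fun h => ha h.1) fun q hq h1 h2 => ?_
    refine key q hq h1 h2 (hq.dvd_of_dvd_pow (n := n) ?_)
    rw [← e]
    exact dvd_add (dvd_pow h1 hn) (dvd_pow h2 hn)
  · refine isCoprime_of_prime_dvd (fun h => ha h.1) fun q hq h1 h3 => ?_
    refine key q hq h1 (hq.dvd_of_dvd_pow (n := n) ?_) h3
    have : b ^ n = c ^ n - a ^ n := by linarith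
    rw [this]
    exact dvd_sub (dvd_pow h3 hn) (dvd_pow h1 hn)
  · refine isCoprime_of_prime_dvd (fun h => hb h.1) fun q hq h2 h3 => ?_
    refine key q hq (hq.dvd_of_dvd_pow (n := n) ?_) h2 h3
    have : a ^ n = c ^ n - b ^ n := by linarith
    rw [this]
    exact dvd_sub (dvd_pow h3 hn) (dvd_pow h2 hn)

omit hζ in
/-- **Case II** of Fermat's Last Theorem for an odd prime `p` such that `ℤ[ζ_p]` is a PID,
assuming Kummer's lemma. -/
theorem caseII (hodd : p ≠ 2)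
    (hkummer : ∀ u : (𝓞 K)ˣ, (∃ n : ℤ, (p : 𝓞 K) ∣ (u : 𝓞 K) - n) → ∃ v : (𝓞 K)ˣ, u = v ^ p)
    {a b c : ℤ} (hprod : a * b * c ≠ 0) (hgcd : ({a, b, c} : Finset ℤ).gcd id = 1)
    (hdvd : (p : ℤ) ∣ a * b * c) : a ^ p + b ^ p ≠ c ^ p := by
  intro e
  have hζ := IsCyclotomicExtension.zeta_spec p ℚ K
  have hpZ : Prime (p : ℤ) := Nat.prime_iff_prime_int.mp hpri.out
  have hoddp : Odd p := hpri.out.odd_of_ne_two hodd
  have ha : a ≠ 0 := fun h => hprod (by simp [h])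
  have hb : b ≠ 0 := fun h => hprod (by simp [h])
  have hc : c ≠ 0 := fun h => hprod (by simp [h])
  obtain ⟨hab, hac, hbc⟩ := pairwise_coprime_of_gcd hpri.out.ne_zero hprod hgcd e
  rcases hpZ.dvd_or_dvd hdvd with h | h
  · rcases hpZ.dvd_or_dvd h with h | h
    · -- `p ∣ a`
      refine caseII_aux hζ hodd hkummer (a := c) (b := -b) (c := a) hbc.symm.neg_right ha h ?_
      rw [hoddp.neg_pow]; linarith
    · -- `p ∣ b`
      refine caseII_aux hζ hodd hkummer (a := c) (b := -a) (c := b) hac.symm.neg_right hb h ?_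
      rw [hoddp.neg_pow]; linarith
  · exact caseII_aux hζ hodd hkummer hab hc h e

end Fermat.Agent.Kummer.K2
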