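import Mathlib.NumberTheory.NumberField.Units.DirichletTheorem
import Mathlib.NumberTheory.NumberField.Cyclotomic.Embeddings
import Mathlib.LinearAlgebra.Dimension.Constructions
import Mathlib.LinearAlgebra.FiniteDimensional.Lemmas

set_option autoImplicit false
set_option linter.unusedSectionVars false
set_option linter.style.haveILetI false

open NumberField NumberField.Units NumberField.InfinitePlace

namespace Fermat.Agent.Kummer

section Cyclo

variable {K : Type} [Field K] [NumberField K] {p : ℕ} [hpri : Fact p.Prime]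
  [IsCyclotomicExtension {p} ℚ K]

theorem rank_cyclotomic_prime (hp : p ≠ 2) : rank K + 1 = (p - 1) / 2 := by
  have h2 : 2 < p := lt_of_le_of_ne hpri.out.two_le (Ne.symm hp)
  have h1 : Fintype.card (InfinitePlace K) = (p - 1) / 2 := by
    rw [card_eq_nrRealPlaces_add_nrComplexPlaces,
      IsCyclotomicExtension.Rat.nrRealPlaces_eq_zero K h2,
      IsCyclotomicExtension.Rat.nrComplexPlaces_eq_totient_div_two p K,
      Nat.totient_prime hpri.out, zero_add]
  have h3 : 0 < Fintype.card (InfinitePlace K) := Fintype.card_pos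
  rw [rank, ← h1]
  omega

section Main

variable {V : Type} [AddCommGroup V] (ψ : (𝓞 K)ˣ →* Multiplicative V)

private def phi (x : (𝓞 K)ˣ) : V := Multiplicative.toAdd (ψ x)

private theorem phi_mul (x y : (𝓞 K)ˣ) : phi ψ (x * y) = phi ψ x + phi ψ y := by
  simp [phi]

private theorem phi_zpow (x : (𝓞 K)ˣ) (n : ℤ) : phi ψ (x ^ n) = n • phi ψ x := by
  simp [phi]

private theorem phi_prod {ι : Type} (t : Finset ι) (f : ι → (𝓞 K)ˣ) :
    phi ψ (∏ i ∈ t, f i) = ∑ i ∈ t, phi ψ (f i) := by
  simp [phi]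

variable [Module (ZMod p) V]

/-- the vectors attached to a generator of the torsion and to the fundamental system -/
private noncomputable def wvec (g₀ : (𝓞 K)ˣ) : Option (Fin (rank K)) → V
  | none => phi ψ g₀
  | some i => phi ψ (fundSystem K i)

private theorem phi_eq_sum (g₀ : (𝓞 K)ˣ) (k : ℤ) (e : Fin (rank K) → ℤ) :
    phi ψ (g₀ ^ k * ∏ i, fundSystem K i ^ e i) =
      ∑ o : Option (Fin (rank K)),
        ((Option.elim o k e : ℤ) : ZMod p) • wvec ψ g₀ o := by
  rw [phi_mul, phi_zpow, phi_prod, Fintype.sum_option]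
  simp only [Option.elim_none, Option.elim_some, wvec, Int.cast_smul_eq_zsmul, phi_zpow]

theorem eq_pow_of_logDeriv (hp : p ≠ 2)
    (s : Fin ((p - 1) / 2) → (𝓞 K)ˣ)
    (hs : LinearIndependent (ZMod p) (fun j => Multiplicative.toAdd (ψ (s j))))
    (u : (𝓞 K)ˣ) (hu : ψ u = 1) : ∃ v : (𝓞 K)ˣ, u = v ^ p := by
  classical
  obtain ⟨g, hg⟩ := IsCyclic.exists_generator (α := torsion K)
  set g₀ : (𝓞 K)ˣ := (g : (𝓞 K)ˣ) with hg₀
  -- every unit is `g₀ ^ k * ∏ fundSystem ^ e`
  have hrepr : ∀ x : (𝓞 K)ˣ, ∃ (k : ℤ) (e : Fin (rank K) → ℤ),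
      x = g₀ ^ k * ∏ i, fundSystem K i ^ e i := by
    intro x
    obtain ⟨⟨ζ, e⟩, hx, -⟩ := exist_unique_eq_mul_prod K x
    obtain ⟨k, hk⟩ := Subgroup.mem_zpowers_iff.mp (hg ζ)
    refine ⟨k, e, ?_⟩
    rw [hx, ← hk]
    simp [hg₀]
  -- every `phi x` lies in the span of `wvec`
  have hmem : ∀ x : (𝓞 K)ˣ, phi ψ x ∈ Submodule.span (ZMod p) (Set.range (wvec ψ g₀)) := by
    intro x
    obtain ⟨k, e, rfl⟩ := hrepr x
    rw [phi_eq_sum (p := p)]
    exact Submodule.sum_mem _ fun o _ =>
      Submodule.smul_mem _ _ (Submodule.subset_span ⟨o, rfl⟩)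
  -- hence `wvec` is linearly independent
  have hle : Submodule.span (ZMod p) (Set.range fun j => Multiplicative.toAdd (ψ (s j))) ≤
      Submodule.span (ZMod p) (Set.range (wvec ψ g₀)) := by
    rw [Submodule.span_le]
    rintro _ ⟨j, rfl⟩
    exact hmem (s j)
  have hcard : Fintype.card (Option (Fin (rank K))) = Fintype.card (Fin ((p - 1) / 2)) := by
    rw [Fintype.card_option, Fintype.card_fin, Fintype.card_fin, rank_cyclotomic_prime hp]
  have hw : LinearIndependent (ZMod p) (wvec ψ g₀) := by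
    rw [linearIndependent_iff_card_eq_finrank_span]
    refine le_antisymm ?_ (finrank_range_le_card _)
    rw [hcard, linearIndependent_iff_card_eq_finrank_span.mp hs]
    haveI : Module.Finite (ZMod p) (Submodule.span (ZMod p) (Set.range (wvec ψ g₀))) :=
      Module.Finite.span_of_finite _ (Set.finite_range _)
    exact Submodule.finrank_mono hle
  -- apply to `u`
  obtain ⟨k, e, hu'⟩ := hrepr u
  have h0 : phi ψ u = 0 := by simp [phi, hu]
  rw [hu', phi_eq_sum (p := p)] at h0
  have hcoef := Fintype.linearIndependent_iff.mp hw _ h0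
  have hk : (p : ℤ) ∣ k := by
    have := hcoef none
    simpa [ZMod.intCast_zmod_eq_zero_iff_dvd] using this
  have he : ∀ i, (p : ℤ) ∣ e i := by
    intro i
    have := hcoef (some i)
    simpa [ZMod.intCast_zmod_eq_zero_iff_dvd] using this
  obtain ⟨k', rfl⟩ := hk
  choose e' he' using he
  refine ⟨g₀ ^ k' * ∏ i, fundSystem K i ^ e' i, ?_⟩
  rw [hu', mul_pow, ← Finset.prod_pow]
  congr 1
  · rw [← zpow_natCast, ← zpow_mul, mul_comm]
  · refine Finset.prod_congr rfl fun i _ => ?_
    rw [← zpow_natCast, ← zpow_mul, he' i, mul_comm]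

end Main

end Cyclo

end Fermat.Agent.Kummer
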